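import Fermat.Agent.Lib.S16.Defs
import Fermat.Agent.S23

/-!
# Project S16: final assembly from `UBCore`, `LBCore`, `DualityStatement` (owner: lead)
-/

set_option autoImplicit false

noncomputable section

namespace Fermat.Agent.Lib.S16

open ModularCurve CuspForm UpperHalfPlane CongruenceSubgroup ModularFormClass
open scoped MatrixGroups ModularForm

section Abstract

variable {R A : Type*} [CommRing R] [CommRing A]

/-- Abstract bookkeeping: `A / φ(ker ev)` is `ZMod m` for the `m ≥ 0` generating the kernel of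
`ℤ → A / φ(ker ev)`. -/
theorem lead_exists_equiv_zmod (φ : R →+* A) (hφ : Function.Surjective φ) (ev : R →+* ℤ) :
    ∃ (m : ℕ) (e : (A ⧸ Ideal.map φ (RingHom.ker ev)) ≃+* ZMod m),
      (∀ r : R, e (Ideal.Quotient.mk _ (φ r)) = ((ev r : ℤ) : ZMod m)) ∧
      (∀ z : ℤ, ((z : ZMod m) = 0 ↔ ((z : A) ∈ Ideal.map φ (RingHom.ker ev)))) := by
  set J := Ideal.map φ (RingHom.ker ev) with hJ
  let ψ : ℤ →+* A ⧸ J := Int.castRingHom _
  have hmk : ∀ r : R, Ideal.Quotient.mk J (φ r) = ψ (ev r) := by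
    intro r
    have h1 : r - algebraMap ℤ R (ev r) ∈ RingHom.ker ev := by
      rw [RingHom.mem_ker, map_sub]
      have : ev (algebraMap ℤ R (ev r)) = ev r := by
        have := RingHom.congr_fun (RingHom.ext_int (ev.comp (algebraMap ℤ R)) (RingHom.id ℤ)) (ev r)
        simpa using this
      rw [this, sub_self]
    have h2 : φ (r - algebraMap ℤ R (ev r)) ∈ J := Ideal.mem_map_of_mem φ h1
    have h3 : φ (algebraMap ℤ R (ev r)) = ((ev r : ℤ) : A) := by
      have := RingHom.congr_fun (RingHom.ext_int (φ.comp (algebraMap ℤ R)) (Int.castRingHom A)) (ev r)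
      simpa using this
    rw [map_sub, h3] at h2
    have h4 := (Ideal.Quotient.eq (I := J)).mpr h2
    rw [h4]
    simp [ψ]
  have hψ : Function.Surjective ψ := by
    intro x
    obtain ⟨a, rfl⟩ := Ideal.Quotient.mk_surjective x
    obtain ⟨r, rfl⟩ := hφ a
    exact ⟨ev r, (hmk r).symm⟩
  obtain ⟨m, hm⟩ : ∃ m : ℕ, RingHom.ker ψ = Ideal.span {(m : ℤ)} := by
    obtain ⟨g, hg⟩ := (IsPrincipalIdealRing.principal (RingHom.ker ψ)).principal
    refine ⟨g.natAbs, ?_⟩
    rw [hg]
    exact (Int.span_natAbs g).symm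
  let e1 : (ℤ ⧸ RingHom.ker ψ) ≃+* (A ⧸ J) := RingHom.quotientKerEquivOfSurjective hψ
  let e2 : (ℤ ⧸ RingHom.ker ψ) ≃+* (ℤ ⧸ Ideal.span {(m : ℤ)}) := Ideal.quotEquivOfEq hm
  let e3 : (ℤ ⧸ Ideal.span {(m : ℤ)}) ≃+* ZMod m := Int.quotientSpanNatEquivZMod m
  let e : (A ⧸ J) ≃+* ZMod m := e1.symm.trans (e2.trans e3)
  have heψ : ∀ z : ℤ, e (ψ z) = (z : ZMod m) := by
    intro z
    have := RingHom.congr_fun (RingHom.ext_int ((e : (A ⧸ J) →+* ZMod m).comp ψ)
      (Int.castRingHom (ZMod m))) z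
    simpa using this
  refine ⟨m, e, ?_, ?_⟩
  · intro r
    rw [hmk r, heψ]
  · intro z
    rw [← heψ z]
    constructor
    · intro h
      have h0 : ψ z = 0 := by
        have := congrArg e.symm h
        simpa using this
      have : (Ideal.Quotient.mk J) (z : A) = 0 := by
        simpa [ψ] using h0
      exact Ideal.Quotient.eq_zero_iff_mem.mp this
    · intro h
      have : ψ z = 0 := by
        have h' := Ideal.Quotient.eq_zero_iff_mem.mpr h
        simpa [ψ] using h'
      rw [this, map_zero]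

end Abstract

end Fermat.Agent.Lib.S16

namespace Fermat.Agent.Lib.S16

open ModularCurve CuspForm UpperHalfPlane CongruenceSubgroup ModularFormClass
open scoped MatrixGroups ModularForm

section Main

variable (p : ℕ) [NeZero p]

theorem lead_heckeEvalForms_surjective : Function.Surjective (heckeEvalForms p 2) := by
  rintro ⟨t, ht⟩
  suffices h : ∃ P : HeckeAlg, ((heckeEvalForms p 2 P : heckeAlgebra p 2 ∅) :
      Module.End ℂ (CuspForm (Gamma0 p) 2)) = t by
    obtain ⟨P, hP⟩ := h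
    exact ⟨P, Subtype.ext hP⟩
  induction ht using Algebra.adjoin_induction with
  | mem x hx =>
    rcases hx with ⟨ℓ, hℓ, hℓN, -, rfl⟩ | ⟨q, hqN, hq, -, rfl⟩
    · refine ⟨heckeGen ⟨ℓ, hℓ⟩, ?_⟩
      rw [heckeEvalForms_heckeGen_of_not_dvd (N := p) (k := 2) (ℓ := ⟨ℓ, hℓ⟩) hℓN]
      rfl
    · refine ⟨heckeGen ⟨q, hq⟩, ?_⟩
      rw [heckeEvalForms_heckeGen_of_dvd (N := p) (k := 2) (q := ⟨q, hq⟩) hqN]
      rfl
  | algebraMap r =>
    refine ⟨MvPolynomial.C r, ?_⟩
    rw [heckeEvalForms_C]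
    rfl
  | add x y _ _ hx hy =>
    obtain ⟨P, hP⟩ := hx
    obtain ⟨Q, hQ⟩ := hy
    refine ⟨P + Q, ?_⟩
    rw [map_add, ← hP, ← hQ]
    rfl
  | mul x y _ _ hx hy =>
    obtain ⟨P, hP⟩ := hx
    obtain ⟨Q, hQ⟩ := hy
    refine ⟨P * Q, ?_⟩
    rw [map_mul, ← hP, ← hQ]
    rfl

theorem lead_eisensteinNumerator_pos {q : ℕ} (hq : 2 ≤ q) : 0 < eisensteinNumerator q := by
  unfold eisensteinNumerator
  apply Nat.div_pos
  · exact Nat.le_of_dvd (by omega) (Nat.gcd_dvd_left _ _)
  · exact Nat.gcd_pos_of_pos_left _ (by omega)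

/-- **S16 from the three cores.** -/
theorem lead_s16_of_cores (hp : 2 ≤ p) (hint : HasIntegralStructure p 2)
    (hUB : UBCore p) (hLB : LBCore p) (hD : DualityStatement p) :
    Nat.card (↥(heckeLatticeAlgebra p ∅) ⧸
        Ideal.map ((latticeRestrictHom p ∅).toRingHom.comp (heckeEvalForms p 2))
          (eisensteinIdeal p)) = eisensteinNumerator p := by
  set n := eisensteinNumerator p with hn
  have hnpos : 0 < n := lead_eisensteinNumerator_pos hp
  set φ : HeckeAlg →+* ↥(heckeLatticeAlgebra p ∅) :=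
    (latticeRestrictHom p ∅).toRingHom.comp (heckeEvalForms p 2) with hφdef
  have hφ : Function.Surjective φ :=
    (latticeRestrictHom_surjective p ∅).comp (lead_heckeEvalForms_surjective p)
  let ev : HeckeAlg →+* ℤ := (MvPolynomial.aeval (R := ℤ) (eisensteinSystem p)).toRingHom
  have hker : eisensteinIdeal p = RingHom.ker ev := rfl
  obtain ⟨m, e, he, hz⟩ := lead_exists_equiv_zmod φ hφ ev
  rw [hker]
  have hinj : Function.Injective (latticeRestrictHom p ∅) :=
    (latticeRestrictHom_bijective p ∅ hint).1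
  -- the Eisenstein character modulo `m`
  let χ : heckeAlgebra p 2 ∅ →+* ZMod m :=
    (e.toRingHom).comp ((Ideal.Quotient.mk (Ideal.map φ (RingHom.ker ev))).comp
      (latticeRestrictHom p ∅).toRingHom)
  have hχ : ∀ ℓ : Nat.Primes, χ (heckeFormsGen p 2 ℓ) = ((eisensteinSystem p ℓ : ℤ) : ZMod m) := by
    intro ℓ
    have h1 := he (heckeGen ℓ)
    have h2 : ev (heckeGen ℓ) = eisensteinSystem p ℓ := by
      show MvPolynomial.aeval (R := ℤ) (eisensteinSystem p) (heckeGen ℓ) = _
      exact aeval_heckeGen _ ℓ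
    rw [h2] at h1
    rw [← h1]
    simp only [χ, hφdef, RingHom.comp_apply, heckeEvalForms_heckeGen]
    rfl
  obtain ⟨f, hf⟩ := hD m χ hχ
  -- `m ≠ 0`
  have hm0 : m ≠ 0 := by
    rintro rfl
    have hk := hUB f (n + 1) (Nat.succ_pos n) (by
      intro j hj
      obtain ⟨a, ha, hac⟩ := hf j hj
      refine ⟨a, ha, ?_⟩
      have : a = (sigmaPrime p j : ℤ) := by
        have h' : (Int.cast a : ZMod 0) = (Int.cast ((sigmaPrime p j : ℕ) : ℤ) : ZMod 0) := by
          rw [hac, Int.cast_natCast]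
        have h'' := (ZMod.intCast_eq_intCast_iff a _ 0).mp h'
        exact Int.modEq_zero_iff.mp (by simpa using h'')
      rw [this]; push_cast; rfl)
    have := Nat.le_of_dvd hnpos hk
    omega
  have hmn : m ∣ n := hUB f m (Nat.pos_of_ne_zero hm0) hf
  -- lower bound
  obtain ⟨c, hc⟩ := hLB
  have hcev : (c.comp (heckeEvalForms p 2)) = (Int.castRingHom (ZMod n)).comp ev := by
    apply MvPolynomial.ringHom_ext
    · intro z
      simp [ev]
    · intro ℓ
      have := hc ℓ
      simp only [RingHom.comp_apply]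
      rw [show (MvPolynomial.X ℓ : HeckeAlg) = heckeGen ℓ from rfl, heckeEvalForms_heckeGen, this]
      have h2 : ev (heckeGen ℓ) = eisensteinSystem p ℓ := by
        show MvPolynomial.aeval (R := ℤ) (eisensteinSystem p) (heckeGen ℓ) = _
        exact aeval_heckeGen _ ℓ
      rw [h2]
      rfl
  have hnm : n ∣ m := by
    have hmJ : ((m : ℤ) : ↥(heckeLatticeAlgebra p ∅)) ∈ Ideal.map φ (RingHom.ker ev) := by
      rw [← hz]; simp
    rw [Ideal.mem_map_iff_of_surjective φ hφ] at hmJ
    obtain ⟨r, hr, hrm⟩ := hmJ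
    have h0 : φ (r - MvPolynomial.C (m : ℤ)) = 0 := by
      rw [map_sub, hrm]
      have : φ (MvPolynomial.C (m : ℤ)) = ((m : ℤ) : ↥(heckeLatticeAlgebra p ∅)) := by
        have := RingHom.congr_fun (RingHom.ext_int (φ.comp MvPolynomial.C)
          (Int.castRingHom _)) (m : ℤ)
        simpa using this
      rw [this, sub_self]
    have h1 : heckeEvalForms p 2 (r - MvPolynomial.C (m : ℤ)) = 0 := by
      apply hinj
      rw [map_zero]
      exact h0
    have h2 := RingHom.congr_fun hcev (r - MvPolynomial.C (m : ℤ))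
    simp only [RingHom.comp_apply] at h2
    rw [h1, map_zero, map_sub, (RingHom.mem_ker).mp hr] at h2
    have h3 : ev (MvPolynomial.C (m : ℤ)) = (m : ℤ) := by simp [ev]
    rw [h3] at h2
    have h4 : ((m : ℕ) : ZMod n) = 0 := by
      have : ((0 : ℤ) - (m : ℤ) : ℤ) = -(m : ℤ) := by ring
      rw [this] at h2
      simpa using h2.symm
    exact (ZMod.natCast_eq_zero_iff m n).mp h4
  have hmeq : m = n := Nat.dvd_antisymm hmn hnm
  rw [Nat.card_congr e.toEquiv, Nat.card_zmod, hmeq]

end Main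

end Fermat.Agent.Lib.S16
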