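import Mathlib
import Fermat.Statements.S16
import Fermat.Prelude.Def_ModularCurve_PeriodMapBundled
import Fermat.Prelude.Def_ModularCurve_PeriodHomPair

/-!
# Project S16 (Mazur: `|T/I| = (p-1)/gcd(p-1,12)`): contracts

See `S16_BLUEPRINT.md` at the repository root.  Owner: lead.
All contracts are `Prop`-valued definitions; the pieces prove them, `Assembly` glues them.
-/

set_option autoImplicit false

noncomputable section

namespace Fermat.Agent.Lib.S16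

open ModularCurve CuspForm UpperHalfPlane CongruenceSubgroup ModularFormClass
open scoped MatrixGroups ModularForm

/-- `σ^{(N)}(j)`: the sum of the divisors of `j` that are not divisible by `N`. -/
def sigmaPrime (N j : ℕ) : ℕ := ∑ d ∈ j.divisors with ¬ N ∣ d, d

/-- `σ_3(j)`. -/
def sigmaThree (j : ℕ) : ℕ := ∑ d ∈ j.divisors, d ^ 3

/-- **UB-core**: an integral cusp form congruent to `δ = ∑ σ'(j) q^j` modulo `k` forces `k ∣ n`. -/
def UBCore (p : ℕ) : Prop :=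
  ∀ (f : CuspForm (Gamma0 p) 2) (k : ℕ), 0 < k →
    (∀ j : ℕ, 1 ≤ j → ∃ a : ℤ, qCoeff f j = (a : ℂ) ∧ (a : ZMod k) = (sigmaPrime p j : ZMod k)) →
    k ∣ eisensteinNumerator p

/-- **LB-core**: the Eisenstein character exists modulo `n` on the Hecke algebra. -/
def LBCore (p : ℕ) [NeZero p] : Prop :=
  ∃ c : heckeAlgebra p 2 ∅ →+* ZMod (eisensteinNumerator p),
    ∀ ℓ : Nat.Primes, c (heckeFormsGen p 2 ℓ) = ((eisensteinSystem p ℓ : ℤ) : ZMod (eisensteinNumerator p))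

/-- **Duality output** (blueprint §0): a ring homomorphism `𝕋 → ZMod m` with Eisenstein values is
realised by an integral cusp form `≡ δ mod m`. -/
def DualityStatement (p : ℕ) [NeZero p] : Prop :=
  ∀ (m : ℕ) (χ : heckeAlgebra p 2 ∅ →+* ZMod m),
    (∀ ℓ : Nat.Primes, χ (heckeFormsGen p 2 ℓ) = ((eisensteinSystem p ℓ : ℤ) : ZMod m)) →
    ∃ f : CuspForm (Gamma0 p) 2,
      ∀ j : ℕ, 1 ≤ j → ∃ a : ℤ, qCoeff f j = (a : ℂ) ∧ (a : ZMod m) = (sigmaPrime p j : ZMod m)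

/-- **Eisenstein series of prime level** `N` and weight `2`, with its conjugates. -/
def EisLevel (N : ℕ) : Prop :=
  ∃ E : ModularForm (Gamma0 N) 2,
    qCoeff E 0 = ((N : ℂ) - 1) / 24 ∧ (∀ j : ℕ, 1 ≤ j → qCoeff E j = (sigmaPrime N j : ℂ)) ∧
    ∀ γ : SL(2, ℤ), γ ∉ Gamma0 N → ∃ j : ℕ, j < N ∧ ∀ z : ℍ,
      ((E : ℍ → ℂ) ∣[(2 : ℤ)] γ) z =
        -(N : ℂ)⁻¹ * E (ModularForm.heckeMatrix N j • z)

/-- **Trace theory at prime level `p`** (blueprint 1.1). -/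
def TraceId (p : ℕ) : Prop :=
  ∀ G : ModularForm (Gamma0 p) 2, ∃ G' : ModularForm (Gamma0 p) 2,
    (∀ j : ℕ, qCoeff G' j = qCoeff G (p * j)) ∧
    (∀ j : ℕ, qCoeff G j = qCoeff G' (p * j)) ∧
    (∀ n : ℕ, (p : ℂ) * (qExpansion 1 G ^ 2).coeff n + (qExpansion 1 G' ^ 2).coeff (p * n)
        = ((p : ℂ) + 1) * qCoeff G 0 ^ 2 * (if n = 0 then 1 else 240 * (sigmaThree n : ℂ))) ∧
    ∀ γ : SL(2, ℤ), γ ∉ Gamma0 p → ∃ j : ℕ, j < p ∧ ∀ z : ℍ,
      ((G : ℍ → ℂ) ∣[(2 : ℤ)] γ) z =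
        -(p : ℂ)⁻¹ * G' (ModularForm.heckeMatrix p j • z)

/-- **No congruence to a unit constant**: there is no weight-2 form on `Γ₀(p)` with integral
`q`-expansion, constant term prime to `ℓ` and all higher coefficients divisible by `ℓ^s`. -/
def NoConst (p ℓ s : ℕ) : Prop :=
  ¬ ∃ (G : ModularForm (Gamma0 p) 2) (a : ℕ → ℤ),
    (∀ j, qCoeff G j = (a j : ℂ)) ∧ ¬ (ℓ : ℤ) ∣ a 0 ∧ ∀ j : ℕ, 1 ≤ j → (ℓ : ℤ) ^ s ∣ a j

/-- The table of `NoConst` instances needed for UB-core (`p ≥ 7` prime). -/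
def NoConstTable (p : ℕ) : Prop :=
  (∀ ℓ : ℕ, ℓ.Prime → 5 ≤ ℓ → NoConst p ℓ 1) ∧
  (p % 3 = 1 → NoConst p 3 1) ∧ (p % 3 = 2 → NoConst p 3 2) ∧
  (p % 4 = 1 → NoConst p 2 2) ∧ (p % 4 = 3 → NoConst p 2 3)

/-- **Level-one Sturm bound modulo a ring homomorphism.** -/
def SturmOne : Prop :=
  ∀ (R : Subring ℂ) (𝔽 : Type) [Field 𝔽] (φ : R →+* 𝔽) (k : ℕ)
    (Φ : ModularForm 𝒮ℒ (k : ℤ)) (c : ℕ → R), (∀ j, qCoeff Φ j = (c j : ℂ)) →
    (∀ j : ℕ, 12 * j ≤ k → φ (c j) = 0) → ∀ j, φ (c j) = 0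

/-- **Cyclotomic coefficient ring**: a subring of `ℂ` containing `1/h` and `e^{2πi/h}` with a
homomorphism to a field of characteristic `ℓ` (`ℓ ∤ h`). -/
def CoeffRing : Prop :=
  ∀ (ℓ h : ℕ), ℓ.Prime → 0 < h → ¬ ℓ ∣ h →
    ∃ (R : Subring ℂ) (𝔽 : Type) (_ : Field 𝔽) (φ : R →+* 𝔽),
      ((h : ℂ)⁻¹ ∈ R) ∧ (Complex.exp (2 * Real.pi * Complex.I / h) ∈ R) ∧ φ (ℓ : R) = 0

/-- **Period side of Route S** (blueprint S-i + S-ii): an element of `Γ₀(p)` all of whose cusp form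
periods vanish is killed by every character to `ZMod n` that kills the elements of trace `±2` and
the elements of finite order. -/
def TorsionFree (p : ℕ) : Prop :=
  ∀ γ : Gamma0 p, (∀ f : CuspForm (Gamma0 p) 2, periodMap p f (Additive.ofMul γ) = 0) →
    ∀ (n : ℕ) (ψ : Additive (Gamma0 p) →+ ZMod n),
      (∀ δ : Gamma0 p, ((δ : SL(2, ℤ)) : Matrix (Fin 2) (Fin 2) ℤ).trace ^ 2 = 4 →
        ψ (Additive.ofMul δ) = 0) →
      (∀ δ : Gamma0 p, IsOfFinOrder δ → ψ (Additive.ofMul δ) = 0) →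
      ψ (Additive.ofMul γ) = 0

end Fermat.Agent.Lib.S16
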