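import Mathlib

open scoped MatrixGroups ModularForm
open Matrix.SpecialLinearGroup ModularGroup CongruenceSubgroup UpperHalfPlane

namespace Fermat.Agent.Lib.S16

/-- The matrix of `S * T^j`. -/
theorem h1t_coe_ST (j : ℤ) : ((S * T ^ j : SL(2, ℤ)) : Matrix (Fin 2) (Fin 2) ℤ) = !![0, -1; 1, j] := by
  rw [Matrix.SpecialLinearGroup.coe_mul, coe_S, coe_T_zpow]
  ext a b; fin_cases a <;> fin_cases b <;> simp [Matrix.mul_apply, Fin.sum_univ_two]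

theorem h1t_coe_ST_inv (j : ℤ) :
    (((S * T ^ j)⁻¹ : SL(2, ℤ)) : Matrix (Fin 2) (Fin 2) ℤ) = !![j, 1; -1, 0] := by
  rw [Matrix.SpecialLinearGroup.coe_inv, h1t_coe_ST, Matrix.adjugate_fin_two_of]
  simp

/-- (C3) -/
theorem h1t_ST_not_mem {p : ℕ} (hp : p.Prime) (j : ℤ) : (S * T ^ j : SL(2, ℤ)) ∉ Gamma0 p := by
  have := Fact.mk hp
  rw [Gamma0_mem]
  have : ((S * T ^ j : SL(2, ℤ)) 1 0 : ℤ) = 1 := by
    have := congrFun (congrFun (h1t_coe_ST j) 1) 0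
    simpa using this
  rw [this]
  simp

/-- (C1) -/
theorem h1t_exists_rep {p : ℕ} (hp : p.Prime) (γ : SL(2, ℤ)) (hγ : γ ∉ Gamma0 p) :
    ∃ j : ℕ, j < p ∧ γ * (S * T ^ (j : ℤ))⁻¹ ∈ Gamma0 p := by
  have := Fact.mk hp
  rw [Gamma0_mem] at hγ
  set c : ZMod p := ((γ 1 0 : ℤ) : ZMod p) with hc
  set d : ZMod p := ((γ 1 1 : ℤ) : ZMod p) with hd
  refine ⟨(d * c⁻¹).val, ZMod.val_lt _, ?_⟩
  rw [Gamma0_mem]
  have hentry : ((γ * (S * T ^ (((d * c⁻¹).val : ℕ) : ℤ))⁻¹ : SL(2, ℤ)) 1 0 : ℤ)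
      = γ 1 0 * ((d * c⁻¹).val : ℤ) - γ 1 1 := by
    have h1 : ((γ * (S * T ^ (((d * c⁻¹).val : ℕ) : ℤ))⁻¹ : SL(2, ℤ)) : Matrix (Fin 2) (Fin 2) ℤ)
        = (γ : Matrix (Fin 2) (Fin 2) ℤ) * !![(((d * c⁻¹).val : ℕ) : ℤ), 1; -1, 0] := by
      rw [Matrix.SpecialLinearGroup.coe_mul, h1t_coe_ST_inv]
    have := congrFun (congrFun h1 1) 0
    rw [this]
    simp [Matrix.mul_apply, Fin.sum_univ_two]
    ring
  rw [hentry]
  push_cast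
  rw [ZMod.natCast_val, ZMod.cast_id', id, ← hc, ← hd]
  field_simp
  ring

/-- (C2) -/
theorem h1t_rep_inj {p : ℕ} (hp : p.Prime) {j j' : ℕ} (hj : j < p) (hj' : j' < p)
    (h : (S * T ^ (j : ℤ)) * (S * T ^ (j' : ℤ))⁻¹ ∈ Gamma0 p) : j = j' := by
  have := Fact.mk hp
  rw [Gamma0_mem] at h
  have hentry : (((S * T ^ (j : ℤ)) * (S * T ^ (j' : ℤ))⁻¹ : SL(2, ℤ)) 1 0 : ℤ) = (j' : ℤ) - j := by
    have h1 : (((S * T ^ (j : ℤ)) * (S * T ^ (j' : ℤ))⁻¹ : SL(2, ℤ)) : Matrix (Fin 2) (Fin 2) ℤ)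
        = !![0, -1; 1, (j : ℤ)] * !![(j' : ℤ), 1; -1, 0] := by
      rw [Matrix.SpecialLinearGroup.coe_mul, h1t_coe_ST_inv, h1t_coe_ST]
    have := congrFun (congrFun h1 1) 0
    rw [this]
    simp [Matrix.mul_apply, Fin.sum_univ_two]
    ring
  rw [hentry] at h
  push_cast at h
  have h2 : ((j' : ℕ) : ZMod p) = (j : ZMod p) := by linear_combination h
  have := congrArg ZMod.val h2
  rw [ZMod.val_natCast, ZMod.val_natCast, Nat.mod_eq_of_lt hj, Nat.mod_eq_of_lt hj'] at this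
  exact this.symm


local notation "𝒢₀" p => (Subgroup.map (mapGL ℝ) (Gamma0 p) : Subgroup (GL (Fin 2) ℝ))

/-- coset representatives for `𝒮ℒ ⧸ Γ₀(p)` -/
noncomputable def h1t_rep (p : ℕ) : Option (Fin p) → (𝒮ℒ : Subgroup (GL (Fin 2) ℝ))
  | none => 1
  | some j => ⟨mapGL ℝ ((S * T ^ ((j : ℕ) : ℤ))⁻¹), ⟨_, rfl⟩⟩

theorem h1t_mem_iff {p : ℕ} (x : (𝒮ℒ : Subgroup (GL (Fin 2) ℝ))) (δ : SL(2, ℤ))
    (hx : (x : GL (Fin 2) ℝ) = mapGL ℝ δ) :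
    x ∈ (𝒢₀ p).subgroupOf 𝒮ℒ ↔ δ ∈ Gamma0 p := by
  rw [Subgroup.mem_subgroupOf, hx, Subgroup.mem_map_iff_mem mapGL_injective]

theorem h1t_rep_bijective {p : ℕ} (hp : p.Prime) :
    Function.Bijective (fun o : Option (Fin p) =>
      (QuotientGroup.mk (h1t_rep p o) : 𝒮ℒ ⧸ (𝒢₀ p).subgroupOf 𝒮ℒ)) := by
  constructor
  · rintro (_ | j) (_ | j') h
    · rfl
    · exfalso
      rw [QuotientGroup.eq, h1t_mem_iff _ ((S * T ^ ((j' : ℕ) : ℤ))⁻¹) (by simp [h1t_rep])] at h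
      exact h1t_ST_not_mem hp _ (inv_mem_iff.mp h)
    · exfalso
      rw [QuotientGroup.eq, h1t_mem_iff _ (S * T ^ ((j : ℕ) : ℤ)) (by simp [h1t_rep])] at h
      exact h1t_ST_not_mem hp _ h
    · rw [QuotientGroup.eq, h1t_mem_iff _ ((S * T ^ ((j : ℕ) : ℤ)) * (S * T ^ ((j' : ℕ) : ℤ))⁻¹)
        (by simp [h1t_rep])] at h
      have := h1t_rep_inj hp j.2 j'.2 h
      exact congrArg some (Fin.ext this)
  · intro q
    induction q using QuotientGroup.induction_on with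
    | H x =>
      obtain ⟨δ, hδ⟩ := x.2
      by_cases hmem : δ ∈ Gamma0 p
      · refine ⟨none, ?_⟩
        rw [QuotientGroup.eq, h1t_mem_iff _ δ (by simp [h1t_rep, hδ])]
        exact hmem
      · have hmem' : δ⁻¹ ∉ Gamma0 p := fun h => hmem (inv_mem_iff.mp h)
        obtain ⟨j, hj, hjm⟩ := h1t_exists_rep hp δ⁻¹ hmem'
        refine ⟨some ⟨j, hj⟩, ?_⟩
        rw [QuotientGroup.eq, h1t_mem_iff _ ((S * T ^ (j : ℤ)) * δ) (by simp [h1t_rep, hδ])]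
        have := inv_mem hjm
        simpa [mul_inv_rev] using this


open SlashInvariantForm in
/-- The sum over the cosets `𝒮ℒ ⧸ Γ₀(p)` made explicit. -/
theorem h1t_sum_quotientFunc {p : ℕ} (hp : p.Prime) {k : ℤ} {F : Type*} [FunLike F ℍ ℂ]
    [SlashInvariantFormClass F (𝒢₀ p) k] (f : F)
    [Fintype (𝒮ℒ ⧸ (𝒢₀ p).subgroupOf 𝒮ℒ)] :
    (∑ q : 𝒮ℒ ⧸ (𝒢₀ p).subgroupOf 𝒮ℒ, quotientFunc f q)
      = ⇑f + ∑ j ∈ Finset.range p, (⇑f ∣[k] (mapGL ℝ (S * T ^ (j : ℤ)) : GL (Fin 2) ℝ)) := by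
  rw [← (h1t_rep_bijective hp).sum_comp (fun q => quotientFunc f q), Fintype.sum_option]
  congr 1
  · show quotientFunc f (QuotientGroup.mk (h1t_rep p none)) = ⇑f
    have : (QuotientGroup.mk (h1t_rep p none) : 𝒮ℒ ⧸ (𝒢₀ p).subgroupOf 𝒮ℒ) = ⟦h1t_rep p none⟧ := rfl
    rw [this, quotientFunc_mk]
    simp [h1t_rep]
  · rw [← Fin.sum_univ_eq_sum_range (fun j => (⇑f ∣[k] (mapGL ℝ (S * T ^ (j : ℤ)) : GL (Fin 2) ℝ)))]
    refine Finset.sum_congr rfl fun j _ => ?_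
    have : (QuotientGroup.mk (h1t_rep p (some j)) : 𝒮ℒ ⧸ (𝒢₀ p).subgroupOf 𝒮ℒ)
        = ⟦h1t_rep p (some j)⟧ := rfl
    rw [this, quotientFunc_mk]
    simp [h1t_rep]

end Fermat.Agent.Lib.S16
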