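import Mathlib
import Fermat.Prelude.Def_ModularForm_HeckeOperatorForms
import Fermat.Prelude.Def_FLTPrelim_Modularity
import Fermat.Prelude.Thm_ModularFormClass_qCoeff_heckeU
import Fermat.Prelude.Thm_CongruenceSubgroup_one_mem_strictPeriods_Gamma0
import Fermat.Agent.Lib.S16.H1Coset

open scoped MatrixGroups ModularForm
open Matrix.SpecialLinearGroup ModularGroup CongruenceSubgroup UpperHalfPlane

namespace Fermat.Agent.Lib.S16

local notation "𝒢₀" p => (Subgroup.map (mapGL ℝ) (Gamma0 p) : Subgroup (GL (Fin 2) ℝ))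

/-- The Fricke (Atkin–Lehner) matrix `[[0,-1],[p,0]]`. -/
noncomputable def h1t_W (p : ℕ) [NeZero p] : GL (Fin 2) ℝ :=
  Matrix.GeneralLinearGroup.mkOfDetNeZero !![0, -1; (p : ℝ), 0]
    (by simp [Matrix.det_fin_two_of, NeZero.ne p])

@[simp] theorem h1t_val_W (p : ℕ) [NeZero p] :
    ((h1t_W p : GL (Fin 2) ℝ) : Matrix (Fin 2) (Fin 2) ℝ) = !![0, -1; (p : ℝ), 0] := rfl

theorem h1t_det_W (p : ℕ) [NeZero p] : ((h1t_W p).det : ℝ) = p := by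
  rw [Matrix.GeneralLinearGroup.val_det_apply, h1t_val_W, Matrix.det_fin_two_of]
  ring

theorem h1t_mapGL_apply (γ : SL(2, ℤ)) (i j : Fin 2) :
    ((mapGL ℝ γ : GL (Fin 2) ℝ) : Matrix (Fin 2) (Fin 2) ℝ) i j = ((γ i j : ℤ) : ℝ) := by
  rw [mapGL_coe_matrix]
  simp

theorem h1t_W_conj {p : ℕ} [NeZero p] (γ : SL(2, ℤ)) (hγ : γ ∈ Gamma0 p) :
    ∃ γ' ∈ Gamma0 p, h1t_W p * mapGL ℝ γ = mapGL ℝ γ' * h1t_W p ∧
      mapGL ℝ γ * h1t_W p = h1t_W p * mapGL ℝ γ' := by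
  rw [Gamma0_mem, ZMod.intCast_zmod_eq_zero_iff_dvd] at hγ
  obtain ⟨c', hc'⟩ := hγ
  have hdet : γ 0 0 * γ 1 1 - γ 0 1 * γ 1 0 = 1 := by
    have := γ.det_coe
    rwa [Matrix.det_fin_two] at this
  have hdet' : (!![γ 1 1, -c'; -(p : ℤ) * γ 0 1, γ 0 0] : Matrix (Fin 2) (Fin 2) ℤ).det = 1 := by
    rw [Matrix.det_fin_two_of]
    rw [hc'] at hdet
    linear_combination hdet
  let γ' : SL(2, ℤ) := ⟨!![γ 1 1, -c'; -(p : ℤ) * γ 0 1, γ 0 0], hdet'⟩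
  have h00 : γ' 0 0 = γ 1 1 := rfl
  have h01 : γ' 0 1 = -c' := rfl
  have h10 : γ' 1 0 = -(p : ℤ) * γ 0 1 := rfl
  have h11 : γ' 1 1 = γ 0 0 := rfl
  have hc'R : ((γ 1 0 : ℤ) : ℝ) = (p : ℝ) * c' := by exact_mod_cast congrArg (Int.cast (R := ℝ)) hc'
  refine ⟨γ', ?_, ?_, ?_⟩
  · rw [Gamma0_mem, h10]
    simp
  · apply Matrix.GeneralLinearGroup.ext
    intro i j
    fin_cases i <;> fin_cases j <;>
      simp [Matrix.mul_apply, Fin.sum_univ_two, h00, h01, h10, h11, hc'R] <;> ring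
  · apply Matrix.GeneralLinearGroup.ext
    intro i j
    fin_cases i <;> fin_cases j <;>
      simp [Matrix.mul_apply, Fin.sum_univ_two, h00, h01, h10, h11, hc'R] <;> ring

open ConjAct Pointwise in
theorem h1t_conj_W_eq (p : ℕ) [NeZero p] : toConjAct (h1t_W p)⁻¹ • (𝒢₀ p) = 𝒢₀ p := by
  ext x
  rw [Subgroup.mem_pointwise_smul_iff_inv_smul_mem, ← map_inv, inv_inv, ConjAct.toConjAct_smul]
  constructor
  · rintro ⟨γ, hγ, hx⟩
    obtain ⟨γ', hγ', -, h2⟩ := h1t_W_conj γ hγ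
    refine ⟨γ', hγ', ?_⟩
    have : x = (h1t_W p)⁻¹ * (mapGL ℝ γ) * h1t_W p := by rw [hx]; group
    rw [this, mul_assoc, h2]; group
  · rintro ⟨γ, hγ, rfl⟩
    obtain ⟨γ', hγ', h1, -⟩ := h1t_W_conj γ hγ
    exact ⟨γ', hγ', by rw [h1]; group⟩

/-- The Atkin–Lehner (Fricke) operator on `M_k(Γ₀(p))`: `G ↦ G ∣[k] W`. -/
noncomputable def h1t_AL {p : ℕ} [NeZero p] {k : ℤ} (G : ModularForm (𝒢₀ p) k) :
    ModularForm (𝒢₀ p) k :=
  ModularForm.mcast rfl (ModularForm.translate G (h1t_W p)) (h1t_conj_W_eq p).symm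

@[simp] theorem h1t_coe_AL {p : ℕ} [NeZero p] {k : ℤ} (G : ModularForm (𝒢₀ p) k) :
    ⇑(h1t_AL G) = ⇑G ∣[k] h1t_W p := rfl


/-- Slash by a scalar matrix in weight `2` is trivial. -/
theorem h1t_slash_scalar_two (u : ℝˣ) (f : ℍ → ℂ) :
    f ∣[(2 : ℤ)] (Matrix.GeneralLinearGroup.scalar (Fin 2) u) = f := by
  ext τ
  have hdet : ((Matrix.GeneralLinearGroup.scalar (Fin 2) u).det : ℝ) = (u : ℝ) ^ 2 := by
    rw [Matrix.GeneralLinearGroup.det_scalar]; simp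
  have hpos : 0 < ((Matrix.GeneralLinearGroup.scalar (Fin 2) u).det : ℝ) := by
    rw [hdet]; exact sq_pos_of_ne_zero u.ne_zero
  rw [ModularForm.slash_apply, glScalar_smul, denom_scalar, UpperHalfPlane.σ, if_pos hpos, hdet]
  simp only [ContinuousAlgEquiv.refl_apply, abs_pow, Complex.ofReal_pow]
  have hu : (u : ℂ) ≠ 0 := by exact_mod_cast u.ne_zero
  have : ((|(u : ℝ)| : ℝ) : ℂ) ^ 2 = (u : ℂ) ^ 2 := by
    rw [← Complex.ofReal_pow, sq_abs]; simp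
  rw [show (2 : ℤ) - 1 = 1 by norm_num, zpow_one, this, zpow_neg, ← zpow_natCast (u : ℂ) 2]
  simp only [Nat.cast_ofNat]
  rw [mul_assoc, mul_inv_cancel₀ (zpow_ne_zero 2 hu), mul_one]

/-- Slash by a positive scalar matrix in weight `k`. -/
theorem h1t_slash_scalar_pos (k : ℤ) (u : ℝˣ) (hu0 : 0 < (u : ℝ)) (f : ℍ → ℂ) :
    f ∣[k] (Matrix.GeneralLinearGroup.scalar (Fin 2) u) = ((u : ℝ) : ℂ) ^ (k - 2) • f := by
  ext τ
  have hdet : ((Matrix.GeneralLinearGroup.scalar (Fin 2) u).det : ℝ) = (u : ℝ) ^ 2 := by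
    rw [Matrix.GeneralLinearGroup.det_scalar]; simp
  have hpos : 0 < ((Matrix.GeneralLinearGroup.scalar (Fin 2) u).det : ℝ) := by
    rw [hdet]; exact sq_pos_of_ne_zero u.ne_zero
  rw [ModularForm.slash_apply, glScalar_smul, denom_scalar, UpperHalfPlane.σ, if_pos hpos, hdet]
  simp only [ContinuousAlgEquiv.refl_apply, Pi.smul_apply, smul_eq_mul]
  have hu : ((u : ℝ) : ℂ) ≠ 0 := by exact_mod_cast u.ne_zero
  rw [abs_of_pos (by positivity : (0 : ℝ) < (u : ℝ) ^ 2)]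
  push_cast
  rw [← zpow_natCast ((u : ℝ) : ℂ) 2, ← zpow_mul, mul_assoc, ← zpow_add₀ hu, mul_comm]
  congr 2
  push_cast
  ring


/-- `p` as a unit of `ℝ`. -/
noncomputable def h1t_pUnit (p : ℕ) [NeZero p] : ℝˣ := Units.mk0 (p : ℝ) (by exact_mod_cast NeZero.ne p)

@[simp] theorem h1t_val_pUnit (p : ℕ) [NeZero p] : ((h1t_pUnit p : ℝˣ) : ℝ) = p := rfl

theorem h1t_val_mapGL_ST (j : ℤ) :
    ((mapGL ℝ (S * T ^ j) : GL (Fin 2) ℝ) : Matrix (Fin 2) (Fin 2) ℝ) = !![0, -1; 1, (j : ℝ)] := by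
  ext a b
  rw [h1t_mapGL_apply]
  have := congrFun (congrFun (h1t_coe_ST j) a) b
  rw [this]
  fin_cases a <;> fin_cases b <;> simp

theorem h1t_W_mul_heckeMatrix (p : ℕ) [NeZero p] (j : ℕ) :
    h1t_W p * ModularForm.heckeMatrix p j =
      Matrix.GeneralLinearGroup.scalar (Fin 2) (h1t_pUnit p) * mapGL ℝ (S * T ^ (j : ℤ)) := by
  apply Units.ext
  rw [Units.val_mul, Units.val_mul, h1t_val_mapGL_ST, h1t_val_W,
    ModularForm.val_heckeMatrix (NeZero.ne p), Matrix.GeneralLinearGroup.coe_scalar]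
  ext a b
  fin_cases a <;> fin_cases b <;>
    simp [Matrix.mul_apply, Fin.sum_univ_two, Matrix.natCast_apply]

theorem h1t_W_mul_W (p : ℕ) [NeZero p] :
    h1t_W p * h1t_W p = Matrix.GeneralLinearGroup.scalar (Fin 2) (-h1t_pUnit p) := by
  apply Units.ext
  rw [Units.val_mul, h1t_val_W, Matrix.GeneralLinearGroup.coe_scalar]
  ext a b
  fin_cases a <;> fin_cases b <;>
    simp [Matrix.mul_apply, Fin.sum_univ_two]

theorem h1t_σ_mapGL (γ : SL(2, ℤ)) : UpperHalfPlane.σ (mapGL ℝ γ : GL (Fin 2) ℝ) = .refl ℝ ℂ := by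
  simp [UpperHalfPlane.σ]

theorem h1t_slash_W_heckeMatrix {p : ℕ} [NeZero p] (k : ℤ) (f : ℍ → ℂ) (j : ℕ) :
    (f ∣[k] h1t_W p) ∣[k] ModularForm.heckeMatrix p j =
      ((p : ℂ)) ^ (k - 2) • (f ∣[k] (mapGL ℝ (S * T ^ (j : ℤ)) : GL (Fin 2) ℝ)) := by
  have hpos : (0 : ℝ) < ((h1t_pUnit p : ℝˣ) : ℝ) := by
    rw [h1t_val_pUnit]; exact_mod_cast Nat.pos_of_ne_zero (NeZero.ne p)
  rw [← SlashAction.slash_mul, h1t_W_mul_heckeMatrix, SlashAction.slash_mul,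
    h1t_slash_scalar_pos k _ hpos, ModularForm.smul_slash, h1t_σ_mapGL]
  simp

theorem h1t_heckeU_slash_W {p : ℕ} [NeZero p] (k : ℤ) (f : ℍ → ℂ) :
    ModularForm.heckeU k p (f ∣[k] h1t_W p) =
      ((p : ℂ)) ^ (k - 2) •
        ∑ j ∈ Finset.range p, (f ∣[k] (mapGL ℝ (S * T ^ (j : ℤ)) : GL (Fin 2) ℝ)) := by
  rw [ModularForm.heckeU_def, Finset.smul_sum]
  exact Finset.sum_congr rfl fun j _ => h1t_slash_W_heckeMatrix k f j

/-- The trace from `Γ₀(p)` to level one, made explicit. -/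
theorem h1t_coe_trace {p : ℕ} [NeZero p] (hp : p.Prime) {k : ℤ} (f : ModularForm (𝒢₀ p) k) :
    ⇑(ModularForm.trace 𝒮ℒ f) =
      ⇑f + ((p : ℂ) ^ (k - 2))⁻¹ • ModularForm.heckeU k p (⇑f ∣[k] h1t_W p) := by
  have hp0 : ((p : ℂ)) ^ (k - 2) ≠ 0 := zpow_ne_zero _ (by exact_mod_cast NeZero.ne p)
  rw [ModularForm.coe_trace, h1t_sum_quotientFunc hp, h1t_heckeU_slash_W, smul_smul,
    inv_mul_cancel₀ hp0, one_smul]

theorem h1t_levelOne_weight_two_eq_zero (f : ModularForm 𝒮ℒ 2) : f = 0 :=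
  rank_zero_iff_forall_zero.mp ModularForm.levelOne_weight_two_rank_zero f

/-- `G + U_p (G|W) = 0` for `G ∈ M₂(Γ₀(p))`. -/
theorem h1t_add_heckeU_AL {p : ℕ} [NeZero p] (hp : p.Prime) (G : ModularForm (𝒢₀ p) 2) :
    ⇑G + ModularForm.heckeU 2 p ⇑(h1t_AL G) = 0 := by
  have h := h1t_coe_trace hp G
  rw [h1t_levelOne_weight_two_eq_zero (ModularForm.trace 𝒮ℒ G)] at h
  simpa using h.symm

theorem h1t_AL_AL {p : ℕ} [NeZero p] (G : ModularForm (𝒢₀ p) 2) : h1t_AL (h1t_AL G) = G := by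
  apply DFunLike.coe_injective
  rw [h1t_coe_AL, h1t_coe_AL, ← SlashAction.slash_mul, h1t_W_mul_W, h1t_slash_scalar_two]

/-- `G|W = - U_p G`. -/
theorem h1t_AL_eq_neg_heckeU {p : ℕ} [NeZero p] (hp : p.Prime) (G : ModularForm (𝒢₀ p) 2) :
    ⇑(h1t_AL G) = -ModularForm.heckeU 2 p ⇑G := by
  have h := h1t_add_heckeU_AL hp (h1t_AL G)
  rw [h1t_AL_AL] at h
  exact eq_neg_of_add_eq_zero_left h

/-- `U_p (U_p G) = G`. -/
theorem h1t_heckeU_heckeU {p : ℕ} [NeZero p] (hp : p.Prime) (G : ModularForm (𝒢₀ p) 2) :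
    ModularForm.heckeU 2 p (ModularForm.heckeU 2 p ⇑G) = ⇑G := by
  have h := h1t_add_heckeU_AL hp G
  rw [h1t_AL_eq_neg_heckeU hp, ModularForm.heckeU_neg] at h
  exact (eq_of_sub_eq_zero (by rw [← h]; ring)).symm

end Fermat.Agent.Lib.S16
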