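import Mathlib
import Fermat.Agent.Lib.S16.H1TraceId

open scoped MatrixGroups ModularForm
open Matrix.SpecialLinearGroup ModularGroup CongruenceSubgroup UpperHalfPlane

namespace Fermat.Agent.Lib.S16

local notation "𝒢₀" p => (Subgroup.map (mapGL ℝ) (Gamma0 p) : Subgroup (GL (Fin 2) ℝ))

/-- `U_p G` as a modular form. -/
noncomputable def h1t_U {p : ℕ} [NeZero p] (G : ModularForm (Gamma0 p) 2) : ModularForm (Gamma0 p) 2 :=
  ModularForm.heckeULin 2 (dvd_refl p) G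

@[simp] theorem h1t_coe_U {p : ℕ} [NeZero p] (G : ModularForm (Gamma0 p) 2) :
    ⇑(h1t_U G) = ModularForm.heckeU 2 p ⇑G := rfl

/-- (i) `a_n(U_p G) = a_{np}(G)`. -/
theorem h1t_coeff_U {p : ℕ} [NeZero p] (G : ModularForm (Gamma0 p) 2) (n : ℕ) :
    (qExpansion 1 (h1t_U G)).coeff n = (qExpansion 1 G).coeff (n * p) :=
  ModularFormClass.qCoeff_heckeU G (one_mem_strictPeriods_Gamma0 p) (NeZero.ne p) n

/-- `U_p (U_p G) = G`. -/
theorem h1t_U_U {p : ℕ} [NeZero p] (hp : p.Prime) (G : ModularForm (Gamma0 p) 2) :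
    h1t_U (h1t_U G) = G :=
  DFunLike.coe_injective (h1t_heckeU_heckeU hp G)

/-- (ii) `a_n(G) = a_{np}(U_p G)`. -/
theorem h1t_coeff_eq_coeff_U {p : ℕ} [NeZero p] (hp : p.Prime) (G : ModularForm (Gamma0 p) 2)
    (n : ℕ) : (qExpansion 1 G).coeff n = (qExpansion 1 (h1t_U G)).coeff (n * p) := by
  conv_lhs => rw [← h1t_U_U hp G]
  exact h1t_coeff_U (h1t_U G) n

/-- (iv) the expansion of `G` at the other cusp: for `γ ∈ SL(2,ℤ) ∖ Γ₀(p)` there is `j < p` with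
`(G ∣[2] γ)(z) = - p⁻¹ (U_p G)((z + j)/p)`. -/
theorem h1t_slash_of_not_mem {p : ℕ} [NeZero p] (hp : p.Prime) (G : ModularForm (Gamma0 p) 2)
    (γ : SL(2, ℤ)) (hγ : γ ∉ Gamma0 p) :
    ∃ j : ℕ, j < p ∧ ∀ z : ℍ, (⇑G ∣[(2 : ℤ)] (mapGL ℝ γ : GL (Fin 2) ℝ)) z =
      -(p : ℂ)⁻¹ * (h1t_U G) (ModularForm.heckeMatrix p j • z) := by
  obtain ⟨j, hj, hmem⟩ := h1t_exists_rep hp γ hγ
  refine ⟨j, hj, fun z => ?_⟩
  have hγeq : (mapGL ℝ γ : GL (Fin 2) ℝ) =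
      mapGL ℝ (γ * (S * T ^ (j : ℤ))⁻¹) * mapGL ℝ (S * T ^ (j : ℤ)) := by
    rw [← map_mul]; congr 1; group
  have hinv : ⇑G ∣[(2 : ℤ)] (mapGL ℝ (γ * (S * T ^ (j : ℤ))⁻¹) : GL (Fin 2) ℝ) = ⇑G :=
    SlashInvariantFormClass.slash_action_eq G _ ⟨_, hmem, rfl⟩
  have h1 := h1t_slash_W_heckeMatrix (p := p) 2 ⇑G j
  rw [sub_self, zpow_zero, one_smul] at h1
  rw [hγeq, SlashAction.slash_mul, hinv, ← h1, ← h1t_coe_AL, h1t_AL_eq_neg_heckeU hp,
    ModularForm.slash_heckeMatrix_apply 2 (NeZero.ne p)]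
  simp

/-- the weight 4 trace of `G²` as a function -/
theorem h1t_trace_mul_self {p : ℕ} [NeZero p] (hp : p.Prime) (G : ModularForm (Gamma0 p) 2) :
    ⇑(ModularForm.trace 𝒮ℒ (G.mul G)) =
      ⇑(G.mul G) + (p : ℂ)⁻¹ • ModularForm.heckeU (2 + 2) p ⇑((h1t_U G).mul (h1t_U G)) := by
  have hp0 : (p : ℂ) ≠ 0 := by exact_mod_cast NeZero.ne p
  rw [h1t_coe_trace hp (G.mul G)]
  congr 1
  have hmul : (⇑(G.mul G) : ℍ → ℂ) = ⇑G * ⇑G := rfl
  have hmul' : (⇑((h1t_U G).mul (h1t_U G)) : ℍ → ℂ) = ⇑(h1t_U G) * ⇑(h1t_U G) := rfl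
  have hAL : ⇑G ∣[(2 : ℤ)] h1t_W p = -ModularForm.heckeU 2 p ⇑G := by
    rw [← h1t_coe_AL]; exact h1t_AL_eq_neg_heckeU hp G
  rw [hmul, ModularForm.mul_slash, hAL, h1t_det_W, neg_mul_neg, hmul', h1t_coe_U]
  have hsm : (|(p : ℝ)| • (ModularForm.heckeU 2 p ⇑G * ModularForm.heckeU 2 p ⇑G) : ℍ → ℂ)
      = (p : ℂ) • (ModularForm.heckeU 2 p ⇑G * ModularForm.heckeU 2 p ⇑G) := by
    ext z
    simp
  rw [hsm, ModularForm.heckeU_smul, smul_smul]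
  congr 1
  rw [show (2 : ℤ) + 2 - 2 = 2 by norm_num]
  field_simp

/-- (iii) the `q`-expansion identity coming from `Tr(G²) ∈ M₄(SL₂(ℤ)) = ℂ·E₄`. -/
theorem h1t_trace_sq_coeff {p : ℕ} [NeZero p] (hp : p.Prime) (G : ModularForm (Gamma0 p) 2)
    (n : ℕ) :
    (p : ℂ) * ((qExpansion 1 G) ^ 2).coeff n + ((qExpansion 1 (h1t_U G)) ^ 2).coeff (n * p)
      = ((p : ℂ) + 1) * ((qExpansion 1 G).coeff 0) ^ 2 *
          (qExpansion 1 ModularForm.E₄).coeff n := by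
  have hp0 : (p : ℂ) ≠ 0 := by exact_mod_cast NeZero.ne p
  have h1p := one_mem_strictPeriods_Gamma0 p
  set G' := h1t_U G with hG'
  -- the level one form `Tr(G²)` is a multiple of `E₄`
  obtain ⟨c, hc⟩ : ∃ c : ℂ, c • ModularForm.E₄ = ModularForm.trace 𝒮ℒ (G.mul G) :=
    (finrank_eq_one_iff_of_nonzero' ModularForm.E₄ (EisensteinSeries.E_ne_zero _ ⟨2, rfl⟩)).mp
      (Module.rank_eq_one_iff_finrank_eq_one.mp ModularForm.levelOne_weight_four_rank_one) _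
  -- `U_p(G'²)` as a modular form
  set UGG : ModularForm (Gamma0 p) (2 + 2) := ModularForm.heckeULin (2 + 2) (dvd_refl p) (G'.mul G')
    with hUGG
  have hfun : (⇑(ModularForm.trace 𝒮ℒ (G.mul G)) : ℍ → ℂ) = ⇑(G.mul G + (p : ℂ)⁻¹ • UGG) := by
    rw [h1t_trace_mul_self hp G]; rfl
  have hq : c • qExpansion 1 ModularForm.E₄ =
      qExpansion 1 G * qExpansion 1 G + (p : ℂ)⁻¹ • qExpansion 1 UGG := by
    rw [← ModularForm.qExpansion_smul one_pos _root_.one_mem_strictPeriods_SL c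
      ModularForm.E₄, show (c • ModularForm.E₄ : ℍ → ℂ) = ⇑(ModularForm.trace 𝒮ℒ (G.mul G)) from
      congrArg DFunLike.coe hc, hfun,
      show (⇑(G.mul G + (p : ℂ)⁻¹ • UGG) : ℍ → ℂ) = ⇑(G.mul G) + ⇑((p : ℂ)⁻¹ • UGG) from rfl,
      ModularForm.qExpansion_add one_pos h1p (G.mul G) ((p : ℂ)⁻¹ • UGG),
      ModularForm.qExpansion_mul one_pos h1p G G,
      show (⇑((p : ℂ)⁻¹ • UGG) : ℍ → ℂ) = (p : ℂ)⁻¹ • ⇑UGG from rfl,
      ModularForm.qExpansion_smul one_pos h1p (p : ℂ)⁻¹ UGG]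
  have hU : ∀ m, (qExpansion 1 UGG).coeff m = (qExpansion 1 G' * qExpansion 1 G').coeff (m * p) := by
    intro m
    have := ModularFormClass.qCoeff_heckeU (G'.mul G') h1p (NeZero.ne p) m
    rw [ModularForm.coeffHeckeU_apply] at this
    rw [← ModularForm.qExpansion_mul one_pos h1p G' G']
    exact this
  have hcoef : ∀ m, c * (qExpansion 1 ModularForm.E₄).coeff m =
      (qExpansion 1 G * qExpansion 1 G).coeff m +
        (p : ℂ)⁻¹ * (qExpansion 1 G' * qExpansion 1 G').coeff (m * p) := by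
    intro m
    have := congrArg (fun P => PowerSeries.coeff m P) hq
    simp only [map_add, PowerSeries.coeff_smul, smul_eq_mul] at this
    rw [this, hU]
  have h0 : (qExpansion 1 G').coeff 0 = (qExpansion 1 G).coeff 0 := by
    have := h1t_coeff_U G 0
    rwa [zero_mul] at this
  have hc0 : c = ((qExpansion 1 G).coeff 0) ^ 2 * (1 + (p : ℂ)⁻¹) := by
    have := hcoef 0
    rw [EisensteinSeries.E_qExpansion_coeff_zero _ ⟨2, rfl⟩, mul_one, zero_mul,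
      PowerSeries.coeff_zero_eq_constantCoeff, map_mul, map_mul,
      ← PowerSeries.coeff_zero_eq_constantCoeff, h0] at this
    rw [this]; ring
  have hn := hcoef n
  rw [pow_two, pow_two]
  have : (qExpansion 1 G * qExpansion 1 G).coeff n =
      c * (qExpansion 1 ModularForm.E₄).coeff n -
        (p : ℂ)⁻¹ * (qExpansion 1 G' * qExpansion 1 G').coeff (n * p) := by
    rw [hn]; ring
  rw [this, hc0]
  field_simp
  ring

/-- The `q`-expansion of `E₄`: `1 + 240 Σ σ₃(n) qⁿ`. -/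
theorem h1t_E4_coeff (n : ℕ) :
    (qExpansion 1 ModularForm.E₄).coeff n =
      if n = 0 then 1 else 240 * (ArithmeticFunction.sigma 3 n : ℂ) := by
  rw [EisensteinSeries.E_qExpansion_coeff _ ⟨2, rfl⟩]
  split_ifs with h
  · rfl
  · norm_num [show bernoulli 4 = -1 / 30 by decide +kernel]

/-- **Deliverable (1.1) `TraceId p`.** For `G ∈ M₂(Γ₀(p))` the form `G' = U_p G` satisfies:
(i) `a_n(G') = a_{np}(G)`; (ii) `a_n(G) = a_{np}(G')`; (iii) the identity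
`p·G² + U_p(G'²) = (p+1)·a₀(G)²·E₄` on `q`-expansions; (iv) for `γ ∈ SL₂(ℤ) ∖ Γ₀(p)` there is
`j < p` with `(G∣γ)(z) = -p⁻¹·G'((z+j)/p)`. -/
theorem h1t_traceId {p : ℕ} [NeZero p] (hp : p.Prime) (G : ModularForm (Gamma0 p) 2) :
    ∃ G' : ModularForm (Gamma0 p) 2,
      (⇑G' = ModularForm.heckeU 2 p ⇑G) ∧
      (∀ n, (qExpansion 1 G').coeff n = (qExpansion 1 G).coeff (n * p)) ∧
      (∀ n, (qExpansion 1 G).coeff n = (qExpansion 1 G').coeff (n * p)) ∧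
      (∀ n, (p : ℂ) * ((qExpansion 1 G) ^ 2).coeff n + ((qExpansion 1 G') ^ 2).coeff (n * p)
          = ((p : ℂ) + 1) * ((qExpansion 1 G).coeff 0) ^ 2 *
              (qExpansion 1 ModularForm.E₄).coeff n) ∧
      (∀ γ : SL(2, ℤ), γ ∉ Gamma0 p → ∃ j : ℕ, j < p ∧ ∀ z : ℍ,
          (⇑G ∣[(2 : ℤ)] (mapGL ℝ γ : GL (Fin 2) ℝ)) z =
            -(p : ℂ)⁻¹ * G' (ModularForm.heckeMatrix p j • z)) :=
  ⟨h1t_U G, rfl, h1t_coeff_U G, h1t_coeff_eq_coeff_U hp G, h1t_trace_sq_coeff hp G,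
    h1t_slash_of_not_mem hp G⟩

end Fermat.Agent.Lib.S16
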