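import Mathlib
import Fermat.Agent.Lib.S16.Defs

/-!
# Project S16: re-expansion lemmas (helper5)

Given an expansion `f w = ∑ a m • 𝕢₁(w)^m`, the expansions of `f` and of
`τ ↦ f ((τ + j)/N)` in the parameter `𝕢_h`, `h` a multiple of `1` resp. `N`.
-/

set_option autoImplicit false

open UpperHalfPlane ModularForm
open scoped MatrixGroups ModularForm

noncomputable section

namespace Fermat.Agent.Lib.S16

/-- `ζ_N = exp(2πi/N)`. -/
def h5x_zeta (N : ℕ) : ℂ := Complex.exp (2 * Real.pi * Complex.I / N)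

lemma h5x_zeta_pow_self (N : ℕ) (hN : N ≠ 0) : h5x_zeta N ^ N = 1 := by
  have hNC : (N : ℂ) ≠ 0 := by exact_mod_cast hN
  rw [h5x_zeta, ← Complex.exp_nat_mul, mul_div_cancel₀ _ hNC]
  exact Complex.exp_two_pi_mul_I

lemma h5x_qParam_eq_pow (h : ℝ) (d : ℕ) (hd : d ≠ 0) (z : ℂ) :
    Function.Periodic.qParam h z = Function.Periodic.qParam (h * d) z ^ d := by
  have hdC : (d : ℂ) ≠ 0 := by exact_mod_cast hd
  rw [Function.Periodic.qParam, Function.Periodic.qParam, ← Complex.exp_nat_mul]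
  congr 1
  push_cast
  rcases eq_or_ne (h : ℂ) 0 with h0 | h0
  · simp [h0]
  · field_simp

/-- Spreading a sum out over the multiples of `d`. -/
lemma h5x_hasSum_spread (d : ℕ) (hd : d ≠ 0) (b : ℕ → ℂ) (x s : ℂ)
    (h : HasSum (fun m : ℕ => b m • (x ^ d) ^ m) s) :
    HasSum (fun m : ℕ => (if d ∣ m then b (m / d) else 0) • x ^ m) s := by
  have hinj : Function.Injective (fun m : ℕ => d * m) :=
    fun a c hac => Nat.eq_of_mul_eq_mul_left (Nat.pos_of_ne_zero hd) hac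
  rw [← hinj.hasSum_iff]
  · have : ((fun m : ℕ => (if d ∣ m then b (m / d) else 0) • x ^ m) ∘ fun m : ℕ => d * m)
        = fun m : ℕ => b m • (x ^ d) ^ m := by
      funext m
      simp [Function.comp, Nat.mul_div_cancel_left _ (Nat.pos_of_ne_zero hd), pow_mul]
    rw [this]
    exact h
  · intro m hm
    have : ¬ d ∣ m := fun ⟨k, hk⟩ => hm ⟨k, hk.symm⟩
    simp [this]

/-- Re-expansion in `𝕢_{h d}` of a `𝕢_h`-expansion. -/
lemma h5x_hasSum_scale (h : ℝ) (d : ℕ) (hd : d ≠ 0) (a : ℕ → ℂ) (z s : ℂ)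
    (hs : HasSum (fun m : ℕ => a m • Function.Periodic.qParam h z ^ m) s) :
    HasSum (fun m : ℕ => (if d ∣ m then a (m / d) else 0) •
      Function.Periodic.qParam (h * d) z ^ m) s := by
  apply h5x_hasSum_spread d hd
  rw [← h5x_qParam_eq_pow h d hd]
  exact hs

lemma h5x_qParam_heckeMatrix (N : ℕ) (hN : N ≠ 0) (j : ℕ) (τ : ℍ) :
    Function.Periodic.qParam 1 ((heckeMatrix N j • τ : ℍ) : ℂ)
      = h5x_zeta N ^ j * Function.Periodic.qParam N τ := by
  have hNC : (N : ℂ) ≠ 0 := by exact_mod_cast hN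
  rw [coe_heckeMatrix_smul hN, Function.Periodic.qParam, Function.Periodic.qParam, h5x_zeta,
    ← Complex.exp_nat_mul, ← Complex.exp_add]
  congr 1
  push_cast
  field_simp
  ring

/-- The `𝕢_N`-expansion of `τ ↦ f ((τ + j)/N)`. -/
lemma h5x_hasSum_heckeMatrix (N : ℕ) (hN : N ≠ 0) (j : ℕ) (a : ℕ → ℂ) (f : ℍ → ℂ)
    (hf : ∀ w : ℍ, HasSum (fun m : ℕ => a m • Function.Periodic.qParam 1 w ^ m) (f w)) (τ : ℍ) :
    HasSum (fun m : ℕ => (a m * h5x_zeta N ^ (j * m)) • Function.Periodic.qParam N τ ^ m)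
      (f (heckeMatrix N j • τ)) := by
  have := hf (heckeMatrix N j • τ)
  rw [h5x_qParam_heckeMatrix N hN j τ] at this
  convert this using 2 with m
  simp only [smul_eq_mul, mul_pow, pow_mul]
  ring

/-- The `𝕢_{N e}`-expansion of `τ ↦ f ((τ + j)/N)`. -/
lemma h5x_hasSum_heckeMatrix_scale (N : ℕ) (hN : N ≠ 0) (e : ℕ) (he : e ≠ 0) (j : ℕ) (a : ℕ → ℂ)
    (f : ℍ → ℂ)
    (hf : ∀ w : ℍ, HasSum (fun m : ℕ => a m • Function.Periodic.qParam 1 w ^ m) (f w)) (τ : ℍ) :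
    HasSum (fun m : ℕ => (if e ∣ m then a (m / e) * h5x_zeta N ^ (j * (m / e)) else 0) •
      Function.Periodic.qParam ((N * e : ℕ) : ℝ) τ ^ m) (f (heckeMatrix N j • τ)) := by
  have h1 := h5x_hasSum_heckeMatrix N hN j a f hf τ
  have h2 := h5x_hasSum_scale (N : ℝ) e he _ _ _ h1
  rw [Nat.cast_mul]
  exact h2

/-- The `𝕢_d`-expansion of `f` itself. -/
lemma h5x_hasSum_self_scale (d : ℕ) (hd : d ≠ 0) (a : ℕ → ℂ) (f : ℍ → ℂ)
    (hf : ∀ w : ℍ, HasSum (fun m : ℕ => a m • Function.Periodic.qParam 1 w ^ m) (f w)) (τ : ℍ) :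
    HasSum (fun m : ℕ => (if d ∣ m then a (m / d) else 0) •
      Function.Periodic.qParam ((d : ℕ) : ℝ) τ ^ m) (f τ) := by
  have h2 := h5x_hasSum_scale 1 d hd a _ _ (hf τ)
  rw [one_mul] at h2
  exact h2

end Fermat.Agent.Lib.S16
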