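/-
S16 project, helper7: the coefficient ring.  For `h ≥ 1` the subring `h7g_R h ⊂ ℂ` of all `x` with
`h ^ N * x` an algebraic integer for some `N` (it contains all algebraic integers, in particular
`ℤ` and all roots of unity, and `1 / h`), and for a prime `ℓ ∤ h` a ring homomorphism from it onto
a field of characteristic `ℓ`.
-/
import Mathlib
import Fermat.Agent.Lib.S16.Defs

set_option autoImplicit false

namespace Fermat.Agent.Lib.S16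

/-- `ℤ̄[1/h] ⊂ ℂ`: the complex numbers `x` such that `h ^ N * x` is an algebraic integer for
some `N`. -/
def h7g_R (h : ℕ) : Subring ℂ where
  carrier := {x | ∃ N : ℕ, IsIntegral ℤ ((h : ℂ) ^ N * x)}
  mul_mem' := by
    rintro x y ⟨N, hx⟩ ⟨M, hy⟩
    refine ⟨N + M, ?_⟩
    have : (h : ℂ) ^ (N + M) * (x * y) = ((h : ℂ) ^ N * x) * ((h : ℂ) ^ M * y) := by ring
    rw [this]
    exact hx.mul hy
  one_mem' := ⟨0, by simpa using isIntegral_one⟩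
  add_mem' := by
    rintro x y ⟨N, hx⟩ ⟨M, hy⟩
    refine ⟨N + M, ?_⟩
    have : (h : ℂ) ^ (N + M) * (x + y) =
        (h : ℂ) ^ M * ((h : ℂ) ^ N * x) + (h : ℂ) ^ N * ((h : ℂ) ^ M * y) := by ring
    rw [this]
    have hh : IsIntegral ℤ (h : ℂ) := by
      simpa using (isIntegral_algebraMap (R := ℤ) (A := ℂ) (x := (h : ℤ)))
    exact ((hh.pow M).mul hx).add ((hh.pow N).mul hy)
  zero_mem' := ⟨0, by simpa using isIntegral_zero⟩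
  neg_mem' := by
    rintro x ⟨N, hx⟩
    refine ⟨N, ?_⟩
    rw [mul_neg]
    exact hx.neg

theorem h7g_mem_R_iff (h : ℕ) (x : ℂ) :
    x ∈ h7g_R h ↔ ∃ N : ℕ, IsIntegral ℤ ((h : ℂ) ^ N * x) := Iff.rfl

theorem h7g_isIntegral_mem (h : ℕ) {x : ℂ} (hx : IsIntegral ℤ x) : x ∈ h7g_R h :=
  ⟨0, by simpa using hx⟩

theorem h7g_intCast_mem (h : ℕ) (n : ℤ) : (n : ℂ) ∈ h7g_R h :=
  intCast_mem (h7g_R h) n

theorem h7g_inv_mem (h : ℕ) (hh : h ≠ 0) : ((h : ℂ))⁻¹ ∈ h7g_R h := by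
  refine ⟨1, ?_⟩
  have : (h : ℂ) ^ 1 * ((h : ℂ))⁻¹ = 1 := by
    rw [pow_one, mul_inv_cancel₀ (Nat.cast_ne_zero.mpr hh)]
  rw [this]
  exact isIntegral_one

/-- roots of unity lie in `h7g_R h` -/
theorem h7g_rootOfUnity_mem (h : ℕ) {ζ : ℂ} {n : ℕ} (hn : n ≠ 0) (hζ : ζ ^ n = 1) :
    ζ ∈ h7g_R h :=
  h7g_isIntegral_mem h (IsIntegral.of_pow (Nat.pos_of_ne_zero hn) (by rw [hζ]; exact isIntegral_one))

theorem h7g_exp_mem (h m : ℕ) (hm : m ≠ 0) :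
    Complex.exp (2 * Real.pi * Complex.I / m) ∈ h7g_R h := by
  apply h7g_rootOfUnity_mem h hm
  rw [← Complex.exp_nat_mul, mul_div_cancel₀ _ (Nat.cast_ne_zero.mpr hm)]
  exact Complex.exp_two_pi_mul_I

/-- a prime `ℓ ∤ h` is not a unit of `h7g_R h` -/
theorem h7g_not_isUnit (h ℓ : ℕ) (hℓ : ℓ.Prime) (hℓh : ¬ ℓ ∣ h) :
    ¬ IsUnit ((ℓ : ℤ) : h7g_R h) := by
  rintro ⟨u, hu⟩
  obtain ⟨N, hN⟩ := ((u⁻¹ : (h7g_R h)ˣ) : h7g_R h).2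
  have h1 : ((ℓ : ℤ) : h7g_R h) * ((u⁻¹ : (h7g_R h)ˣ) : h7g_R h) = 1 := by
    rw [← hu]
    exact u.mul_inv
  have h2 : (ℓ : ℂ) * (((u⁻¹ : (h7g_R h)ˣ) : h7g_R h) : ℂ) = 1 := by
    have := congrArg (fun z : h7g_R h => (z : ℂ)) h1
    simpa using this
  have hℓ0 : (ℓ : ℂ) ≠ 0 := Nat.cast_ne_zero.mpr hℓ.ne_zero
  have hx : (((u⁻¹ : (h7g_R h)ˣ) : h7g_R h) : ℂ) = ((ℓ : ℂ))⁻¹ :=
    eq_inv_of_mul_eq_one_right h2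
  rw [hx] at hN
  -- `h ^ N / ℓ` is a rational algebraic integer
  have hq : (h : ℂ) ^ N * ((ℓ : ℂ))⁻¹ = algebraMap ℚ ℂ ((h : ℚ) ^ N / ℓ) := by
    rw [eq_ratCast]
    push_cast
    rw [div_eq_mul_inv]
  rw [hq] at hN
  have hintQ : IsIntegral ℤ ((h : ℚ) ^ N / ℓ) :=
    (isIntegral_algebraMap_iff (algebraMap ℚ ℂ).injective).mp hN
  obtain ⟨m, hm⟩ := IsIntegrallyClosed.isIntegral_iff.mp hintQ
  rw [eq_intCast] at hm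
  have hℓQ : (ℓ : ℚ) ≠ 0 := Nat.cast_ne_zero.mpr hℓ.ne_zero
  have hmul : ((m * ℓ : ℤ) : ℚ) = (((h : ℤ) ^ N : ℤ) : ℚ) := by
    push_cast
    rw [hm]
    field_simp
  have hdvd : (ℓ : ℤ) ∣ (h : ℤ) ^ N := ⟨m, by rw [← Int.cast_injective hmul]; ring⟩
  have hdvd' : ℓ ∣ h ^ N := by exact_mod_cast hdvd
  exact hℓh (hℓ.dvd_of_dvd_pow hdvd')

theorem h7g_exists_maximal (h ℓ : ℕ) (hℓ : ℓ.Prime) (hℓh : ¬ ℓ ∣ h) :
    ∃ 𝔪 : Ideal (h7g_R h), 𝔪.IsMaximal ∧ ((ℓ : ℤ) : h7g_R h) ∈ 𝔪 := by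
  have hne : Ideal.span {((ℓ : ℤ) : h7g_R h)} ≠ ⊤ := fun htop =>
    h7g_not_isUnit h ℓ hℓ hℓh (Ideal.span_singleton_eq_top.mp htop)
  obtain ⟨𝔪, h𝔪max, h𝔪le⟩ := Ideal.exists_le_maximal _ hne
  exact ⟨𝔪, h𝔪max, h𝔪le (Ideal.subset_span rfl)⟩

/-- a maximal ideal of `h7g_R h` containing `ℓ` (junk value `⊥` if `ℓ | h` or `ℓ` not prime) -/
noncomputable def h7g_m (h ℓ : ℕ) : Ideal (h7g_R h) :=
  open Classical in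
  if hc : ℓ.Prime ∧ ¬ ℓ ∣ h then (h7g_exists_maximal h ℓ hc.1 hc.2).choose else ⊥

theorem h7g_m_isMaximal (h ℓ : ℕ) (hℓ : ℓ.Prime) (hℓh : ¬ ℓ ∣ h) : (h7g_m h ℓ).IsMaximal := by
  rw [h7g_m, dif_pos ⟨hℓ, hℓh⟩]
  exact (h7g_exists_maximal h ℓ hℓ hℓh).choose_spec.1

theorem h7g_ell_mem_m (h ℓ : ℕ) (hℓ : ℓ.Prime) (hℓh : ¬ ℓ ∣ h) :
    ((ℓ : ℤ) : h7g_R h) ∈ h7g_m h ℓ := by
  rw [h7g_m, dif_pos ⟨hℓ, hℓh⟩]
  exact (h7g_exists_maximal h ℓ hℓ hℓh).choose_spec.2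

/-- **(Ring)**: for a prime `ℓ ∤ h` there are a field `𝔽` of characteristic `ℓ` and a surjective
ring homomorphism `φ : h7g_R h → 𝔽`. -/
theorem h7g_exists_residue (h ℓ : ℕ) (hℓ : ℓ.Prime) (hℓh : ¬ ℓ ∣ h) :
    ∃ (𝔽 : Type) (_ : Field 𝔽) (_ : CharP 𝔽 ℓ) (φ : h7g_R h →+* 𝔽), Function.Surjective φ := by
  have := h7g_m_isMaximal h ℓ hℓ hℓh
  let _ : Field (h7g_R h ⧸ h7g_m h ℓ) := Ideal.Quotient.field _
  refine ⟨h7g_R h ⧸ h7g_m h ℓ, inferInstance, ?_, Ideal.Quotient.mk _, Ideal.Quotient.mk_surjective⟩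
  have h0 : ((ℓ : ℕ) : h7g_R h ⧸ h7g_m h ℓ) = 0 := by
    have := Ideal.Quotient.eq_zero_iff_mem.mpr (h7g_ell_mem_m h ℓ hℓ hℓh)
    simpa using this
  have : Fact ℓ.Prime := ⟨hℓ⟩
  exact (CharP.charP_iff_prime_eq_zero hℓ).mpr h0

/-- The contract `CoeffRing` of `Defs`. -/
theorem h7g_coeffRing : CoeffRing := by
  intro ℓ h hℓ hh hℓh
  obtain ⟨𝔽, hF, hchar, φ, -⟩ := h7g_exists_residue h ℓ hℓ hℓh
  refine ⟨h7g_R h, 𝔽, hF, φ, h7g_inv_mem h hh.ne', h7g_exp_mem h h hh.ne', ?_⟩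
  rw [map_natCast]
  exact CharP.cast_eq_zero 𝔽 ℓ

end Fermat.Agent.Lib.S16
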