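import Mathlib
import Fermat.Agent.Lib.S16.Defs
import Fermat.Agent.Lib.S16.H1TraceMain
import Fermat.Agent.Lib.S16.H5Expand
import Fermat.Agent.Lib.S16.H7Ring

/-!
# Project S16, cases (a),(b),(c): the `G`-side expansions (helper1)

For `G ∈ M₂(Γ₀(p))` with `𝕢₁`-coefficients `a n`, and every `γ ∈ SL₂(ℤ)`, the expansion of
`G ∣[2] γ` in the parameter `𝕢_{e p}` (`e ≠ 0`, in the application `e = M ∈ {2, 3}`):

* `γ ∈ Γ₀(p)`: coefficients `h1g_cIn p e a m = [e p ∣ m] · a (m / (e p))`;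
* `γ ∉ Γ₀(p)`: there is `j < p` such that the coefficients are
  `h1g_cOut p e a j m = [e ∣ m] · (-p⁻¹) · a ((m / e) · p) · ζ_p ^ (j · (m / e))`.
-/

set_option autoImplicit false

open scoped MatrixGroups ModularForm
open Matrix.SpecialLinearGroup ModularGroup CongruenceSubgroup UpperHalfPlane ModularFormClass

noncomputable section

namespace Fermat.Agent.Lib.S16

/-- The `𝕢₁`-expansion of a modular form on `Γ₀(p)`. -/
theorem h1g_hasSum_one {p : ℕ} [NeZero p] {k : ℤ} (G : ModularForm (Gamma0 p) k) (w : ℍ) :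
    HasSum (fun m : ℕ => (qExpansion 1 G).coeff m • Function.Periodic.qParam 1 w ^ m) (G w) := by
  have := ModularForm.hasSum_qExpansion G one_pos (one_mem_strictPeriods_Gamma0 p) w
  simpa [smul_eq_mul] using this

/-- Coefficients of `G ∣ γ` in `𝕢_{e p}` for `γ ∈ Γ₀(p)`. -/
def h1g_cIn (p e : ℕ) (a : ℕ → ℂ) (m : ℕ) : ℂ := if e * p ∣ m then a (m / (e * p)) else 0

/-- Coefficients of `G ∣ γ` in `𝕢_{e p}` for `γ ∉ Γ₀(p)` (of type `j`). -/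
def h1g_cOut (p e : ℕ) (a : ℕ → ℂ) (j : ℕ) (m : ℕ) : ℂ :=
  if e ∣ m then -(p : ℂ)⁻¹ * (a ((m / e) * p) * h5x_zeta p ^ (j * (m / e))) else 0

theorem h1g_hasSum_in {p : ℕ} [NeZero p] (e : ℕ) (he : e ≠ 0) {k : ℤ}
    (G : ModularForm (Gamma0 p) k) (γ : SL(2, ℤ)) (hγ : γ ∈ Gamma0 p) (τ : ℍ) :
    HasSum (fun m : ℕ => h1g_cIn p e (fun n => (qExpansion 1 G).coeff n) m •
        Function.Periodic.qParam ((e * p : ℕ) : ℝ) τ ^ m)
      ((⇑G ∣[k] (mapGL ℝ γ : GL (Fin 2) ℝ)) τ) := by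
  have hinv : ⇑G ∣[k] (mapGL ℝ γ : GL (Fin 2) ℝ) = ⇑G :=
    SlashInvariantFormClass.slash_action_eq G _ ⟨_, hγ, rfl⟩
  rw [hinv]
  exact h5x_hasSum_self_scale (e * p) (Nat.mul_ne_zero he (NeZero.ne p)) _ _
    (fun w => h1g_hasSum_one G w) τ

theorem h1g_hasSum_out {p : ℕ} [NeZero p] (hp : p.Prime) (e : ℕ) (he : e ≠ 0)
    (G : ModularForm (Gamma0 p) 2) (γ : SL(2, ℤ)) (hγ : γ ∉ Gamma0 p) :
    ∃ j : ℕ, j < p ∧ ∀ τ : ℍ,
      HasSum (fun m : ℕ => h1g_cOut p e (fun n => (qExpansion 1 G).coeff n) j m •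
          Function.Periodic.qParam ((e * p : ℕ) : ℝ) τ ^ m)
        ((⇑G ∣[(2 : ℤ)] (mapGL ℝ γ : GL (Fin 2) ℝ)) τ) := by
  obtain ⟨j, hj, hz⟩ := h1t_slash_of_not_mem hp G γ hγ
  refine ⟨j, hj, fun τ => ?_⟩
  rw [hz τ]
  have h1 := h5x_hasSum_heckeMatrix_scale p (NeZero.ne p) e he j
    (fun n => (qExpansion 1 (h1t_U G)).coeff n) (h1t_U G) (fun w => h1g_hasSum_one (h1t_U G) w) τ
  have h2 := h1.mul_left (-(p : ℂ)⁻¹)
  rw [Nat.mul_comm p e] at h2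
  have h3 : (fun m : ℕ => h1g_cOut p e (fun n => (qExpansion 1 G).coeff n) j m •
          Function.Periodic.qParam ((e * p : ℕ) : ℝ) τ ^ m) =
      fun i : ℕ => -(p : ℂ)⁻¹ * ((if e ∣ i then (qExpansion 1 (h1t_U G)).coeff (i / e) *
          h5x_zeta p ^ (j * (i / e)) else 0) • Function.Periodic.qParam ((e * p : ℕ) : ℝ) τ ^ i) := by
    funext m
    unfold h1g_cOut
    simp only [smul_eq_mul]
    split_ifs with hm
    · rw [h1t_coeff_U G (m / e)]; ring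
    · ring
  rw [h3]
  exact h2

/-- `p⁻¹ ∈ ℤ̄[1/(e p)]`. -/
theorem h1g_inv_mem (p e : ℕ) (hp : p ≠ 0) (he : e ≠ 0) : ((p : ℂ))⁻¹ ∈ h7g_R (e * p) := by
  have h1 := h7g_inv_mem (e * p) (Nat.mul_ne_zero he hp)
  have h2 : ((p : ℂ))⁻¹ = (e : ℂ) * (((e * p : ℕ) : ℂ))⁻¹ := by
    have hpC : (p : ℂ) ≠ 0 := by exact_mod_cast hp
    have heC : (e : ℂ) ≠ 0 := by exact_mod_cast he
    push_cast
    field_simp
  rw [h2]
  exact (h7g_R (e * p)).mul_mem (by simpa using h7g_intCast_mem (e * p) (e : ℤ)) h1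

theorem h1g_zeta_mem (h p : ℕ) (hp : p ≠ 0) : h5x_zeta p ∈ h7g_R h :=
  h7g_exp_mem h p hp

theorem h1g_cIn_mem (h p e : ℕ) (a : ℕ → ℂ) (ha : ∀ n, a n ∈ h7g_R h) (m : ℕ) :
    h1g_cIn p e a m ∈ h7g_R h := by
  unfold h1g_cIn
  split_ifs
  · exact ha _
  · exact (h7g_R h).zero_mem

theorem h1g_cOut_mem (p e : ℕ) (hp : p ≠ 0) (he : e ≠ 0) (a : ℕ → ℂ)
    (ha : ∀ n, a n ∈ h7g_R (e * p)) (j m : ℕ) :
    h1g_cOut p e a j m ∈ h7g_R (e * p) := by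
  unfold h1g_cOut
  split_ifs
  · exact (h7g_R (e * p)).mul_mem ((h7g_R (e * p)).neg_mem (h1g_inv_mem p e hp he))
      ((h7g_R (e * p)).mul_mem (ha _) ((h7g_R (e * p)).pow_mem (h1g_zeta_mem _ p hp) _))
  · exact (h7g_R (e * p)).zero_mem

/-- `p · cOut` in closed form. -/
theorem h1g_p_mul_cOut (p e : ℕ) (hp : p ≠ 0) (a : ℕ → ℂ) (j m : ℕ) :
    (p : ℂ) * h1g_cOut p e a j m =
      if e ∣ m then -(a ((m / e) * p) * h5x_zeta p ^ (j * (m / e))) else 0 := by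
  have hpC : (p : ℂ) ≠ 0 := by exact_mod_cast hp
  unfold h1g_cOut
  split_ifs
  · field_simp
  · simp

theorem h1g_cOut_zero (p e : ℕ) (a : ℕ → ℂ) (j : ℕ) :
    h1g_cOut p e a j 0 = -(p : ℂ)⁻¹ * a 0 := by
  simp [h1g_cOut]

theorem h1g_cIn_zero (p e : ℕ) (a : ℕ → ℂ) : h1g_cIn p e a 0 = a 0 := by
  simp [h1g_cIn]

/-- **G-side, packaged** in the same shape as `h5y_expansion`: for every `γ ∈ SL₂(ℤ)` the
`𝕢_{e p}`-expansion of `G ∣[2] γ`, with coefficients in `ℤ̄[1/(e p)]` as soon as the `𝕢₁`-coefficients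
`a n` of `G` are. -/
theorem h1g_expansion {p : ℕ} [NeZero p] (hp : p.Prime) (e : ℕ) (he : e ≠ 0)
    (G : ModularForm (Gamma0 p) 2) (a : ℕ → ℂ) (ha : ∀ n, (qExpansion 1 G).coeff n = a n)
    (haR : ∀ n, a n ∈ h7g_R (e * p)) (γ : SL(2, ℤ)) :
    ∃ c : ℕ → ℂ,
      (∀ τ : ℍ, HasSum (fun m => c m • Function.Periodic.qParam ((e * p : ℕ) : ℝ) τ ^ m)
        (((⇑G : ℍ → ℂ) ∣[(2 : ℤ)] γ) τ)) ∧
      (∀ m, c m ∈ h7g_R (e * p)) ∧
      ((γ ∈ Gamma0 p ∧ ∀ m, c m = if (e * p) ∣ m then a (m / (e * p)) else 0) ∨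
        (γ ∉ Gamma0 p ∧ ∃ j : ℕ, j < p ∧ ∀ m, c m =
          if e ∣ m then -(p : ℂ)⁻¹ * (a ((m / e) * p) * h5x_zeta p ^ (j * (m / e))) else 0)) := by
  have hfun : (fun n => (qExpansion 1 G).coeff n) = a := funext ha
  by_cases hγ : γ ∈ Gamma0 p
  · refine ⟨h1g_cIn p e a, fun τ => ?_, h1g_cIn_mem _ p e a haR, Or.inl ⟨hγ, fun m => rfl⟩⟩
    have := h1g_hasSum_in e he G γ hγ τ
    rw [hfun] at this
    exact this
  · obtain ⟨j, hj, hsum⟩ := h1g_hasSum_out hp e he G γ hγ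
    refine ⟨h1g_cOut p e a j, fun τ => ?_, h1g_cOut_mem p e (NeZero.ne p) he a haR j,
      Or.inr ⟨hγ, j, hj, fun m => rfl⟩⟩
    have := hsum τ
    rw [hfun] at this
    exact this

end Fermat.Agent.Lib.S16
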