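import Mathlib
import Fermat.Agent.Lib.S16.Defs
import Fermat.Agent.Lib.S16.H1TraceMain

/-!
# `TraceId p` (the `Defs` contract) from `h1t_traceId`
-/

set_option autoImplicit false

open scoped MatrixGroups ModularForm
open Matrix.SpecialLinearGroup ModularGroup CongruenceSubgroup UpperHalfPlane ModularFormClass

namespace Fermat.Agent.Lib.S16

theorem h1t_sigmaThree_eq (n : ℕ) : (sigmaThree n : ℂ) = (ArithmeticFunction.sigma 3 n : ℂ) := by
  rw [sigmaThree, ArithmeticFunction.sigma_apply]

/-- The `Defs` contract `TraceId p` for every prime `p`. -/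
theorem h1t_traceId_contract {p : ℕ} (hp : p.Prime) : TraceId p := by
  have : NeZero p := ⟨hp.ne_zero⟩
  intro G
  obtain ⟨G', -, h1, h2, h3, h4⟩ := h1t_traceId hp G
  refine ⟨G', fun j => ?_, fun j => ?_, fun n => ?_, fun γ hγ => ?_⟩
  · rw [mul_comm]; exact h1 j
  · rw [mul_comm]; exact h2 j
  · rw [mul_comm p n, h3 n, h1t_E4_coeff, h1t_sigmaThree_eq]
    rfl
  · exact h4 γ hγ

end Fermat.Agent.Lib.S16
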