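/-
S16 project, helper2: coset combinatorics for `Γ₀(M·p)` (blueprint 1.3).

For `j : ℤ` put `γ_j := [[1, j], [M, M j + 1]] ∈ SL(2,ℤ)`.  Then
* `h2c_gam_mem`      : `γ_j ∈ Γ₀(M)`;
* `h2c_gam_not_mem`  : `γ_j ∉ Γ₀(p)` if `p` is a prime not dividing `M`;
* `h2c_gam_inj`      : `γ_i γ_j⁻¹ ∈ Γ₀(M p) → i = j` for `i, j < p` (the shape of `hinj` in
                       `h8n_normMech_Gamma0`);
* `h2c_index`        : `[SL(2,ℤ) : Γ₀(M p)] = (M + 1) (p + 1)` for distinct primes `M`, `p`;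
* `h2c_not_le`       : `¬ (p * 12 ≤ 2 * [SL(2,ℤ) : Γ₀(M p)])` for `M ∈ {2, 3}`, `p ≥ 5` prime.
-/
import Mathlib
import Fermat.Agent.Lib.X0.P1Count

set_option autoImplicit false

open scoped MatrixGroups
open CongruenceSubgroup Matrix ModularCurve Fermat.Agent.Lib.X0

namespace Fermat.Agent.Lib.S16

/-- `γ_j = [[1, j], [M, M j + 1]]`. -/
def h2c_gam (M : ℕ) (j : ℤ) : SL(2, ℤ) :=
  ⟨!![1, j; (M : ℤ), (M : ℤ) * j + 1], by rw [Matrix.det_fin_two_of]; ring⟩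

theorem h2c_coe_gam (M : ℕ) (j : ℤ) :
    ((h2c_gam M j : SL(2, ℤ)) : Matrix (Fin 2) (Fin 2) ℤ) = !![1, j; (M : ℤ), (M : ℤ) * j + 1] :=
  rfl

theorem h2c_coe_gam_inv (M : ℕ) (j : ℤ) :
    (((h2c_gam M j)⁻¹ : SL(2, ℤ)) : Matrix (Fin 2) (Fin 2) ℤ) =
      !![(M : ℤ) * j + 1, -j; -(M : ℤ), 1] := by
  rw [Matrix.SpecialLinearGroup.coe_inv, h2c_coe_gam, Matrix.adjugate_fin_two_of]

theorem h2c_gam_mem (M : ℕ) (j : ℤ) : h2c_gam M j ∈ Gamma0 M := by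
  rw [Gamma0_mem, h2c_coe_gam]
  simp

theorem h2c_gam_not_mem {M p : ℕ} (hp : p.Prime) (hM : ¬ p ∣ M) (j : ℤ) :
    h2c_gam M j ∉ Gamma0 p := by
  rw [Gamma0_mem, h2c_coe_gam]
  simp only [Matrix.of_apply, Matrix.cons_val_one, Matrix.cons_val_zero, Int.cast_natCast]
  rw [ZMod.natCast_eq_zero_iff]
  exact hM

/-- lower-left entry of `γ_i γ_j⁻¹`. -/
theorem h2c_gam_mul_inv_lower (M : ℕ) (i j : ℤ) :
    ((h2c_gam M i * (h2c_gam M j)⁻¹ : SL(2, ℤ)) : Matrix (Fin 2) (Fin 2) ℤ) 1 0 =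
      (M : ℤ) * (M : ℤ) * (j - i) := by
  rw [Matrix.SpecialLinearGroup.coe_mul, h2c_coe_gam, h2c_coe_gam_inv, Matrix.mul_apply]
  simp [Fin.sum_univ_two]
  ring

theorem h2c_gam_inj {M p : ℕ} (hp : p.Prime) (hM : ¬ p ∣ M) {i j : ℕ} (hi : i < p) (hj : j < p)
    (h : h2c_gam M (i : ℤ) * (h2c_gam M (j : ℤ))⁻¹ ∈ Gamma0 (M * p)) : i = j := by
  rw [Gamma0_mem, h2c_gam_mul_inv_lower, ZMod.intCast_zmod_eq_zero_iff_dvd] at h
  have hM0 : (M : ℤ) ≠ 0 := by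
    intro h0
    apply hM
    have : M = 0 := by exact_mod_cast h0
    rw [this]
    exact dvd_zero p
  have h1 : (p : ℤ) ∣ (M : ℤ) * ((j : ℤ) - (i : ℤ)) := by
    have h2 : (M : ℤ) * (p : ℤ) ∣ (M : ℤ) * ((M : ℤ) * ((j : ℤ) - (i : ℤ))) := by
      have : ((M * p : ℕ) : ℤ) = (M : ℤ) * (p : ℤ) := by push_cast; ring
      rw [← this, ← mul_assoc]
      exact h
    exact (mul_dvd_mul_iff_left hM0).mp h2
  have hpZ : Prime (p : ℤ) := Nat.prime_iff_prime_int.mp hp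
  have h3 : (p : ℤ) ∣ (j : ℤ) - (i : ℤ) := by
    rcases hpZ.dvd_or_dvd h1 with h4 | h4
    · exact absurd (Int.natCast_dvd_natCast.mp h4) hM
    · exact h4
  obtain ⟨c, hc⟩ := h3
  have hlt : |(j : ℤ) - (i : ℤ)| < (p : ℤ) := by
    rw [abs_lt]
    constructor <;> omega
  have hc0 : c = 0 := by
    by_contra hne
    have : (p : ℤ) ≤ |(j : ℤ) - (i : ℤ)| := by
      rw [hc, abs_mul]
      have h5 : (1 : ℤ) ≤ |c| := Int.one_le_abs hne
      have h6 : (0 : ℤ) ≤ |(p : ℤ)| := abs_nonneg _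
      have h7 : |(p : ℤ)| = (p : ℤ) := abs_of_nonneg (by positivity)
      nlinarith
    omega
  rw [hc0, mul_zero] at hc
  omega

/-- the form of `h2c_gam_inj` used by `h8n_normMech_Gamma0` with `t = Finset.range p`. -/
theorem h2c_hinj {M p : ℕ} (hp : p.Prime) (hM : ¬ p ∣ M) :
    ∀ i ∈ Finset.range p, ∀ j ∈ Finset.range p,
      h2c_gam M ((i : ℕ) : ℤ) * (h2c_gam M ((j : ℕ) : ℤ))⁻¹ ∈ Gamma0 (M * p) → i = j := by
  intro i hi j hj h
  exact h2c_gam_inj hp hM (Finset.mem_range.mp hi) (Finset.mem_range.mp hj) h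

theorem h2c_psi_prime {p : ℕ} (hp : p.Prime) : dedekindPsi p = p + 1 := by
  have := h6_psi_prime_pow hp (k := 1) one_pos
  simpa using this

theorem h2c_index_eq_psi (N : ℕ) [NeZero N] : (Gamma0 N).index = dedekindPsi N := by
  rw [← h6_card_QN N]
  rfl

theorem h2c_index_prime {p : ℕ} (hp : p.Prime) : (Gamma0 p).index = p + 1 := by
  haveI : NeZero p := ⟨hp.ne_zero⟩
  rw [h2c_index_eq_psi, h2c_psi_prime hp]

theorem h2c_index {M p : ℕ} (hM : M.Prime) (hp : p.Prime) (hne : M ≠ p) :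
    (Gamma0 (M * p)).index = (M + 1) * (p + 1) := by
  haveI : NeZero (M * p) := ⟨Nat.mul_ne_zero hM.ne_zero hp.ne_zero⟩
  rw [h2c_index_eq_psi, h6_psi_mul ((Nat.coprime_primes hM hp).mpr hne), h2c_psi_prime hM,
    h2c_psi_prime hp]

/-- the final numerical contradiction of the norm mechanism: `12 p ≤ 2 (M+1)(p+1)` fails. -/
theorem h2c_not_le {M p : ℕ} (hM : M = 2 ∨ M = 3) (hp : p.Prime) (hp5 : 5 ≤ p) :
    ¬ (((Finset.range p).card : ℤ) * 12 ≤ 2 * ((Gamma0 (M * p)).index : ℤ)) := by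
  have hMp : M.Prime := by
    rcases hM with rfl | rfl
    · exact Nat.prime_two
    · exact Nat.prime_three
  have hne : M ≠ p := by rcases hM with rfl | rfl <;> omega
  rw [h2c_index hMp hp hne, Finset.card_range]
  push_cast
  rcases hM with rfl | rfl <;> push_cast <;> intro h <;> nlinarith [(Nat.cast_le (α := ℤ)).mpr hp5]

end Fermat.Agent.Lib.S16
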