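import Fermat.Agent.Lib.S16.H2PermK

/-!
# (S16, LB, S-ii) Orbit sums and invariants of a permutation module over any field (owner: helper2)

For `g : G` acting on a finite set `Q` and ANY field `k`:
* `h2k_finrank_inv_eq` : `dim_k (Q → k)^g = #(⟨g⟩-orbits on Q)` (independent of `k`);
* `h2k_range_eq_ker_orbSum` : `range (1 - ρ g) = {v | every ⟨g⟩-orbit sum of v vanishes}`;
* `h2k_mem_range_of_pow_sums`, `h2k_mem_range_of_inv_pow_sums` : pointwise forms.
-/

set_option autoImplicit false

noncomputable section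

namespace Fermat.Agent.Lib.S16

section Orbit

variable {G : Type*} [Group G] {k : Type*} [Field k] {Q : Type*} [MulAction G Q]

/-- `g`-invariant functions are invariant under all integer powers of `g`. -/
theorem h2k_inv_zpow (g : G) (v : Q → k) (hv : v ∈ h2k_inv k Q g) (n : ℤ) (q : Q) :
    v (g ^ n • q) = v q := by
  rw [h2k_mem_inv_iff] at hv
  have hinv : ∀ q, v (g⁻¹ • q) = v q := by
    intro q
    have := hv (g⁻¹ • q)
    rw [smul_inv_smul] at this
    exact this.symm
  induction n using Int.induction_on generalizing q with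
  | zero => simp
  | succ i ih =>
    rw [zpow_add_one, mul_smul, ih, hv]
  | pred i ih =>
    rw [zpow_sub_one, mul_smul, ih, hinv]

/-- The set of `⟨g⟩`-orbits on `Q`. -/
abbrev h2k_Orb (g : G) (Q : Type*) [MulAction G Q] : Type _ :=
  MulAction.orbitRel.Quotient (Subgroup.zpowers g) Q

/-- The projection to the orbit space. -/
def h2k_proj (g : G) : Q → h2k_Orb g Q := Quotient.mk''

theorem h2k_proj_surjective (g : G) : Function.Surjective (h2k_proj (Q := Q) g) :=
  Quotient.mk''_surjective

theorem h2k_proj_eq_iff (g : G) (q q' : Q) :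
    h2k_proj g q = h2k_proj g q' ↔ ∃ n : ℤ, g ^ n • q' = q := by
  unfold h2k_proj
  rw [Quotient.eq'', MulAction.orbitRel_apply, MulAction.mem_orbit_iff]
  constructor
  · rintro ⟨⟨x, hx⟩, hxq⟩
    obtain ⟨n, rfl⟩ := Subgroup.mem_zpowers_iff.1 hx
    exact ⟨n, hxq⟩
  · rintro ⟨n, hn⟩
    exact ⟨⟨g ^ n, Subgroup.zpow_mem_zpowers g n⟩, hn⟩

theorem h2k_proj_smul (g : G) (q : Q) : h2k_proj g (g • q) = h2k_proj g q := by
  rw [h2k_proj_eq_iff]
  exact ⟨1, by simp⟩

theorem h2k_proj_pow_smul (g : G) (i : ℕ) (q : Q) : h2k_proj g (g ^ i • q) = h2k_proj g q := by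
  rw [h2k_proj_eq_iff]
  exact ⟨i, by simp⟩

theorem h2k_proj_out (g : G) (ω : h2k_Orb g Q) : h2k_proj g (Quotient.out ω) = ω :=
  Quotient.out_eq' ω

variable [Finite Q]

/-- **(K3)** `dim_k V^g` is the number of `⟨g⟩`-orbits, for every field `k`. -/
theorem h2k_finrank_inv_eq (g : G) :
    Module.finrank k (h2k_inv k Q g) = Nat.card (h2k_Orb g Q) := by
  classical
  have : Fintype (h2k_Orb g Q) := Fintype.ofFinite _
  set L : (h2k_Orb g Q → k) →ₗ[k] (Q → k) := LinearMap.funLeft k k (h2k_proj g) with hL
  have hinj : Function.Injective L :=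
    LinearMap.funLeft_injective_of_surjective k k _ (h2k_proj_surjective g)
  have hrange : LinearMap.range L = h2k_inv k Q g := by
    apply le_antisymm
    · rintro _ ⟨f, rfl⟩
      rw [h2k_mem_inv_iff]
      intro q
      rw [hL, LinearMap.funLeft_apply, LinearMap.funLeft_apply, h2k_proj_smul]
    · intro v hv
      refine ⟨fun ω => v (Quotient.out ω), ?_⟩
      funext q
      rw [hL, LinearMap.funLeft_apply]
      obtain ⟨n, hn⟩ := (h2k_proj_eq_iff g _ q).1 (h2k_proj_out g (h2k_proj g q))
      show v (Quotient.out (h2k_proj g q)) = v q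
      rw [← hn, h2k_inv_zpow g v hv]
  rw [← hrange, LinearMap.finrank_range_of_inj hinj, Module.finrank_pi, Nat.card_eq_fintype_card]

end Orbit

section OrbSum

variable {G : Type*} [Group G] {k : Type*} [Field k] {Q : Type*} [MulAction G Q] [Fintype Q]

open Classical in
/-- The orbit-sum map `V → (orbits → k)`. -/
def h2k_orbSum (g : G) : (Q → k) →ₗ[k] (h2k_Orb g Q → k) where
  toFun v ω := ∑ q, if h2k_proj g q = ω then v q else 0
  map_add' v w := by
    funext ω
    simp only [Pi.add_apply]
    rw [← Finset.sum_add_distrib]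
    refine Finset.sum_congr rfl fun q _ => ?_
    split_ifs <;> simp
  map_smul' c v := by
    funext ω
    simp only [Pi.smul_apply, RingHom.id_apply, smul_eq_mul]
    rw [Finset.mul_sum]
    refine Finset.sum_congr rfl fun q _ => ?_
    split_ifs <;> simp

open Classical in
theorem h2k_orbSum_apply (g : G) (v : Q → k) (ω : h2k_Orb g Q) :
    h2k_orbSum g v ω = ∑ q, if h2k_proj g q = ω then v q else 0 := rfl

theorem h2k_orbSum_surjective (g : G) : Function.Surjective (h2k_orbSum (k := k) (Q := Q) g) := by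
  classical
  intro f
  refine ⟨fun q => if q = Quotient.out (h2k_proj g q) then f (h2k_proj g q) else 0, ?_⟩
  funext ω
  rw [h2k_orbSum_apply]
  have : ∀ q : Q, (if h2k_proj g q = ω then
      (if q = Quotient.out (h2k_proj g q) then f (h2k_proj g q) else 0) else 0)
      = if q = Quotient.out ω then f ω else 0 := by
    intro q
    by_cases h1 : h2k_proj g q = ω
    · rw [if_pos h1, h1]
    · rw [if_neg h1, if_neg]
      intro h2
      exact h1 (by rw [h2, h2k_proj_out])
  rw [Finset.sum_congr rfl fun q _ => this q, Finset.sum_ite_eq' Finset.univ (Quotient.out ω)]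
  simp

theorem h2k_range_le_ker_orbSum (g : G) :
    LinearMap.range (1 - h2k_rho k Q g) ≤ LinearMap.ker (h2k_orbSum (k := k) (Q := Q) g) := by
  classical
  rintro _ ⟨x, rfl⟩
  rw [LinearMap.mem_ker]
  funext ω
  rw [h2k_orbSum_apply, Pi.zero_apply]
  have h1 : ∀ q : Q, (if h2k_proj g q = ω then ((1 - h2k_rho k Q g) x) q else 0)
      = (if h2k_proj g q = ω then x q else 0)
        - (if h2k_proj g (g⁻¹ • q) = ω then x (g⁻¹ • q) else 0) := by
    intro q
    have hp : h2k_proj g (g⁻¹ • q) = h2k_proj g q := by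
      conv_rhs => rw [← smul_inv_smul g q]
      exact (h2k_proj_smul g (g⁻¹ • q)).symm
    rw [hp, LinearMap.sub_apply, Module.End.one_apply, Pi.sub_apply, h2k_rho_apply]
    split_ifs <;> simp
  rw [Finset.sum_congr rfl fun q _ => h1 q, Finset.sum_sub_distrib, sub_eq_zero]
  exact (Equiv.sum_comp (MulAction.toPerm g⁻¹ : Equiv.Perm Q)
    (fun q => if h2k_proj g q = ω then x q else 0)).symm

/-- **(K2)** `range (1 - ρ g)` is exactly the space of functions all of whose `⟨g⟩`-orbit sums
vanish (characteristic-free). -/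
theorem h2k_range_eq_ker_orbSum (g : G) :
    LinearMap.range (1 - h2k_rho k Q g) = LinearMap.ker (h2k_orbSum (k := k) (Q := Q) g) := by
  classical
  have : Fintype (h2k_Orb g Q) := Fintype.ofFinite _
  refine Submodule.eq_of_le_of_finrank_eq (h2k_range_le_ker_orbSum g) ?_
  have h1 := h2k_finrank_range_add (k := k) (Q := Q) g
  have h2 := LinearMap.finrank_range_add_finrank_ker (h2k_orbSum (k := k) (Q := Q) g)
  rw [LinearMap.range_eq_top.2 (h2k_orbSum_surjective g), finrank_top, Module.finrank_pi,
    Module.finrank_pi] at h2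
  rw [h2k_finrank_inv_eq, Nat.card_eq_fintype_card, Nat.card_eq_fintype_card] at h1
  omega

end OrbSum

section Pointwise

variable {G : Type*} [Group G] {k : Type*} [Field k] {Q : Type*} [MulAction G Q] [Finite Q]

/-- Every point of a finite `G`-set is periodic under any `a : G`. -/
theorem h2k_period_pos (a : G) (q : Q) : 0 < MulAction.period a q := by
  have hfin : IsOfFinOrder (MulAction.toPermHom G Q a) := isOfFinOrder_of_finite _
  have hpos := hfin.orderOf_pos
  refine MulAction.period_pos_of_fixed hpos ?_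
  have h := pow_orderOf_eq_one (MulAction.toPermHom G Q a)
  rw [← map_pow] at h
  have := congrArg (fun σ : Equiv.Perm Q => σ q) h
  simpa using this

/-- Pointwise form of (K2), positive powers. -/
theorem h2k_mem_range_of_pow_sums (a : G) (v : Q → k)
    (hv : ∀ (q : Q) (m : ℕ), a ^ m • q = q → ∑ i ∈ Finset.range m, v (a ^ i • q) = 0) :
    v ∈ LinearMap.range (1 - h2k_rho k Q a) := by
  classical
  have := Fintype.ofFinite Q
  rw [h2k_range_eq_ker_orbSum, LinearMap.mem_ker]
  funext ω
  rw [h2k_orbSum_apply, Pi.zero_apply]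
  set q₀ : Q := Quotient.out ω with hq₀
  set m := MulAction.period a q₀ with hm
  have hmpos : 0 < m := h2k_period_pos a q₀
  have hfix : a ^ m • q₀ = q₀ := MulAction.pow_period_smul a q₀
  -- the fibre over `ω` is the image of `i ↦ a^i • q₀` on `range m`
  have hfib : (Finset.univ.filter fun q : Q => h2k_proj a q = ω)
      = (Finset.range m).image (fun i => a ^ i • q₀) := by
    ext q
    simp only [Finset.mem_filter, Finset.mem_univ, true_and, Finset.mem_image, Finset.mem_range]
    constructor
    · intro hq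
      rw [← h2k_proj_out a ω, h2k_proj_eq_iff] at hq
      obtain ⟨n, hn⟩ := hq
      have hnn : 0 ≤ n % (m : ℤ) := Int.emod_nonneg _ (by exact_mod_cast hmpos.ne')
      have hlt : n % (m : ℤ) < m := Int.emod_lt_of_pos _ (by exact_mod_cast hmpos)
      refine ⟨(n % (m : ℤ)).toNat, by omega, ?_⟩
      rw [← zpow_natCast, Int.toNat_of_nonneg hnn, hm, MulAction.zpow_mod_period_smul]
      exact hn
    · rintro ⟨i, _, rfl⟩
      rw [h2k_proj_pow_smul, h2k_proj_out]
  have hinj : Set.InjOn (fun i => a ^ i • q₀) (Finset.range m : Set ℕ) := by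
    intro i hi j hj hij
    have h := Function.iterate_injOn_Iio_minimalPeriod (f := fun x : Q => a • x) (x := q₀)
    have hi' : i ∈ Set.Iio (Function.minimalPeriod (fun x : Q => a • x) q₀) := by
      simpa [hm, MulAction.period_eq_minimalPeriod] using hi
    have hj' : j ∈ Set.Iio (Function.minimalPeriod (fun x : Q => a • x) q₀) := by
      simpa [hm, MulAction.period_eq_minimalPeriod] using hj
    apply h hi' hj'
    simpa [smul_iterate_apply] using hij
  rw [← Finset.sum_filter, hfib, Finset.sum_image hinj]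
  exact hv q₀ m hfix

omit [Finite Q] in
/-- `range (1 - ρ a⁻¹) = range (1 - ρ a)`. -/
theorem h2k_range_inv (a : G) :
    LinearMap.range (1 - h2k_rho k Q a⁻¹) = LinearMap.range (1 - h2k_rho k Q a) := by
  have key : ∀ b : G, LinearMap.range (1 - h2k_rho k Q b⁻¹) ≤ LinearMap.range (1 - h2k_rho k Q b) := by
    intro b
    rintro _ ⟨x, rfl⟩
    refine ⟨-(h2k_rho k Q b⁻¹ x), ?_⟩
    simp only [LinearMap.sub_apply, Module.End.one_apply, map_neg, h2k_rho_apply_inv_self]
    abel
  apply le_antisymm (key a)
  have := key a⁻¹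
  rwa [inv_inv] at this

/-- Pointwise form of (K2) in the shape produced by `h6k_cocycle` (negative powers):
if `∑_{i<m} v ((t^i)⁻¹ • q) = 0` whenever `t^m • q = q`, then `v ∈ range (1 - ρ t)`. -/
theorem h2k_mem_range_of_inv_pow_sums (t : G) (v : Q → k)
    (hv : ∀ (q : Q) (m : ℕ), t ^ m • q = q → ∑ i ∈ Finset.range m, v ((t ^ i)⁻¹ • q) = 0) :
    v ∈ LinearMap.range (1 - h2k_rho k Q t) := by
  rw [← h2k_range_inv]
  apply h2k_mem_range_of_pow_sums
  intro q m hq
  have hq' : t ^ m • q = q := by
    rw [inv_pow, inv_smul_eq_iff] at hq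
    exact hq.symm
  have := hv q m hq'
  simpa [inv_pow] using this

end Pointwise

end Fermat.Agent.Lib.S16
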