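import Fermat.Agent.Lib.S16.H2ParEllDim
import Fermat.Agent.S21
import Fermat.Agent.S20

/-!
# (S16, LB, S-ii, T3a) `dim_ℂ Hom_par(Γ₀(N), ℂ) = 2 g` exactly (owner: helper2)
-/

set_option autoImplicit false

noncomputable section

namespace Fermat.Agent.Lib.S16

open ModularCurve ModularCurve.Period CongruenceSubgroup Fermat.Agent.Lib.X0 Fermat.Agent.Lib.S21
open scoped MatrixGroups

/-- Over `ℂ` (characteristic `0`) finite-order elements are killed automatically. -/
theorem h2k_parEllHoms_complex (N : ℕ) :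
    h2k_parEllHoms ℂ N = parabolicHoms ℂ (Gamma0 N) ℂ := by
  ext φ
  rw [h2k_mem_parEllHoms, mem_parabolicHoms_iff]
  constructor
  · intro h
    exact h.1
  · intro h
    refine ⟨h, fun γ hγ => ?_⟩
    obtain ⟨n, hn, hγn⟩ := isOfFinOrder_iff_pow_eq_one.mp hγ
    have h1 : φ (Additive.ofMul (γ ^ n)) = n • φ (Additive.ofMul γ) := by
      rw [ofMul_pow, map_nsmul]
    rw [hγn, ofMul_one, map_zero] at h1
    have h2 : (n : ℂ) * φ (Additive.ofMul γ) = 0 := by
      rw [← nsmul_eq_mul]; exact h1.symm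
    rcases mul_eq_zero.1 h2 with h3 | h3
    · exact absurd (by exact_mod_cast h3) hn.ne'
    · exact h3

/-- **(T3a)** `dim_ℂ Hom_par(Γ₀(N), ℂ) = 2 g` (from S21 and S20). -/
theorem h2k_finrank_parabolicHoms (N : ℕ) [NeZero N] :
    FiniteDimensional ℂ (parabolicHoms ℂ (Gamma0 N) ℂ) ∧
    (Module.finrank ℂ (parabolicHoms ℂ (Gamma0 N) ℂ) : ℚ) = 2 * genusFormula N := by
  obtain ⟨hinj, hrange⟩ := Fermat.Agent.S21.result N
  obtain ⟨hfinS, _⟩ := h8_dimStatement N
  have hdim := Fermat.Agent.S20.result N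
  have hfinP : FiniteDimensional ℂ (parabolicHoms ℂ (Gamma0 N) ℂ) := by
    rw [← hrange]
    infer_instance
  refine ⟨hfinP, ?_⟩
  have h1 : Module.finrank ℂ (parabolicHoms ℂ (Gamma0 N) ℂ)
      = Module.finrank ℂ (CuspForm (Gamma0 N) 2 × CuspForm (Gamma0 N) 2) := by
    rw [← hrange]
    exact LinearMap.finrank_range_of_inj hinj
  rw [h1, Module.finrank_prod]
  push_cast
  rw [hdim]
  ring

/-- The same for `h2k_parEllHoms ℂ N`. -/
theorem h2k_finrank_parEllHoms_complex (N : ℕ) [NeZero N] :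
    (Module.finrank ℂ (h2k_parEllHoms ℂ N) : ℚ) = 2 * genusFormula N := by
  rw [h2k_parEllHoms_complex]
  exact (h2k_finrank_parabolicHoms N).2

/-- For every field `k`: `dim_k Hom_{par,ell}(Γ₀(N), k) ≤ dim_ℂ Hom_par(Γ₀(N), ℂ)` (as naturals). -/
theorem h2k_parEllDim_le (k : Type*) [Field k] (N : ℕ) [NeZero N] :
    Module.finrank k (h2k_parEllHoms k N) ≤ Module.finrank ℂ (parabolicHoms ℂ (Gamma0 N) ℂ) := by
  have h1 := (h2k_parEllDim k N).2
  have h2 := (h2k_finrank_parabolicHoms N).2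
  have : (Module.finrank k (h2k_parEllHoms k N) : ℚ)
      ≤ (Module.finrank ℂ (parabolicHoms ℂ (Gamma0 N) ℂ) : ℚ) := by
    rw [h2]; exact h1
  exact_mod_cast this

end Fermat.Agent.Lib.S16
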