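/-
Project S16, piece CocycleK (helper6): the Shapiro cocycle over an arbitrary commutative ring `k`.

`Γ ≤ G = ⟨s, u⟩`, `s² = u³ = z` central with `z² = 1`, `z ∈ Γ`; `V = (G ⧸ Γ → k)` with the
permutation representation.  A `k`-valued additive character `φ` of `Γ` killing all elements of
finite order and all conjugates (in `Γ`) of powers of `t = s⁻¹ u` gives a vector `Θ φ ∈ V` with

* `Θ φ ∈ range (1 - ρ u)`,
* `ρ(s⁻¹) (Θ φ)` has zero sum over every `t`-orbit,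
* `Θ φ ∈ (1 - ρ u) V^s` only if `φ = 0`;

and `Θ` is `k`-linear in `φ`.  No division by `2` or `3`.
-/
import Mathlib

set_option autoImplicit false

noncomputable section

namespace Fermat.Agent.Lib.S16

section Generic

variable (k : Type*) [CommRing k] {G : Type*} [Group G] (Q : Type*) [MulAction G Q]

/-- The permutation representation of `G` on functions `Q → k`: `(ρ g v) q = v (g⁻¹ • q)`. -/
def h6k_rho : G →* Module.End k (Q → k) where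
  toFun g := LinearMap.funLeft k k (fun q => g⁻¹ • q)
  map_one' := by
    ext v q
    simp [LinearMap.funLeft_apply]
  map_mul' g h := by
    apply LinearMap.ext
    intro v
    funext q
    simp [LinearMap.funLeft_apply, mul_smul]

theorem h6k_rho_apply (g : G) (v : Q → k) (q : Q) : h6k_rho k Q g v q = v (g⁻¹ • q) := rfl

/-- The norm operator `1 + g + ⋯ + g^(m-1)` on `Q → k`. -/
def h6k_nrm (g : G) (m : ℕ) : Module.End k (Q → k) := ∑ i ∈ Finset.range m, h6k_rho k Q g ^ i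

theorem h6k_rho_pow_apply (g : G) (i : ℕ) (v : Q → k) (q : Q) :
    (h6k_rho k Q g ^ i) v q = v ((g ^ i)⁻¹ • q) := by
  rw [← map_pow]
  rfl

theorem h6k_nrm_apply (g : G) (m : ℕ) (v : Q → k) (q : Q) :
    h6k_nrm k Q g m v q = ∑ i ∈ Finset.range m, v ((g ^ i)⁻¹ • q) := by
  unfold h6k_nrm
  rw [LinearMap.sum_apply, Finset.sum_apply]
  exact Finset.sum_congr rfl fun i _ => h6k_rho_pow_apply k Q g i v q

theorem h6k_rho_mul_apply (g h : G) (v : Q → k) :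
    h6k_rho k Q (g * h) v = h6k_rho k Q g (h6k_rho k Q h v) := by
  rw [map_mul]; rfl

theorem h6k_rho_one_apply (v : Q → k) : h6k_rho k Q (1 : G) v = v := by
  rw [map_one]; rfl

theorem h6k_rho_inv_cancel (g : G) (v : Q → k) :
    h6k_rho k Q g⁻¹ (h6k_rho k Q g v) = v := by
  rw [← h6k_rho_mul_apply, inv_mul_cancel, h6k_rho_one_apply]

end Generic

section Cocycle

variable {k : Type*} [CommRing k] {G : Type*} [Group G] (Γ : Subgroup G)

/-- The representative of a coset. -/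
def h6k_rep (q : G ⧸ Γ) : G := Quotient.out q

theorem h6k_rep_mk (q : G ⧸ Γ) : ((h6k_rep Γ q : G) : G ⧸ Γ) = q := QuotientGroup.out_eq' q

theorem h6k_smul_mk (g h : G) : g • ((h : G) : G ⧸ Γ) = ((g * h : G) : G ⧸ Γ) := rfl

theorem h6k_cocElem_mem (g : G) (q : G ⧸ Γ) :
    (h6k_rep Γ q)⁻¹ * (g * h6k_rep Γ (g⁻¹ • q)) ∈ Γ := by
  rw [← QuotientGroup.eq, h6k_rep_mk, ← h6k_smul_mk, h6k_rep_mk, smul_inv_smul]

/-- The element `r_q⁻¹ g r_{g⁻¹ q}` of `Γ`. -/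
def h6k_cocElem (g : G) (q : G ⧸ Γ) : Γ :=
  ⟨(h6k_rep Γ q)⁻¹ * (g * h6k_rep Γ (g⁻¹ • q)), h6k_cocElem_mem Γ g q⟩

theorem h6k_cocElem_mul (g h : G) (q : G ⧸ Γ) :
    h6k_cocElem Γ (g * h) q = h6k_cocElem Γ g q * h6k_cocElem Γ h (g⁻¹ • q) := by
  apply Subtype.ext
  show (h6k_rep Γ q)⁻¹ * (g * h * h6k_rep Γ ((g * h)⁻¹ • q))
    = (h6k_rep Γ q)⁻¹ * (g * h6k_rep Γ (g⁻¹ • q)) *
      ((h6k_rep Γ (g⁻¹ • q))⁻¹ * (h * h6k_rep Γ (h⁻¹ • g⁻¹ • q)))
  rw [mul_inv_rev, mul_smul]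
  group

/-- If `g` fixes `q` then the cocycle element is the conjugate `r_q⁻¹ g r_q`. -/
theorem h6k_cocElem_of_fixed (g : G) (q : G ⧸ Γ) (hq : g⁻¹ • q = q) :
    ((h6k_cocElem Γ g q : Γ) : G) = (h6k_rep Γ q)⁻¹ * g * h6k_rep Γ q := by
  show (h6k_rep Γ q)⁻¹ * (g * h6k_rep Γ (g⁻¹ • q)) = _
  rw [hq, mul_assoc]

/-- The Shapiro cocycle of a character `φ`. -/
def h6k_coc (φ : Additive Γ →+ k) (g : G) : G ⧸ Γ → k :=
  fun q => φ (Additive.ofMul (h6k_cocElem Γ g q))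

theorem h6k_coc_apply (φ : Additive Γ →+ k) (g : G) (q : G ⧸ Γ) :
    h6k_coc Γ φ g q = φ (Additive.ofMul (h6k_cocElem Γ g q)) := rfl

/-- The cocycle identity. -/
theorem h6k_coc_mul (φ : Additive Γ →+ k) (g h : G) :
    h6k_coc Γ φ (g * h) = h6k_coc Γ φ g + h6k_rho k (G ⧸ Γ) g (h6k_coc Γ φ h) := by
  funext q
  rw [Pi.add_apply, h6k_rho_apply, h6k_coc_apply, h6k_coc_apply, h6k_coc_apply, h6k_cocElem_mul,
    ofMul_mul, map_add]

theorem h6k_coc_one (φ : Additive Γ →+ k) : h6k_coc Γ φ 1 = 0 := by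
  have h := h6k_coc_mul Γ φ 1 1
  rw [one_mul, h6k_rho_one_apply] at h
  exact left_eq_add.mp h

theorem h6k_coc_inv (φ : Additive Γ →+ k) (g : G) :
    h6k_coc Γ φ g⁻¹ = -h6k_rho k (G ⧸ Γ) g⁻¹ (h6k_coc Γ φ g) := by
  have h := h6k_coc_mul Γ φ g⁻¹ g
  rw [inv_mul_cancel, h6k_coc_one] at h
  exact eq_neg_of_add_eq_zero_left h.symm

theorem h6k_coc_add (φ ψ : Additive Γ →+ k) (g : G) :
    h6k_coc Γ (φ + ψ) g = h6k_coc Γ φ g + h6k_coc Γ ψ g := rfl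

theorem h6k_coc_smul (a : k) (φ : Additive Γ →+ k) (g : G) :
    h6k_coc Γ (a • φ) g = a • h6k_coc Γ φ g := rfl

/-- `c(g^m) = ∑_{i<m} ρ(g)^i c(g)`. -/
theorem h6k_coc_pow (φ : Additive Γ →+ k) (g : G) (m : ℕ) :
    h6k_coc Γ φ (g ^ m) = h6k_nrm k (G ⧸ Γ) g m (h6k_coc Γ φ g) := by
  unfold h6k_nrm
  rw [LinearMap.sum_apply]
  induction m with
  | zero => simp [h6k_coc_one]
  | succ m ih =>
    rw [pow_succ', h6k_coc_mul, ih, Finset.sum_range_succ', map_sum]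
    simp only [pow_zero, Module.End.one_apply]
    rw [add_comm]
    congr 1
    refine Finset.sum_congr rfl fun i _ => ?_
    rw [pow_succ', Module.End.mul_apply]

/-- A cocycle which is a coboundary on generators `s`, `u` is a coboundary. -/
theorem h6k_coc_eq_coboundary (s u : G) (hgen : Subgroup.closure {s, u} = ⊤)
    (φ : Additive Γ →+ k) (e : G ⧸ Γ → k)
    (hS : h6k_coc Γ φ s = e - h6k_rho k (G ⧸ Γ) s e)
    (hU : h6k_coc Γ φ u = e - h6k_rho k (G ⧸ Γ) u e)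
    (g : G) : h6k_coc Γ φ g = e - h6k_rho k (G ⧸ Γ) g e := by
  let H : Subgroup G :=
    { carrier := {g | h6k_coc Γ φ g = e - h6k_rho k (G ⧸ Γ) g e}
      one_mem' := by
        show h6k_coc Γ φ 1 = e - h6k_rho k (G ⧸ Γ) (1 : G) e
        rw [h6k_coc_one, h6k_rho_one_apply, sub_self]
      mul_mem' := by
        intro a b ha hb
        show h6k_coc Γ φ (a * b) = e - h6k_rho k (G ⧸ Γ) (a * b) e
        have ha' : h6k_coc Γ φ a = e - h6k_rho k (G ⧸ Γ) a e := ha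
        have hb' : h6k_coc Γ φ b = e - h6k_rho k (G ⧸ Γ) b e := hb
        rw [h6k_coc_mul, ha', hb', map_sub, h6k_rho_mul_apply]
        abel
      inv_mem' := by
        intro a ha
        show h6k_coc Γ φ a⁻¹ = e - h6k_rho k (G ⧸ Γ) a⁻¹ e
        have ha' : h6k_coc Γ φ a = e - h6k_rho k (G ⧸ Γ) a e := ha
        rw [h6k_coc_inv, ha', map_sub, h6k_rho_inv_cancel]
        abel }
  have hle : Subgroup.closure ({s, u} : Set G) ≤ H := by
    rw [Subgroup.closure_le]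
    rintro x (rfl | rfl)
    · exact hS
    · exact hU
  rw [hgen] at hle
  exact hle (Subgroup.mem_top g)

/-- the base point `Γ` of `G ⧸ Γ`. -/
def h6k_q0 : G ⧸ Γ := ((1 : G) : G ⧸ Γ)

theorem h6k_smul_q0 (γ : G) (hγ : γ ∈ Γ) : γ • h6k_q0 Γ = h6k_q0 Γ := by
  show ((γ * 1 : G) : G ⧸ Γ) = ((1 : G) : G ⧸ Γ)
  rw [QuotientGroup.eq]
  simpa using Γ.inv_mem hγ

theorem h6k_rep_q0_mem : h6k_rep Γ (h6k_q0 Γ) ∈ Γ := by
  have h : ((h6k_rep Γ (h6k_q0 Γ) : G) : G ⧸ Γ) = ((1 : G) : G ⧸ Γ) := h6k_rep_mk Γ _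
  rw [QuotientGroup.eq] at h
  have h2 := Γ.inv_mem h
  simpa using h2

/-- `c_φ(γ)` at the base point is `φ(γ)`. -/
theorem h6k_coc_q0 (φ : Additive Γ →+ k) (γ : Γ) :
    h6k_coc Γ φ (γ : G) (h6k_q0 Γ) = φ (Additive.ofMul γ) := by
  rw [h6k_coc_apply]
  have hfix : ((γ : G))⁻¹ • h6k_q0 Γ = h6k_q0 Γ :=
    h6k_smul_q0 Γ _ (Γ.inv_mem γ.2)
  let r₀ : Γ := ⟨h6k_rep Γ (h6k_q0 Γ), h6k_rep_q0_mem Γ⟩
  have he : h6k_cocElem Γ (γ : G) (h6k_q0 Γ) = r₀⁻¹ * (γ * r₀) := by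
    apply Subtype.ext
    show (h6k_rep Γ (h6k_q0 Γ))⁻¹ * ((γ : G) * h6k_rep Γ (((γ : G))⁻¹ • h6k_q0 Γ)) = _
    rw [hfix]
    rfl
  rw [he, ofMul_mul, ofMul_mul, ofMul_inv, map_add, map_add, map_neg]
  ring

end Cocycle

end Fermat.Agent.Lib.S16
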