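/-
Project S16, piece CocycleK (helper6), part 2: normalisation of the Shapiro cocycle without
dividing by `2` or `3`, and the contract `h6k_cocycle`.
-/
import Mathlib
import Fermat.Agent.Lib.S16.H6CocycleK

set_option autoImplicit false

noncomputable section

namespace Fermat.Agent.Lib.S16

section Norm

variable {k : Type*} [CommRing k] {G : Type*} [Group G] (Γ : Subgroup G) (s u z : G)

/-- A central element of `Γ` acts trivially on `G ⧸ Γ`. -/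
theorem h6k_central_smul (hz : z ∈ Γ) (hzc : ∀ g : G, z * g = g * z) (q : G ⧸ Γ) :
    z • q = q := by
  induction q using QuotientGroup.induction_on with
  | H g =>
    show ((z * g : G) : G ⧸ Γ) = ((g : G) : G ⧸ Γ)
    rw [QuotientGroup.eq, hzc g, mul_inv_rev, inv_mul_cancel_right]
    exact Γ.inv_mem hz

/-- An element acting trivially on `G ⧸ Γ` acts trivially on functions. -/
theorem h6k_rho_of_smul (g : G) (hg : ∀ q : G ⧸ Γ, g • q = q) (v : G ⧸ Γ → k) :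
    h6k_rho k (G ⧸ Γ) g v = v := by
  funext q
  rw [h6k_rho_apply]
  congr 1
  rw [inv_smul_eq_iff, hg]

/-- If `φ` kills finite order elements, the cocycle vanishes at `(g, q)` when `g` has finite
order and fixes `q`. -/
theorem h6k_coc_of_fixed (φ : Additive Γ →+ k)
    (hfin : ∀ γ : Γ, IsOfFinOrder γ → φ (Additive.ofMul γ) = 0)
    (g : G) (hg : IsOfFinOrder g) (q : G ⧸ Γ) (hq : g⁻¹ • q = q) :
    h6k_coc Γ φ g q = 0 := by
  rw [h6k_coc_apply]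
  apply hfin
  have h1 := h6k_cocElem_of_fixed Γ g q hq
  have h2 : IsOfFinOrder ((h6k_cocElem Γ g q : Γ) : G) := by
    rw [h1]
    obtain ⟨n, hn, hgn⟩ := isOfFinOrder_iff_pow_eq_one.mp hg
    refine isOfFinOrder_iff_pow_eq_one.mpr ⟨n, hn, ?_⟩
    have : ∀ m : ℕ, ((h6k_rep Γ q)⁻¹ * g * h6k_rep Γ q) ^ m
        = (h6k_rep Γ q)⁻¹ * g ^ m * h6k_rep Γ q := by
      intro m
      induction m with
      | zero => simp
      | succ m ih => rw [pow_succ, ih, pow_succ]; group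
    rw [this, hgn]
    group
  exact (Submonoid.isOfFinOrder_coe (H := Γ.toSubmonoid)).mp h2

/-- `c(z) = 0`. -/
theorem h6k_coc_central (hz2 : z ^ 2 = 1) (hg : ∀ q : G ⧸ Γ, z • q = q)
    (φ : Additive Γ →+ k) (hfin : ∀ γ : Γ, IsOfFinOrder γ → φ (Additive.ofMul γ) = 0) :
    h6k_coc Γ φ z = 0 := by
  funext q
  rw [Pi.zero_apply]
  apply h6k_coc_of_fixed Γ φ hfin z (isOfFinOrder_iff_pow_eq_one.mpr ⟨2, by norm_num, hz2⟩) q
  rw [inv_smul_eq_iff, hg]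

/-- `(1 + s) c(s) = 0`. -/
theorem h6k_coc_S (hs : s ^ 2 = z) (hz2 : z ^ 2 = 1) (hg : ∀ q : G ⧸ Γ, z • q = q)
    (φ : Additive Γ →+ k) (hfin : ∀ γ : Γ, IsOfFinOrder γ → φ (Additive.ofMul γ) = 0) :
    h6k_coc Γ φ s + h6k_rho k (G ⧸ Γ) s (h6k_coc Γ φ s) = 0 := by
  have h := h6k_coc_mul Γ φ s s
  rw [← pow_two, hs, h6k_coc_central Γ z hz2 hg φ hfin] at h
  exact h.symm

/-- `(1 + u + u²) c(u) = 0`. -/
theorem h6k_coc_U (hu : u ^ 3 = z) (hz2 : z ^ 2 = 1) (hg : ∀ q : G ⧸ Γ, z • q = q)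
    (φ : Additive Γ →+ k) (hfin : ∀ γ : Γ, IsOfFinOrder γ → φ (Additive.ofMul γ) = 0) :
    h6k_coc Γ φ u + h6k_rho k (G ⧸ Γ) u (h6k_coc Γ φ u)
      + h6k_rho k (G ⧸ Γ) u (h6k_rho k (G ⧸ Γ) u (h6k_coc Γ φ u)) = 0 := by
  have h1 := h6k_coc_mul Γ φ u u
  have h2 := h6k_coc_mul Γ φ u (u * u)
  have h3 : u * (u * u) = z := by
    rw [← hu, pow_succ, pow_two, mul_assoc]
  rw [h3, h6k_coc_central Γ z hz2 hg φ hfin, h1, map_add] at h2
  rw [h2]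
  abel

theorem h6k_isOfFinOrder_S (hs : s ^ 2 = z) (hz2 : z ^ 2 = 1) : IsOfFinOrder s :=
  isOfFinOrder_iff_pow_eq_one.mpr ⟨4, by norm_num, by
    rw [show 4 = 2 * 2 from rfl, pow_mul, hs, hz2]⟩

theorem h6k_isOfFinOrder_U (hu : u ^ 3 = z) (hz2 : z ^ 2 = 1) : IsOfFinOrder u :=
  isOfFinOrder_iff_pow_eq_one.mpr ⟨6, by norm_num, by
    rw [show 6 = 3 * 2 from rfl, pow_mul, hu, hz2]⟩

end Norm

section NormS

variable {k : Type*} [CommRing k] {G : Type*} [Group G] (Γ : Subgroup G) (s u z : G)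
  [LinearOrder (G ⧸ Γ)]

/-- the normalising vector for `s`: `c(s) = a - ρ(s) a`. -/
def h6k_a (φ : Additive Γ →+ k) : G ⧸ Γ → k :=
  fun q => if q < s⁻¹ • q then h6k_coc Γ φ s q else 0

theorem h6k_a_add (φ ψ : Additive Γ →+ k) : h6k_a Γ s (φ + ψ) = h6k_a Γ s φ + h6k_a Γ s ψ := by
  funext q
  simp only [h6k_a, Pi.add_apply, h6k_coc_add]
  split_ifs <;> simp

theorem h6k_a_smul (c : k) (φ : Additive Γ →+ k) : h6k_a Γ s (c • φ) = c • h6k_a Γ s φ := by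
  funext q
  simp only [h6k_a, Pi.smul_apply, h6k_coc_smul]
  split_ifs <;> simp

theorem h6k_a_spec (hs : s ^ 2 = z) (hz2 : z ^ 2 = 1) (hg : ∀ q : G ⧸ Γ, z • q = q)
    (φ : Additive Γ →+ k) (hfin : ∀ γ : Γ, IsOfFinOrder γ → φ (Additive.ofMul γ) = 0) :
    h6k_coc Γ φ s = h6k_a Γ s φ - h6k_rho k (G ⧸ Γ) s (h6k_a Γ s φ) := by
  funext q
  rw [Pi.sub_apply, h6k_rho_apply]
  have hss : s⁻¹ • s⁻¹ • q = q := by
    rw [← mul_smul, ← mul_inv_rev, ← pow_two, hs, inv_smul_eq_iff, hg]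
  have hsum := congrFun (h6k_coc_S Γ s z hs hz2 hg φ hfin) q
  rw [Pi.add_apply, h6k_rho_apply, Pi.zero_apply] at hsum
  simp only [h6k_a]
  rw [hss]
  rcases lt_trichotomy q (s⁻¹ • q) with h | h | h
  · rw [if_pos h, if_neg (not_lt.mpr h.le), sub_zero]
  · rw [← h, if_neg (lt_irrefl q), sub_zero]
    exact h6k_coc_of_fixed Γ φ hfin s (h6k_isOfFinOrder_S s z hs hz2) q h.symm
  · rw [if_neg (not_lt.mpr h.le), if_pos h, zero_sub]
    exact eq_neg_of_add_eq_zero_left hsum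

/-- `q` is the least element of its `u`-orbit `{q, u⁻¹ q, u q}`. -/
def h6k_isMin (q : G ⧸ Γ) : Prop := q ≤ u⁻¹ • q ∧ q ≤ u • q

/-- the vector `b` with `c(u) = b - ρ(u) b`. -/
def h6k_b (φ : Additive Γ →+ k) : G ⧸ Γ → k := by
  classical
  exact fun q => if h6k_isMin Γ u q then 0
    else if h6k_isMin Γ u (u • q) then -h6k_coc Γ φ u (u • q) else h6k_coc Γ φ u q

theorem h6k_b_spec (hu : u ^ 3 = z) (hz2 : z ^ 2 = 1) (hg : ∀ q : G ⧸ Γ, z • q = q)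
    (φ : Additive Γ →+ k) (hfin : ∀ γ : Γ, IsOfFinOrder γ → φ (Additive.ofMul γ) = 0) :
    h6k_coc Γ φ u = h6k_b Γ u φ - h6k_rho k (G ⧸ Γ) u (h6k_b Γ u φ) := by
  classical
  funext q
  rw [Pi.sub_apply, h6k_rho_apply]
  -- the orbit of `q`
  have h3 : ∀ x : G ⧸ Γ, u • u • u • x = x := by
    intro x
    rw [← mul_smul, ← mul_smul, ← pow_two, ← pow_succ, hu, hg]
  have hi3 : ∀ x : G ⧸ Γ, u⁻¹ • u⁻¹ • x = u • x := by
    intro x
    rw [inv_smul_eq_iff, inv_smul_eq_iff, h3]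
  have hsum := congrFun (h6k_coc_U Γ u z hu hz2 hg φ hfin) q
  rw [Pi.add_apply, Pi.add_apply, h6k_rho_apply, h6k_rho_apply, h6k_rho_apply, hi3,
    Pi.zero_apply] at hsum
  by_cases hfix : u⁻¹ • q = q
  · -- fixed point
    rw [hfix, sub_self]
    exact h6k_coc_of_fixed Γ φ hfin u (h6k_isOfFinOrder_U u z hu hz2) q hfix
  · -- free orbit `q, q₁ = u⁻¹ q, q₂ = u q`, pairwise distinct
    have h01 : q ≠ u⁻¹ • q := fun h => hfix h.symm
    have h02 : q ≠ u • q := by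
      intro h
      apply hfix
      rw [inv_smul_eq_iff]
      exact h
    have h12 : u⁻¹ • q ≠ u • q := by
      intro h
      apply h02
      have := congrArg (fun x => u • x) h
      simp only [smul_inv_smul] at this
      have h' : u • u • u • q = u • q := by rw [← this]
      rw [h3] at h'
      exact h'
    simp only [h6k_b, h6k_isMin, smul_inv_smul, hi3, inv_smul_smul]
    have hmin : (q < u⁻¹ • q ∧ q < u • q) ∨ (u • q < q ∧ u • q < u⁻¹ • q) ∨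
        (u⁻¹ • q < q ∧ u⁻¹ • q < u • q) := by
      rcases lt_trichotomy q (u⁻¹ • q) with a | a | a
      · rcases lt_trichotomy q (u • q) with b | b | b
        · exact Or.inl ⟨a, b⟩
        · exact absurd b h02
        · exact Or.inr (Or.inl ⟨b, b.trans a⟩)
      · exact absurd a h01
      · rcases lt_trichotomy (u⁻¹ • q) (u • q) with b | b | b
        · exact Or.inr (Or.inr ⟨a, b⟩)
        · exact absurd b h12
        · exact Or.inr (Or.inl ⟨b.trans a, b⟩)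
    have huu : u • u • q = u⁻¹ • q := by
      rw [eq_inv_smul_iff, h3]
    rw [huu]
    rcases hmin with ⟨a, b⟩ | ⟨a, b⟩ | ⟨a, b⟩
    · rw [if_pos ⟨a.le, b.le⟩, if_neg (fun h => absurd h.2 (not_le.mpr a)),
        if_pos ⟨a.le, b.le⟩]
      ring
    · rw [if_neg (fun h => absurd h.2 (not_le.mpr a)), if_pos ⟨a.le, b.le⟩,
        if_neg (fun h => absurd h.1 (not_le.mpr b)),
        if_neg (fun h => absurd h.2 (not_le.mpr a))]
      linear_combination hsum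
    · rw [if_neg (fun h => absurd h.1 (not_le.mpr a)),
        if_neg (fun h => absurd h.2 (not_le.mpr b)), if_pos ⟨b.le, a.le⟩]
      ring

/-- `w = c(u) - (1 - u) a`, the value at `u` of the normalised cocycle. -/
def h6k_w (φ : Additive Γ →+ k) : G ⧸ Γ → k :=
  h6k_coc Γ φ u - (h6k_a Γ s φ - h6k_rho k (G ⧸ Γ) u (h6k_a Γ s φ))

/-- (F2) `w ∈ range (1 - ρ u)`. -/
theorem h6k_w_mem_range (hu : u ^ 3 = z) (hz2 : z ^ 2 = 1) (hg : ∀ q : G ⧸ Γ, z • q = q)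
    (φ : Additive Γ →+ k) (hfin : ∀ γ : Γ, IsOfFinOrder γ → φ (Additive.ofMul γ) = 0) :
    h6k_w Γ s u φ ∈ LinearMap.range (1 - h6k_rho k (G ⧸ Γ) u) := by
  refine ⟨h6k_b Γ u φ - h6k_a Γ s φ, ?_⟩
  rw [LinearMap.sub_apply, Module.End.one_apply, map_sub]
  unfold h6k_w
  rw [h6k_b_spec Γ u z hu hz2 hg φ hfin]
  abel

omit [LinearOrder (G ⧸ Γ)] in
/-- the telescoping identity `N_m (1 - ρ t) a = a - ρ(t^m) a`. -/
theorem h6k_nrm_one_sub (t : G) (m : ℕ) (a : G ⧸ Γ → k) :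
    h6k_nrm k (G ⧸ Γ) t m (a - h6k_rho k (G ⧸ Γ) t a) = a - h6k_rho k (G ⧸ Γ) (t ^ m) a := by
  have h := geom_sum_mul_neg (h6k_rho k (G ⧸ Γ) t) m
  have h2 := congrArg (fun f : Module.End k (G ⧸ Γ → k) => f a) h
  unfold h6k_nrm
  rw [map_pow]
  simpa [Module.End.mul_apply] using h2

/-- (F3) `ρ(s⁻¹) w` has zero sum on every `t`-orbit, `t = s⁻¹ u`. -/
theorem h6k_w_orbit_sum (hs : s ^ 2 = z) (hz2 : z ^ 2 = 1) (hg : ∀ q : G ⧸ Γ, z • q = q)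
    (φ : Additive Γ →+ k) (hfin : ∀ γ : Γ, IsOfFinOrder γ → φ (Additive.ofMul γ) = 0)
    (hpar : ∀ (r : G) (m : ℕ) (h : r⁻¹ * (s⁻¹ * u) ^ m * r ∈ Γ), φ (Additive.ofMul ⟨_, h⟩) = 0)
    (q : G ⧸ Γ) (m : ℕ) (hq : (s⁻¹ * u) ^ m • q = q) :
    h6k_nrm k (G ⧸ Γ) (s⁻¹ * u) m (h6k_rho k (G ⧸ Γ) s⁻¹ (h6k_w Γ s u φ)) q = 0 := by
  have hkey : h6k_rho k (G ⧸ Γ) s⁻¹ (h6k_w Γ s u φ)
      = h6k_coc Γ φ (s⁻¹ * u)
        - (h6k_a Γ s φ - h6k_rho k (G ⧸ Γ) (s⁻¹ * u) (h6k_a Γ s φ)) := by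
    have hcs : h6k_rho k (G ⧸ Γ) s⁻¹ (h6k_coc Γ φ s)
        = h6k_rho k (G ⧸ Γ) s⁻¹ (h6k_a Γ s φ) - h6k_a Γ s φ := by
      rw [h6k_a_spec Γ s z hs hz2 hg φ hfin, map_sub, h6k_rho_inv_cancel]
      -- the inner `a` is again `h6k_a`
    unfold h6k_w
    rw [map_sub, map_sub, ← h6k_rho_mul_apply, h6k_coc_mul, h6k_coc_inv, hcs]
    abel
  rw [hkey, map_sub, ← h6k_coc_pow, h6k_nrm_one_sub, Pi.sub_apply, Pi.sub_apply, h6k_rho_apply]
  have hq' : ((s⁻¹ * u) ^ m)⁻¹ • q = q := by rw [inv_smul_eq_iff, hq]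
  rw [hq', sub_self, sub_zero, h6k_coc_apply]
  have hmem : (h6k_rep Γ q)⁻¹ * (s⁻¹ * u) ^ m * h6k_rep Γ q ∈ Γ := by
    have := (h6k_cocElem Γ ((s⁻¹ * u) ^ m) q).2
    rw [h6k_cocElem_of_fixed Γ _ q hq'] at this
    exact this
  have he : h6k_cocElem Γ ((s⁻¹ * u) ^ m) q = ⟨_, hmem⟩ :=
    Subtype.ext (h6k_cocElem_of_fixed Γ _ q hq')
  rw [he]
  exact hpar (h6k_rep Γ q) m hmem

/-- (F4) the class of `w` modulo `(1 - u) V^s` determines `φ`. -/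
theorem h6k_phi_eq_zero (hgen : Subgroup.closure {s, u} = ⊤)
    (hs : s ^ 2 = z) (hz2 : z ^ 2 = 1) (hg : ∀ q : G ⧸ Γ, z • q = q)
    (φ : Additive Γ →+ k) (hfin : ∀ γ : Γ, IsOfFinOrder γ → φ (Additive.ofMul γ) = 0)
    (b : G ⧸ Γ → k)
    (hb : h6k_rho k (G ⧸ Γ) s b = b) (hw : h6k_w Γ s u φ = b - h6k_rho k (G ⧸ Γ) u b) :
    φ = 0 := by
  set e : G ⧸ Γ → k := h6k_a Γ s φ + b with he
  have hS : h6k_coc Γ φ s = e - h6k_rho k (G ⧸ Γ) s e := by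
    rw [he, map_add, hb, h6k_a_spec Γ s z hs hz2 hg φ hfin]
    abel
  have hU : h6k_coc Γ φ u = e - h6k_rho k (G ⧸ Γ) u e := by
    have h1 : h6k_coc Γ φ u
        = h6k_w Γ s u φ + (h6k_a Γ s φ - h6k_rho k (G ⧸ Γ) u (h6k_a Γ s φ)) := by
      unfold h6k_w; abel
    rw [h1, hw, he, map_add]
    abel
  have hall := h6k_coc_eq_coboundary Γ s u hgen φ e hS hU
  apply AddMonoidHom.ext
  intro γ
  have h1 := h6k_coc_q0 Γ φ (Additive.toMul γ)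
  rw [hall, Pi.sub_apply, h6k_rho_apply,
    h6k_smul_q0 Γ _ (Γ.inv_mem (Additive.toMul γ).2), sub_self] at h1
  rw [AddMonoidHom.zero_apply]
  exact h1.symm

/-- `φ ↦ w_φ` as a linear map. -/
def h6k_wLin : (Additive Γ →+ k) →ₗ[k] (G ⧸ Γ → k) where
  toFun φ := h6k_w Γ s u φ
  map_add' φ ψ := by
    unfold h6k_w
    rw [h6k_coc_add, h6k_a_add, map_add]
    abel
  map_smul' c φ := by
    unfold h6k_w
    rw [h6k_coc_smul, h6k_a_smul, map_smul, RingHom.id_apply, smul_sub, smul_sub]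

end NormS

/-- **CocycleK**: the char-free cocycle contract. -/
theorem h6k_cocycle {k : Type*} [CommRing k] {G : Type*} [Group G] (Γ : Subgroup G)
    (s u z : G) (hz : z ∈ Γ) (hzc : ∀ g : G, z * g = g * z) (hs : s ^ 2 = z) (hu : u ^ 3 = z)
    (hz2 : z ^ 2 = 1) (hgen : Subgroup.closure {s, u} = ⊤)
    (P : Submodule k (Additive Γ →+ k))
    (hfin : ∀ φ ∈ P, ∀ γ : Γ, IsOfFinOrder γ → φ (Additive.ofMul γ) = 0)
    (hpar : ∀ φ ∈ P, ∀ (r : G) (m : ℕ) (h : r⁻¹ * (s⁻¹ * u) ^ m * r ∈ Γ),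
      φ (Additive.ofMul ⟨_, h⟩) = 0) :
    ∃ Θ : P →ₗ[k] (G ⧸ Γ → k),
      (∀ φ, Θ φ ∈ LinearMap.range (1 - h6k_rho k (G ⧸ Γ) u)) ∧
      (∀ φ (q : G ⧸ Γ) (m : ℕ), (s⁻¹ * u) ^ m • q = q →
        h6k_nrm k (G ⧸ Γ) (s⁻¹ * u) m (h6k_rho k (G ⧸ Γ) s⁻¹ (Θ φ)) q = 0) ∧
      (∀ φ b, h6k_rho k (G ⧸ Γ) s b = b → Θ φ = b - h6k_rho k (G ⧸ Γ) u b → φ = 0) := by
  obtain ⟨lo, _⟩ := exists_wellFoundedLT (G ⧸ Γ)
  have hg : ∀ q : G ⧸ Γ, z • q = q := h6k_central_smul Γ z hz hzc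
  refine ⟨(h6k_wLin Γ s u).comp P.subtype, ?_, ?_, ?_⟩
  · intro φ
    exact h6k_w_mem_range Γ s u z hu hz2 hg φ.1 (hfin φ.1 φ.2)
  · intro φ q m hq
    exact h6k_w_orbit_sum Γ s u z hs hz2 hg φ.1 (hfin φ.1 φ.2) (hpar φ.1 φ.2) q m hq
  · intro φ b hb hw
    apply Subtype.ext
    exact h6k_phi_eq_zero Γ s u z hgen hs hz2 hg φ.1 (hfin φ.1 φ.2) b hb hw

end Fermat.Agent.Lib.S16
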