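import Fermat.Agent.Lib.S16.H2OrbitK
import Fermat.Agent.Lib.S16.H6CocycleK2
import Fermat.Agent.Lib.S21.ParabolicDim

/-!
# (S16, LB, S-ii) `dim_k Hom_{par,ell}(Γ₀(N), k) ≤ 2 g` for EVERY field `k` (owner: helper2)

`h2k_parEllHoms k N` is the space of additive characters `Γ₀(N) → k` killing all elements of
trace `±2` and all elements of finite order.  For `k = ℂ` this is `parabolicHoms ℂ (Gamma0 N) ℂ`.
-/

set_option autoImplicit false

noncomputable section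

namespace Fermat.Agent.Lib.S16

open ModularCurve ModularCurve.Period CongruenceSubgroup Fermat.Agent.Lib.X0 Fermat.Agent.Lib.S21
open scoped MatrixGroups

/-- Characters `Γ₀(N) → A` killing the elements of trace `±2` and the elements of finite order. -/
def h2k_parEllHoms (k : Type*) [Field k] (N : ℕ) : Submodule k (Additive (Gamma0 N) →+ k) where
  carrier := {φ | (∀ γ : Gamma0 N, ((γ : SL(2, ℤ)) : Matrix (Fin 2) (Fin 2) ℤ).trace ^ 2 = 4 →
      φ (Additive.ofMul γ) = 0) ∧ ∀ γ : Gamma0 N, IsOfFinOrder γ → φ (Additive.ofMul γ) = 0}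
  zero_mem' := ⟨fun _ _ => rfl, fun _ _ => rfl⟩
  add_mem' := by
    rintro φ ψ ⟨h1, h2⟩ ⟨h3, h4⟩
    refine ⟨fun γ hγ => ?_, fun γ hγ => ?_⟩
    · show φ (Additive.ofMul γ) + ψ (Additive.ofMul γ) = 0
      rw [h1 γ hγ, h3 γ hγ, add_zero]
    · show φ (Additive.ofMul γ) + ψ (Additive.ofMul γ) = 0
      rw [h2 γ hγ, h4 γ hγ, add_zero]
  smul_mem' := by
    rintro c φ ⟨h1, h2⟩
    refine ⟨fun γ hγ => ?_, fun γ hγ => ?_⟩
    · show c • φ (Additive.ofMul γ) = 0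
      rw [h1 γ hγ, smul_zero]
    · show c • φ (Additive.ofMul γ) = 0
      rw [h2 γ hγ, smul_zero]

theorem h2k_mem_parEllHoms {k : Type*} [Field k] {N : ℕ} (φ : Additive (Gamma0 N) →+ k) :
    φ ∈ h2k_parEllHoms k N ↔
      (∀ γ : Gamma0 N, ((γ : SL(2, ℤ)) : Matrix (Fin 2) (Fin 2) ℤ).trace ^ 2 = 4 →
        φ (Additive.ofMul γ) = 0) ∧ ∀ γ : Gamma0 N, IsOfFinOrder γ → φ (Additive.ofMul γ) = 0 :=
  Iff.rfl

/-- The numerics of the invariants, for any field, from the `ℂ`-numerics of `Lib/S21`. -/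
theorem h2k_numerics (k : Type*) [Field k] (N : ℕ) [NeZero N] :
    2 * Module.finrank k (h2k_inv k (QN N) matS) = dedekindPsi N + nuTwo N ∧
    3 * Module.finrank k (h2k_inv k (QN N) matU) = dedekindPsi N + 2 * nuThree N ∧
    Module.finrank k (h2k_inv k (QN N) matT) = cuspCount N := by
  obtain ⟨hcard, hS, hU, hT, hTN, _⟩ := h8_combStatement N
  have hS2 : ∀ q : QN N, matS ^ 2 • q = q := by
    intro q; rw [matS_sq]; exact neg_one_smul_QN N q
  have hU3 : ∀ q : QN N, matU ^ 3 • q = q := by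
    intro q; rw [matU_cube]; exact neg_one_smul_QN N q
  obtain ⟨hi2, hi3, _⟩ := h2_invCount (G := SL(2, ℤ)) (Q := QN N)
  have e2 := hi2 matS hS2
  have e3 := hi3 matU hU3
  rw [hS, hcard] at e2
  rw [hU, hcard] at e3
  have c2 : Module.finrank ℂ ↥(h2_inv (QN N) matS) = Module.finrank ℂ ↥(h2k_inv ℂ (QN N) matS) := rfl
  have c3 : Module.finrank ℂ ↥(h2_inv (QN N) matU) = Module.finrank ℂ ↥(h2k_inv ℂ (QN N) matU) := rfl
  rw [c2, h2k_finrank_inv_eq] at e2
  rw [c3, h2k_finrank_inv_eq] at e3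
  refine ⟨?_, ?_, ?_⟩
  · rw [h2k_finrank_inv_eq]; exact e2
  · rw [h2k_finrank_inv_eq]; exact e3
  · rw [h2k_finrank_inv_eq]; exact hT

/-- **`dim_k Hom_{par,ell}(Γ₀(N), k) ≤ 2 g` for every field `k`.** -/
theorem h2k_parEllDim (k : Type*) [Field k] (N : ℕ) [NeZero N] :
    FiniteDimensional k (h2k_parEllHoms k N) ∧
    (Module.finrank k (h2k_parEllHoms k N) : ℚ) ≤ 2 * genusFormula N := by
  classical
  obtain ⟨hcard, hS, hU, hT, hTN, _⟩ := h8_combStatement N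
  have hz : (-1 : SL(2, ℤ)) ∈ Gamma0 N := neg_one_mem_Gamma0 N
  have hzc : ∀ g : SL(2, ℤ), (-1) * g = g * (-1) := by intro g; simp
  have hz2 : (-1 : SL(2, ℤ)) ^ 2 = 1 := by simp
  have hfin : ∀ φ ∈ h2k_parEllHoms k N, ∀ γ : Gamma0 N, IsOfFinOrder γ →
      φ (Additive.ofMul γ) = 0 := fun φ hφ => hφ.2
  have hpar : ∀ φ ∈ h2k_parEllHoms k N, ∀ (r : SL(2, ℤ)) (m : ℕ)
      (h : r⁻¹ * (matS⁻¹ * matU) ^ m * r ∈ Gamma0 N), φ (Additive.ofMul ⟨_, h⟩) = 0 := by
    intro φ hφ r m h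
    refine hφ.1 ⟨_, h⟩ ?_
    simp only [h2_S_inv_mul_U]
    rw [h2_trace_conj_T_pow]
    norm_num
  obtain ⟨Θ₀, h1, h2, h3⟩ := h6k_cocycle (k := k) (Gamma0 N) matS matU (-1) hz hzc matS_sq
    matU_cube hz2 h2_closure_S_U (h2k_parEllHoms k N) hfin hpar
  let Θ : ↥(h2k_parEllHoms k N) →ₗ[k] (QN N → k) := Θ₀
  have hΘ : ∀ φ, Θ φ = Θ₀ φ := fun _ => rfl
  have hinj : Function.Injective Θ := by
    intro a b hab
    have h0 : Θ (a - b) = 0 := by
      have hsub : Θ (a - b) = Θ a - Θ b := Θ.map_sub a b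
      rw [hsub, hab, sub_self]
    have := h3 (a - b) 0 (by simp) (by rw [← hΘ, h0]; simp)
    exact sub_eq_zero.1 this
  have hfinP : FiniteDimensional k (h2k_parEllHoms k N) :=
    FiniteDimensional.of_injective Θ hinj
  refine ⟨hfinP, ?_⟩
  have hcount := h2k_permCount (k := k) (G := SL(2, ℤ)) (Q := QN N) matS matU h2_closure_S_U
    (LinearMap.range Θ)
    (by rintro _ ⟨φ, rfl⟩; exact h1 φ)
    (by
      rintro _ ⟨φ, rfl⟩
      apply h2k_mem_range_of_inv_pow_sums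
      intro q m hq
      have := h2 φ q m hq
      rw [h6k_nrm_apply] at this
      exact this)
    (by
      rintro _ ⟨φ, rfl⟩ b hb hw
      rw [h3 φ b hb hw, map_zero])
  rw [LinearMap.finrank_range_of_inj hinj, h2_S_inv_mul_U, hcard] at hcount
  obtain ⟨e2, e3, et⟩ := h2k_numerics k N
  have e2' : (2 : ℚ) * (Module.finrank k ↥(h2k_inv k (QN N) matS) : ℚ)
      = (dedekindPsi N : ℚ) + (nuTwo N : ℚ) := by exact_mod_cast e2
  have e3' : (3 : ℚ) * (Module.finrank k ↥(h2k_inv k (QN N) matU) : ℚ)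
      = (dedekindPsi N : ℚ) + 2 * (nuThree N : ℚ) := by exact_mod_cast e3
  have et' : (Module.finrank k ↥(h2k_inv k (QN N) matT) : ℚ) = (cuspCount N : ℚ) := by
    exact_mod_cast et
  have hc' : (Module.finrank k ↥(h2k_parEllHoms k N) : ℚ)
      + (Module.finrank k ↥(h2k_inv k (QN N) matS) : ℚ)
      + (Module.finrank k ↥(h2k_inv k (QN N) matU) : ℚ)
      + (Module.finrank k ↥(h2k_inv k (QN N) matT) : ℚ) ≤ (dedekindPsi N : ℚ) + 2 := by
    exact_mod_cast hcount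
  unfold genusFormula
  linarith

end Fermat.Agent.Lib.S16
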