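import Mathlib

/-!
# (S16, LB, S-ii) Characteristic-free permutation-module dimension count (owner: helper2)

Setting: a group `G` acting on a finite set `Q`, `k` ANY field, `V := Q → k` with
`(ρ g v) q = v (g⁻¹ • q)`.  This is the char-free version of `Lib/S21/PermCount`.
-/

set_option autoImplicit false

noncomputable section

namespace Fermat.Agent.Lib.S16

section Generic

variable {G : Type*} [Group G] (k : Type*) [Field k] (Q : Type*) [MulAction G Q]

/-- The permutation representation of `G` on functions `Q → k`: `(ρ g v) q = v (g⁻¹ • q)`. -/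
def h2k_rho : G →* Module.End k (Q → k) where
  toFun g := LinearMap.funLeft k k (fun q => g⁻¹ • q)
  map_one' := by
    ext v q
    simp [LinearMap.funLeft_apply]
  map_mul' g h := by
    apply LinearMap.ext
    intro v
    funext q
    simp [LinearMap.funLeft_apply, mul_smul]

variable {k Q}

theorem h2k_rho_apply (g : G) (v : Q → k) (q : Q) : h2k_rho k Q g v q = v (g⁻¹ • q) := rfl

variable (k Q)

/-- The invariants of `g` in `Q → k`. -/
def h2k_inv (g : G) : Submodule k (Q → k) := LinearMap.ker (1 - h2k_rho k Q g)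

variable {k Q}

theorem h2k_rho_single [DecidableEq Q] (g : G) (q : Q) (c : k) :
    h2k_rho k Q g (Pi.single q c) = Pi.single (g • q) c := by
  funext x
  rw [h2k_rho_apply]
  by_cases h : x = g • q
  · subst h
    simp
  · rw [Pi.single_eq_of_ne h, Pi.single_eq_of_ne]
    intro h'
    exact h (by rw [← h']; simp)

theorem h2k_rho_mul_apply (g h : G) (v : Q → k) :
    h2k_rho k Q (g * h) v = h2k_rho k Q g (h2k_rho k Q h v) := by
  rw [map_mul]; rfl

theorem h2k_rho_inv_apply_self (g : G) (v : Q → k) :
    h2k_rho k Q g⁻¹ (h2k_rho k Q g v) = v := by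
  rw [← h2k_rho_mul_apply, inv_mul_cancel, map_one]; rfl

theorem h2k_rho_apply_inv_self (g : G) (v : Q → k) :
    h2k_rho k Q g (h2k_rho k Q g⁻¹ v) = v := by
  rw [← h2k_rho_mul_apply, mul_inv_cancel, map_one]; rfl

theorem h2k_mem_inv (g : G) (v : Q → k) : v ∈ h2k_inv k Q g ↔ h2k_rho k Q g v = v := by
  rw [h2k_inv, LinearMap.mem_ker, LinearMap.sub_apply, Module.End.one_apply, sub_eq_zero, eq_comm]

theorem h2k_mem_inv_iff (g : G) (v : Q → k) : v ∈ h2k_inv k Q g ↔ ∀ q, v (g • q) = v q := by
  rw [h2k_mem_inv]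
  constructor
  · intro h q
    have := congrFun h (g • q)
    rw [h2k_rho_apply, inv_smul_smul] at this
    exact this.symm
  · intro h
    funext q
    rw [h2k_rho_apply]
    have := h (g⁻¹ • q)
    rw [smul_inv_smul] at this
    exact this.symm

end Generic

section Count

variable {G : Type*} [Group G] {k : Type*} [Field k] {Q : Type*} [Finite Q] [MulAction G Q]

/-- The linear automorphism `ρ g`. -/
def h2k_rhoEquiv (g : G) : (Q → k) ≃ₗ[k] (Q → k) :=
  LinearEquiv.ofLinearMap (h2k_rho k Q g) (h2k_rho k Q g⁻¹)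
    (LinearMap.ext fun v => h2k_rho_apply_inv_self g v)
    (LinearMap.ext fun v => h2k_rho_inv_apply_self g v)

omit [Finite Q] in
theorem h2k_rhoEquiv_apply (g : G) (v : Q → k) : h2k_rhoEquiv g v = h2k_rho k Q g v := rfl

omit [Finite Q] in
/-- Differences of delta functions along the group generated by `s, u` lie in
`range (1 - u) + range (s - u)`. -/
theorem h2k_delta_sub_mem [DecidableEq Q] (s u : G) (g : G) (hg : g ∈ Subgroup.closure {s, u})
    (q : Q) :
    (Pi.single q (1 : k) - Pi.single (g • q) 1 : Q → k) ∈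
      LinearMap.range (1 - h2k_rho k Q u) ⊔ LinearMap.range (h2k_rho k Q s - h2k_rho k Q u) := by
  induction hg using Subgroup.closure_induction generalizing q with
  | mem x hx =>
    have hu : (Pi.single q (1 : k) - Pi.single (u • q) 1 : Q → k) ∈
        LinearMap.range (1 - h2k_rho k Q u) :=
      ⟨Pi.single q 1, by
        rw [LinearMap.sub_apply, Module.End.one_apply, h2k_rho_single]⟩
    rcases hx with rfl | hx
    · have hs : (Pi.single (x • q) (1 : k) - Pi.single (u • q) 1 : Q → k) ∈
          LinearMap.range (h2k_rho k Q x - h2k_rho k Q u) :=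
        ⟨Pi.single q 1, by
          rw [LinearMap.sub_apply, h2k_rho_single, h2k_rho_single]⟩
      have : (Pi.single q (1 : k) - Pi.single (x • q) 1 : Q → k)
          = (Pi.single q (1 : k) - Pi.single (u • q) 1)
            - (Pi.single (x • q) (1 : k) - Pi.single (u • q) 1) := by abel
      rw [this]
      exact Submodule.sub_mem _ (Submodule.mem_sup_left hu) (Submodule.mem_sup_right hs)
    · rw [Set.mem_singleton_iff] at hx
      subst hx
      exact Submodule.mem_sup_left hu
  | one => simp
  | mul x y _ _ hx hy =>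
    have : (Pi.single q (1 : k) - Pi.single ((x * y) • q) 1 : Q → k)
        = (Pi.single q (1 : k) - Pi.single (y • q) 1)
          + (Pi.single (y • q) (1 : k) - Pi.single (x • (y • q)) 1) := by
      rw [mul_smul]; abel
    rw [this]
    exact Submodule.add_mem _ (hy q) (hx (y • q))
  | inv x _ hx =>
    have := hx (x⁻¹ • q)
    rw [smul_inv_smul] at this
    have h2 : (Pi.single q (1 : k) - Pi.single (x⁻¹ • q) 1 : Q → k)
        = - (Pi.single (x⁻¹ • q) (1 : k) - Pi.single q 1) := by abel
    rw [h2]
    exact Submodule.neg_mem _ this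

/-- `range (1 - u) + range (s - u)` has codimension at most one. -/
theorem h2k_finrank_sup_range [Nonempty Q] [MulAction.IsPretransitive G Q] (s u : G)
    (hgen : Subgroup.closure {s, u} = ⊤) :
    Nat.card Q ≤ Module.finrank k
      ↥(LinearMap.range (1 - h2k_rho k Q u) ⊔ LinearMap.range (h2k_rho k Q s - h2k_rho k Q u))
        + 1 := by
  classical
  have := Fintype.ofFinite Q
  obtain ⟨q₀⟩ := ‹Nonempty Q›
  set M := LinearMap.range (1 - h2k_rho k Q u) ⊔ LinearMap.range (h2k_rho k Q s - h2k_rho k Q u)
    with hM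
  have hdelta : ∀ q : Q, (Pi.single q (1 : k) - Pi.single q₀ 1 : Q → k) ∈ M := by
    intro q
    obtain ⟨g, rfl⟩ := MulAction.exists_smul_eq G q₀ q
    have := h2k_delta_sub_mem (k := k) s u g (by rw [hgen]; trivial) q₀
    have h2 : (Pi.single (g • q₀) (1 : k) - Pi.single q₀ 1 : Q → k)
        = - (Pi.single q₀ (1 : k) - Pi.single (g • q₀) 1) := by abel
    rw [h2]
    exact Submodule.neg_mem _ this
  have htop : (⊤ : Submodule k (Q → k)) ≤ M ⊔ Submodule.span k {(Pi.single q₀ (1 : k) : Q → k)} := by
    intro v _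
    have hv : v = ∑ q, v q • (Pi.single q (1 : k) - Pi.single q₀ 1 : Q → k)
        + (∑ q, v q) • (Pi.single q₀ (1 : k) : Q → k) := by
      have h1 : v = ∑ q, v q • (Pi.single q (1 : k) : Q → k) := by
        funext x
        rw [Finset.sum_apply, Finset.sum_eq_single x]
        · simp
        · intro b _ hb
          simp [Pi.single_eq_of_ne hb.symm]
        · intro h; exact absurd (Finset.mem_univ x) h
      conv_lhs => rw [h1]
      simp only [smul_sub, Finset.sum_sub_distrib, Finset.sum_smul]
      abel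
    rw [hv]
    refine Submodule.add_mem _ (Submodule.mem_sup_left ?_) (Submodule.mem_sup_right ?_)
    · exact Submodule.sum_mem _ fun q _ => Submodule.smul_mem _ _ (hdelta q)
    · exact Submodule.smul_mem _ _ (Submodule.subset_span rfl)
  have h1 : Module.finrank k (Q → k) ≤ Module.finrank k
      ↥(M ⊔ Submodule.span k {(Pi.single q₀ (1 : k) : Q → k)}) := by
    rw [← finrank_top k (Q → k)]
    exact Submodule.finrank_mono htop
  have h2 := Submodule.finrank_add_le_finrank_add_finrank M
    (Submodule.span k {(Pi.single q₀ (1 : k) : Q → k)})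
  have h3 : Module.finrank k ↥(Submodule.span k {(Pi.single q₀ (1 : k) : Q → k)}) ≤ 1 :=
    (finrank_span_le_card _).trans (by simp)
  rw [Module.finrank_pi, ← Nat.card_eq_fintype_card] at h1
  omega

omit [Finite Q] in
/-- Functions invariant under `s` and `u` are constant. -/
theorem h2k_finrank_inv_inf_le [MulAction.IsPretransitive G Q] (s u : G)
    (hgen : Subgroup.closure {s, u} = ⊤) :
    Module.finrank k ↥(h2k_inv k Q s ⊓ h2k_inv k Q u) ≤ 1 := by
  have hle : h2k_inv k Q s ⊓ h2k_inv k Q u ≤ Submodule.span k {(fun _ => 1 : Q → k)} := by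
    rintro b ⟨hs, hu⟩
    rw [SetLike.mem_coe, h2k_mem_inv] at hs hu
    have hall : ∀ g : G, g ∈ Subgroup.closure {s, u} → h2k_rho k Q g b = b := by
      intro g hg
      induction hg using Subgroup.closure_induction with
      | mem x hx =>
        rcases hx with rfl | hx
        · exact hs
        · rw [Set.mem_singleton_iff] at hx; subst hx; exact hu
      | one => rw [map_one]; rfl
      | mul x y _ _ hx hy => rw [h2k_rho_mul_apply, hy, hx]
      | inv x _ hx =>
        conv_lhs => rw [← hx]
        exact h2k_rho_inv_apply_self x b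
    by_cases hQ : Nonempty Q
    · obtain ⟨q₀⟩ := hQ
      have : b = b q₀ • (fun _ => 1 : Q → k) := by
        funext q
        obtain ⟨g, rfl⟩ := MulAction.exists_smul_eq G q q₀
        have := congrFun (hall g⁻¹ (by rw [hgen]; trivial)) q
        rw [h2k_rho_apply, inv_inv] at this
        rw [this]
        simp
      rw [this]
      exact Submodule.smul_mem _ _ (Submodule.subset_span rfl)
    · have : b = 0 := by
        funext q
        exact absurd ⟨q⟩ hQ
      rw [this]
      exact Submodule.zero_mem _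
  exact (Submodule.finrank_mono hle).trans ((finrank_span_le_card _).trans (by simp))

/-- `finrank (range (1 - g)) + finrank (invariants of g) = |Q|` (rank–nullity; char-free). -/
theorem h2k_finrank_range_add (g : G) :
    Module.finrank k ↥(LinearMap.range (1 - h2k_rho k Q g)) + Module.finrank k ↥(h2k_inv k Q g)
      = Nat.card Q := by
  classical
  have := Fintype.ofFinite Q
  have h := LinearMap.finrank_range_add_finrank_ker (1 - h2k_rho k Q g)
  rw [Module.finrank_pi, ← Nat.card_eq_fintype_card] at h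
  exact h

/-- **(K1) the characteristic-free permutation-module dimension count.**
`k` any field, `Q` a finite transitive `G`-set, `G = ⟨s, u⟩`, `t = s⁻¹ u`.  If `H ≤ Q → k` satisfies
(1) `H ≤ range (1 - u)`, (2) `s⁻¹ H ≤ range (1 - t)`, (3) `H ∩ (1 - u) V^s = 0`, then
`dim H + dim V^s + dim V^u + dim V^t ≤ |Q| + 2`. -/
theorem h2k_permCount [Nonempty Q] [MulAction.IsPretransitive G Q] (s u : G)
    (hgen : Subgroup.closure {s, u} = ⊤) (H : Submodule k (Q → k))
    (hH1 : ∀ w ∈ H, w ∈ LinearMap.range (1 - h2k_rho k Q u))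
    (hH2 : ∀ w ∈ H, h2k_rho k Q s⁻¹ w ∈ LinearMap.range (1 - h2k_rho k Q (s⁻¹ * u)))
    (hH3 : ∀ w ∈ H, ∀ b, h2k_rho k Q s b = b → w = b - h2k_rho k Q u b → w = 0) :
    Module.finrank k H + Module.finrank k (h2k_inv k Q s) + Module.finrank k (h2k_inv k Q u)
      + Module.finrank k (h2k_inv k Q (s⁻¹ * u)) ≤ Nat.card Q + 2 := by
  classical
  have := Fintype.ofFinite Q
  set t : G := s⁻¹ * u with ht_def
  set A : Submodule k (Q → k) := LinearMap.range (1 - h2k_rho k Q u) with hA
  set I : Submodule k (Q → k) := LinearMap.range (h2k_rho k Q s - h2k_rho k Q u) with hI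
  set B : Submodule k (Q → k) := Submodule.map (1 - h2k_rho k Q u) (h2k_inv k Q s) with hB
  -- `I = s • range (1 - t)`
  have key : ∀ v, h2k_rho k Q s ((1 - h2k_rho k Q t) v)
      = (h2k_rho k Q s - h2k_rho k Q u) v := by
    intro v
    simp only [LinearMap.sub_apply, Module.End.one_apply, map_sub, ht_def, h2k_rho_mul_apply,
      h2k_rho_apply_inv_self]
  have hIeq : I = Submodule.map ((h2k_rhoEquiv s : (Q → k) ≃ₗ[k] (Q → k)) : (Q → k) →ₗ[k] (Q → k))
      (LinearMap.range (1 - h2k_rho k Q t)) := by
    ext w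
    rw [hI, Submodule.mem_map]
    constructor
    · rintro ⟨v, rfl⟩
      exact ⟨(1 - h2k_rho k Q t) v, ⟨v, rfl⟩, key v⟩
    · rintro ⟨_, ⟨v, rfl⟩, rfl⟩
      exact ⟨v, (key v).symm⟩
  have hBA : B ≤ A ⊓ I := by
    rintro _ ⟨b, hb, rfl⟩
    rw [SetLike.mem_coe, h2k_mem_inv] at hb
    refine ⟨⟨b, rfl⟩, ⟨b, ?_⟩⟩
    rw [LinearMap.sub_apply, LinearMap.sub_apply, Module.End.one_apply, hb]
  have hHA : H ≤ A ⊓ I := by
    intro w hw
    refine ⟨hH1 w hw, ?_⟩
    show w ∈ I
    rw [hIeq, Submodule.mem_map]
    exact ⟨_, hH2 w hw, h2k_rho_apply_inv_self s w⟩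
  have hHB : H ⊓ B = ⊥ := by
    rw [eq_bot_iff]
    rintro w ⟨hw, b, hb, hbw⟩
    rw [SetLike.mem_coe, h2k_mem_inv] at hb
    rw [Submodule.mem_bot]
    refine hH3 w hw b hb ?_
    rw [← hbw, LinearMap.sub_apply, Module.End.one_apply]
  -- dimension counts
  have h1 : Module.finrank k ↥A + Module.finrank k ↥(h2k_inv k Q u) = Nat.card Q :=
    h2k_finrank_range_add (k := k) (Q := Q) u
  have h2 := h2k_finrank_range_add (k := k) (Q := Q) t
  have hIfin : Module.finrank k ↥I = Module.finrank k ↥(LinearMap.range (1 - h2k_rho k Q t)) := by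
    rw [hIeq, LinearEquiv.finrank_map_eq]
  have h3 : Nat.card Q ≤ Module.finrank k ↥(A ⊔ I) + 1 :=
    h2k_finrank_sup_range (k := k) (Q := Q) s u hgen
  have h4 := Submodule.finrank_sup_add_finrank_inf_eq A I
  have h5 : Module.finrank k ↥H + Module.finrank k ↥B ≤ Module.finrank k ↥(A ⊓ I) := by
    have h := Submodule.finrank_sup_add_finrank_inf_eq H B
    rw [hHB, finrank_bot, add_zero] at h
    rw [← h]
    exact Submodule.finrank_mono (sup_le hHA hBA)
  have h6 : Module.finrank k ↥(h2k_inv k Q s) ≤ Module.finrank k ↥B + 1 := by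
    set f : ↥(h2k_inv k Q s) →ₗ[k] (Q → k) := (1 - h2k_rho k Q u) ∘ₗ (h2k_inv k Q s).subtype with hf
    have hrange : LinearMap.range f = B := by
      rw [hf, LinearMap.range_comp, Submodule.range_subtype]
    have hker : Module.finrank k ↥(LinearMap.ker f) ≤ 1 := by
      rw [← Submodule.finrank_map_subtype_eq]
      refine (Submodule.finrank_mono ?_).trans (h2k_finrank_inv_inf_le (k := k) (Q := Q) s u hgen)
      rintro _ ⟨b, hb, rfl⟩
      refine ⟨b.2, ?_⟩
      rw [SetLike.mem_coe, LinearMap.mem_ker] at hb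
      exact hb
    have := LinearMap.finrank_range_add_finrank_ker f
    rw [hrange] at this
    omega
  rw [hIfin] at h4
  omega

end Count

end Fermat.Agent.Lib.S16
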