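import Mathlib
import Fermat.Agent.Lib.S21.Defs
import Fermat.Agent.Lib.S21.Period
import Fermat.Agent.Lib.S21.PeriodFinal
import Fermat.Agent.Lib.S21.ParabolicConj
import Fermat.Agent.Lib.S21.ParabolicDim
import Fermat.Agent.Lib.S21.CocycleProof
import Fermat.Agent.Lib.S21.Dim

/-!
# Project S16 (S-i, part 2): vanishing of all periods forces vanishing of all parabolic homs

Owner: helper3.

For `f ∈ S₂(Γ₀(N))` the conjugate form `f^c(z) = conj (f (-conj z)) = f ∣[2] J` is again a cusp form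
on `Γ₀(N)`, and `periodMap N f^c γ = - conj (periodMap N f (jγ))`.  Together with Eichler–Shimura
(S21: every parabolic homomorphism is `(1+j) P(f₁) + (1-j) P(f₂)`) this shows: if all cusp form
periods of `γ` vanish then every parabolic homomorphism kills `γ`.
-/

set_option autoImplicit false

noncomputable section

namespace Fermat.Agent.Lib.S16

open ModularCurve ModularCurve.Period CongruenceSubgroup UpperHalfPlane Filter Topology
open Fermat.Agent.Lib.Helper3.MS Fermat.Agent.Lib.Helper8 Fermat.Agent.Lib.S21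
open scoped MatrixGroups Manifold ModularForm ComplexConjugate

/-- `J γ = (jγ) J` in `GL (Fin 2) ℝ`. -/
theorem h3_J_mul (γ : SL(2, ℤ)) :
    J * Matrix.SpecialLinearGroup.mapGL ℝ γ = Matrix.SpecialLinearGroup.mapGL ℝ (jConjSL γ) * J := by
  apply Matrix.GeneralLinearGroup.ext
  intro a b
  fin_cases a <;> fin_cases b <;>
    simp [Matrix.mul_apply, Fin.sum_univ_two, jConjSL_coe]

/-- Pointwise formula for the slash by `J`. -/
theorem h3_slash_J_apply (k : ℤ) (F : ℍ → ℂ) (z : ℍ) : (F ∣[k] J) z = conj (F (J • z)) := by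
  rw [ModularForm.slash_apply]
  simp

variable {N : ℕ} [NeZero N]

/-- The slash by `J` of a `Γ₀(N)`-invariant function is `Γ₀(N)`-invariant; more generally
`(F ∣ J) ∣ γ = (F ∣ jγ) ∣ J`. -/
theorem h3_slash_J_slash (k : ℤ) (F : ℍ → ℂ) (γ : SL(2, ℤ)) :
    (F ∣[k] J) ∣[k] (Matrix.SpecialLinearGroup.mapGL ℝ γ)
      = (F ∣[k] (Matrix.SpecialLinearGroup.mapGL ℝ (jConjSL γ))) ∣[k] J := by
  rw [← SlashAction.slash_mul, ← SlashAction.slash_mul, h3_J_mul]

/-- The conjugate cusp form `f^c(z) = conj (f (-conj z))`. -/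
def h3_conjForm (f : CuspForm (Gamma0 N) 2) : CuspForm (Gamma0 N) 2 where
  toFun := ⇑f ∣[(2 : ℤ)] J
  slash_action_eq' := by
    intro γ hγ
    obtain ⟨g, hg, rfl⟩ := Subgroup.mem_map.mp hγ
    rw [h3_slash_J_slash]
    have : ⇑f ∣[(2 : ℤ)] (Matrix.SpecialLinearGroup.mapGL ℝ (jConjSL g)) = ⇑f :=
      SlashInvariantFormClass.slash_action_eq f _
        (Subgroup.mem_map.mpr ⟨jConjSL g, jConjSL_mem_Gamma0 hg, rfl⟩)
    rw [this]
  holo' := (CuspFormClass.holo f).slash 2 J
  zero_at_cusps' := by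
    intro c hc
    have hc' : IsCusp c 𝒮ℒ := (Subgroup.IsArithmetic.isCusp_iff_isCusp_SL2Z _).mp hc
    rw [OnePoint.isZeroAt_iff_forall_SL2Z hc']
    intro γ _
    change IsZeroAtImInfty ((⇑f ∣[(2 : ℤ)] J) ∣[(2 : ℤ)] (Matrix.SpecialLinearGroup.mapGL ℝ γ))
    rw [h3_slash_J_slash]
    have h0 : IsZeroAtImInfty (⇑f ∣[(2 : ℤ)] (Matrix.SpecialLinearGroup.mapGL ℝ (jConjSL γ))) :=
      CuspFormClass.zero_at_infty_slash f (jConjSL γ)
    rw [IsZeroAtImInfty, ZeroAtFilter] at h0 ⊢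
    have h1 := (Complex.continuous_conj.tendsto 0).comp (h0.comp h1_tendsto_J)
    rw [map_zero] at h1
    refine h1.congr fun z => ?_
    simp only [Function.comp_apply]
    rw [h3_slash_J_apply]

theorem h3_conjForm_apply (f : CuspForm (Gamma0 N) 2) (z : ℍ) :
    h3_conjForm f z = conj (f (J • z)) := h3_slash_J_apply 2 (⇑f) z

/-- `- h1_bar (Ginf f)` is a primitive of the conjugate form. -/
theorem h3_bar_isPrim (f : CuspForm (Gamma0 N) 2) (τ : ℍ) :
    HasDerivAt ((fun z : ℍ => -h1_bar (Ginf (⇑f)) z) ∘ ofComplex) (h3_conjForm f τ) (τ : ℂ) := by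
  have hτ : 0 < (τ : ℂ).im := τ.im_pos
  have hτ' : 0 < (-conj (τ : ℂ)).im := by simpa using hτ
  -- derivative of `Ginf f ∘ ofComplex` at `-conj τ = J • τ`
  have h1 : HasDerivAt (Ginf (⇑f) ∘ ofComplex) (f (J • τ)) (-conj (τ : ℂ)) := by
    have := (h1_isDiff f).Ginf_isPrim (J • τ)
    rwa [coe_J_smul] at this
  -- compose with `w ↦ -w`
  have h2 : HasDerivAt (fun w : ℂ => (Ginf (⇑f) ∘ ofComplex) (-w)) (f (J • τ) * (-1))
      (conj (τ : ℂ)) := by
    have hneg : HasDerivAt (fun w : ℂ => -w) (-1) (conj (τ : ℂ)) := (hasDerivAt_id _).neg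
    exact HasDerivAt.comp (conj (τ : ℂ)) (h₂ := Ginf (⇑f) ∘ ofComplex) (h := fun w : ℂ => -w)
      h1 hneg
  have h3 := h2.conj_conj
  rw [Complex.conj_conj] at h3
  have h4 : conj (f (J • τ) * (-1)) = -(h3_conjForm f τ) := by
    rw [h3_conjForm_apply, map_mul, map_neg, map_one, mul_neg_one]
  rw [h4] at h3
  have h5 := h3.neg
  rw [neg_neg] at h5
  refine h5.congr_of_eventuallyEq ?_
  have hopen : {w : ℂ | 0 < w.im} ∈ 𝓝 (τ : ℂ) :=
    (isOpen_lt continuous_const Complex.continuous_im).mem_nhds hτ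
  filter_upwards [hopen] with w hw
  simp only [Function.comp_apply, h1_bar, Pi.neg_apply]
  congr 3
  rw [J_smul, ofComplex_apply_of_im_pos hw]

/-- `- h1_bar (Ginf f)` is an equivariant primitive of the conjugate form. -/
theorem h3_bar_hasEquivariantPrimitive (f : CuspForm (Gamma0 N) 2) :
    HasEquivariantPrimitive N (h3_conjForm f) (fun z : ℍ => -h1_bar (Ginf (⇑f)) z) := by
  refine ⟨h3_bar_isPrim f, ?_, ?_, ?_⟩
  · have h := (h1_tendsto_bar_smul f 1).neg
    rw [map_one, period_one, map_zero, neg_zero] at h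
    refine h.congr fun w => ?_
    rw [one_smul]
  · intro γ
    refine ⟨-conj (period (⇑f) (jConjSL (γ : SL(2, ℤ)))), fun z => ?_⟩
    show -h1_bar (Ginf (⇑f)) ((γ : SL(2, ℤ)) • z) - -h1_bar (Ginf (⇑f)) z = _
    rw [h1_bar_smul f γ γ.2 z]
    ring
  · intro δ
    exact ⟨_, (h1_tendsto_bar_smul f δ).neg⟩

/-- The periods of the conjugate form. -/
theorem h3_period_conjForm (f : CuspForm (Gamma0 N) 2) (γ : Gamma0 N) :
    periodMap N (h3_conjForm f) (Additive.ofMul γ)
      = -conj (periodMap N f (Additive.ofMul (jConjGamma0 N γ))) := by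
  have hF := h1_eq_Ginf (h3_conjForm f) (h3_bar_hasEquivariantPrimitive f)
  rw [h1_periodMap_apply, h1_periodMap_apply, jConjGamma0_coe]
  have h1 := h1_Ginf_smul (h3_conjForm f) γ γ.2 UpperHalfPlane.I
  rw [← hF] at h1
  simp only at h1
  rw [h1_bar_smul f γ γ.2] at h1
  linear_combination -h1

/-- If all cusp form periods of `γ` vanish, so do those of `jγ`. -/
theorem h3_periodMap_jConj_eq_zero (γ : Gamma0 N)
    (h : ∀ f : CuspForm (Gamma0 N) 2, periodMap N f (Additive.ofMul γ) = 0)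
    (f : CuspForm (Gamma0 N) 2) :
    periodMap N f (Additive.ofMul (jConjGamma0 N γ)) = 0 := by
  have h1 := h3_period_conjForm f γ
  rw [h (h3_conjForm f)] at h1
  have h2 : conj (periodMap N f (Additive.ofMul (jConjGamma0 N γ))) = 0 := by
    linear_combination h1
  exact (map_eq_zero (starRingEnd ℂ)).mp h2

/-- Eichler–Shimura (S21), restated. -/
theorem h3_range_periodHomPair (N : ℕ) [NeZero N] :
    LinearMap.range (periodHomPair N) = parabolicHoms ℂ (Gamma0 N) ℂ :=
  (s21_of_contracts N (h1_periodStatement N) (h2_parabolicDim_of h2_cocycle N)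
    (h8_dimStatement N)).2

/-- **If all cusp form periods of `γ ∈ Γ₀(N)` vanish then every parabolic homomorphism
`Γ₀(N) → ℂ` kills `γ`.** -/
theorem h3_parabolicHoms_apply_eq_zero (γ : Gamma0 N)
    (h : ∀ f : CuspForm (Gamma0 N) 2, periodMap N f (Additive.ofMul γ) = 0) :
    ∀ φ ∈ parabolicHoms ℂ (Gamma0 N) ℂ, φ (Additive.ofMul γ) = 0 := by
  intro φ hφ
  rw [← h3_range_periodHomPair N] at hφ
  obtain ⟨⟨f₁, f₂⟩, rfl⟩ := hφ
  obtain ⟨pml, hpml, hdef⟩ := periodHomPair_def N (h1_existsPeriodMapLinear N)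
  rw [hdef]
  simp only [LinearMap.coprod_apply, LinearMap.comp_apply, LinearMap.add_apply,
    LinearMap.sub_apply, LinearMap.id_apply, hpml, AddMonoidHom.add_apply,
    AddMonoidHom.sub_apply, charInvolution_apply, toMul_ofMul]
  rw [h f₁, h f₂, h3_periodMap_jConj_eq_zero γ h f₁, h3_periodMap_jConj_eq_zero γ h f₂]
  ring

end Fermat.Agent.Lib.S16
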