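/-
Project S16, (S-ii) step (T1) (helper6): the finitely generated abelian group step.

If `M` is a finitely generated abelian group with `g ≤ dim_ℂ Hom(M, ℂ)` and
`dim_{𝔽_ℓ} Hom(M, 𝔽_ℓ) ≤ g` for every prime `ℓ`, then `M` is torsion free, hence an element of `M`
killed by all homomorphisms to `ℂ` is zero.
-/
import Mathlib

set_option autoImplicit false

noncomputable section

open DirectSum

namespace Fermat.Agent.Lib.S16

section AbHom

variable {n : ℕ} {ι : Type} [Fintype ι] (p : ι → ℕ) (e : ι → ℕ)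

/-- the model group `ℤ^n × ⨁ ZMod (p i ^ e i)`. -/
abbrev h6t_Model (n : ℕ) {ι : Type} (p e : ι → ℕ) : Type :=
  (Fin n →₀ ℤ) × ⨁ i : ι, ZMod (p i ^ e i)

/-- The torsion part of the model is killed by `∏ p i ^ e i`. -/
theorem h6t_torsion_smul (y : ⨁ i : ι, ZMod (p i ^ e i)) :
    (∏ i, p i ^ e i) • y = 0 := by
  classical
  induction y using DirectSum.induction_on with
  | zero => simp
  | of i x =>
    rw [← map_nsmul]
    have : (∏ j, p j ^ e j) • x = 0 := by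
      have hdvd : p i ^ e i ∣ ∏ j, p j ^ e j := Finset.dvd_prod_of_mem _ (Finset.mem_univ i)
      obtain ⟨c, hc⟩ := hdvd
      rw [hc, mul_comm, mul_nsmul, nsmul_eq_mul, ZMod.natCast_self, zero_mul]
    rw [this, map_zero]
  | add x y hx hy => rw [smul_add, hx, hy, add_zero]

variable {M : Type*} [AddCommGroup M]

/-- (I) `dim_ℂ Hom(M, ℂ) ≤ n`. -/
theorem h6t_finrank_complex_le (E : M ≃+ h6t_Model n p e) (hp : ∀ i, (p i).Prime) :
    Module.finrank ℂ (M →+ ℂ) ≤ n := by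
  classical
  let ev : (M →+ ℂ) →ₗ[ℂ] (Fin n → ℂ) :=
    { toFun := fun φ j => φ (E.symm (Finsupp.single j 1, 0))
      map_add' := fun φ ψ => rfl
      map_smul' := fun c φ => rfl }
  have hinj : Function.Injective ev := by
    rw [← LinearMap.ker_eq_bot, LinearMap.ker_eq_bot']
    intro φ hφ
    have hφ' : ∀ j, φ (E.symm (Finsupp.single j 1, 0)) = 0 := fun j => congrFun hφ j
    -- the free part
    have h1 : ∀ x : Fin n →₀ ℤ, φ (E.symm (x, 0)) = 0 := by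
      let χ : (Fin n →₀ ℤ) →+ ℂ :=
        (φ.comp E.symm.toAddMonoidHom).comp (AddMonoidHom.inl (Fin n →₀ ℤ) _)
      have hχ : χ = 0 := by
        apply Finsupp.addHom_ext
        intro j b
        have : (Finsupp.single j b : Fin n →₀ ℤ) = b • Finsupp.single j 1 := by
          rw [Finsupp.smul_single, smul_eq_mul, mul_one]
        rw [this, map_zsmul]
        show b • φ (E.symm (Finsupp.single j 1, 0)) = _
        rw [hφ' j, smul_zero]
        rfl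
      intro x
      exact DFunLike.congr_fun hχ x
    -- the torsion part
    have h2 : ∀ y : ⨁ i : ι, ZMod (p i ^ e i), φ (E.symm (0, y)) = 0 := by
      intro y
      have hN : (∏ i, p i ^ e i) ≠ 0 :=
        Finset.prod_ne_zero_iff.mpr fun i _ => pow_ne_zero _ (hp i).ne_zero
      have h3 : (∏ i, p i ^ e i) • φ (E.symm (0, y)) = 0 := by
        rw [← map_nsmul, ← map_nsmul, Prod.smul_mk, smul_zero, h6t_torsion_smul, ← Prod.zero_eq_mk,
          map_zero, map_zero]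
      rw [nsmul_eq_mul] at h3
      rcases mul_eq_zero.mp h3 with h | h
      · exact absurd (by exact_mod_cast h) hN
      · exact h
    apply AddMonoidHom.ext
    intro m
    obtain ⟨⟨x, y⟩, rfl⟩ := E.symm.surjective m
    have : ((x, y) : h6t_Model n p e) = (x, 0) + (0, y) := by simp
    rw [this, map_add, map_add, h1, h2, add_zero]
    rfl
  have := LinearMap.finrank_le_finrank_of_injective hinj
  rwa [Module.finrank_fin_fun] at this

omit [Fintype ι] in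
/-- (II) a nontrivial `ℓ`-primary cyclic factor gives `n + 1 ≤ dim_{𝔽_ℓ} Hom(M, 𝔽_ℓ)`. -/
theorem h6t_finrank_zmod_ge (E : M ≃+ h6t_Model n p e) (i₀ : ι) (he : e i₀ ≠ 0)
    (ℓ : ℕ) [Fact ℓ.Prime] (hℓ : p i₀ = ℓ) [Module.Finite (ZMod ℓ) (M →+ ZMod ℓ)] :
    n + 1 ≤ Module.finrank (ZMod ℓ) (M →+ ZMod ℓ) := by
  classical
  have hℓp : ℓ.Prime := Fact.out
  have hdvd : ℓ ∣ p i₀ ^ e i₀ := by
    rw [hℓ]; exact dvd_pow_self ℓ he
  let red : ZMod (p i₀ ^ e i₀) →+* ZMod ℓ := ZMod.castHom hdvd (ZMod ℓ)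
  let A : (Fin n → ZMod ℓ) → ((Fin n →₀ ℤ) →+ ZMod ℓ) := fun c =>
    Finsupp.liftAddHom (fun j => (AddMonoidHom.mulRight (c j)).comp (Int.castAddHom (ZMod ℓ)))
  let B : ZMod ℓ → ((⨁ i : ι, ZMod (p i ^ e i)) →+ ZMod ℓ) := fun d =>
    (AddMonoidHom.mulLeft d).comp
      (red.toAddMonoidHom.comp (DFinsupp.evalAddMonoidHom (β := fun i => ZMod (p i ^ e i)) i₀))
  let f : (Fin n → ZMod ℓ) × ZMod ℓ → (M →+ ZMod ℓ) := fun cd =>
    (AddMonoidHom.coprod (A cd.1) (B cd.2)).comp E.toAddMonoidHom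
  have hf1 : ∀ cd j, f cd (E.symm (Finsupp.single j 1, 0)) = cd.1 j := by
    intro cd j
    simp [f, A, B]
  have hf2 : ∀ cd, f cd (E.symm (0, DirectSum.of (fun i => ZMod (p i ^ e i)) i₀ 1)) = cd.2 := by
    intro cd
    have h1 : (DFinsupp.evalAddMonoidHom (β := fun i => ZMod (p i ^ e i)) i₀)
        (DirectSum.of (fun i => ZMod (p i ^ e i)) i₀ 1) = 1 := DirectSum.of_eq_same i₀ 1
    simp [f, A, B, red]
    rw [h1, ZMod.cast_one hdvd, mul_one]
  have hinj : Function.Injective f := by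
    intro cd cd' h
    apply Prod.ext
    · funext j
      rw [← hf1 cd j, ← hf1 cd' j, h]
    · rw [← hf2 cd, ← hf2 cd', h]
  have hfin : Finite (M →+ ZMod ℓ) := Module.finite_of_finite (ZMod ℓ)
  have hcard := Nat.card_le_card_of_injective f hinj
  rw [Module.natCard_eq_pow_finrank (K := ZMod ℓ) (V := M →+ ZMod ℓ), Nat.card_prod,
    Nat.card_fun, Nat.card_zmod, Nat.card_fin, ← pow_succ] at hcard
  exact (Nat.pow_le_pow_iff_right hℓp.one_lt).mp hcard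

omit [Fintype ι] in
/-- (III) in the torsion free case, homomorphisms to `ℂ` separate points. -/
theorem h6t_eq_zero_of_free (E : M ≃+ h6t_Model n p e) (he : ∀ i, e i = 0) (m : M)
    (hm : ∀ φ : M →+ ℂ, φ m = 0) : m = 0 := by
  classical
  have hy : (E m).2 = 0 := by
    apply DFinsupp.ext
    intro i
    have : Subsingleton (ZMod (p i ^ e i)) := by
      rw [he i, pow_zero]
      infer_instance
    exact Subsingleton.elim _ _
  have hx : (E m).1 = 0 := by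
    apply Finsupp.ext
    intro j
    let φ : M →+ ℂ := (Int.castAddHom ℂ).comp ((Finsupp.applyAddHom j).comp
      ((AddMonoidHom.fst (Fin n →₀ ℤ) (⨁ i : ι, ZMod (p i ^ e i))).comp E.toAddMonoidHom))
    have h := hm φ
    have h' : (((E m).1 j : ℤ) : ℂ) = 0 := h
    rw [Finsupp.zero_apply]
    exact_mod_cast h'
  have : E m = 0 := Prod.ext hx hy
  exact (AddEquiv.map_eq_zero_iff E).mp this

end AbHom

/-- **The finitely generated abelian group step.** -/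
theorem h6t_abHom (M : Type*) [AddCommGroup M] [AddGroup.FG M] (g : ℕ)
    (hC : g ≤ Module.finrank ℂ (M →+ ℂ))
    (hℓ : ∀ ℓ : ℕ, ℓ.Prime → Module.Finite (ZMod ℓ) (M →+ ZMod ℓ) ∧
      Module.finrank (ZMod ℓ) (M →+ ZMod ℓ) ≤ g)
    (m : M) (hm : ∀ φ : M →+ ℂ, φ m = 0) : m = 0 := by
  obtain ⟨n, ι, _, p, hp, e, ⟨E⟩⟩ := AddCommGroup.equiv_free_prod_directSum_zmod M
  have hgn : g ≤ n := hC.trans (h6t_finrank_complex_le p e E hp)
  have he : ∀ i, e i = 0 := by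
    intro i₀
    by_contra hne
    have : Fact (p i₀).Prime := ⟨hp i₀⟩
    obtain ⟨hfin, hle⟩ := hℓ (p i₀) (hp i₀)
    have := h6t_finrank_zmod_ge p e E i₀ hne (p i₀) rfl
    omega
  exact h6t_eq_zero_of_free p e E he m hm

section GroupLevel

variable {Γ : Type*} [Group Γ] (𝒮 : Set Γ)

/-- additive characters of `Γ` with values in `A` killing `𝒮`. -/
def h6t_P (k : Type*) [CommRing k] : Submodule k (Additive Γ →+ k) where
  carrier := {φ | ∀ δ ∈ 𝒮, φ (Additive.ofMul δ) = 0}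
  zero_mem' := fun _ _ => rfl
  add_mem' := by
    intro φ ψ hφ hψ δ hδ
    show φ (Additive.ofMul δ) + ψ (Additive.ofMul δ) = 0
    rw [hφ δ hδ, hψ δ hδ, add_zero]
  smul_mem' := by
    intro c φ hφ δ hδ
    show c • φ (Additive.ofMul δ) = 0
    rw [hφ δ hδ, smul_zero]

theorem h6t_mem_P {k : Type*} [CommRing k] (φ : Additive Γ →+ k) :
    φ ∈ h6t_P 𝒮 k ↔ ∀ δ ∈ 𝒮, φ (Additive.ofMul δ) = 0 := Iff.rfl

/-- the subgroup of the abelianisation generated by `𝒮`. -/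
def h6t_N : Subgroup (Abelianization Γ) := Subgroup.closure (Abelianization.of '' 𝒮)

/-- the quotient `Γ^ab / ⟨𝒮⟩`, additively. -/
abbrev h6t_M : Type _ := Additive (Abelianization Γ ⧸ h6t_N 𝒮)

/-- the projection `Γ → Γ^ab / ⟨𝒮⟩`. -/
def h6t_pi : Additive Γ →+ h6t_M 𝒮 :=
  MonoidHom.toAdditive ((QuotientGroup.mk' (h6t_N 𝒮)).comp Abelianization.of)

theorem h6t_pi_surjective : Function.Surjective (h6t_pi 𝒮) := by
  intro m
  obtain ⟨a, ha⟩ := QuotientGroup.mk'_surjective (h6t_N 𝒮) (Additive.toMul m)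
  obtain ⟨γ, hγ⟩ := Quot.exists_rep a
  rw [Abelianization.mk_eq_of] at hγ
  subst hγ
  exact ⟨Additive.ofMul γ, congrArg Additive.ofMul ha⟩

theorem h6t_pi_kills (δ : Γ) (hδ : δ ∈ 𝒮) : h6t_pi 𝒮 (Additive.ofMul δ) = 0 := by
  show Additive.ofMul ((QuotientGroup.mk' (h6t_N 𝒮)) (Abelianization.of δ)) = 0
  have h1 : Abelianization.of δ ∈ h6t_N 𝒮 := Subgroup.subset_closure ⟨δ, hδ, rfl⟩
  have h2 : (QuotientGroup.mk' (h6t_N 𝒮)) (Abelianization.of δ) = 1 :=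
    (QuotientGroup.eq_one_iff _).mpr h1
  rw [h2]
  rfl

/-- the universal property of `Γ^ab / ⟨𝒮⟩`. -/
theorem h6t_lift {A : Type*} [AddCommGroup A] (ψ : Additive Γ →+ A)
    (hψ : ∀ δ ∈ 𝒮, ψ (Additive.ofMul δ) = 0) :
    ∃ ψ' : h6t_M 𝒮 →+ A, ∀ x, ψ' (h6t_pi 𝒮 x) = ψ x := by
  let ψ₁ : Γ →* Multiplicative A := AddMonoidHom.toMultiplicativeRight ψ
  let ψ₂ : Abelianization Γ →* Multiplicative A := Abelianization.lift ψ₁
  have hker : h6t_N 𝒮 ≤ ψ₂.ker := by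
    rw [h6t_N, Subgroup.closure_le]
    rintro _ ⟨δ, hδ, rfl⟩
    rw [SetLike.mem_coe, MonoidHom.mem_ker]
    show ψ₂ (Abelianization.of δ) = 1
    rw [Abelianization.lift_apply_of]
    show Multiplicative.ofAdd (ψ (Additive.ofMul δ)) = 1
    rw [hψ δ hδ]
    rfl
  let ψ₃ : Abelianization Γ ⧸ h6t_N 𝒮 →* Multiplicative A := QuotientGroup.lift _ ψ₂ hker
  refine ⟨MonoidHom.toAdditiveLeft ψ₃, ?_⟩
  intro x
  obtain ⟨γ, rfl⟩ : ∃ γ : Γ, Additive.ofMul γ = x := ⟨Additive.toMul x, rfl⟩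
  show Multiplicative.toAdd (ψ₃ ((QuotientGroup.mk' (h6t_N 𝒮)) (Abelianization.of γ))) = _
  rw [QuotientGroup.mk'_apply, QuotientGroup.lift_mk, Abelianization.lift_apply_of]
  rfl

/-- composition with the projection, as a linear map `Hom(M, k) → P_k(𝒮)`. -/
def h6t_comp (k : Type*) [CommRing k] : (h6t_M 𝒮 →+ k) →ₗ[k] h6t_P 𝒮 k where
  toFun ψ := ⟨ψ.comp (h6t_pi 𝒮), fun δ hδ => by
    show ψ (h6t_pi 𝒮 (Additive.ofMul δ)) = 0
    rw [h6t_pi_kills 𝒮 δ hδ, map_zero]⟩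
  map_add' _ _ := rfl
  map_smul' _ _ := rfl

theorem h6t_comp_bijective (k : Type*) [CommRing k] : Function.Bijective (h6t_comp 𝒮 k) := by
  constructor
  · intro ψ ψ' h
    apply AddMonoidHom.ext
    intro m
    obtain ⟨x, rfl⟩ := h6t_pi_surjective 𝒮 m
    exact DFunLike.congr_fun (congrArg Subtype.val h) x
  · rintro ⟨φ, hφ⟩
    obtain ⟨ψ', hψ'⟩ := h6t_lift 𝒮 φ hφ
    refine ⟨ψ', Subtype.ext ?_⟩
    apply AddMonoidHom.ext
    intro x
    exact hψ' x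

/-- `Hom(M, k) ≃ P_k(𝒮)`. -/
def h6t_equiv (k : Type*) [CommRing k] : (h6t_M 𝒮 →+ k) ≃ₗ[k] h6t_P 𝒮 k :=
  LinearEquiv.ofBijective (h6t_comp 𝒮 k) (h6t_comp_bijective 𝒮 k)

/-- **(T1)**: the group-level statement. -/
theorem h6t_group [Group.FG Γ] (g : ℕ)
    (hC : g ≤ Module.finrank ℂ (h6t_P 𝒮 ℂ))
    (hℓ : ∀ ℓ : ℕ, ℓ.Prime → Module.Finite (ZMod ℓ) (h6t_P 𝒮 (ZMod ℓ)) ∧
      Module.finrank (ZMod ℓ) (h6t_P 𝒮 (ZMod ℓ)) ≤ g)
    (γ : Γ) (hγ : ∀ φ ∈ h6t_P 𝒮 ℂ, φ (Additive.ofMul γ) = 0)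
    {A : Type*} [AddCommGroup A] (ψ : Additive Γ →+ A)
    (hψ : ∀ δ ∈ 𝒮, ψ (Additive.ofMul δ) = 0) : ψ (Additive.ofMul γ) = 0 := by
  have hFG : AddGroup.FG (h6t_M 𝒮) := by
    have h1 : Group.FG (Abelianization Γ) :=
      Group.fg_of_surjective (f := Abelianization.of) (fun a => by
        obtain ⟨γ, hγ⟩ := Quot.exists_rep a
        exact ⟨γ, by rw [← Abelianization.mk_eq_of]; exact hγ⟩)
    infer_instance
  have hm : h6t_pi 𝒮 (Additive.ofMul γ) = 0 := by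
    apply h6t_abHom (h6t_M 𝒮) g
    · rw [LinearEquiv.finrank_eq (h6t_equiv 𝒮 ℂ)]
      exact hC
    · intro ℓ hℓp
      obtain ⟨hfin, hle⟩ := hℓ ℓ hℓp
      have : Fact ℓ.Prime := ⟨hℓp⟩
      refine ⟨Module.Finite.equiv (h6t_equiv 𝒮 (ZMod ℓ)).symm, ?_⟩
      rw [LinearEquiv.finrank_eq (h6t_equiv 𝒮 (ZMod ℓ))]
      exact hle
    · intro φ
      exact hγ (h6t_comp 𝒮 ℂ φ).1 (h6t_comp 𝒮 ℂ φ).2
  obtain ⟨ψ', hψ'⟩ := h6t_lift 𝒮 ψ hψ
  rw [← hψ', hm, map_zero]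

end GroupLevel

end Fermat.Agent.Lib.S16
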