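import Fermat.Agent.Lib.S16.Defs
import Fermat.Agent.Lib.S16.H2ParDimC
import Fermat.Agent.Lib.S16.H6TorsionFree
import Fermat.Agent.Lib.S16.H3PeriodPar

/-!
# (S16, LB, S-ii, T3) `TorsionFree p` (owner: helper2)

Assembly of helper6's group-theoretic step `h6t_group`, the char-free dimension bound
`h2k_parEllDim`, `dim_ℂ Hom_par = 2 g` and helper3's `h3_parabolicHoms_apply_eq_zero`.
-/

set_option autoImplicit false

noncomputable section

namespace Fermat.Agent.Lib.S16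

open ModularCurve ModularCurve.Period CongruenceSubgroup Fermat.Agent.Lib.X0
open scoped MatrixGroups

/-- `SL(2, ℤ)` is finitely generated. -/
instance h2k_fg_SL2Z : Group.FG SL(2, ℤ) := by
  rw [Group.fg_iff]
  refine ⟨{ModularGroup.S, ModularGroup.T}, SpecialLinearGroup.SL2Z_generators, ?_⟩
  exact Set.toFinite _

/-- `Γ₀(N)` is finitely generated. -/
instance h2k_fg_Gamma0 (N : ℕ) [NeZero N] : Group.FG (Gamma0 N) :=
  Subgroup.fg_of_index_ne_zero (Gamma0 N)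

/-- The set of "parabolic or elliptic" elements of `Γ₀(N)`. -/
def h2k_parEllSet (N : ℕ) : Set (Gamma0 N) :=
  {δ | ((δ : SL(2, ℤ)) : Matrix (Fin 2) (Fin 2) ℤ).trace ^ 2 = 4 ∨ IsOfFinOrder δ}

theorem h2k_P_eq (k : Type*) [Field k] (N : ℕ) :
    h6t_P (h2k_parEllSet N) k = h2k_parEllHoms k N := by
  ext φ
  rw [h6t_mem_P, h2k_mem_parEllHoms]
  constructor
  · intro h
    exact ⟨fun γ hγ => h γ (Or.inl hγ), fun γ hγ => h γ (Or.inr hγ)⟩
  · rintro ⟨h1, h2⟩ δ (hδ | hδ)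
    · exact h1 δ hδ
    · exact h2 δ hδ

/-- **`TorsionFree N`** (Defs contract), for every level `N ≠ 0`. -/
theorem h2k_torsionFree (N : ℕ) [NeZero N] : TorsionFree N := by
  intro γ hγ n ψ hψ1 hψ2
  obtain ⟨hfinC, _⟩ := h2k_finrank_parabolicHoms N
  refine h6t_group (h2k_parEllSet N) (Module.finrank ℂ (parabolicHoms ℂ (Gamma0 N) ℂ)) ?_ ?_ γ ?_ ψ ?_
  · rw [h2k_P_eq ℂ N, h2k_parEllHoms_complex]
  · intro ℓ hℓ
    have : Fact ℓ.Prime := ⟨hℓ⟩
    rw [h2k_P_eq (ZMod ℓ) N]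
    exact ⟨(h2k_parEllDim (ZMod ℓ) N).1, h2k_parEllDim_le (ZMod ℓ) N⟩
  · intro φ hφ
    rw [h2k_P_eq ℂ N, h2k_parEllHoms_complex] at hφ
    exact h3_parabolicHoms_apply_eq_zero γ hγ φ hφ
  · rintro δ (hδ | hδ)
    · exact hψ1 δ hδ
    · exact hψ2 δ hδ

end Fermat.Agent.Lib.S16
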