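import Mathlib
import Fermat.Agent.Lib.S16.Defs
import Fermat.Agent.Lib.S16.H3PeriodPar
import Fermat.Agent.Lib.S16.H6TorsionFree
import Fermat.Agent.Lib.S16.H2ParEllDim

/-!
# Project S16 (S-ii): the contract `TorsionFree p`

Owner: helper3.  Assembly of
* (T1) `h6t_group` (helper6): the finitely generated abelian group step,
* (T2) `h2k_parEllDim` (helper2): `dim_k Hom_{par,ell}(Γ₀(N), k) ≤ 2 g` for every field `k`,
* (T3) `dim_ℂ Hom_par(Γ₀(N), ℂ) = 2 g` (S21 + S20),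
* `h3_parabolicHoms_apply_eq_zero`: vanishing of all periods forces vanishing of all parabolic homs.
-/

set_option autoImplicit false

noncomputable section

namespace Fermat.Agent.Lib.S16

open ModularCurve ModularCurve.Period CongruenceSubgroup Fermat.Agent.Lib.S21 Fermat.Agent.Lib.X0
open scoped MatrixGroups

/-- The parabolic or finite order elements of `Γ₀(N)`. -/
def h3_parEll (N : ℕ) : Set (Gamma0 N) :=
  {δ | ((δ : SL(2, ℤ)) : Matrix (Fin 2) (Fin 2) ℤ).trace ^ 2 = 4 ∨ IsOfFinOrder δ}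

theorem h3_P_field (N : ℕ) (k : Type*) [Field k] :
    h6t_P (h3_parEll N) k = h2k_parEllHoms k N := by
  ext φ
  rw [h6t_mem_P, h2k_mem_parEllHoms]
  constructor
  · intro h
    exact ⟨fun γ hγ => h γ (Or.inl hγ), fun γ hγ => h γ (Or.inr hγ)⟩
  · rintro ⟨h1, h2⟩ δ (hδ | hδ)
    · exact h1 δ hδ
    · exact h2 δ hδ

theorem h3_P_complex (N : ℕ) :
    h6t_P (h3_parEll N) ℂ = parabolicHoms ℂ (Gamma0 N) ℂ := by
  ext φ
  rw [h6t_mem_P, mem_parabolicHoms_iff]
  constructor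
  · intro h γ hγ
    exact h γ (Or.inl hγ)
  · rintro h δ (hδ | hδ)
    · exact h δ hδ
    · obtain ⟨n, hn, hpow⟩ := hδ.exists_pow_eq_one
      have h1 : φ (Additive.ofMul (δ ^ n)) = 0 := by
        rw [hpow, ofMul_one, map_zero]
      rw [ofMul_pow, map_nsmul, nsmul_eq_mul] at h1
      rcases mul_eq_zero.mp h1 with h2 | h2
      · exact absurd (by exact_mod_cast h2) hn.ne'
      · exact h2

/-- `SL(2, ℤ)` is finitely generated. -/
theorem h3_SL2Z_fg : Group.FG SL(2, ℤ) := by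
  classical
  rw [Group.fg_iff]
  exact ⟨{matS, matU}, h2_closure_S_U, by simp⟩

/-- `Γ₀(N)` is finitely generated. -/
theorem h3_Gamma0_fg (N : ℕ) [NeZero N] : Group.FG (Gamma0 N) := by
  have := h3_SL2Z_fg
  exact Subgroup.fg_of_index_ne_zero (H := Gamma0 N)

/-- (T3) `dim_ℂ Hom_par(Γ₀(N), ℂ) = 2 dim S₂(Γ₀(N))`. -/
theorem h3_finrank_parabolicHoms (N : ℕ) [NeZero N] :
    Module.finrank ℂ (parabolicHoms ℂ (Gamma0 N) ℂ)
      = 2 * Module.finrank ℂ (CuspForm (Gamma0 N) 2) := by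
  have hinj : Function.Injective (periodHomPair N) := h1_periodHomPair_inj N
  have : FiniteDimensional ℂ (CuspForm (Gamma0 N) 2) := (h8_dimStatement N).1
  rw [← h3_range_periodHomPair N, LinearMap.finrank_range_of_inj hinj, Module.finrank_prod]
  ring

/-- **Contract `TorsionFree`** (for every level `N ≠ 0`). -/
theorem h3_torsionFree (N : ℕ) [NeZero N] : TorsionFree N := by
  intro γ hγ n ψ hpar hfin
  have : Group.FG (Gamma0 N) := h3_Gamma0_fg N
  have : FiniteDimensional ℂ (CuspForm (Gamma0 N) 2) := (h8_dimStatement N).1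
  have hdim : (Module.finrank ℂ (CuspForm (Gamma0 N) 2) : ℚ) = genusFormula N :=
    (h8_dimStatement N).2
  refine h6t_group (h3_parEll N) (2 * Module.finrank ℂ (CuspForm (Gamma0 N) 2)) ?_ ?_ γ ?_ ψ ?_
  · rw [h3_P_complex, h3_finrank_parabolicHoms]
  · intro ℓ hℓ
    have : Fact ℓ.Prime := ⟨hℓ⟩
    rw [h3_P_field]
    obtain ⟨h1, h2⟩ := h2k_parEllDim (ZMod ℓ) N
    refine ⟨h1, ?_⟩
    have : (Module.finrank (ZMod ℓ) (h2k_parEllHoms (ZMod ℓ) N) : ℚ)
        ≤ ((2 * Module.finrank ℂ (CuspForm (Gamma0 N) 2) : ℕ) : ℚ) := by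
      push_cast
      rw [hdim]
      exact h2
    exact_mod_cast this
  · intro φ hφ
    rw [h3_P_complex] at hφ
    exact h3_parabolicHoms_apply_eq_zero γ hγ φ hφ
  · rintro δ (hδ | hδ)
    · exact hpar δ hδ
    · exact hfin δ hδ

end Fermat.Agent.Lib.S16
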