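import Mathlib
import Fermat.Agent.Lib.S21.PeriodPrim
import Fermat.Prelude.Sol.S_ModularForm_heckeT_slash_eq_self_of_mem_Gamma0
import Fermat.Prelude.Def_CuspForm_HeckeAlgebra

/-!
# Project S16 (S-i): Hecke equivariance of the period map

Owner: helper3.

For `f : CuspForm (Gamma0 N) 2`, `γ ∈ Γ₀(N)` and a prime `r ∤ N` we show
`periodMap N (T_r f) γ = ∑ x, periodMap N f (δ x) = periodMap N f γ'` for a family `δ x ∈ Γ₀(N)`
(resp. a single `γ' = ∏ δ x`) not depending on `f`, with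
`∏ x, Gamma0Map N (δ x) = Gamma0Map N γ ^ (r + 1)` in `ZMod N`;
same for `U_q`, `q ∣ N`, with exponent `q`.
-/

set_option autoImplicit false

noncomputable section

namespace Fermat.Agent.Lib.S16

open ModularCurve ModularCurve.Period CongruenceSubgroup UpperHalfPlane
open Fermat.Agent.Lib.Helper3.MS Fermat.Agent.Lib.S21
open P2MW.S_ModularForm_heckeT_slash_eq_self_of_mem_Gamma0.ModularForm.HeckeSlashInvariance
open scoped MatrixGroups Manifold ModularForm OnePoint

/-! ### Integer representatives -/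

/-- The integer matrix `[[1, j], [0, r]]`. -/
def h3_repU (r : ℕ) [NeZero r] (j : ℕ) : PosMat :=
  ⟨!![1, (j : ℤ); 0, (r : ℤ)], by
    show 0 < Matrix.det (!![1, (j : ℤ); 0, (r : ℤ)] : Matrix (Fin 2) (Fin 2) ℤ)
    rw [Matrix.det_fin_two_of]
    have : 0 < (r : ℤ) := by exact_mod_cast Nat.pos_of_ne_zero (NeZero.ne r)
    simpa using this⟩

/-- The integer matrix `[[r, 0], [0, 1]]`. -/
def h3_repD (r : ℕ) [NeZero r] : PosMat :=
  ⟨!![(r : ℤ), 0; 0, 1], by
    show 0 < Matrix.det (!![(r : ℤ), 0; 0, 1] : Matrix (Fin 2) (Fin 2) ℤ)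
    rw [Matrix.det_fin_two_of]
    have : 0 < (r : ℤ) := by exact_mod_cast Nat.pos_of_ne_zero (NeZero.ne r)
    simpa using this⟩

/-- Integer representatives of the Hecke coset representatives. -/
def h3_rep (r : ℕ) [NeZero r] (x : OnePoint (ZMod r)) : PosMat :=
  x.elim (h3_repD r) (fun j => h3_repU r j.val)

@[simp] theorem h3_rep_infty (r : ℕ) [NeZero r] : h3_rep r ∞ = h3_repD r := rfl

@[simp] theorem h3_rep_coe (r : ℕ) [NeZero r] (j : ZMod r) :
    h3_rep r (j : OnePoint (ZMod r)) = h3_repU r j.val := rfl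

theorem h3_toGL_repU (r : ℕ) [NeZero r] (j : ℕ) :
    toGL (h3_repU r j) = ModularForm.heckeMatrix r j := by
  apply Matrix.GeneralLinearGroup.ext
  intro a b
  rw [toGL_apply]
  have h := ModularForm.val_heckeMatrix (NeZero.ne r) j
  have h2 : (ModularForm.heckeMatrix r j : GL (Fin 2) ℝ) a b
      = (!![(1 : ℝ), (j : ℝ); 0, (r : ℝ)] : Matrix (Fin 2) (Fin 2) ℝ) a b := by
    rw [← h]
  rw [h2]
  fin_cases a <;> fin_cases b <;> simp [h3_repU]

theorem h3_toGL_repD (r : ℕ) [NeZero r] :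
    toGL (h3_repD r) = ModularForm.heckeDiagMatrix r := by
  apply Matrix.GeneralLinearGroup.ext
  intro a b
  rw [toGL_apply]
  have h := ModularForm.val_heckeDiagMatrix (NeZero.ne r)
  have h2 : (ModularForm.heckeDiagMatrix r : GL (Fin 2) ℝ) a b
      = (!![(r : ℝ), 0; 0, 1] : Matrix (Fin 2) (Fin 2) ℝ) a b := by
    rw [← h]
  rw [h2]
  fin_cases a <;> fin_cases b <;> simp [h3_repD]

theorem h3_toGL_rep (r : ℕ) [NeZero r] (x : OnePoint (ZMod r)) :
    toGL (h3_rep r x) = heckeRep r x := by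
  induction x using OnePoint.rec with
  | infty => exact h3_toGL_repD r
  | coe j => exact h3_toGL_repU r j.val

theorem h3_rep_one_zero (r : ℕ) [NeZero r] (x : OnePoint (ZMod r)) :
    (h3_rep r x : Matrix (Fin 2) (Fin 2) ℤ) 1 0 = 0 := by
  induction x using OnePoint.rec with
  | infty => simp [h3_repD]
  | coe j => simp [h3_repU]

theorem h3_toGL_injective : Function.Injective toGL := by
  intro a b h
  apply Subtype.ext
  ext i j
  have h2 : (toGL a : GL (Fin 2) ℝ) i j = (toGL b : GL (Fin 2) ℝ) i j := by rw [h]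
  rw [toGL_apply, toGL_apply] at h2
  exact_mod_cast h2

/-- The commutation relation in `GL (Fin 2) ℝ` descends to integer matrices. -/
theorem h3_rel_int (r : ℕ) [NeZero r] (x y : OnePoint (ZMod r)) (g g' : SL(2, ℤ))
    (h : heckeRep r x * Matrix.SpecialLinearGroup.mapGL ℝ g
      = Matrix.SpecialLinearGroup.mapGL ℝ g' * heckeRep r y) :
    h3_rep r x * SLtoPos g = SLtoPos g' * h3_rep r y := by
  apply h3_toGL_injective
  rw [map_mul, map_mul, h3_toGL_rep, h3_toGL_rep, toGL_SLtoPos, toGL_SLtoPos]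
  exact h

/-- Transport of periods through a commutation relation. -/
theorem h3_period_rep {H : ℍ → ℂ} (hH : IsDiff H) (r : ℕ) [NeZero r] (x y : OnePoint (ZMod r))
    (g g' : SL(2, ℤ))
    (h : heckeRep r x * Matrix.SpecialLinearGroup.mapGL ℝ g
      = Matrix.SpecialLinearGroup.mapGL ℝ g' * heckeRep r y) :
    period (H ∣[(2 : ℤ)] heckeRep r x) g = period H g' := by
  rw [← h3_toGL_rep]
  exact period_slash_upper hH (h3_rep r x) (h3_rep r y) g g' (h3_rep_one_zero r x)
    (h3_rep_one_zero r y) (h3_rel_int r x y g g' h)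

/-- The lower right entry relation coming from a commutation relation. -/
theorem h3_lr_rel (r : ℕ) [NeZero r] (x y : OnePoint (ZMod r)) (g g' : SL(2, ℤ))
    (h : heckeRep r x * Matrix.SpecialLinearGroup.mapGL ℝ g
      = Matrix.SpecialLinearGroup.mapGL ℝ g' * heckeRep r y) :
    (h3_rep r x : Matrix (Fin 2) (Fin 2) ℤ) 1 1 * g 1 1
      = g' 1 0 * (h3_rep r y : Matrix (Fin 2) (Fin 2) ℤ) 0 1
        + g' 1 1 * (h3_rep r y : Matrix (Fin 2) (Fin 2) ℤ) 1 1 := by
  have h1 := h3_rel_int r x y g g' h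
  have h2 : ((h3_rep r x * SLtoPos g : PosMat) : Matrix (Fin 2) (Fin 2) ℤ) 1 1
      = ((SLtoPos g' * h3_rep r y : PosMat) : Matrix (Fin 2) (Fin 2) ℤ) 1 1 := by rw [h1]
  rw [Submonoid.coe_mul, Submonoid.coe_mul, Matrix.mul_apply, Matrix.mul_apply,
    Fin.sum_univ_two, Fin.sum_univ_two, h3_rep_one_zero, zero_mul, zero_add, SLtoPos_coe,
    SLtoPos_coe] at h2
  exact h2

/-! ### The Hecke operators on periods -/

theorem h3_card_onePoint (r : ℕ) [NeZero r] : Fintype.card (OnePoint (ZMod r)) = r + 1 := by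
  rw [show Fintype.card (OnePoint (ZMod r)) = Fintype.card (Option (ZMod r)) from rfl,
    Fintype.card_option, ZMod.card]

variable {N : ℕ}

theorem h3_isDiff_slash_rep {H : ℍ → ℂ} (hH : IsDiff H) (r : ℕ) [NeZero r]
    (x : OnePoint (ZMod r)) : IsDiff (H ∣[(2 : ℤ)] heckeRep r x) := by
  rw [← h3_toGL_rep]
  exact hH.slash _

/-- `T_r` on periods: the family of translated elements. -/
theorem h3_heckeT_family {r : ℕ} [Fact r.Prime] [NeZero r] (hrN : ¬ r ∣ N) (g : SL(2, ℤ))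
    (hg : g ∈ Gamma0 N) :
    ∃ δ : OnePoint (ZMod r) → SL(2, ℤ), (∀ x, δ x ∈ Gamma0 N) ∧
      (∀ H : ℍ → ℂ, IsDiff H →
        period (ModularForm.heckeT 2 r H) g = ∑ x, period H (δ x)) ∧
      ∏ x, ((δ x 1 1 : ℤ) : ZMod N) = ((g 1 1 : ℤ) : ZMod N) ^ (r + 1) := by
  have hr : r.Prime := Fact.out
  have hcN : (N : ℤ) ∣ g 1 0 :=
    (ZMod.intCast_zmod_eq_zero_iff_dvd _ _).mp (Gamma0_mem.mp hg)
  choose δ hδN hδ using heckeRep_mul hrN g hcN
  have hδ0 : ∀ x, ((δ x 1 0 : ℤ) : ZMod N) = 0 := fun x =>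
    (ZMod.intCast_zmod_eq_zero_iff_dvd _ _).mpr (hδN x)
  refine ⟨δ, fun x => Gamma0_mem.mpr (hδ0 x), ?_, ?_⟩
  · intro H hH
    rw [heckeT_eq_sum_onePoint, period_sum _ _ (fun x _ => h3_isDiff_slash_rep hH r x) g]
    exact Finset.sum_congr rfl fun x _ => h3_period_rep hH r x _ g (δ x) (hδ x)
  · set u : OnePoint (ZMod r) → ZMod N :=
      fun x => (((h3_rep r x : Matrix (Fin 2) (Fin 2) ℤ) 1 1 : ℤ) : ZMod N) with hu
    have hrel : ∀ x, u x * ((g 1 1 : ℤ) : ZMod N)
        = ((δ x 1 1 : ℤ) : ZMod N) * u (redMatrix r g • x) := by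
      intro x
      have h := congrArg (Int.cast : ℤ → ZMod N) (h3_lr_rel r x _ g (δ x) (hδ x))
      push_cast at h
      rw [hδ0 x, zero_mul, zero_add] at h
      exact h
    have hcop : IsUnit ((r : ℕ) : ZMod N) :=
      (ZMod.isUnit_iff_coprime r N).mpr ((Nat.Prime.coprime_iff_not_dvd hr).mpr hrN)
    have hunit : ∀ x, IsUnit (u x) := by
      intro x
      induction x using OnePoint.rec with
      | infty => simp [hu, h3_repD]
      | coe j => simpa [hu, h3_repU] using hcop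
    have hP : IsUnit (∏ x, u x) := IsUnit.prod_iff.mpr fun x _ => hunit x
    have h1 : ∏ x, (u x * ((g 1 1 : ℤ) : ZMod N))
        = ∏ x, (((δ x 1 1 : ℤ) : ZMod N) * u (redMatrix r g • x)) :=
      Finset.prod_congr rfl fun x _ => hrel x
    rw [Finset.prod_mul_distrib, Finset.prod_mul_distrib, Finset.prod_const, Finset.card_univ,
      h3_card_onePoint] at h1
    have h2 : ∏ x, u (redMatrix r g • x) = ∏ x, u x :=
      Equiv.prod_comp (MulAction.toPerm (redMatrix r g)) u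
    rw [h2] at h1
    exact (hP.mul_right_cancel (by rw [← h1, mul_comm])).symm

/-- `U_q` on periods: the family of translated elements. -/
theorem h3_heckeU_family {q : ℕ} [NeZero q] (hqN : q ∣ N) (g : SL(2, ℤ))
    (hg : g ∈ Gamma0 N) :
    ∃ δ : ZMod q → SL(2, ℤ), (∀ x, δ x ∈ Gamma0 N) ∧
      (∀ H : ℍ → ℂ, IsDiff H →
        period (ModularForm.heckeU 2 q H) g = ∑ x, period H (δ x)) ∧
      ∀ x, ((δ x 1 1 : ℤ) : ZMod N) = ((g 1 1 : ℤ) : ZMod N) := by
  have hcN : (N : ℤ) ∣ g 1 0 :=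
    (ZMod.intCast_zmod_eq_zero_iff_dvd _ _).mp (Gamma0_mem.mp hg)
  have hc : (q : ℤ) ∣ g 1 0 := (Int.natCast_dvd_natCast.mpr hqN).trans hcN
  choose δ hδ0 hδ' using heckeMatrix_mul_of_dvd g hc
  have hδ : ∀ x : ZMod q, heckeRep q (x : OnePoint (ZMod q)) * Matrix.SpecialLinearGroup.mapGL ℝ g
      = Matrix.SpecialLinearGroup.mapGL ℝ (δ x) * heckeRep q
        (((affinePerm g ((ZMod.intCast_zmod_eq_zero_iff_dvd _ _).mpr hc)) x : ZMod q) :
          OnePoint (ZMod q)) := fun x => hδ' x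
  have hg0 : ((g 1 0 : ℤ) : ZMod N) = 0 := Gamma0_mem.mp hg
  refine ⟨δ, fun x => ?_, ?_, ?_⟩
  · rw [Gamma0_mem, hδ0 x]
    push_cast
    rw [hg0, mul_zero]
  · intro H hH
    rw [heckeU_eq_sum_zmod]
    have e : (∑ x : ZMod q, H ∣[(2 : ℤ)] ModularForm.heckeMatrix q x.val)
        = ∑ x : ZMod q, H ∣[(2 : ℤ)] heckeRep q (x : OnePoint (ZMod q)) := rfl
    rw [e, period_sum Finset.univ (fun x : ZMod q => H ∣[(2 : ℤ)] heckeRep q (x : OnePoint (ZMod q)))
      (fun x _ => h3_isDiff_slash_rep hH q _) g]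
    exact Finset.sum_congr rfl fun x _ =>
      h3_period_rep hH q (x : OnePoint (ZMod q)) _ g (δ x) (hδ x)
  · intro x
    have h := h3_lr_rel q (x : OnePoint (ZMod q)) _ g (δ x) (hδ x)
    rw [h3_rep_coe, h3_rep_coe, hδ0 x] at h
    have hq0 : (q : ℤ) ≠ 0 := by exact_mod_cast NeZero.ne q
    set j' : ℕ := ((affinePerm g ((ZMod.intCast_zmod_eq_zero_iff_dvd _ _).mpr hc)) x).val
    have h11 : ∀ j : ℕ, (h3_repU q j : Matrix (Fin 2) (Fin 2) ℤ) 1 1 = (q : ℤ) := by
      intro j; simp [h3_repU]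
    have h01 : ∀ j : ℕ, (h3_repU q j : Matrix (Fin 2) (Fin 2) ℤ) 0 1 = (j : ℤ) := by
      intro j; simp [h3_repU]
    rw [h11, h11, h01] at h
    have h' : g 1 1 = g 1 0 * (j' : ℤ) + δ x 1 1 := by
      apply mul_left_cancel₀ hq0
      linear_combination h
    have h'' := congrArg (Int.cast : ℤ → ZMod N) h'
    push_cast at h''
    rw [hg0, zero_mul, zero_add] at h''
    exact h''.symm

/-! ### Statements for the period map -/

variable [NeZero N]

omit [NeZero N] in
theorem h3_periodMap_list_prod (f : CuspForm (Gamma0 N) 2) (l : List (Gamma0 N)) :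
    periodMap N f (Additive.ofMul l.prod)
      = (l.map fun g => periodMap N f (Additive.ofMul g)).sum := by
  induction l with
  | nil => simp
  | cons a l ih => rw [List.prod_cons, ofMul_mul, map_add, ih, List.map_cons, List.sum_cons]

/-- **Hecke equivariance of the period map, `T_r`** (family version). -/
theorem h3_periodMap_heckeT_family {r : ℕ} (hr : r.Prime) (hrN : ¬ r ∣ N) (γ : Gamma0 N) :
    ∃ δ : Fin (r + 1) → Gamma0 N,
      (∀ f : CuspForm (Gamma0 N) 2,
        periodMap N (CuspForm.heckeTLin 2 hr hrN f) (Additive.ofMul γ)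
          = ∑ x, periodMap N f (Additive.ofMul (δ x))) ∧
      ∏ x, Gamma0Map N (δ x) = Gamma0Map N γ ^ (r + 1) := by
  have : Fact r.Prime := ⟨hr⟩
  have : NeZero r := ⟨hr.ne_zero⟩
  obtain ⟨δ, hδN, hper, hprod⟩ := h3_heckeT_family hrN (γ : SL(2, ℤ)) γ.2
  let e : Fin (r + 1) ≃ OnePoint (ZMod r) :=
    (Fintype.equivFinOfCardEq (h3_card_onePoint r)).symm
  refine ⟨fun i => ⟨δ (e i), hδN (e i)⟩, fun f => ?_, ?_⟩
  · rw [h1_periodMap_apply, CuspForm.coe_heckeTLin_apply, hper _ (h1_isDiff f),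
      ← Equiv.sum_comp e]
    exact Finset.sum_congr rfl fun i _ => (h1_periodMap_apply f ⟨δ (e i), hδN (e i)⟩).symm
  · have h0 : Gamma0Map N γ = (((γ : SL(2, ℤ)) 1 1 : ℤ) : ZMod N) := rfl
    rw [h0, ← hprod, ← Equiv.prod_comp e]
    exact Finset.prod_congr rfl fun i _ => rfl

/-- **Hecke equivariance of the period map, `T_r`** (single element version). -/
theorem h3_periodMap_heckeT {r : ℕ} (hr : r.Prime) (hrN : ¬ r ∣ N) (γ : Gamma0 N) :
    ∃ γ' : Gamma0 N,
      (∀ f : CuspForm (Gamma0 N) 2,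
        periodMap N (CuspForm.heckeTLin 2 hr hrN f) (Additive.ofMul γ)
          = periodMap N f (Additive.ofMul γ')) ∧
      Gamma0Map N γ' = Gamma0Map N γ ^ (r + 1) := by
  obtain ⟨δ, hper, hprod⟩ := h3_periodMap_heckeT_family hr hrN γ
  refine ⟨((Finset.univ : Finset (Fin (r + 1))).toList.map δ).prod, fun f => ?_, ?_⟩
  · rw [hper f, h3_periodMap_list_prod, List.map_map]
    exact (Finset.sum_map_toList _ _).symm
  · rw [map_list_prod, List.map_map, ← hprod]
    exact Finset.prod_map_toList _ _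

/-- **Hecke equivariance of the period map, `U_q`** (family version). -/
theorem h3_periodMap_heckeU_family {q : ℕ} (hq : q.Prime) (hqN : q ∣ N) (γ : Gamma0 N) :
    ∃ δ : Fin q → Gamma0 N,
      (∀ f : CuspForm (Gamma0 N) 2,
        periodMap N (CuspForm.heckeULin 2 hqN f) (Additive.ofMul γ)
          = ∑ x, periodMap N f (Additive.ofMul (δ x))) ∧
      ∀ x, Gamma0Map N (δ x) = Gamma0Map N γ := by
  have : NeZero q := ⟨hq.ne_zero⟩
  obtain ⟨δ, hδN, hper, hlr⟩ := h3_heckeU_family hqN (γ : SL(2, ℤ)) γ.2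
  let e : Fin q ≃ ZMod q := (Fintype.equivFinOfCardEq (ZMod.card q)).symm
  refine ⟨fun i => ⟨δ (e i), hδN (e i)⟩, fun f => ?_, fun i => hlr (e i)⟩
  rw [h1_periodMap_apply, CuspForm.coe_heckeULin_apply, hper _ (h1_isDiff f),
    ← Equiv.sum_comp e]
  exact Finset.sum_congr rfl fun i _ => (h1_periodMap_apply f ⟨δ (e i), hδN (e i)⟩).symm

/-- **Hecke equivariance of the period map, `U_q`** (single element version). -/
theorem h3_periodMap_heckeU {q : ℕ} (hq : q.Prime) (hqN : q ∣ N) (γ : Gamma0 N) :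
    ∃ γ' : Gamma0 N,
      (∀ f : CuspForm (Gamma0 N) 2,
        periodMap N (CuspForm.heckeULin 2 hqN f) (Additive.ofMul γ)
          = periodMap N f (Additive.ofMul γ')) ∧
      Gamma0Map N γ' = Gamma0Map N γ ^ q := by
  obtain ⟨δ, hper, hlr⟩ := h3_periodMap_heckeU_family hq hqN γ
  refine ⟨((Finset.univ : Finset (Fin q)).toList.map δ).prod, fun f => ?_, ?_⟩
  · rw [hper f, h3_periodMap_list_prod, List.map_map]
    exact (Finset.sum_map_toList _ _).symm
  · rw [map_list_prod, List.map_map]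
    have h1 : (Finset.univ : Finset (Fin q)).toList.map (⇑(Gamma0Map N) ∘ δ)
        = (Finset.univ : Finset (Fin q)).toList.map (fun _ => Gamma0Map N γ) :=
      List.map_congr_left fun x _ => hlr x
    rw [h1, Finset.prod_map_toList, Finset.prod_const, Finset.card_univ, Fintype.card_fin]

end Fermat.Agent.Lib.S16
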