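import Mathlib
import Fermat.Agent.Lib.S16.Defs
import Fermat.Agent.Lib.S16.H3PeriodHecke

/-!
# Project S16 (S-iv): the glue `TorsionFree + PeriodHecke + sh ⇒ LBCore`

Owner: helper7.

For `t ∈ End_ℂ(S)` and `c ∈ ZMod n` let `h7v_Rel sh t c` say: for every `γ ∈ Γ₀(p)` there is
`γ' ∈ Γ₀(p)` with `P(t f)(γ) = P(f)(γ')` for all cusp forms `f` and `sh γ' = c · sh γ`.
The set of `t` admitting such a `c` is a `ℤ`-subalgebra containing the Hecke generators
(helper3's Hecke equivariance of the period map), hence contains the Hecke algebra; `c` is unique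
by `TorsionFree p` and the surjectivity of `sh`, hence a ring homomorphism.
-/

set_option autoImplicit false

noncomputable section

namespace Fermat.Agent.Lib.S16

open ModularCurve CuspForm UpperHalfPlane CongruenceSubgroup ModularFormClass
open Fermat.Agent.Lib.S21
open scoped MatrixGroups ModularForm

/-- The facts about the Shimura homomorphism `sh : Γ₀(p) → ZMod n` consumed by the glue. -/
def h7v_ShFacts (p : ℕ) : Prop :=
  ∃ sh : Additive (Gamma0 p) →+ ZMod (eisensteinNumerator p),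
    Function.Surjective sh ∧
    (∀ δ : Gamma0 p, ((δ : SL(2, ℤ)) : Matrix (Fin 2) (Fin 2) ℤ).trace ^ 2 = 4 →
        sh (Additive.ofMul δ) = 0) ∧
    (∀ δ : Gamma0 p, IsOfFinOrder δ → sh (Additive.ofMul δ) = 0) ∧
    (∀ (γ γ' : Gamma0 p) (k : ℕ), Gamma0Map p γ' = Gamma0Map p γ ^ k →
        sh (Additive.ofMul γ') = k • sh (Additive.ofMul γ))

variable {p : ℕ} [NeZero p]

/-- `t` acts on periods through `γ ↦ γ'` with `sh γ' = c · sh γ`. -/
def h7v_Rel (sh : Additive (Gamma0 p) →+ ZMod (eisensteinNumerator p))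
    (t : Module.End ℂ (CuspForm (Gamma0 p) 2)) (c : ZMod (eisensteinNumerator p)) : Prop :=
  ∀ γ : Additive (Gamma0 p), ∃ γ' : Additive (Gamma0 p),
    (∀ f : CuspForm (Gamma0 p) 2, periodMap p (t f) γ = periodMap p f γ') ∧ sh γ' = c * sh γ

variable (sh : Additive (Gamma0 p) →+ ZMod (eisensteinNumerator p))

theorem h7v_periodMap_zsmul (m : ℤ) (f : CuspForm (Gamma0 p) 2) (γ : Additive (Gamma0 p)) :
    periodMap p (m • f) γ = periodMap p f (m • γ) := by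
  have h1 : periodMap p (m • f) = m • periodMap p f := map_zsmul (h1_periodLin p) m f
  rw [h1, AddMonoidHom.smul_apply, map_zsmul]

theorem h7v_rel_algebraMap (m : ℤ) :
    h7v_Rel sh (algebraMap ℤ (Module.End ℂ (CuspForm (Gamma0 p) 2)) m)
      (m : ZMod (eisensteinNumerator p)) := by
  intro γ
  refine ⟨m • γ, fun f => ?_, ?_⟩
  · have e : (algebraMap ℤ (Module.End ℂ (CuspForm (Gamma0 p) 2)) m) f = m • f := by
      rw [Algebra.algebraMap_eq_smul_one, LinearMap.smul_apply, Module.End.one_apply]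
    rw [e, h7v_periodMap_zsmul]
  · rw [map_zsmul, zsmul_eq_mul]

theorem h7v_rel_add {t₁ t₂ : Module.End ℂ (CuspForm (Gamma0 p) 2)}
    {c₁ c₂ : ZMod (eisensteinNumerator p)} (h₁ : h7v_Rel sh t₁ c₁) (h₂ : h7v_Rel sh t₂ c₂) :
    h7v_Rel sh (t₁ + t₂) (c₁ + c₂) := by
  intro γ
  obtain ⟨γ₁, hp₁, hs₁⟩ := h₁ γ
  obtain ⟨γ₂, hp₂, hs₂⟩ := h₂ γ
  refine ⟨γ₁ + γ₂, fun f => ?_, ?_⟩
  · rw [LinearMap.add_apply, h1_periodMap_add, AddMonoidHom.add_apply, hp₁, hp₂, map_add]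
  · rw [map_add, hs₁, hs₂, add_mul]

omit [NeZero p] in
theorem h7v_rel_mul {t₁ t₂ : Module.End ℂ (CuspForm (Gamma0 p) 2)}
    {c₁ c₂ : ZMod (eisensteinNumerator p)} (h₁ : h7v_Rel sh t₁ c₁) (h₂ : h7v_Rel sh t₂ c₂) :
    h7v_Rel sh (t₁ * t₂) (c₁ * c₂) := by
  intro γ
  obtain ⟨γ₁, hp₁, hs₁⟩ := h₁ γ
  obtain ⟨γ₂, hp₂, hs₂⟩ := h₂ γ₁
  refine ⟨γ₂, fun f => ?_, ?_⟩
  · rw [Module.End.mul_apply, hp₁, hp₂]
  · rw [hs₂, hs₁]; ring

omit [NeZero p] in
/-- Uniqueness of the multiplier. -/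
theorem h7v_rel_unique (hTF : TorsionFree p) (hsurj : Function.Surjective sh)
    (hpar : ∀ δ : Gamma0 p, ((δ : SL(2, ℤ)) : Matrix (Fin 2) (Fin 2) ℤ).trace ^ 2 = 4 →
        sh (Additive.ofMul δ) = 0)
    (hfin : ∀ δ : Gamma0 p, IsOfFinOrder δ → sh (Additive.ofMul δ) = 0)
    {t : Module.End ℂ (CuspForm (Gamma0 p) 2)} {c c' : ZMod (eisensteinNumerator p)}
    (h : h7v_Rel sh t c) (h' : h7v_Rel sh t c') : c = c' := by
  obtain ⟨γ, hγ⟩ := hsurj 1
  obtain ⟨γ₁, hp₁, hs₁⟩ := h γ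
  obtain ⟨γ₂, hp₂, hs₂⟩ := h' γ
  have hker : ∀ f : CuspForm (Gamma0 p) 2,
      periodMap p f (Additive.ofMul (Additive.toMul (γ₁ - γ₂))) = 0 := by
    intro f
    rw [ofMul_toMul, map_sub, ← hp₁, ← hp₂, sub_self]
  have h0 := hTF (Additive.toMul (γ₁ - γ₂)) hker (eisensteinNumerator p) sh hpar hfin
  rw [ofMul_toMul, map_sub, hs₁, hs₂, hγ, mul_one, mul_one, sub_eq_zero] at h0
  exact h0

omit [NeZero p] in
/-- `p ≡ 1` modulo the Eisenstein numerator. -/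
theorem h7v_natCast_self (hp : 1 ≤ p) : ((p : ℕ) : ZMod (eisensteinNumerator p)) = 1 := by
  have hdvd : eisensteinNumerator p ∣ p - 1 :=
    Nat.div_dvd_of_dvd (Nat.gcd_dvd_left (p - 1) 12)
  have h0 : ((p - 1 : ℕ) : ZMod (eisensteinNumerator p)) = 0 :=
    (ZMod.natCast_eq_zero_iff _ _).mpr hdvd
  have e : p = (p - 1) + 1 := by omega
  calc ((p : ℕ) : ZMod (eisensteinNumerator p))
      = (((p - 1) + 1 : ℕ) : ZMod (eisensteinNumerator p)) := by rw [← e]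
    _ = 1 := by rw [Nat.cast_add, h0, Nat.cast_one, zero_add]

section gens

variable (hsh : ∀ (γ γ' : Gamma0 p) (k : ℕ), Gamma0Map p γ' = Gamma0Map p γ ^ k →
    sh (Additive.ofMul γ') = k • sh (Additive.ofMul γ))

include hsh

theorem h7v_rel_T {r : ℕ} (hr : r.Prime) (hrp : ¬ r ∣ p) :
    h7v_Rel sh (heckeTLin 2 hr hrp) (((1 + (r : ℕ) : ℤ)) : ZMod (eisensteinNumerator p)) := by
  intro γ
  obtain ⟨γ', hper, hmap⟩ := h3_periodMap_heckeT hr hrp (Additive.toMul γ)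
  refine ⟨Additive.ofMul γ', fun f => hper f, ?_⟩
  rw [hsh _ _ _ hmap, ofMul_toMul, nsmul_eq_mul]
  push_cast
  ring

theorem h7v_rel_U (hp : p.Prime) {q : ℕ} (hq : q.Prime) (hqp : q ∣ p) :
    h7v_Rel sh (heckeULin 2 hqp) (1 : ZMod (eisensteinNumerator p)) := by
  intro γ
  obtain ⟨γ', hper, hmap⟩ := h3_periodMap_heckeU hq hqp (Additive.toMul γ)
  refine ⟨Additive.ofMul γ', fun f => hper f, ?_⟩
  have hqeq : q = p := (Nat.prime_dvd_prime_iff_eq hq hp).mp hqp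
  rw [hsh _ _ _ hmap, ofMul_toMul, nsmul_eq_mul, hqeq, h7v_natCast_self hp.one_le]

theorem h7v_exists_rel (hp : p.Prime) (t : Module.End ℂ (CuspForm (Gamma0 p) 2))
    (ht : t ∈ heckeAlgebra p 2 ∅) : ∃ c, h7v_Rel sh t c := by
  unfold heckeAlgebra at ht
  induction ht using Algebra.adjoin_induction with
  | mem x hx =>
    rcases hx with ⟨ℓ, hℓ, hℓN, -, rfl⟩ | ⟨q, hqN, hq, -, rfl⟩
    · exact ⟨_, h7v_rel_T sh hsh hℓ hℓN⟩
    · exact ⟨_, h7v_rel_U sh hsh hp hq hqN⟩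
  | algebraMap r => exact ⟨_, h7v_rel_algebraMap sh r⟩
  | add x y _ _ ihx ihy =>
    obtain ⟨c₁, h₁⟩ := ihx
    obtain ⟨c₂, h₂⟩ := ihy
    exact ⟨_, h7v_rel_add sh h₁ h₂⟩
  | mul x y _ _ ihx ihy =>
    obtain ⟨c₁, h₁⟩ := ihx
    obtain ⟨c₂, h₂⟩ := ihy
    exact ⟨_, h7v_rel_mul sh h₁ h₂⟩

end gens

/-- **(S-iv) glue**: `LBCore p` from `TorsionFree p`, the Hecke equivariance of the period map
and the facts about the Shimura homomorphism. -/
theorem h7v_lbCore (hp : p.Prime) (hTF : TorsionFree p) (hSh : h7v_ShFacts p) : LBCore p := by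
  obtain ⟨sh, hsurj, hpar, hfin, hsh⟩ := hSh
  have hex : ∀ t : heckeAlgebra p 2 ∅, ∃ c, h7v_Rel sh (t : Module.End ℂ _) c :=
    fun t => h7v_exists_rel sh hsh hp t.1 t.2
  have huniq : ∀ {t : Module.End ℂ (CuspForm (Gamma0 p) 2)} {c c' : ZMod (eisensteinNumerator p)},
      h7v_Rel sh t c → h7v_Rel sh t c' → c = c' :=
    fun h h' => h7v_rel_unique sh hTF hsurj hpar hfin h h'
  let c : heckeAlgebra p 2 ∅ → ZMod (eisensteinNumerator p) := fun t => (hex t).choose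
  have hc : ∀ t : heckeAlgebra p 2 ∅, h7v_Rel sh (t : Module.End ℂ _) (c t) :=
    fun t => (hex t).choose_spec
  have hone : c 1 = 1 := by
    have h1 : h7v_Rel sh ((1 : heckeAlgebra p 2 ∅) : Module.End ℂ _) 1 := by
      have := h7v_rel_algebraMap sh (p := p) 1
      simpa using this
    exact huniq (hc 1) h1
  have hzero : c 0 = 0 := by
    have h0 : h7v_Rel sh ((0 : heckeAlgebra p 2 ∅) : Module.End ℂ _) 0 := by
      have := h7v_rel_algebraMap sh (p := p) 0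
      simpa using this
    exact huniq (hc 0) h0
  have hmul : ∀ a b, c (a * b) = c a * c b := fun a b =>
    huniq (hc (a * b)) (h7v_rel_mul sh (hc a) (hc b))
  have hadd : ∀ a b, c (a + b) = c a + c b := fun a b =>
    huniq (hc (a + b)) (h7v_rel_add sh (hc a) (hc b))
  refine ⟨{ toFun := c, map_one' := hone, map_mul' := hmul, map_zero' := hzero,
            map_add' := hadd }, fun ℓ => ?_⟩
  show c (heckeFormsGen p 2 ℓ) = _
  by_cases hℓ : (ℓ : ℕ) ∣ p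
  · rw [heckeFormsGen_of_dvd hℓ, eisensteinSystem_of_dvd hℓ, Int.cast_one]
    exact huniq (hc _) (h7v_rel_U sh hsh hp ℓ.2 hℓ)
  · rw [heckeFormsGen_of_not_dvd hℓ, eisensteinSystem_of_not_dvd hℓ]
    exact huniq (hc _) (h7v_rel_T sh hsh ℓ.2 hℓ)

end Fermat.Agent.Lib.S16
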