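import Mathlib

/-!
# Project S16, Duality (blueprint §0): abstract linear algebra (helper9)

Two finitely generated free `ℤ`-modules that embed in each other's dual have the same rank, and
each embedding has a torsion cokernel.
-/

set_option autoImplicit false

namespace Fermat.Agent.Lib.S16

open Module

/-- If `M` and `M'` are finitely generated free `ℤ`-modules with injections `M → Hom(M', ℤ)` and
`M' → Hom(M, ℤ)`, then every functional on `M'` has a nonzero multiple in the image of `M`. -/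
theorem h9d6_exists_smul_mem_range {M M' : Type*} [AddCommGroup M] [AddCommGroup M']
    [Module.Finite ℤ M] [Module.Free ℤ M] [Module.Finite ℤ M'] [Module.Free ℤ M']
    (Φ : M →ₗ[ℤ] (M' →ₗ[ℤ] ℤ)) (Ψ : M' →ₗ[ℤ] (M →ₗ[ℤ] ℤ))
    (hΦ : Function.Injective Φ) (hΨ : Function.Injective Ψ) (lam : M' →ₗ[ℤ] ℤ) :
    ∃ n : ℤ, n ≠ 0 ∧ ∃ g : M, ∀ t : M', Φ g t = n * lam t := by
  have h1 : finrank ℤ M ≤ finrank ℤ M' := by
    have := LinearMap.finrank_le_finrank_of_injective hΦ
    rwa [Module.finrank_linearMap_self] at this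
  have h2 : finrank ℤ M' ≤ finrank ℤ M := by
    have := LinearMap.finrank_le_finrank_of_injective hΨ
    rwa [Module.finrank_linearMap_self] at this
  have h3 : finrank ℤ (LinearMap.range Φ) = finrank ℤ (M' →ₗ[ℤ] ℤ) := by
    rw [LinearMap.finrank_range_of_inj hΦ, Module.finrank_linearMap_self]
    exact le_antisymm h1 h2
  have h4 : finrank ℤ ((M' →ₗ[ℤ] ℤ) ⧸ LinearMap.range Φ) = 0 := by
    have := (LinearMap.range Φ).finrank_quotient_add_finrank
    omega
  have h5 : Module.IsTorsion ℤ ((M' →ₗ[ℤ] ℤ) ⧸ LinearMap.range Φ) :=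
    Module.finrank_eq_zero_iff_isTorsion.mp h4
  obtain ⟨⟨n, hn⟩, hn0⟩ := @h5 ((LinearMap.range Φ).mkQ lam)
  have hn' : n ≠ 0 := nonZeroDivisors.ne_zero hn
  have h6 : n • lam ∈ LinearMap.range Φ := by
    have : (LinearMap.range Φ).mkQ (n • lam) = 0 := by
      rw [map_smul]; exact hn0
    rwa [Submodule.mkQ_apply, Submodule.Quotient.mk_eq_zero] at this
  obtain ⟨g, hg⟩ := h6
  refine ⟨n, hn', g, fun t => ?_⟩
  rw [hg]
  simp
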