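import Mathlib
import Fermat.Agent.Lib.S16.Defs
import Fermat.Prelude.Thm_ModularFormClass_qCoeff_heckeT
import Fermat.Prelude.Thm_ModularFormClass_qCoeff_heckeU
import Fermat.Prelude.Thm_CongruenceSubgroup_one_mem_strictPeriods_Gamma0

/-!
# Project S16, Duality (blueprint §0): `q`-coefficients and the operators `t_j` (helper9)
-/

set_option autoImplicit false

noncomputable section

namespace Fermat.Agent.Lib.S16

open ModularCurve CuspForm UpperHalfPlane CongruenceSubgroup ModularFormClass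
open scoped MatrixGroups ModularForm

theorem h9d6_hΓ (N : ℕ) :
    (1 : ℝ) ∈ (Subgroup.map (Matrix.SpecialLinearGroup.mapGL ℝ) (Gamma0 N)).strictPeriods :=
  CongruenceSubgroup.one_mem_strictPeriods_Gamma0 N

variable {N : ℕ}

theorem h9d6_qCoeff_add (f g : CuspForm (Gamma0 N) 2) (n : ℕ) :
    qCoeff ⇑(f + g) n = qCoeff ⇑f n + qCoeff ⇑g n := by
  simp only [qCoeff, FunLike.coe_add]
  rw [ModularForm.qExpansion_add one_pos (h9d6_hΓ N) f g, map_add]

theorem h9d6_qCoeff_smul (c : ℂ) (f : CuspForm (Gamma0 N) 2) (n : ℕ) :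
    qCoeff ⇑(c • f) n = c * qCoeff ⇑f n := by
  have h1 : ⇑(c • f) = c • ⇑f := by
    ext z
    simp
  simp only [qCoeff, h1]
  rw [ModularForm.qExpansion_smul one_pos (h9d6_hΓ N) c f]
  simp

theorem h9d6_qCoeff_zero (f : CuspForm (Gamma0 N) 2) : qCoeff ⇑f 0 = 0 :=
  CuspFormClass.qExpansion_coeff_zero f one_pos (h9d6_hΓ N)

theorem h9d6_eq_zero_of_qCoeff (f : CuspForm (Gamma0 N) 2)
    (h : ∀ n : ℕ, 1 ≤ n → qCoeff ⇑f n = 0) : f = 0 := by
  have h0 : qExpansion 1 ⇑f = 0 := by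
    ext n
    rcases Nat.eq_zero_or_pos n with rfl | hn
    · simpa [qCoeff] using h9d6_qCoeff_zero f
    · simpa [qCoeff] using h n hn
  have hcusp : Fact (IsCusp OnePoint.infty
      (Subgroup.map (Matrix.SpecialLinearGroup.mapGL ℝ) (Gamma0 N))) :=
    ⟨Subgroup.isCusp_of_mem_strictPeriods one_pos (h9d6_hΓ N)⟩
  have h1 : (⇑f : ℍ → ℂ) = 0 :=
    (UpperHalfPlane.qExpansion_eq_zero_iff one_pos
      (SlashInvariantFormClass.periodic_comp_ofComplex f (h9d6_hΓ N))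
      (ModularFormClass.holo f) (ModularFormClass.bdd_at_infty f)).mp h0
  exact DFunLike.coe_injective (h1.trans FunLike.coe_zero.symm)

section gen

variable (p : ℕ) [NeZero p]

/-- The action of the generator `heckeFormsGen p 2 ℓ` (`T_ℓ` for `ℓ ∤ p`, `U_ℓ` for `ℓ ∣ p`) on
`q`-coefficients. -/
theorem h9d6_qCoeff_gen (ℓ : Nat.Primes) (f : CuspForm (Gamma0 p) 2) (n : ℕ) :
    qCoeff ⇑((heckeFormsGen p 2 ℓ : Module.End ℂ (CuspForm (Gamma0 p) 2)) f) n =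
      qCoeff ⇑f (n * ℓ) +
        if (ℓ : ℕ) ∣ p then 0 else
          if (ℓ : ℕ) ∣ n then (ℓ : ℂ) * qCoeff ⇑f (n / ℓ) else 0 := by
  by_cases h : (ℓ : ℕ) ∣ p
  · rw [heckeFormsGen_of_dvd h, heckeAlgebra.coe_U, if_pos h, add_zero,
      CuspForm.coe_heckeULin_apply, ModularFormClass.qCoeff_heckeU f (h9d6_hΓ p) ℓ.2.ne_zero n]
    rfl
  · rw [heckeFormsGen_of_not_dvd h, heckeAlgebra.coe_T, if_neg h,
      CuspForm.coe_heckeTLin_apply, ModularFormClass.qCoeff_heckeT f (h9d6_hΓ p) ℓ.2.ne_zero n,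
      ModularForm.coeffHeckeT_apply]
    norm_num

end gen

section sigma

theorem h9d6_sigmaPrime_one (p : ℕ) (hp : p.Prime) : sigmaPrime p 1 = 1 := by
  unfold sigmaPrime
  rw [Nat.divisors_one, Finset.filter_singleton, if_pos (by
    intro h
    exact hp.one_lt.ne' (Nat.dvd_one.mp h)), Finset.sum_singleton]

theorem h9d6_sigmaPrime_self_mul (p : ℕ) (hp : p.Prime) (j : ℕ) (hj : j ≠ 0) :
    sigmaPrime p (j * p) = sigmaPrime p j := by
  unfold sigmaPrime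
  congr 1
  ext d
  simp only [Finset.mem_filter, Nat.mem_divisors]
  constructor
  · rintro ⟨⟨hd, _⟩, hpd⟩
    refine ⟨⟨?_, hj⟩, hpd⟩
    exact Nat.Coprime.dvd_of_dvd_mul_right
      ((Nat.Prime.coprime_iff_not_dvd hp).mpr hpd).symm hd
  · rintro ⟨⟨hd, _⟩, hpd⟩
    exact ⟨⟨dvd_mul_of_dvd_left hd p, mul_ne_zero hj hp.ne_zero⟩, hpd⟩

theorem h9d6_sigmaPrime_mul_prime (p : ℕ) (hp : p.Prime) (ℓ : ℕ) (hℓ : ℓ.Prime) (hℓp : ℓ ≠ p)
    (j : ℕ) (hj : j ≠ 0) :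
    sigmaPrime p (j * ℓ) + (if ℓ ∣ j then ℓ * sigmaPrime p (j / ℓ) else 0) =
      (1 + ℓ) * sigmaPrime p j := by
  classical
  set A : Finset ℕ := j.divisors.filter (fun d => ¬ p ∣ d) with hA
  set B : Finset ℕ := A.image (fun d => ℓ * d) with hB
  have hpℓ : ¬ p ∣ ℓ := fun h => hℓp ((Nat.prime_dvd_prime_iff_eq hp hℓ).mp h).symm
  have hunion : (j * ℓ).divisors.filter (fun d => ¬ p ∣ d) = A ∪ B := by
    ext d
    simp only [hA, hB, Finset.mem_filter, Nat.mem_divisors, Finset.mem_union, Finset.mem_image]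
    constructor
    · rintro ⟨⟨hd, _⟩, hpd⟩
      by_cases hℓd : ℓ ∣ d
      · obtain ⟨d', rfl⟩ := hℓd
        right
        refine ⟨d', ⟨⟨?_, hj⟩, fun h => hpd (dvd_mul_of_dvd_right h ℓ)⟩, rfl⟩
        rw [mul_comm j ℓ] at hd
        exact Nat.dvd_of_mul_dvd_mul_left hℓ.pos hd
      · left
        refine ⟨⟨?_, hj⟩, hpd⟩
        exact Nat.Coprime.dvd_of_dvd_mul_right
          ((Nat.Prime.coprime_iff_not_dvd hℓ).mpr hℓd).symm hd
    · rintro (⟨⟨hd, _⟩, hpd⟩ | ⟨d', ⟨⟨hd, _⟩, hpd⟩, rfl⟩)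
      · exact ⟨⟨dvd_mul_of_dvd_left hd ℓ, mul_ne_zero hj hℓ.ne_zero⟩, hpd⟩
      · refine ⟨⟨?_, mul_ne_zero hj hℓ.ne_zero⟩, ?_⟩
        · rw [mul_comm j ℓ]; exact mul_dvd_mul_left ℓ hd
        · intro h
          rcases (Nat.Prime.dvd_mul hp).mp h with h | h
          · exact hpℓ h
          · exact hpd h
  have hinter : A ∩ B =
      if ℓ ∣ j then ((j / ℓ).divisors.filter (fun d => ¬ p ∣ d)).image (fun d => ℓ * d) else ∅ := by
    ext d
    simp only [hA, hB, Finset.mem_inter, Finset.mem_filter, Nat.mem_divisors, Finset.mem_image]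
    constructor
    · rintro ⟨⟨⟨hd, _⟩, hpd⟩, ⟨d', ⟨⟨hd', _⟩, hpd'⟩, rfl⟩⟩
      have hℓj : ℓ ∣ j := dvd_trans (dvd_mul_right ℓ d') hd
      rw [if_pos hℓj]
      simp only [Finset.mem_image, Finset.mem_filter, Nat.mem_divisors]
      refine ⟨d', ⟨⟨?_, ?_⟩, hpd'⟩, rfl⟩
      · obtain ⟨c, rfl⟩ := hℓj
        rw [Nat.mul_div_cancel_left _ hℓ.pos]
        exact Nat.dvd_of_mul_dvd_mul_left hℓ.pos hd
      · intro h0
        have := Nat.div_mul_cancel hℓj
        rw [h0, zero_mul] at this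
        exact hj this.symm
    · intro h
      by_cases hℓj : ℓ ∣ j
      · rw [if_pos hℓj] at h
        simp only [Finset.mem_image, Finset.mem_filter, Nat.mem_divisors] at h
        obtain ⟨d', ⟨⟨hd', _⟩, hpd'⟩, rfl⟩ := h
        have h1 : ℓ * d' ∣ j := by
          obtain ⟨c, rfl⟩ := hℓj
          rw [Nat.mul_div_cancel_left _ hℓ.pos] at hd'
          exact mul_dvd_mul_left ℓ hd'
        refine ⟨⟨⟨h1, hj⟩, ?_⟩, ⟨d', ⟨⟨dvd_trans (dvd_mul_left d' ℓ) h1, hj⟩, hpd'⟩, rfl⟩⟩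
        intro h
        rcases (Nat.Prime.dvd_mul hp).mp h with h | h
        · exact hpℓ h
        · exact hpd' h
      · rw [if_neg hℓj] at h
        simp at h
  have hsumB : ∀ C : Finset ℕ, ∑ d ∈ C.image (fun d => ℓ * d), d = ℓ * ∑ d ∈ C, d := by
    intro C
    rw [Finset.sum_image (fun a _ b _ h => Nat.eq_of_mul_eq_mul_left hℓ.pos h), Finset.mul_sum]
  have key := Finset.sum_union_inter (s₁ := A) (s₂ := B) (f := fun d => d)
  unfold sigmaPrime
  rw [hunion]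
  have h2 : (∑ d ∈ A ∩ B, d) =
      if ℓ ∣ j then ℓ * ∑ d ∈ (j / ℓ).divisors.filter (fun d => ¬ p ∣ d), d else 0 := by
    rw [hinter]
    split_ifs
    · exact hsumB _
    · simp
  rw [← h2, key, hB, hsumB A]
  ring


end sigma

end Fermat.Agent.Lib.S16
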