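import Mathlib
import Fermat.Agent.Lib.S16.H9DualityCoeff

/-!
# Project S16, Duality (blueprint §0): the operators `t_j` with `a_1(t_j f) = a_j(f)` and
`χ(t_j) = σ'(j)` for every Eisenstein character `χ` (helper9)
-/

set_option autoImplicit false

noncomputable section

namespace Fermat.Agent.Lib.S16

open ModularCurve CuspForm UpperHalfPlane CongruenceSubgroup ModularFormClass
open scoped MatrixGroups ModularForm

/-- The `n`-th `q`-coefficient as a `ℂ`-linear functional on cusp forms. -/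
def h9d6_coeffLin (N n : ℕ) : CuspForm (Gamma0 N) 2 →ₗ[ℂ] ℂ where
  toFun f := qCoeff ⇑f n
  map_add' f g := h9d6_qCoeff_add f g n
  map_smul' c f := by
    simp only [RingHom.id_apply, smul_eq_mul]
    exact h9d6_qCoeff_smul c f n

@[simp] theorem h9d6_coeffLin_apply (N n : ℕ) (f : CuspForm (Gamma0 N) 2) :
    h9d6_coeffLin N n f = qCoeff ⇑f n := rfl

theorem h9d6_exists_t (p : ℕ) [NeZero p] (hp : p.Prime) (j : ℕ) (hj : 1 ≤ j) :
    ∃ t : heckeAlgebra p 2 ∅,
      (∀ f : CuspForm (Gamma0 p) 2,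
        qCoeff ⇑((t : Module.End ℂ (CuspForm (Gamma0 p) 2)) f) 1 = qCoeff ⇑f j) ∧
      ∀ (R : Type) [CommRing R] (χ : heckeAlgebra p 2 ∅ →+* R),
        (∀ ℓ : Nat.Primes, χ (heckeFormsGen p 2 ℓ) = ((eisensteinSystem p ℓ : ℤ) : R)) →
        χ t = (sigmaPrime p j : R) := by
  induction j using Nat.strong_induction_on with
  | _ j ih =>
  rcases Nat.lt_or_ge j 2 with hj2 | hj2
  · have hj1 : j = 1 := by omega
    subst hj1
    refine ⟨1, fun f => by simp, fun R _ χ _ => ?_⟩
    rw [map_one, h9d6_sigmaPrime_one p hp, Nat.cast_one]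
  · set ℓ := j.minFac with hℓdef
    have hℓ : ℓ.Prime := Nat.minFac_prime (by omega)
    have hℓj : ℓ ∣ j := Nat.minFac_dvd j
    set j' := j / ℓ with hj'def
    have hjj' : j' * ℓ = j := Nat.div_mul_cancel hℓj
    have hj'pos : 1 ≤ j' := by
      rcases Nat.eq_zero_or_pos j' with h0 | h0
      · rw [h0, zero_mul] at hjj'; omega
      · exact h0
    have hj'lt : j' < j := Nat.div_lt_self (by omega) hℓ.one_lt
    obtain ⟨t', ht'1, ht'2⟩ := ih j' hj'lt hj'pos
    set L : Nat.Primes := ⟨ℓ, hℓ⟩ with hL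
    set G : heckeAlgebra p 2 ∅ := heckeFormsGen p 2 L with hG
    have hGco : ∀ (f : CuspForm (Gamma0 p) 2) (n : ℕ),
        qCoeff ⇑((G : Module.End ℂ (CuspForm (Gamma0 p) 2)) f) n =
          qCoeff ⇑f (n * ℓ) + if ℓ ∣ p then 0 else
            if ℓ ∣ n then (ℓ : ℂ) * qCoeff ⇑f (n / ℓ) else 0 :=
      fun f n => h9d6_qCoeff_gen p L f n
    by_cases hℓp : ℓ ∣ p
    · -- `ℓ = p`
      have hℓp' : ℓ = p := (Nat.prime_dvd_prime_iff_eq hℓ hp).mp hℓp
      refine ⟨t' * G, fun f => ?_, fun R _ χ hχ => ?_⟩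
      · rw [Subalgebra.coe_mul, Module.End.mul_apply, ht'1, hGco, if_pos hℓp, add_zero, hjj']
      · have hL1 : eisensteinSystem p L = 1 := eisensteinSystem_of_dvd hℓp
        rw [map_mul, ht'2 R χ hχ, hG, hχ L, hL1, Int.cast_one,
          mul_one, ← hjj', hℓp', h9d6_sigmaPrime_self_mul p hp j' (by omega)]
    · have hℓp' : ℓ ≠ p := fun h => hℓp (h ▸ dvd_rfl)
      have hrec := h9d6_sigmaPrime_mul_prime p hp ℓ hℓ hℓp' j' (by omega)
      rw [hjj'] at hrec
      by_cases hℓj' : ℓ ∣ j'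
      · set j'' := j' / ℓ with hj''def
        have hjj'' : j'' * ℓ = j' := Nat.div_mul_cancel hℓj'
        have hj''pos : 1 ≤ j'' := by
          rcases Nat.eq_zero_or_pos j'' with h0 | h0
          · rw [h0, zero_mul] at hjj''; omega
          · exact h0
        have hj''lt : j'' < j := lt_of_le_of_lt (Nat.div_le_self _ _) hj'lt
        obtain ⟨t'', ht''1, ht''2⟩ := ih j'' hj''lt hj''pos
        refine ⟨t' * G - (ℓ : ℤ) • t'', fun f => ?_, fun R _ χ hχ => ?_⟩
        · have : ((t' * G - (ℓ : ℤ) • t'' : heckeAlgebra p 2 ∅) :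
              Module.End ℂ (CuspForm (Gamma0 p) 2)) f =
              (t' : Module.End ℂ (CuspForm (Gamma0 p) 2))
                ((G : Module.End ℂ (CuspForm (Gamma0 p) 2)) f) -
              (ℓ : ℤ) • (t'' : Module.End ℂ (CuspForm (Gamma0 p) 2)) f := by
            simp [Module.End.mul_apply]
          rw [this, ← h9d6_coeffLin_apply, map_sub, map_zsmul, h9d6_coeffLin_apply,
            h9d6_coeffLin_apply, ht'1, ht''1, hGco, if_neg hℓp, if_pos hℓj', hjj', ← hj''def]
          simp
        · rw [if_pos hℓj'] at hrec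
          have hL1 : eisensteinSystem p L = 1 + (ℓ : ℕ) := eisensteinSystem_of_not_dvd hℓp
          rw [map_sub, map_mul, map_zsmul, ht'2 R χ hχ, ht''2 R χ hχ, hG, hχ L, hL1]
          have := congrArg (fun x : ℕ => (x : R)) hrec
          simp only [Nat.cast_add, Nat.cast_mul, Nat.cast_one] at this
          simp only [zsmul_eq_mul, Int.cast_add, Int.cast_one, Int.cast_natCast]
          linear_combination (-1 : R) * this
      · refine ⟨t' * G, fun f => ?_, fun R _ χ hχ => ?_⟩
        · rw [Subalgebra.coe_mul, Module.End.mul_apply, ht'1, hGco, if_neg hℓp, if_neg hℓj',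
            add_zero, hjj']
        · rw [if_neg hℓj', add_zero] at hrec
          have hL1 : eisensteinSystem p L = 1 + (ℓ : ℕ) := eisensteinSystem_of_not_dvd hℓp
          rw [map_mul, ht'2 R χ hχ, hG, hχ L, hL1, hrec]
          push_cast
          ring

end Fermat.Agent.Lib.S16
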