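import Mathlib
import Fermat.Agent.Lib.S16.H9DualityAlg
import Fermat.Agent.Lib.S16.H9DualityT
import Fermat.Prelude.Sol.S_CuspForm_intLattice_fg

/-!
# Project S16, Duality (blueprint §0): the pairing `𝕋 × L → ℤ`, `(t, f) ↦ a_1(t f)` and the
`DualityStatement` contract (helper9)

`h9d6_duality : p.Prime → Module.Finite ℤ 𝕋 → HasIntegralStructure p 2 → DualityStatement p`.
-/

set_option autoImplicit false

noncomputable section

namespace Fermat.Agent.Lib.S16

open ModularCurve CuspForm UpperHalfPlane CongruenceSubgroup ModularFormClass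
open scoped MatrixGroups ModularForm

variable (p : ℕ) [NeZero p]

omit [NeZero p] in
theorem h9d6_exists_int (f : intLattice p 2) (n : ℕ) :
    ∃ m : ℤ, qCoeff ⇑(f : CuspForm (Gamma0 p) 2) n = (m : ℂ) :=
  (P2MW.S_CuspForm_intLattice_fg.W3WsD.mem_intLattice_iff (f : CuspForm (Gamma0 p) 2)).mp f.2 n

/-- The `n`-th `q`-coefficient of an element of the integral lattice, as an integer. -/
def h9d6_aInt (n : ℕ) : intLattice p 2 →ₗ[ℤ] ℤ where
  toFun f := Classical.choose (h9d6_exists_int p f n)
  map_add' f g := by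
    apply Int.cast_injective (α := ℂ)
    rw [Int.cast_add, ← Classical.choose_spec (h9d6_exists_int p f n),
      ← Classical.choose_spec (h9d6_exists_int p g n),
      ← Classical.choose_spec (h9d6_exists_int p (f + g) n)]
    exact h9d6_qCoeff_add _ _ n
  map_smul' c f := by
    apply Int.cast_injective (α := ℂ)
    rw [RingHom.id_apply, smul_eq_mul, Int.cast_mul,
      ← Classical.choose_spec (h9d6_exists_int p f n),
      ← Classical.choose_spec (h9d6_exists_int p (c • f) n)]
    have : ((c • f : intLattice p 2) : CuspForm (Gamma0 p) 2) =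
        (c : ℂ) • (f : CuspForm (Gamma0 p) 2) := by
      rw [Submodule.coe_smul, Int.cast_smul_eq_zsmul]
    rw [this]
    exact h9d6_qCoeff_smul _ _ n

omit [NeZero p] in
theorem h9d6_aInt_spec (n : ℕ) (f : intLattice p 2) :
    ((h9d6_aInt p n f : ℤ) : ℂ) = qCoeff ⇑(f : CuspForm (Gamma0 p) 2) n :=
  (Classical.choose_spec (h9d6_exists_int p f n)).symm

/-- The pairing `(t, f) ↦ a_1(t f)`. -/
def h9d6_pair : heckeAlgebra p 2 ∅ →ₗ[ℤ] intLattice p 2 →ₗ[ℤ] ℤ :=
  LinearMap.mk₂ ℤ (fun t f => h9d6_aInt p 1 (latticeActionHom p ∅ t f))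
    (fun t t' f => by rw [map_add, LinearMap.add_apply, map_add])
    (fun c t f => by
      have h1 : latticeActionHom p ∅ (c • t) = c • latticeActionHom p ∅ t :=
        map_zsmul (latticeActionHom p ∅) c t
      rw [h1, LinearMap.smul_apply, map_zsmul])
    (fun t f g => by rw [map_add, map_add])
    (fun c t f => by rw [map_smul, map_smul])

theorem h9d6_pair_spec (t : heckeAlgebra p 2 ∅) (f : intLattice p 2) :
    ((h9d6_pair p t f : ℤ) : ℂ) =
      qCoeff ⇑((t : Module.End ℂ (CuspForm (Gamma0 p) 2)) (f : CuspForm (Gamma0 p) 2)) 1 := by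
  show ((h9d6_aInt p 1 (latticeActionHom p ∅ t f) : ℤ) : ℂ) = _
  rw [h9d6_aInt_spec]
  rfl

theorem h9d6_pair_flip_injective (hp : p.Prime) : Function.Injective (h9d6_pair p).flip := by
  rw [injective_iff_map_eq_zero]
  intro f hf
  apply Subtype.ext
  apply h9d6_eq_zero_of_qCoeff
  intro n hn
  obtain ⟨t, ht1, -⟩ := h9d6_exists_t p hp n hn
  have h0 : (h9d6_pair p).flip f t = 0 := by rw [hf]; rfl
  rw [LinearMap.flip_apply] at h0
  rw [← ht1, ← h9d6_pair_spec, h0, Int.cast_zero]

theorem h9d6_pair_injective (hp : p.Prime) (hint : HasIntegralStructure p 2) :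
    Function.Injective (h9d6_pair p) := by
  rw [injective_iff_map_eq_zero]
  intro t ht
  apply latticeRestrict_injective p ∅ hint t
  refine LinearMap.ext fun f => Subtype.ext ?_
  apply h9d6_eq_zero_of_qCoeff
  intro n hn
  obtain ⟨tn, htn1, -⟩ := h9d6_exists_t p hp n hn
  have hcomm : (tn : Module.End ℂ (CuspForm (Gamma0 p) 2))
        ((t : Module.End ℂ (CuspForm (Gamma0 p) 2)) (f : CuspForm (Gamma0 p) 2)) =
      (t : Module.End ℂ (CuspForm (Gamma0 p) 2))
        ((tn : Module.End ℂ (CuspForm (Gamma0 p) 2)) (f : CuspForm (Gamma0 p) 2)) := by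
    have := congrArg (fun x : heckeAlgebra p 2 ∅ =>
      (x : Module.End ℂ (CuspForm (Gamma0 p) 2)) (f : CuspForm (Gamma0 p) 2)) (mul_comm tn t)
    simpa [Module.End.mul_apply] using this
  have h0 : h9d6_pair p t (latticeActionHom p ∅ tn f) = 0 := by rw [ht]; rfl
  have h1 := h9d6_pair_spec p t (latticeActionHom p ∅ tn f)
  rw [h0, Int.cast_zero] at h1
  show qCoeff ⇑((t : Module.End ℂ (CuspForm (Gamma0 p) 2)) (f : CuspForm (Gamma0 p) 2)) n = 0
  rw [← htn1, hcomm]
  exact h1.symm

/-- **Duality** (blueprint §0): given finiteness of the Hecke algebra (S22) and the integral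
structure (S23), every ring homomorphism `𝕋 → ZMod m` with Eisenstein values is realised by a cusp
form with integral coefficients `≡ σ'(j) mod m` (for `j ≥ 1`). -/
theorem h9d6_duality (hp : p.Prime) (hfin : Module.Finite ℤ (heckeAlgebra p 2 ∅))
    (hint : HasIntegralStructure p 2) : DualityStatement p := by
  intro m χ hχ
  have := hfin
  have : Module.Free ℤ (heckeAlgebra p 2 ∅) := Module.free_of_finite_type_torsion_free'
  have := intLattice.moduleFinite p
  have := intLattice.moduleFree p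
  -- additive lift of `χ`
  obtain ⟨lam, hlam⟩ := Module.projective_lifting_property
    ((Int.castAddHom (ZMod m)).toIntLinearMap) (χ.toAddMonoidHom.toIntLinearMap)
    (ZMod.intCast_surjective)
  have hlam' : ∀ t, ((lam t : ℤ) : ZMod m) = χ t := fun t => LinearMap.congr_fun hlam t
  obtain ⟨n, hn, g, hg⟩ := h9d6_exists_smul_mem_range (h9d6_pair p).flip (h9d6_pair p)
    (h9d6_pair_flip_injective p hp) (h9d6_pair_injective p hp hint) lam
  refine ⟨((n : ℂ)⁻¹) • (g : CuspForm (Gamma0 p) 2), fun j hj => ?_⟩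
  obtain ⟨t, ht1, ht2⟩ := h9d6_exists_t p hp j hj
  refine ⟨lam t, ?_, ?_⟩
  · have h1 := h9d6_pair_spec p t g
    have h2 := hg t
    rw [LinearMap.flip_apply] at h2
    rw [h2, ht1] at h1
    rw [h9d6_qCoeff_smul, ← h1]
    have hn' : (n : ℂ) ≠ 0 := by exact_mod_cast hn
    push_cast
    field_simp
  · rw [hlam', ht2 (ZMod m) χ hχ]

end Fermat.Agent.Lib.S16
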