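import Fermat.Agent.Lib.S16.Assembly
import Fermat.Agent.Lib.S16.H7Glue
import Fermat.Agent.Lib.S16.H3TorsionFree
import Fermat.Agent.Lib.S16.H9Duality
import Fermat.Agent.S22
import Fermat.Agent.S23

/-!
# Project S16: final wiring (owner: helper3)

`S16` from the two contracts that are still open at the time of writing: `UBCore p` and
`h7v_ShFacts p`.  Everything else (`TorsionFree`, the glue `h7v_lbCore`, `DualityStatement`,
`HasIntegralStructure` = S23, `Module.Finite ℤ 𝕋` = S22, the bookkeeping `lead_s16_of_cores`)
is plugged in.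
-/

set_option autoImplicit false
open ModularCurve CuspForm

namespace Fermat.Agent.Lib.S16

theorem h3_s16_of (p : ℕ) [Fact p.Prime] (hUB : UBCore p) (hSh : h7v_ShFacts p) :
    Nat.card (↥(heckeLatticeAlgebra p ∅) ⧸
        Ideal.map ((latticeRestrictHom p ∅).toRingHom.comp (heckeEvalForms p 2))
          (eisensteinIdeal p)) =
      eisensteinNumerator p := by
  have hp : p.Prime := Fact.out
  exact lead_s16_of_cores p hp.two_le (Fermat.Agent.S23.result p) hUB
    (h7v_lbCore hp (h3_torsionFree p) hSh)
    (h9d6_duality p hp (Fermat.Agent.S22.result p 2 ∅) (Fermat.Agent.S23.result p))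

end Fermat.Agent.Lib.S16
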