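import Mathlib
import Fermat.Agent.Lib.S16.Defs

/-!
# Project S16: the Eisenstein series of prime level `N` and weight 2 (helper5)

`E_N(z) = (N·E₂(Nz) − E₂(z))/24 ∈ M₂(Γ₀(N))`, its `q`-expansion
`(N−1)/24 + ∑ σ^{(N)}(j) q^j`, and its conjugates `E_N∣γ` for `γ ∉ Γ₀(N)`.
Main result: `h5e_eisLevel : N.Prime → EisLevel N`.
-/

set_option autoImplicit false

open UpperHalfPlane ModularForm EisensteinSeries Matrix.SpecialLinearGroup CongruenceSubgroup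
  ModularFormClass
open scoped MatrixGroups ModularForm Manifold

noncomputable section

namespace Fermat.Agent.Lib.S16


/-- slash by an upper triangular matrix with positive determinant, weight 2 -/
lemma h5e_slash_upper (f : ℍ → ℂ) (B : GL (Fin 2) ℝ) (hB : B 1 0 = 0) (hdet : 0 < B.det.val) (z : ℍ) :
    (f ∣[(2:ℤ)] B) z = f (B • z) * ((B 0 0 * B 1 1 : ℝ) : ℂ) * ((B 1 1 : ℝ) : ℂ) ^ (-2 : ℤ) := by
  rw [ModularForm.slash_apply]
  have hσ : UpperHalfPlane.σ B = .refl ℝ ℂ := by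
    rw [UpperHalfPlane.σ, if_pos hdet]
  rw [hσ]
  have hd : B.det.val = B 0 0 * B 1 1 := by
    rw [Matrix.GeneralLinearGroup.val_det_apply, Matrix.det_fin_two, hB]; ring
  rw [hd] at hdet ⊢
  simp [UpperHalfPlane.denom, hB, abs_of_pos hdet]

lemma h5e_D2_slash (g g' : SL(2,ℤ)) (A B : GL (Fin 2) ℝ) (hA : A 1 0 = 0) (hB : B 1 0 = 0)
    (hAdet : 0 < A.det.val) (hBdet : 0 < B.det.val)
    (h : A * mapGL ℝ g = mapGL ℝ g' * B) : (D2 g') ∣[(2:ℤ)] B = D2 g := by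
  ext z
  rw [h5e_slash_upper _ B hB hBdet]
  have hdA : A.det.val = A 0 0 * A 1 1 := by
    rw [Matrix.GeneralLinearGroup.val_det_apply, Matrix.det_fin_two, hA]; ring
  have hdB : B.det.val = B 0 0 * B 1 1 := by
    rw [Matrix.GeneralLinearGroup.val_det_apply, Matrix.det_fin_two, hB]; ring
  rw [hdA] at hAdet
  rw [hdB] at hBdet
  have hA11 : A 1 1 ≠ 0 := fun h0 => by simp [h0] at hAdet
  have hB11 : B 1 1 ≠ 0 := fun h0 => by simp [h0] at hBdet
  have hB00 : B 0 0 ≠ 0 := fun h0 => by simp [h0] at hBdet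
  -- entries of the matrix identity
  have hm : (A : Matrix (Fin 2) (Fin 2) ℝ) * (mapGL ℝ g : GL (Fin 2) ℝ) = (mapGL ℝ g' : GL (Fin 2) ℝ) * (B : Matrix (Fin 2) (Fin 2) ℝ) := by
    have := congrArg (fun M : GL (Fin 2) ℝ => (M : Matrix (Fin 2) (Fin 2) ℝ)) h
    simpa using this
  have e10 := congrFun (congrFun hm 1) 0
  have e11 := congrFun (congrFun hm 1) 1
  simp [Matrix.mul_apply, Fin.sum_univ_two, hA, hB] at e10 e11
  simp only [D2]
  rw [UpperHalfPlane.coe_smul_of_det_pos (by rw [hdB]; exact hBdet)]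
  simp only [UpperHalfPlane.num, UpperHalfPlane.denom, hB]
  have hden : ((g 1 0 : ℤ) : ℂ) * (z : ℂ) + ((g 1 1 : ℤ) : ℂ) ≠ 0 := by
    have := UpperHalfPlane.denom_ne_zero (mapGL ℝ g : GL (Fin 2) ℝ) z
    simpa [UpperHalfPlane.denom] using this
  have e10' : ((A 1 1 : ℝ) : ℂ) * ((g 1 0 : ℤ) : ℂ) = ((g' 1 0 : ℤ) : ℂ) * ((B 0 0 : ℝ) : ℂ) := by
    exact_mod_cast congrArg (fun x : ℝ => (x : ℂ)) e10
  have e11' : ((A 1 1 : ℝ) : ℂ) * ((g 1 1 : ℤ) : ℂ) = ((g' 1 0 : ℤ) : ℂ) * ((B 0 1 : ℝ) : ℂ) + ((g' 1 1 : ℤ) : ℂ) * ((B 1 1 : ℝ) : ℂ) := by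
    exact_mod_cast congrArg (fun x : ℝ => (x : ℂ)) e11
  have hA11' : ((A 1 1 : ℝ) : ℂ) ≠ 0 := by exact_mod_cast hA11
  have hB11' : ((B 1 1 : ℝ) : ℂ) ≠ 0 := by exact_mod_cast hB11
  have hB00' : ((B 0 0 : ℝ) : ℂ) ≠ 0 := by exact_mod_cast hB00
  simp only [Matrix.SpecialLinearGroup.coe_GL_coe_matrix, Matrix.SpecialLinearGroup.map_apply_coe,
    RingHom.mapMatrix_apply, Int.coe_castRingHom, Matrix.map_apply, Complex.ofReal_intCast,
    Complex.ofReal_zero, zero_mul, zero_add, Complex.ofReal_mul]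
  have hden' : ((g' 1 0 : ℤ) : ℂ) * ((((B 0 0 : ℝ) : ℂ) * (z : ℂ) + ((B 0 1 : ℝ) : ℂ)) / ((B 1 1 : ℝ) : ℂ)) + ((g' 1 1 : ℤ) : ℂ)
      = ((A 1 1 : ℝ) : ℂ) * (((g 1 0 : ℤ) : ℂ) * (z : ℂ) + ((g 1 1 : ℤ) : ℂ)) / ((B 1 1 : ℝ) : ℂ) := by
    field_simp
    linear_combination (-(z : ℂ)) * e10' - e11'
  rw [hden']
  rw [show (-2 : ℤ) = -(2 : ℤ) from rfl, zpow_neg, zpow_ofNat]
  field_simp
  linear_combination (-1 : ℂ) * e10'

lemma h5e_E2_slash_slash (g g' : SL(2,ℤ)) (A B : GL (Fin 2) ℝ) (hA : A 1 0 = 0) (hB : B 1 0 = 0)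
    (hAdet : 0 < A.det.val) (hBdet : 0 < B.det.val)
    (h : A * mapGL ℝ g = mapGL ℝ g' * B) :
    (E2 ∣[(2:ℤ)] A) ∣[(2:ℤ)] g = E2 ∣[(2:ℤ)] B - (1 / (2 * riemannZeta 2)) • D2 g := by
  have h1 : (E2 ∣[(2:ℤ)] A) ∣[(2:ℤ)] g = (E2 ∣[(2:ℤ)] g') ∣[(2:ℤ)] B := by
    rw [ModularForm.SL_slash, ModularForm.SL_slash, ← SlashAction.slash_mul, ← SlashAction.slash_mul]
    exact congrArg (fun M => E2 ∣[(2:ℤ)] M) h
  rw [h1, E2_slash_action, sub_eq_add_neg, SlashAction.add_slash, SlashAction.neg_slash,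
    ModularForm.smul_slash, h5e_D2_slash g g' A B hA hB hAdet hBdet h, ← sub_eq_add_neg]
  have hσ : UpperHalfPlane.σ B = .refl ℝ ℂ := by
    rw [UpperHalfPlane.σ, if_pos hBdet]
  rw [hσ]
  rfl

lemma h5e_mapGL_apply (g : SL(2,ℤ)) (i j : Fin 2) :
    ((mapGL ℝ g : GL (Fin 2) ℝ) : Matrix (Fin 2) (Fin 2) ℝ) i j = ((g i j : ℤ) : ℝ) := by
  rw [mapGL_coe_matrix]
  simp

lemma h5e_exists_SL (a b c d : ℤ) (h : a * d - b * c = 1) :
    ∃ g : SL(2,ℤ), g 0 0 = a ∧ g 0 1 = b ∧ g 1 0 = c ∧ g 1 1 = d :=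
  ⟨⟨!![a, b; c, d], by rw [Matrix.det_fin_two_of]; exact h⟩, rfl, rfl, rfl, rfl⟩

/-- For `g ∈ Γ₀(N)`: `diag(N,1) g = g' diag(N,1)` with `g' ∈ SL₂(ℤ)`. -/
lemma h5e_decomp_mem (N : ℕ) (hN : N ≠ 0) (g : SL(2,ℤ)) (hg : g ∈ Gamma0 N) :
    ∃ g' : SL(2,ℤ), heckeDiagMatrix N * mapGL ℝ g = mapGL ℝ g' * heckeDiagMatrix N := by
  rw [Gamma0_mem] at hg
  obtain ⟨c', hc'⟩ : (N : ℤ) ∣ g 1 0 := (ZMod.intCast_zmod_eq_zero_iff_dvd _ _).1 hg
  have hdet : g 0 0 * g 1 1 - g 0 1 * g 1 0 = 1 := by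
    have := g.det_coe
    rwa [Matrix.det_fin_two] at this
  obtain ⟨g', h00, h01, h10, h11⟩ := h5e_exists_SL (g 0 0) (N * g 0 1) c' (g 1 1) (by
    rw [hc'] at hdet
    linear_combination hdet)
  refine ⟨g', ?_⟩
  apply Matrix.GeneralLinearGroup.ext
  intro i j
  have hNR : (N : ℝ) ≠ 0 := by exact_mod_cast hN
  fin_cases i <;> fin_cases j <;>
    simp [Matrix.mul_apply, Fin.sum_univ_two, val_heckeDiagMatrix hN, hc',
      h00, h01, h10, h11] <;> ring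

/-- For `g ∉ Γ₀(N)`, `N` prime: `diag(N,1) g = g' [[1,j],[0,N]]` with `g' ∈ SL₂(ℤ)`, `j < N`. -/
lemma h5e_decomp_not_mem (N : ℕ) (hN : N.Prime) (g : SL(2,ℤ)) (hg : g ∉ Gamma0 N) :
    ∃ (g' : SL(2,ℤ)) (j : ℕ), j < N ∧
      heckeDiagMatrix N * mapGL ℝ g = mapGL ℝ g' * heckeMatrix N j := by
  have : Fact N.Prime := ⟨hN⟩
  rw [Gamma0_mem] at hg
  have hdet : g 0 0 * g 1 1 - g 0 1 * g 1 0 = 1 := by
    have := g.det_coe
    rwa [Matrix.det_fin_two] at this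
  -- j = d * c⁻¹ mod N
  set j : ℕ := (((g 1 1 : ℤ) : ZMod N) * (((g 1 0 : ℤ) : ZMod N))⁻¹).val with hj
  have hjN : j < N := ZMod.val_lt _
  have hjc : ((g 1 1 - j * g 1 0 : ℤ) : ZMod N) = 0 := by
    push_cast
    rw [hj, ZMod.natCast_val, ZMod.cast_id', id, mul_assoc, inv_mul_cancel₀ hg, mul_one, sub_self]
  obtain ⟨d', hd'⟩ : (N : ℤ) ∣ g 1 1 - j * g 1 0 := (ZMod.intCast_zmod_eq_zero_iff_dvd _ _).1 hjc
  obtain ⟨g', h00, h01, h10, h11⟩ := h5e_exists_SL (N * g 0 0) (g 0 1 - j * g 0 0) (g 1 0) d' (by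
    have : (N : ℤ) * g 0 0 * d' = g 0 0 * (g 1 1 - j * g 1 0) := by rw [hd']; ring
    linear_combination this + hdet)
  refine ⟨g', j, hjN, ?_⟩
  apply Matrix.GeneralLinearGroup.ext
  intro i k
  have hN0 : N ≠ 0 := hN.ne_zero
  have hd'R : (g 1 1 : ℝ) - j * (g 1 0 : ℝ) = N * d' := by exact_mod_cast congrArg (fun x : ℤ => (x : ℝ)) hd'
  fin_cases i <;> fin_cases k <;>
    simp [Matrix.mul_apply, Fin.sum_univ_two, val_heckeDiagMatrix hN0, val_heckeMatrix hN0,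
      h00, h01, h10, h11]
  all_goals first | linear_combination hd'R | ring

/-- The function `E_N = (N·E₂(N·) − E₂)/24`, written with the slash action of `diag(N,1)`. -/
def h5e_eisFun (N : ℕ) : ℍ → ℂ := (1 / 24 : ℂ) • (E2 ∣[(2:ℤ)] heckeDiagMatrix N - E2)

lemma h5e_heckeDiagMatrix_10 (N : ℕ) : (heckeDiagMatrix N : GL (Fin 2) ℝ) 1 0 = 0 := by
  rcases eq_or_ne N 0 with rfl | hN
  · simp
  · simp [val_heckeDiagMatrix hN]

lemma h5e_heckeMatrix_10 (N j : ℕ) : (heckeMatrix N j : GL (Fin 2) ℝ) 1 0 = 0 := by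
  rcases eq_or_ne N 0 with rfl | hN
  · simp
  · simp [val_heckeMatrix hN]

lemma h5e_eisFun_slash (N : ℕ) (g g' : SL(2,ℤ)) (B : GL (Fin 2) ℝ) (hB : B 1 0 = 0)
    (hBdet : 0 < B.det.val) (h : heckeDiagMatrix N * mapGL ℝ g = mapGL ℝ g' * B) :
    h5e_eisFun N ∣[(2:ℤ)] g = (1 / 24 : ℂ) • (E2 ∣[(2:ℤ)] B - E2) := by
  rw [h5e_eisFun, ModularForm.SL_smul_slash, sub_eq_add_neg, SlashAction.add_slash,
    SlashAction.neg_slash,
    h5e_E2_slash_slash g g' _ B (h5e_heckeDiagMatrix_10 N) hB (det_heckeDiagMatrix_pos N) hBdet h,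
    E2_slash_action]
  congr 1
  abel

lemma h5e_isBoundedAtImInfty_slash (N : ℕ) (hN : N.Prime) (g : SL(2,ℤ)) :
    IsBoundedAtImInfty (h5e_eisFun N ∣[(2:ℤ)] g) := by
  by_cases hg : g ∈ Gamma0 N
  · obtain ⟨g', h⟩ := h5e_decomp_mem N hN.ne_zero g hg
    rw [h5e_eisFun_slash N g g' _ (h5e_heckeDiagMatrix_10 N) (det_heckeDiagMatrix_pos N) h]
    exact Filter.BoundedAtFilter.smul _
      ((sub_eq_add_neg (E2 ∣[(2:ℤ)] heckeDiagMatrix N) E2) ▸
        ((isBoundedAtImInfty_E2.slash 2 (h5e_heckeDiagMatrix_10 N)).add isBoundedAtImInfty_E2.neg))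
  · obtain ⟨g', j, -, h⟩ := h5e_decomp_not_mem N hN g hg
    rw [h5e_eisFun_slash N g g' _ (h5e_heckeMatrix_10 N j) (det_heckeMatrix_pos N j) h]
    exact Filter.BoundedAtFilter.smul _
      ((sub_eq_add_neg (E2 ∣[(2:ℤ)] heckeMatrix N j) E2) ▸
        ((isBoundedAtImInfty_E2.slash 2 (h5e_heckeMatrix_10 N j)).add isBoundedAtImInfty_E2.neg))

lemma h5e_eisFun_mdifferentiable (N : ℕ) : MDiff (h5e_eisFun N) := by
  unfold h5e_eisFun
  exact ((E2_mdifferentiable.slash 2 _).sub E2_mdifferentiable).const_smul _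

/-- The Eisenstein series `E_N` of weight 2 and prime level `N` as a modular form. -/
def h5e_eis (N : ℕ) (hN : N.Prime) : ModularForm (Gamma0 N) 2 where
  toFun := h5e_eisFun N
  slash_action_eq' := by
    intro γ hγ
    obtain ⟨g, hg, rfl⟩ := Subgroup.mem_map.1 hγ
    obtain ⟨g', h⟩ := h5e_decomp_mem N hN.ne_zero g hg
    have := h5e_eisFun_slash N g g' _ (h5e_heckeDiagMatrix_10 N) (det_heckeDiagMatrix_pos N) h
    rw [ModularForm.SL_slash] at this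
    exact this
  holo' := h5e_eisFun_mdifferentiable N
  bdd_at_cusps' := by
    intro c hc
    have : NeZero N := ⟨hN.ne_zero⟩
    rw [Subgroup.IsArithmetic.isCusp_iff_isCusp_SL2Z] at hc
    rw [OnePoint.isBoundedAt_iff_forall_SL2Z hc]
    intro g _
    exact h5e_isBoundedAtImInfty_slash N hN g

lemma h5e_sigma_eq (N m : ℕ) (hN : 0 < N) :
    ArithmeticFunction.sigma 1 m
      = sigmaPrime N m + N * (if N ∣ m then ArithmeticFunction.sigma 1 (m / N) else 0) := by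
  rw [ArithmeticFunction.sigma_one_apply, sigmaPrime,
    ← Finset.sum_filter_not_add_sum_filter m.divisors (fun d => N ∣ d) (fun d => d)]
  congr 1
  split_ifs with h
  · obtain ⟨m', rfl⟩ := h
    rw [Nat.mul_div_cancel_left _ hN, ArithmeticFunction.sigma_one_apply, Finset.mul_sum]
    have himg : (N * m').divisors.filter (fun d => N ∣ d) = m'.divisors.image (fun d => N * d) := by
      ext d
      simp only [Finset.mem_filter, Nat.mem_divisors, Finset.mem_image]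
      constructor
      · rintro ⟨⟨hd, hne⟩, ⟨d', rfl⟩⟩
        refine ⟨d', ⟨(Nat.mul_dvd_mul_iff_left hN).1 hd, ?_⟩, rfl⟩
        rintro rfl
        simp at hne
      · rintro ⟨d', ⟨hd', hne⟩, rfl⟩
        exact ⟨⟨Nat.mul_dvd_mul_left N hd', Nat.mul_ne_zero hN.ne' hne⟩, Dvd.intro _ rfl⟩
    rw [himg, Finset.sum_image]
    intro a _ b _ hab
    exact Nat.eq_of_mul_eq_mul_left hN hab
  · rw [mul_zero]
    apply Finset.sum_eq_zero
    intro d hd
    rw [Finset.mem_filter, Nat.mem_divisors] at hd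
    exact absurd (hd.2.trans hd.1.1) h


/-- The `q`-expansion coefficients of `E_N`. -/
def h5e_coeff (N m : ℕ) : ℂ := if m = 0 then ((N : ℂ) - 1) / 24 else (sigmaPrime N m : ℂ)

lemma h5e_eisFun_apply (N : ℕ) (hN : N ≠ 0) (τ : ℍ) :
    h5e_eisFun N τ = ((N : ℂ) * E2 (heckeDiagMatrix N • τ) - E2 τ) / 24 := by
  simp only [h5e_eisFun, Pi.smul_apply, Pi.sub_apply, smul_eq_mul,
    slash_heckeDiagMatrix_apply 2 hN]
  norm_num
  ring

lemma h5e_coeff_aux (N : ℕ) (hN : N ≠ 0) (m : ℕ) (q : ℂ) :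
    h5e_coeff N m • q ^ m
      = ((N : ℂ) * (if N ∣ m then
            (fun m : ℕ => if m = 0 then (1 : ℂ) else -24 * (ArithmeticFunction.sigma 1 m : ℂ)) (m / N)
          else 0) • q ^ m
        - (fun m : ℕ => if m = 0 then (1 : ℂ) else -24 * (ArithmeticFunction.sigma 1 m : ℂ)) m • q ^ m) / 24 := by
  simp only [smul_eq_mul, h5e_coeff]
  have hσ := h5e_sigma_eq N m (Nat.pos_of_ne_zero hN)
  rcases Nat.eq_zero_or_pos m with rfl | hm
  · simp
  · have hm0 : m ≠ 0 := hm.ne'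
    by_cases hd : N ∣ m
    · have hmN : m / N ≠ 0 := by
        obtain ⟨k, rfl⟩ := hd
        rw [Nat.mul_div_cancel_left _ (Nat.pos_of_ne_zero hN)]
        rintro rfl
        simp at hm0
      have hσ' : (ArithmeticFunction.sigma 1 m : ℂ) = sigmaPrime N m + N * ArithmeticFunction.sigma 1 (m / N) := by
        rw [if_pos hd] at hσ
        exact_mod_cast congrArg (fun x : ℕ => (x : ℂ)) hσ
      simp only [hm0, hmN, hd, if_true, if_false, hσ']
      ring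
    · have hσ' : (ArithmeticFunction.sigma 1 m : ℂ) = sigmaPrime N m := by
        rw [if_neg hd] at hσ
        exact_mod_cast congrArg (fun x : ℕ => (x : ℂ)) hσ
      simp only [hm0, hd, if_false, hσ']
      ring

lemma h5e_hasSum_eisFun (N : ℕ) (hN : N ≠ 0) (τ : ℍ) :
    HasSum (fun m : ℕ => h5e_coeff N m • Function.Periodic.qParam 1 τ ^ m) (h5e_eisFun N τ) := by
  rw [h5e_eisFun_apply N hN]
  set q : ℂ := Function.Periodic.qParam 1 τ with hq
  set c : ℕ → ℂ := fun m => if m = 0 then 1 else -24 * (ArithmeticFunction.sigma 1 m : ℂ) with hc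
  have h1 : HasSum (fun m : ℕ => c m • q ^ m) (E2 τ) := by
    have := hasSum_qExpansion_E2 (z := τ)
    simpa only [hq, hc, Function.Periodic.qParam, Complex.ofReal_one, div_one] using this
  have h2 : HasSum (fun m : ℕ => c m • q ^ (N * m)) (E2 (heckeDiagMatrix N • τ)) := by
    have := hasSum_qExpansion_E2 (z := heckeDiagMatrix N • τ)
    convert this using 2 with m
    rw [hq, Function.Periodic.qParam, Complex.ofReal_one, div_one, coe_heckeDiagMatrix_smul hN,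
      pow_mul, ← Complex.exp_nat_mul]
    congr 3
    ring
  -- extend to a sum over all of ℕ
  have h3 : HasSum (fun m : ℕ => (if N ∣ m then c (m / N) else 0) • q ^ m)
      (E2 (heckeDiagMatrix N • τ)) := by
    have hinj : Function.Injective (fun m : ℕ => N * m) :=
      fun a b hab => Nat.eq_of_mul_eq_mul_left (Nat.pos_of_ne_zero hN) hab
    rw [← hinj.hasSum_iff]
    · convert h2 using 2 with m
      simp [Function.comp, Nat.mul_div_cancel_left _ (Nat.pos_of_ne_zero hN)]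
    · intro m hm
      have : ¬ N ∣ m := fun ⟨k, hk⟩ => hm ⟨k, hk.symm⟩
      simp [this]
  have h4 := ((h3.mul_left (N : ℂ)).sub h1).div_const 24
  have h5 : (fun m : ℕ => h5e_coeff N m • q ^ m)
      = fun i : ℕ => ((N : ℂ) * (if N ∣ i then c (i / N) else 0) • q ^ i - c i • q ^ i) / 24 := by
    funext m
    exact h5e_coeff_aux N hN m q
  rw [h5]
  exact h4

lemma h5e_coe_eis (N : ℕ) (hN : N.Prime) : ((h5e_eis N hN : ModularForm (Gamma0 N) 2) : ℍ → ℂ) = h5e_eisFun N := rfl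

lemma h5e_qCoeff (N : ℕ) (hN : N.Prime) (m : ℕ) :
    qCoeff (h5e_eis N hN) m = h5e_coeff N m := by
  have h1 : (1 : ℝ) ∈ ((Gamma0 N : Subgroup SL(2,ℤ)) : Subgroup (GL (Fin 2) ℝ)).strictPeriods := by
    rw [strictPeriods_Gamma0]
    exact AddSubgroup.mem_zmultiples 1
  exact (ModularFormClass.qExpansion_coeff_unique (h := 1) (c := h5e_coeff N) one_pos h1
    (f := h5e_eis N hN) (fun τ => h5e_hasSum_eisFun N hN.ne_zero τ) m).symm

/-- `E₂` is 1-periodic. -/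
lemma h5e_E2_periodic (z w : ℍ) (j : ℕ) (h : (w : ℂ) = z + j) : E2 w = E2 z := by
  rw [E2_eq_tsum_cexp, E2_eq_tsum_cexp]
  have : Complex.exp (2 * Real.pi * Complex.I * (w : ℂ)) = Complex.exp (2 * Real.pi * Complex.I * (z : ℂ)) := by
    rw [h, mul_add, Complex.exp_add]
    have : Complex.exp (2 * Real.pi * Complex.I * (j : ℂ)) = 1 := by
      have := Complex.exp_nat_mul_two_pi_mul_I j
      rw [← this]
      congr 1
      ring
    rw [this, mul_one]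
  simp only [this]

/-- The conjugates of `E_N` for `γ ∉ Γ₀(N)`. -/
lemma h5e_eisFun_slash_not_mem (N : ℕ) (hN : N.Prime) (g : SL(2,ℤ)) (hg : g ∉ Gamma0 N) :
    ∃ j : ℕ, j < N ∧ ∀ z : ℍ,
      (h5e_eisFun N ∣[(2:ℤ)] g) z = -(N : ℂ)⁻¹ * h5e_eisFun N (heckeMatrix N j • z) := by
  obtain ⟨g', j, hj, h⟩ := h5e_decomp_not_mem N hN g hg
  refine ⟨j, hj, fun z => ?_⟩
  have hN0 : N ≠ 0 := hN.ne_zero
  have hNC : (N : ℂ) ≠ 0 := by exact_mod_cast hN0
  rw [h5e_eisFun_slash N g g' _ (h5e_heckeMatrix_10 N j) (det_heckeMatrix_pos N j) h]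
  rw [h5e_eisFun_apply N hN0]
  simp only [Pi.smul_apply, Pi.sub_apply, smul_eq_mul, slash_heckeMatrix_apply 2 hN0]
  have hper : E2 (heckeDiagMatrix N • heckeMatrix N j • z) = E2 z := by
    apply h5e_E2_periodic z _ j
    rw [coe_heckeDiagMatrix_smul hN0, coe_heckeMatrix_smul hN0]
    field_simp
  rw [hper]
  field_simp
  ring

/-- **EisLevel** for prime `N`. -/
theorem h5e_eisLevel (N : ℕ) (hN : N.Prime) : EisLevel N := by
  refine ⟨h5e_eis N hN, ?_, ?_, ?_⟩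
  · rw [h5e_qCoeff, h5e_coeff, if_pos rfl]
  · intro j hj
    rw [h5e_qCoeff, h5e_coeff, if_neg (by omega)]
  · intro γ hγ
    exact h5e_eisFun_slash_not_mem N hN γ hγ

end Fermat.Agent.Lib.S16
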