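import Mathlib
import Fermat.Agent.Lib.S16.Defs
import Fermat.Agent.Lib.S16.H9DualityCoeff
import Fermat.Prelude.Thm_CongruenceSubgroup_one_mem_strictPeriods_Gamma0

/-!
# Project S16, blueprint §1: `UBCore` from `EisLevel p` and the `NoConst` table (helper9)

`h9u_ubCore : p.Prime → EisLevel p → (p < 7 → S₂(Γ₀(p)) = 0) → (7 ≤ p → NoConstTable p) → UBCore p`.
-/

set_option autoImplicit false

noncomputable section

namespace Fermat.Agent.Lib.S16

open ModularCurve CuspForm UpperHalfPlane CongruenceSubgroup ModularFormClass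
open scoped MatrixGroups ModularForm

theorem h9u_fact_eq {ℓ n a : ℕ} (hℓ : ℓ.Prime) (hn : n ≠ 0) (h1 : ℓ ^ a ∣ n)
    (h2 : ¬ ℓ ^ (a + 1) ∣ n) : n.factorization ℓ = a := by
  have h3 := (hℓ.pow_dvd_iff_le_factorization hn).mp h1
  have h4 := mt (hℓ.pow_dvd_iff_le_factorization hn).mpr h2
  omega

/-- The valuation bookkeeping of blueprint §1. -/
theorem h9u_arith (D k : ℕ) (hD : 0 < D) (hk : 0 < k) (hodd : 2 ∣ D)
    (h5 : ∀ ℓ : ℕ, ℓ.Prime → 5 ≤ ℓ → ¬ ℓ ^ (D.factorization ℓ + 1) ∣ 24 * k)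
    (h3a : 3 ∣ D → ¬ 3 ^ (D.factorization 3 + 1) ∣ 24 * k)
    (h3b : ¬ 3 ∣ D → ¬ 3 ^ 2 ∣ 24 * k)
    (h2a : 4 ∣ D → ¬ 2 ^ (D.factorization 2 + 2) ∣ 24 * k)
    (h2b : ¬ 4 ∣ D → ¬ 2 ^ 4 ∣ 24 * k) :
    k ∣ D / Nat.gcd D 12 := by
  have hg : Nat.gcd D 12 ∣ D := Nat.gcd_dvd_left _ _
  have hgpos : 0 < Nat.gcd D 12 := Nat.gcd_pos_of_pos_left _ hD
  have hn : D / Nat.gcd D 12 ≠ 0 := by
    have := Nat.div_pos (Nat.le_of_dvd hD hg) hgpos
    omega
  have h24k : 24 * k ≠ 0 := by positivity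
  rw [← Nat.factorization_prime_le_iff_dvd hk.ne' hn]
  intro ℓ hℓ
  rw [Nat.factorization_div hg, Nat.factorization_gcd hD.ne' (by norm_num)]
  simp only [Finsupp.coe_tsub, Pi.sub_apply, Finsupp.inf_apply]
  have hmul : (24 * k).factorization ℓ = (24 : ℕ).factorization ℓ + k.factorization ℓ := by
    rw [Nat.factorization_mul (by norm_num) hk.ne']; rfl
  have hpow : ∀ a : ℕ, ℓ ^ a ∣ 24 * k ↔ a ≤ (24 : ℕ).factorization ℓ + k.factorization ℓ := by
    intro a
    rw [hℓ.pow_dvd_iff_le_factorization h24k, hmul]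
  have hpowD : ∀ a : ℕ, ℓ ^ a ∣ D ↔ a ≤ D.factorization ℓ := fun a =>
    hℓ.pow_dvd_iff_le_factorization hD.ne'
  by_cases h2 : ℓ = 2
  · subst h2
    have e12 : (12 : ℕ).factorization 2 = 2 :=
      h9u_fact_eq Nat.prime_two (by norm_num) (by norm_num) (by norm_num)
    have e24 : (24 : ℕ).factorization 2 = 3 :=
      h9u_fact_eq Nat.prime_two (by norm_num) (by norm_num) (by norm_num)
    rw [e12]
    have h1 : 1 ≤ D.factorization 2 := (hpowD 1).mp (by simpa using hodd)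
    by_cases h4 : 4 ∣ D
    · have := h2a h4
      rw [hpow, e24] at this
      have h2' : 2 ≤ D.factorization 2 := (hpowD 2).mp (by simpa using h4)
      omega
    · have := h2b h4
      rw [hpow, e24] at this
      have h2' : ¬ 2 ≤ D.factorization 2 := fun h => h4 (by simpa using (hpowD 2).mpr h)
      omega
  · by_cases h3 : ℓ = 3
    · subst h3
      have e12 : (12 : ℕ).factorization 3 = 1 :=
        h9u_fact_eq Nat.prime_three (by norm_num) (by norm_num) (by norm_num)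
      have e24 : (24 : ℕ).factorization 3 = 1 :=
        h9u_fact_eq Nat.prime_three (by norm_num) (by norm_num) (by norm_num)
      rw [e12]
      by_cases h3D : 3 ∣ D
      · have := h3a h3D
        rw [hpow, e24] at this
        have h1 : 1 ≤ D.factorization 3 := (hpowD 1).mp (by simpa using h3D)
        omega
      · have := h3b h3D
        rw [hpow, e24] at this
        have h1 : ¬ 1 ≤ D.factorization 3 := fun h => h3D (by simpa using (hpowD 1).mpr h)
        omega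
    · have hℓ5 : 5 ≤ ℓ := by
        have := hℓ.two_le
        rcases Nat.lt_or_ge ℓ 5 with h | h
        · interval_cases ℓ
          · exact absurd rfl h2
          · exact absurd rfl h3
          · exact absurd hℓ (by norm_num)
        · exact h
      have hnd : ∀ m : ℕ, m ∣ 24 → m ≠ 0 → m.factorization ℓ = 0 := by
        intro m hm hm0
        apply Nat.factorization_eq_zero_of_not_dvd
        intro hℓm
        have : ℓ ∣ 24 := dvd_trans hℓm hm
        have hle : ℓ ≤ 24 := Nat.le_of_dvd (by norm_num) this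
        interval_cases ℓ <;> first | omega | (exact absurd hℓ (by norm_num))
      have e12 : (12 : ℕ).factorization ℓ = 0 := hnd 12 (by norm_num) (by norm_num)
      have e24 : (24 : ℕ).factorization ℓ = 0 := hnd 24 (by norm_num) (by norm_num)
      rw [e12]
      have := h5 ℓ hℓ hℓ5
      rw [hpow, e24] at this
      omega

theorem h9u_qCoeff_comb {N : ℕ} (E : ModularForm (Gamma0 N) 2) (f : CuspForm (Gamma0 N) 2)
    (c : ℂ) (j : ℕ) :
    qCoeff ⇑(c • (E - ModularFormClass.modularForm f)) j =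
      c * (qCoeff ⇑E j - qCoeff ⇑f j) := by
  have hΓ := CongruenceSubgroup.one_mem_strictPeriods_Gamma0 N
  have h1 : (⇑(c • (E - ModularFormClass.modularForm f)) : ℍ → ℂ) =
      c • ⇑(E - ModularFormClass.modularForm f) := by
    ext z; simp
  have h2 : (⇑(E - ModularFormClass.modularForm f) : ℍ → ℂ) = ⇑E - ⇑f := by
    ext z; simp
  simp only [qCoeff]
  rw [h1, ModularForm.qExpansion_smul one_pos hΓ c (E - ModularFormClass.modularForm f), h2,
    ModularForm.qExpansion_sub one_pos hΓ E f]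
  simp

/-- A congruence `f ≡ δ mod k` together with `NoConst p ℓ s` bounds the `ℓ`-part of `k`. -/
theorem h9u_not_pow_dvd (p : ℕ) (hp2 : 2 ≤ p) (hE : EisLevel p) (f : CuspForm (Gamma0 p) 2)
    (k : ℕ)
    (hf : ∀ j : ℕ, 1 ≤ j → ∃ a : ℤ, qCoeff f j = (a : ℂ) ∧
      (a : ZMod k) = (sigmaPrime p j : ZMod k))
    (ℓ s : ℕ) (hℓ : ℓ.Prime) (hNC : NoConst p ℓ s) :
    ¬ ℓ ^ ((p - 1).factorization ℓ + s) ∣ 24 * k := by
  rintro ⟨m', hm'⟩
  obtain ⟨E, hE0, hEj, -⟩ := hE
  set e := (p - 1).factorization ℓ with he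
  set u := (p - 1) / ℓ ^ e with hu
  have hD0 : p - 1 ≠ 0 := by omega
  have hDu : ℓ ^ e * u = p - 1 := Nat.ordProj_mul_ordCompl_eq_self (p - 1) ℓ
  have hℓu : ¬ ℓ ∣ u := Nat.not_dvd_ordCompl hℓ hD0
  have hℓC : (ℓ : ℂ) ≠ 0 := by exact_mod_cast hℓ.ne_zero
  have hpC : (p : ℂ) - 1 = (ℓ : ℂ) ^ e * (u : ℂ) := by
    have : ((p - 1 : ℕ) : ℂ) = (p : ℂ) - 1 := by
      rw [Nat.cast_sub (by omega)]; simp
    rw [← this, ← hDu]; push_cast; ring
  have hkC : (24 : ℂ) * (k : ℂ) = (ℓ : ℂ) ^ (e + s) * (m' : ℂ) := by exact_mod_cast hm'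
  set c : ℂ := 24 / (ℓ : ℂ) ^ e with hc
  set G : ModularForm (Gamma0 p) 2 := c • (E - ModularFormClass.modularForm f) with hG
  have hf0 : qCoeff ⇑f 0 = 0 :=
    CuspFormClass.qExpansion_coeff_zero f one_pos
      (CongruenceSubgroup.one_mem_strictPeriods_Gamma0 p)
  have key : ∀ j : ℕ, ∃ a : ℤ, qCoeff ⇑G j = (a : ℂ) ∧ (j = 0 → ¬ (ℓ : ℤ) ∣ a) ∧
      (1 ≤ j → (ℓ : ℤ) ^ s ∣ a) := by
    intro j
    rcases Nat.eq_zero_or_pos j with rfl | hj
    · refine ⟨(u : ℤ), ?_, fun _ => ?_, fun h => absurd h (by norm_num)⟩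
      · rw [hG, h9u_qCoeff_comb, hE0, hf0, sub_zero, hpC, hc]
        push_cast
        field_simp
      · exact fun h => hℓu (Int.natCast_dvd_natCast.mp h)
    · obtain ⟨aj, haj1, haj2⟩ := hf j hj
      have hdvd : (k : ℤ) ∣ ((sigmaPrime p j : ℕ) : ℤ) - aj := by
        rw [← ZMod.intCast_eq_intCast_iff_dvd_sub, haj2]
        simp
      obtain ⟨b, hb⟩ := hdvd
      refine ⟨(ℓ : ℤ) ^ s * ((m' : ℤ) * b), ?_, fun h => absurd h (by omega), fun _ =>
        Dvd.intro _ rfl⟩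
      have hbC : ((sigmaPrime p j : ℕ) : ℂ) - (aj : ℂ) = (k : ℂ) * (b : ℂ) := by
        exact_mod_cast hb
      rw [hG, h9u_qCoeff_comb, hEj j hj, haj1, hbC, hc]
      push_cast
      have : (24 : ℂ) / (ℓ : ℂ) ^ e * ((k : ℂ) * (b : ℂ)) =
          ((24 : ℂ) * (k : ℂ)) * (b : ℂ) / (ℓ : ℂ) ^ e := by ring
      rw [this, hkC, pow_add]
      field_simp
  choose a ha using key
  exact hNC ⟨G, a, fun j => (ha j).1, (ha 0).2.1 rfl, fun j hj => (ha j).2.2 hj⟩

/-- **UB-core** from the Eisenstein series of level `p` and the `NoConst` table. -/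
theorem h9u_ubCore (p : ℕ) (hp : p.Prime) (hE : EisLevel p)
    (hsmall : p < 7 → ∀ f : CuspForm (Gamma0 p) 2, f = 0)
    (hTab : 7 ≤ p → NoConstTable p) : UBCore p := by
  intro f k hk hf
  rcases Nat.lt_or_ge p 7 with h7 | h7
  · have hf0 := hsmall h7 f
    obtain ⟨a, ha1, ha2⟩ := hf 1 le_rfl
    have hq : qCoeff ⇑(0 : CuspForm (Gamma0 p) 2) 1 = 0 := by
      simp [qCoeff, UpperHalfPlane.qExpansion_zero]
    rw [hf0, hq] at ha1
    have ha0 : a = 0 := by exact_mod_cast ha1.symm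
    rw [ha0, h9d6_sigmaPrime_one p hp, Int.cast_zero] at ha2
    have h1 : k ∣ 1 := (ZMod.natCast_eq_zero_iff 1 k).mp ha2.symm
    exact dvd_trans h1 (one_dvd _)
  · obtain ⟨t5, t3a, t3b, t2a, t2b⟩ := hTab h7
    have hp2 : 2 ≤ p := hp.two_le
    have hodd : p % 2 = 1 := by
      rcases hp.eq_two_or_odd with h | h
      · omega
      · exact h
    have h3p : p % 3 ≠ 0 := by
      intro h
      have : 3 ∣ p := Nat.dvd_of_mod_eq_zero h
      have := (Nat.prime_dvd_prime_iff_eq Nat.prime_three hp).mp this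
      omega
    unfold eisensteinNumerator
    apply h9u_arith (p - 1) k (by omega) hk (by omega)
    · intro ℓ hℓ hℓ5
      exact h9u_not_pow_dvd p hp2 hE f k hf ℓ 1 hℓ (t5 ℓ hℓ hℓ5)
    · intro h3
      exact h9u_not_pow_dvd p hp2 hE f k hf 3 1 Nat.prime_three (t3a (by omega))
    · intro h3
      have := h9u_not_pow_dvd p hp2 hE f k hf 3 2 Nat.prime_three (t3b (by omega))
      rwa [Nat.factorization_eq_zero_of_not_dvd h3, zero_add] at this
    · intro h4
      exact h9u_not_pow_dvd p hp2 hE f k hf 2 2 Nat.prime_two (t2a (by omega))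
    · intro h4
      have := h9u_not_pow_dvd p hp2 hE f k hf 2 3 Nat.prime_two (t2b (by omega))
      have he : (p - 1).factorization 2 = 1 :=
        h9u_fact_eq Nat.prime_two (by omega) (by rw [pow_one]; omega) (by norm_num; omega)
      rwa [he] at this

end Fermat.Agent.Lib.S16
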