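import Mathlib

/-!
# Project S16: elements of finite order in `SL(2, ℤ)` have order dividing `12` (owner: lead)
-/

set_option autoImplicit false

namespace Fermat.Agent.Lib.S16

open Matrix
open scoped MatrixGroups

/-- Cayley–Hamilton for `2 × 2` matrices of determinant one. -/
theorem lead_cayley (A : Matrix (Fin 2) (Fin 2) ℤ) (hA : A.det = 1) :
    A * A = A.trace • A - 1 := by
  rw [Matrix.det_fin_two] at hA
  have h00 : (A * A) 0 0 = A 0 0 * A 0 0 + A 0 1 * A 1 0 := by
    simp [Matrix.mul_apply, Fin.sum_univ_two]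
  have h01 : (A * A) 0 1 = A 0 0 * A 0 1 + A 0 1 * A 1 1 := by
    simp [Matrix.mul_apply, Fin.sum_univ_two]
  have h10 : (A * A) 1 0 = A 1 0 * A 0 0 + A 1 1 * A 1 0 := by
    simp [Matrix.mul_apply, Fin.sum_univ_two]
  have h11 : (A * A) 1 1 = A 1 0 * A 0 1 + A 1 1 * A 1 1 := by
    simp [Matrix.mul_apply, Fin.sum_univ_two]
  have ht : A.trace = A 0 0 + A 1 1 := Matrix.trace_fin_two A
  ext i j
  fin_cases i <;> fin_cases j
  · show (A * A) 0 0 = (A.trace • A - 1) 0 0
    rw [h00, Matrix.sub_apply, Matrix.smul_apply, smul_eq_mul, ht, Matrix.one_apply_eq]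
    linear_combination (-1 : ℤ) * hA
  · show (A * A) 0 1 = (A.trace • A - 1) 0 1
    rw [h01, Matrix.sub_apply, Matrix.smul_apply, smul_eq_mul, ht,
      Matrix.one_apply_ne (by decide : (0 : Fin 2) ≠ 1)]
    ring
  · show (A * A) 1 0 = (A.trace • A - 1) 1 0
    rw [h10, Matrix.sub_apply, Matrix.smul_apply, smul_eq_mul, ht,
      Matrix.one_apply_ne (by decide : (1 : Fin 2) ≠ 0)]
    ring
  · show (A * A) 1 1 = (A.trace • A - 1) 1 1
    rw [h11, Matrix.sub_apply, Matrix.smul_apply, smul_eq_mul, ht, Matrix.one_apply_eq]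
    linear_combination (-1 : ℤ) * hA

/-- trace recursion. -/
theorem lead_trace_pow_succ_succ (A : Matrix (Fin 2) (Fin 2) ℤ) (hA : A.det = 1) (m : ℕ) :
    (A ^ (m + 2)).trace = A.trace * (A ^ (m + 1)).trace - (A ^ m).trace := by
  have h : A ^ (m + 2) = A.trace • A ^ (m + 1) - A ^ m := by
    rw [pow_add, pow_two, lead_cayley A hA, mul_sub, mul_one, Matrix.mul_smul, ← pow_succ]
  rw [h, Matrix.trace_sub, Matrix.trace_smul, smul_eq_mul]

theorem lead_abs_trace_pow_growth (A : Matrix (Fin 2) (Fin 2) ℤ) (hA : A.det = 1)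
    (ht : 3 ≤ |A.trace|) (m : ℕ) :
    2 ≤ |(A ^ m).trace| ∧ |(A ^ m).trace| < |(A ^ (m + 1)).trace| := by
  induction m with
  | zero =>
    simp only [pow_zero, zero_add, pow_one, Matrix.trace_one, Fintype.card_fin]
    constructor
    · norm_num
    · have : |((2 : ℕ) : ℤ)| = 2 := by norm_num
      rw [this]; omega
  | succ m ih =>
    obtain ⟨h1, h2⟩ := ih
    refine ⟨by omega, ?_⟩
    rw [lead_trace_pow_succ_succ A hA m]
    have h3 : |A.trace * (A ^ (m + 1)).trace| = |A.trace| * |(A ^ (m + 1)).trace| := abs_mul _ _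
    have h4 : |A.trace * (A ^ (m + 1)).trace| - |(A ^ m).trace|
        ≤ |A.trace * (A ^ (m + 1)).trace - (A ^ m).trace| := abs_sub_abs_le_abs_sub _ _
    have h5 : 3 * |(A ^ (m + 1)).trace| ≤ |A.trace| * |(A ^ (m + 1)).trace| :=
      mul_le_mul_of_nonneg_right ht (abs_nonneg _)
    omega

theorem lead_pow_ne_one_of_hyperbolic (A : Matrix (Fin 2) (Fin 2) ℤ) (hA : A.det = 1)
    (ht : 3 ≤ |A.trace|) (m : ℕ) (hm : 1 ≤ m) : A ^ m ≠ 1 := by
  intro h
  obtain ⟨k, rfl⟩ : ∃ k, m = k + 1 := ⟨m - 1, by omega⟩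
  have h1 := lead_abs_trace_pow_growth A hA ht k
  rw [h] at h1
  simp only [Matrix.trace_one, Fintype.card_fin] at h1
  have : |((2 : ℕ) : ℤ)| = 2 := by norm_num
  rw [this] at h1
  omega

/-- unipotent case: trace `2`, finite order implies identity. -/
theorem lead_eq_one_of_trace_two (A : Matrix (Fin 2) (Fin 2) ℤ) (hA : A.det = 1)
    (ht : A.trace = 2) (m : ℕ) (hm : 1 ≤ m) (h : A ^ m = 1) : A = 1 := by
  have hN : (A - 1) * (A - 1) = 0 := by
    have := lead_cayley A hA
    rw [ht] at this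
    rw [sub_mul, mul_sub, mul_sub, this]
    simp only [mul_one, one_mul]
    rw [two_smul]
    abel
  have hpow : ∀ k : ℕ, A ^ k = 1 + (k : ℤ) • (A - 1) := by
    have hA' : A = 1 + (A - 1) := by abel
    generalize A - 1 = N at hN hA' ⊢
    intro k
    induction k with
    | zero => simp
    | succ k ih =>
      rw [pow_succ, ih]
      conv_lhs => rw [hA']
      rw [add_mul, mul_add, mul_add, one_mul, mul_one, one_mul, Matrix.smul_mul, hN, smul_zero,
        add_zero]
      push_cast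
      rw [add_smul, one_smul]
      abel
  have h1 := hpow m
  rw [h] at h1
  have h2 : (m : ℤ) • (A - 1) = 0 := by
    have := h1.symm
    simpa using this
  have hm0 : (m : ℤ) ≠ 0 := by exact_mod_cast (by omega : m ≠ 0)
  have h3 : A - 1 = 0 := by
    rcases smul_eq_zero.mp h2 with h4 | h4
    · exact absurd h4 hm0
    · exact h4
  exact sub_eq_zero.mp h3

/-- **Finite-order elements of `SL(2, ℤ)` have order dividing `12`.** -/
theorem lead_pow_twelve_of_isOfFinOrder (γ : SL(2, ℤ)) (h : IsOfFinOrder γ) : γ ^ 12 = 1 := by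
  obtain ⟨m, hm, hγm⟩ := isOfFinOrder_iff_pow_eq_one.mp h
  set A : Matrix (Fin 2) (Fin 2) ℤ := (γ : Matrix (Fin 2) (Fin 2) ℤ) with hAdef
  have hA : A.det = 1 := γ.det_coe
  have hAm : A ^ m = 1 := by
    have := congrArg (fun x : SL(2, ℤ) => (x : Matrix (Fin 2) (Fin 2) ℤ)) hγm
    simpa using this
  suffices hs : A ^ 12 = 1 by
    apply Subtype.ext
    simpa using hs
  have hC := lead_cayley A hA
  have ht : |A.trace| ≤ 2 := by
    by_contra hcon
    exact lead_pow_ne_one_of_hyperbolic A hA (by omega) m (by omega) hAm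
  have ht' : A.trace = -2 ∨ A.trace = -1 ∨ A.trace = 0 ∨ A.trace = 1 ∨ A.trace = 2 := by
    have := abs_le.mp ht
    omega
  have e2 : A ^ 2 = A.trace • A - 1 := by rw [pow_two, hC]
  rcases ht' with h2 | h2 | h2 | h2 | h2
  · -- trace -2: -A is unipotent
    have hnA : (-A).det = 1 := by
      rw [Matrix.det_neg, hA]; simp
    have htn : (-A).trace = 2 := by rw [Matrix.trace_neg, h2]; norm_num
    have hpow : (-A) ^ (2 * m) = 1 := by
      rw [pow_mul, neg_sq, ← pow_mul, mul_comm, pow_mul, hAm, one_pow]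
    have := lead_eq_one_of_trace_two (-A) hnA htn (2 * m) (by omega) hpow
    have hA1 : A = -1 := by
      rw [← neg_neg A, this]
    rw [hA1]
    have : (12 : ℕ) = 2 * 6 := by norm_num
    rw [this, pow_mul, neg_sq, one_pow, one_pow]
  · -- trace -1: A^3 = 1
    rw [h2] at e2
    have e3 : A ^ 3 = 1 := by
      rw [pow_succ, e2, sub_mul, Matrix.smul_mul, one_mul, ← pow_two, e2]
      simp
    have : (12 : ℕ) = 3 * 4 := by norm_num
    rw [this, pow_mul, e3, one_pow]
  · -- trace 0: A^2 = -1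
    rw [h2] at e2
    have e2' : A ^ 2 = -1 := by simpa using e2
    have : (12 : ℕ) = 2 * 6 := by norm_num
    rw [this, pow_mul, e2']
    have : (6 : ℕ) = 2 * 3 := by norm_num
    rw [this, pow_mul, neg_sq, one_pow, one_pow]
  · -- trace 1: A^3 = -1
    rw [h2] at e2
    have e3 : A ^ 3 = -1 := by
      rw [pow_succ, e2, sub_mul, Matrix.smul_mul, one_mul, ← pow_two, e2]
      simp
    have : (12 : ℕ) = 3 * 4 := by norm_num
    rw [this, pow_mul, e3]
    have : (4 : ℕ) = 2 * 2 := by norm_num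
    rw [this, pow_mul, neg_sq, one_pow, one_pow]
  · have := lead_eq_one_of_trace_two A hA h2 m (by omega) hAm
    rw [this, one_pow]

end Fermat.Agent.Lib.S16
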