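import Fermat.Agent.Lib.S16.Defs
import Fermat.Agent.Lib.S16.LeadTorsionSL2
import Fermat.Agent.Lib.S16.H3PeriodHecke

/-!
# Project S16 (S-iii) + (S-iv): the Shimura homomorphism and `LBCore` (owner: lead)

`LBCore p` from `TorsionFree p` and helper3's Hecke equivariance of the period map.
-/

set_option autoImplicit false

noncomputable section

namespace Fermat.Agent.Lib.S16

open ModularCurve CuspForm UpperHalfPlane CongruenceSubgroup ModularFormClass
open scoped MatrixGroups ModularForm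

section Sh

variable (p : ℕ) [hpF : Fact p.Prime]

/-- The unit-valued lower-right entry. -/
def lead_dUnit : Gamma0 p →* (ZMod p)ˣ := (Gamma0Map p).toHomUnits

theorem lead_dUnit_val (γ : Gamma0 p) : ((lead_dUnit p γ : (ZMod p)ˣ) : ZMod p) = Gamma0Map p γ :=
  MonoidHom.coe_toHomUnits _ _

theorem lead_card_units : Nat.card (ZMod p)ˣ = p - 1 := by
  rw [Nat.card_eq_fintype_card, ZMod.card_units_eq_totient, Nat.totient_prime hpF.out]

theorem lead_n_dvd_card : eisensteinNumerator p ∣ Nat.card (ZMod p)ˣ := by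
  rw [lead_card_units]; exact eisensteinNumerator_dvd p

/-- discrete logarithm modulo `n`. -/
def lead_log : (ZMod p)ˣ →* Multiplicative (ZMod (eisensteinNumerator p)) :=
  (AddMonoidHom.toMultiplicative
      (ZMod.castHom (lead_n_dvd_card p) (ZMod (eisensteinNumerator p))).toAddMonoidHom).comp
    (zmodCyclicMulEquiv (inferInstance : IsCyclic (ZMod p)ˣ)).symm.toMonoidHom

theorem lead_log_surjective : Function.Surjective (lead_log p) := by
  intro y
  obtain ⟨x, hx⟩ := ZMod.ringHom_surjective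
    (ZMod.castHom (lead_n_dvd_card p) (ZMod (eisensteinNumerator p))) (Multiplicative.toAdd y)
  refine ⟨zmodCyclicMulEquiv (inferInstance : IsCyclic (ZMod p)ˣ) (Multiplicative.ofAdd x), ?_⟩
  simp only [lead_log, MonoidHom.comp_apply, MulEquiv.toMonoidHom_eq_coe, MonoidHom.coe_coe,
    MulEquiv.symm_apply_apply]
  show Multiplicative.ofAdd ((ZMod.castHom (lead_n_dvd_card p) (ZMod (eisensteinNumerator p))) x) = y
  rw [hx]; rfl

theorem lead_gcd_mul : eisensteinNumerator p * Nat.gcd (p - 1) 12 = p - 1 := by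
  unfold eisensteinNumerator
  exact Nat.div_mul_cancel (Nat.gcd_dvd_left _ _)

/-- elements killed by `g = gcd(p-1,12)` have trivial logarithm. -/
theorem lead_log_eq_one_of_pow (x : (ZMod p)ˣ) (hx : x ^ Nat.gcd (p - 1) 12 = 1) :
    lead_log p x = 1 := by
  set g := Nat.gcd (p - 1) 12 with hg
  set n := eisensteinNumerator p with hn
  have hgpos : 0 < g := Nat.gcd_pos_of_pos_right _ (by norm_num)
  set e := (zmodCyclicMulEquiv (inferInstance : IsCyclic (ZMod p)ˣ)).symm with he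
  set y : ZMod (Nat.card (ZMod p)ˣ) := Multiplicative.toAdd (e x) with hy
  have hcard : Nat.card (ZMod p)ˣ = n * g := by rw [lead_card_units, hn, hg, lead_gcd_mul]
  have hy0 : g • y = 0 := by
    have h1 : e (x ^ g) = 1 := by rw [hx, map_one]
    rw [map_pow] at h1
    have := congrArg Multiplicative.toAdd h1
    simpa [hy] using this
  haveI : NeZero (Nat.card (ZMod p)ˣ) := ⟨by rw [lead_card_units]; have := hpF.out.two_le; omega⟩
  have hyv : ((y.val : ℕ) : ZMod (Nat.card (ZMod p)ˣ)) = y := ZMod.natCast_zmod_val y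
  have h2 : ((g * y.val : ℕ) : ZMod (Nat.card (ZMod p)ˣ)) = 0 := by
    rw [Nat.cast_mul, hyv, ← nsmul_eq_mul]; exact hy0
  have h3 : Nat.card (ZMod p)ˣ ∣ g * y.val := (ZMod.natCast_eq_zero_iff _ _).mp h2
  have h3' : g * n ∣ g * y.val := by
    have : g * n = Nat.card (ZMod p)ˣ := by rw [hcard, mul_comm]
    rw [this]; exact h3
  have h4 : n ∣ y.val := Nat.dvd_of_mul_dvd_mul_left hgpos h3'
  show Multiplicative.ofAdd ((ZMod.castHom (lead_n_dvd_card p) (ZMod n)) y) = 1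
  have h5 : (ZMod.castHom (lead_n_dvd_card p) (ZMod n)) y = 0 := by
    rw [← hyv, map_natCast]
    exact (ZMod.natCast_eq_zero_iff _ _).mpr h4
  rw [h5]; rfl

/-- **The Shimura homomorphism** `Γ₀(p) → ZMod n`. -/
def lead_sh : Additive (Gamma0 p) →+ ZMod (eisensteinNumerator p) where
  toFun γ := Multiplicative.toAdd (lead_log p (lead_dUnit p (Additive.toMul γ)))
  map_zero' := by simp
  map_add' x y := by simp [map_mul]

theorem lead_sh_apply (γ : Gamma0 p) :
    lead_sh p (Additive.ofMul γ) = Multiplicative.toAdd (lead_log p (lead_dUnit p γ)) := rfl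

/-- `sh` only depends on the lower-right entry, multiplicatively. -/
theorem lead_sh_of_map_eq_pow (γ γ' : Gamma0 p) (k : ℕ)
    (h : Gamma0Map p γ' = Gamma0Map p γ ^ k) :
    lead_sh p (Additive.ofMul γ') = (k : ZMod (eisensteinNumerator p)) * lead_sh p (Additive.ofMul γ) := by
  have hu : lead_dUnit p γ' = lead_dUnit p γ ^ k := by
    apply Units.ext
    rw [Units.val_pow_eq_pow_val, lead_dUnit_val, lead_dUnit_val, h]
  rw [lead_sh_apply, lead_sh_apply, hu, map_pow, toAdd_pow, nsmul_eq_mul]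

theorem lead_sh_eq_zero_of_pow (γ : Gamma0 p) (k : ℕ) (hk : k ∣ 12) (h : γ ^ k = 1) :
    lead_sh p (Additive.ofMul γ) = 0 := by
  have h1 : lead_dUnit p γ ^ k = 1 := by rw [← map_pow, h, map_one]
  have h12 : lead_dUnit p γ ^ 12 = 1 := by
    obtain ⟨m, hm⟩ := hk
    rw [hm, pow_mul, h1, one_pow]
  have hp1 : lead_dUnit p γ ^ (p - 1) = 1 := by
    have := pow_card_eq_one' (G := (ZMod p)ˣ) (x := lead_dUnit p γ)
    rwa [lead_card_units] at this
  have hg : lead_dUnit p γ ^ Nat.gcd (p - 1) 12 = 1 := pow_gcd_eq_one.mpr ⟨hp1, h12⟩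
  rw [lead_sh_apply, lead_log_eq_one_of_pow p _ hg]; rfl

theorem lead_sh_finOrder (δ : Gamma0 p) (h : IsOfFinOrder δ) : lead_sh p (Additive.ofMul δ) = 0 := by
  refine lead_sh_eq_zero_of_pow p δ 12 dvd_rfl ?_
  have h' : IsOfFinOrder (δ : SL(2, ℤ)) := by
    obtain ⟨m, hm, hδ⟩ := isOfFinOrder_iff_pow_eq_one.mp h
    exact isOfFinOrder_iff_pow_eq_one.mpr ⟨m, hm, by rw [← SubgroupClass.coe_pow, hδ]; rfl⟩
  apply Subtype.ext
  rw [SubgroupClass.coe_pow]
  exact lead_pow_twelve_of_isOfFinOrder _ h'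

theorem lead_sh_eq_zero_of_dUnit_pow (γ : Gamma0 p) (h12 : lead_dUnit p γ ^ 12 = 1) :
    lead_sh p (Additive.ofMul γ) = 0 := by
  have hp1 : lead_dUnit p γ ^ (p - 1) = 1 := by
    have := pow_card_eq_one' (G := (ZMod p)ˣ) (x := lead_dUnit p γ)
    rwa [lead_card_units] at this
  have hg : lead_dUnit p γ ^ Nat.gcd (p - 1) 12 = 1 := pow_gcd_eq_one.mpr ⟨hp1, h12⟩
  rw [lead_sh_apply, lead_log_eq_one_of_pow p _ hg]; rfl

theorem lead_sh_trace (δ : Gamma0 p)
    (h : ((δ : SL(2, ℤ)) : Matrix (Fin 2) (Fin 2) ℤ).trace ^ 2 = 4) :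
    lead_sh p (Additive.ofMul δ) = 0 := by
  apply lead_sh_eq_zero_of_dUnit_pow
  set M : Matrix (Fin 2) (Fin 2) ℤ := ((δ : SL(2, ℤ)) : Matrix (Fin 2) (Fin 2) ℤ) with hM
  have hdet : M 0 0 * M 1 1 - M 0 1 * M 1 0 = 1 := by
    have := (δ : SL(2, ℤ)).det_coe
    rwa [Matrix.det_fin_two] at this
  have hc : ((M 1 0 : ℤ) : ZMod p) = 0 := Gamma0_mem.mp δ.2
  rw [Matrix.trace_fin_two] at h
  have hdetp : ((M 0 0 : ℤ) : ZMod p) * ((M 1 1 : ℤ) : ZMod p) = 1 := by
    have := congrArg (Int.cast : ℤ → ZMod p) hdet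
    push_cast at this
    rw [hc, mul_zero, sub_zero] at this
    exact this
  have htrp : (((M 0 0 : ℤ) : ZMod p) + ((M 1 1 : ℤ) : ZMod p)) ^ 2 = 4 := by
    have := congrArg (Int.cast : ℤ → ZMod p) h
    push_cast at this
    exact this
  have hsq : (((M 0 0 : ℤ) : ZMod p) - ((M 1 1 : ℤ) : ZMod p)) ^ 2 = 0 := by
    linear_combination htrp - 4 * hdetp
  have heq : ((M 0 0 : ℤ) : ZMod p) = ((M 1 1 : ℤ) : ZMod p) := by
    have := pow_eq_zero_iff (two_ne_zero) |>.mp hsq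
    exact sub_eq_zero.mp this
  have hd2 : ((M 1 1 : ℤ) : ZMod p) ^ 2 = 1 := by
    rw [pow_two]; rw [heq] at hdetp; exact hdetp
  have hval : ((lead_dUnit p δ : (ZMod p)ˣ) : ZMod p) = ((M 1 1 : ℤ) : ZMod p) := by
    rw [lead_dUnit_val]; rfl
  have hu2 : lead_dUnit p δ ^ 2 = 1 := by
    apply Units.ext
    rw [Units.val_pow_eq_pow_val, hval, hd2]; rfl
  have : (12 : ℕ) = 2 * 6 := by norm_num
  rw [this, pow_mul, hu2, one_pow]

theorem lead_dUnit_surjective : Function.Surjective (lead_dUnit p) := by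
  intro x
  set d : ℕ := (x : ZMod p).val with hd
  have hdx : ((d : ℕ) : ZMod p) = (x : ZMod p) := ZMod.natCast_zmod_val _
  have hcop : IsCoprime (d : ℤ) (p : ℤ) := by
    rw [Int.isCoprime_iff_gcd_eq_one]
    have hpd : ¬ p ∣ d := by
      intro hdvd
      have : ((d : ℕ) : ZMod p) = 0 := (ZMod.natCast_eq_zero_iff _ _).mpr hdvd
      rw [hdx] at this
      exact x.ne_zero this
    have : Nat.Coprime d p := (Nat.Coprime.symm ((Nat.Prime.coprime_iff_not_dvd hpF.out).mpr hpd))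
    simpa [Int.gcd_natCast_natCast] using this
  obtain ⟨u, v, huv⟩ := hcop
  let A : Matrix (Fin 2) (Fin 2) ℤ := !![u, -v; (p : ℤ), (d : ℤ)]
  have hdet : A.det = 1 := by
    rw [Matrix.det_fin_two_of]; linarith
  let γ : SL(2, ℤ) := ⟨A, hdet⟩
  have hmem : γ ∈ Gamma0 p := by
    rw [Gamma0_mem]
    show (((A 1 0 : ℤ)) : ZMod p) = 0
    simp [A]
  refine ⟨⟨γ, hmem⟩, ?_⟩
  apply Units.ext
  rw [lead_dUnit_val]
  show (((A 1 1 : ℤ)) : ZMod p) = _
  simp [A, hdx]

theorem lead_exists_sh_one : ∃ γ₀ : Gamma0 p, lead_sh p (Additive.ofMul γ₀) = 1 := by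
  obtain ⟨x, hx⟩ := lead_log_surjective p (Multiplicative.ofAdd 1)
  obtain ⟨γ₀, hγ₀⟩ := lead_dUnit_surjective p x
  exact ⟨γ₀, by rw [lead_sh_apply, hγ₀, hx]; rfl⟩

open Fermat.Agent.Lib.S21 in
/-- `t` acts on periods through `Γ₀(p)` with `sh`-multiplier `c`. -/
def lead_Good (t : Module.End ℂ (CuspForm (Gamma0 p) 2)) (c : ZMod (eisensteinNumerator p)) : Prop :=
  ∀ γ : Gamma0 p, ∃ γ' : Gamma0 p,
    (∀ f : CuspForm (Gamma0 p) 2,
      periodMap p (t f) (Additive.ofMul γ) = periodMap p f (Additive.ofMul γ')) ∧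
    lead_sh p (Additive.ofMul γ') = c * lead_sh p (Additive.ofMul γ)

instance lead_neZero : NeZero p := ⟨hpF.out.ne_zero⟩

open Fermat.Agent.Lib.S21

theorem lead_good_zero : lead_Good p 0 0 := by
  intro γ
  refine ⟨1, fun f => ?_, ?_⟩
  · have h0 : periodMap p (0 : CuspForm (Gamma0 p) 2) = 0 := by
      have := h1_periodMap_smul (N := p) (0 : ℂ) (0 : CuspForm (Gamma0 p) 2)
      simpa using this
    simp only [LinearMap.zero_apply]
    rw [h0]
    simp
  · simp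

theorem lead_good_int (z : ℤ) :
    lead_Good p (algebraMap ℤ (Module.End ℂ (CuspForm (Gamma0 p) 2)) z) z := by
  intro γ
  refine ⟨γ ^ z, fun f => ?_, ?_⟩
  · have e : (algebraMap ℤ (Module.End ℂ (CuspForm (Gamma0 p) 2)) z) f = (z : ℂ) • f := by
      rw [Module.algebraMap_end_apply]
      exact (Int.cast_smul_eq_zsmul ℂ z f).symm
    rw [e, h1_periodMap_smul, AddMonoidHom.smul_apply, ofMul_zpow, map_zsmul, smul_eq_mul,
      zsmul_eq_mul]
  · rw [ofMul_zpow, map_zsmul, zsmul_eq_mul]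

theorem lead_good_one : lead_Good p 1 1 := by
  have := lead_good_int p 1
  simpa using this

theorem lead_good_add {t₁ t₂ : Module.End ℂ (CuspForm (Gamma0 p) 2)}
    {c₁ c₂ : ZMod (eisensteinNumerator p)} (h₁ : lead_Good p t₁ c₁) (h₂ : lead_Good p t₂ c₂) :
    lead_Good p (t₁ + t₂) (c₁ + c₂) := by
  intro γ
  obtain ⟨γ₁, hf₁, hs₁⟩ := h₁ γ
  obtain ⟨γ₂, hf₂, hs₂⟩ := h₂ γ
  refine ⟨γ₁ * γ₂, fun f => ?_, ?_⟩
  · rw [LinearMap.add_apply, h1_periodMap_add, AddMonoidHom.add_apply, hf₁, hf₂, ofMul_mul,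
      map_add]
  · rw [ofMul_mul, map_add, hs₁, hs₂, add_mul]

theorem lead_good_mul {t₁ t₂ : Module.End ℂ (CuspForm (Gamma0 p) 2)}
    {c₁ c₂ : ZMod (eisensteinNumerator p)} (h₁ : lead_Good p t₁ c₁) (h₂ : lead_Good p t₂ c₂) :
    lead_Good p (t₁ * t₂) (c₁ * c₂) := by
  intro γ
  obtain ⟨γ₁, hf₁, hs₁⟩ := h₁ γ
  obtain ⟨γ₂, hf₂, hs₂⟩ := h₂ γ₁
  refine ⟨γ₂, fun f => ?_, ?_⟩
  · rw [Module.End.mul_apply, hf₁, hf₂]
  · rw [hs₂, hs₁]; ring

theorem lead_good_T {r : ℕ} (hr : r.Prime) (hrp : ¬ r ∣ p) :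
    lead_Good p (CuspForm.heckeTLin 2 hr hrp) ((1 : ZMod (eisensteinNumerator p)) + r) := by
  intro γ
  obtain ⟨γ', hf, hmap⟩ := h3_periodMap_heckeT hr hrp γ
  refine ⟨γ', hf, ?_⟩
  rw [lead_sh_of_map_eq_pow p γ γ' (r + 1) hmap]
  push_cast
  ring

theorem lead_p_cast : ((p : ℕ) : ZMod (eisensteinNumerator p)) = 1 := by
  have h1 : eisensteinNumerator p ∣ p - 1 := eisensteinNumerator_dvd p
  have hp1 : 1 ≤ p := hpF.out.one_lt.le
  have h2 : ((p - 1 : ℕ) : ZMod (eisensteinNumerator p)) = 0 := (ZMod.natCast_eq_zero_iff _ _).mpr h1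
  rw [Nat.cast_sub hp1] at h2
  have := sub_eq_zero.mp h2
  simpa using this

theorem lead_good_U {q : ℕ} (hq : q.Prime) (hqp : q ∣ p) :
    lead_Good p (CuspForm.heckeULin 2 hqp) (1 : ZMod (eisensteinNumerator p)) := by
  intro γ
  obtain ⟨γ', hf, hmap⟩ := h3_periodMap_heckeU hq hqp γ
  refine ⟨γ', hf, ?_⟩
  have hqp' : q = p := (Nat.prime_dvd_prime_iff_eq hq hpF.out).mp hqp
  rw [lead_sh_of_map_eq_pow p γ γ' q hmap, hqp', lead_p_cast]

/-- uniqueness of the multiplier, from `TorsionFree`. -/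
theorem lead_good_unique (hTF : TorsionFree p) {t : Module.End ℂ (CuspForm (Gamma0 p) 2)}
    {c c' : ZMod (eisensteinNumerator p)} (h : lead_Good p t c) (h' : lead_Good p t c') : c = c' := by
  obtain ⟨γ₀, hγ₀⟩ := lead_exists_sh_one p
  obtain ⟨γ₁, hf₁, hs₁⟩ := h γ₀
  obtain ⟨γ₂, hf₂, hs₂⟩ := h' γ₀
  have hz : ∀ f : CuspForm (Gamma0 p) 2, periodMap p f (Additive.ofMul (γ₁ * γ₂⁻¹)) = 0 := by
    intro f
    rw [ofMul_mul, map_add, ofMul_inv, map_neg, ← hf₁, ← hf₂, add_neg_cancel]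
  have hsh := hTF (γ₁ * γ₂⁻¹) hz (eisensteinNumerator p) (lead_sh p)
    (fun δ hδ => lead_sh_trace p δ hδ) (fun δ hδ => lead_sh_finOrder p δ hδ)
  rw [ofMul_mul, map_add, ofMul_inv, map_neg, hs₁, hs₂, hγ₀, mul_one, mul_one] at hsh
  exact sub_eq_zero.mp (by rw [sub_eq_add_neg]; exact hsh)

theorem lead_exists_good (t : Module.End ℂ (CuspForm (Gamma0 p) 2))
    (ht : t ∈ heckeAlgebra p 2 ∅) : ∃ c, lead_Good p t c := by
  induction ht using Algebra.adjoin_induction with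
  | mem x hx =>
    rcases hx with ⟨ℓ, hℓ, hℓN, -, rfl⟩ | ⟨q, hqN, hq, -, rfl⟩
    · exact ⟨_, lead_good_T p hℓ hℓN⟩
    · exact ⟨_, lead_good_U p hq hqN⟩
  | algebraMap r => exact ⟨_, lead_good_int p r⟩
  | add x y _ _ hx hy =>
    obtain ⟨c₁, h₁⟩ := hx
    obtain ⟨c₂, h₂⟩ := hy
    exact ⟨_, lead_good_add p h₁ h₂⟩
  | mul x y _ _ hx hy =>
    obtain ⟨c₁, h₁⟩ := hx
    obtain ⟨c₂, h₂⟩ := hy
    exact ⟨_, lead_good_mul p h₁ h₂⟩

/-- the multiplier of an element of the Hecke algebra. -/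
def lead_mult (t : heckeAlgebra p 2 ∅) : ZMod (eisensteinNumerator p) :=
  (lead_exists_good p t.1 t.2).choose

theorem lead_mult_spec (t : heckeAlgebra p 2 ∅) : lead_Good p t.1 (lead_mult p t) :=
  (lead_exists_good p t.1 t.2).choose_spec

/-- **LB-core from `TorsionFree`.** -/
theorem lead_lbCore (hTF : TorsionFree p) : LBCore p := by
  refine ⟨{ toFun := lead_mult p
            map_one' := ?_
            map_mul' := ?_
            map_zero' := ?_
            map_add' := ?_ }, ?_⟩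
  · exact lead_good_unique p hTF (lead_mult_spec p 1) (lead_good_one p)
  · intro x y
    exact lead_good_unique p hTF (lead_mult_spec p (x * y))
      (lead_good_mul p (lead_mult_spec p x) (lead_mult_spec p y))
  · exact lead_good_unique p hTF (lead_mult_spec p 0) (lead_good_zero p)
  · intro x y
    exact lead_good_unique p hTF (lead_mult_spec p (x + y))
      (lead_good_add p (lead_mult_spec p x) (lead_mult_spec p y))
  · intro ℓ
    show lead_mult p (heckeFormsGen p 2 ℓ) = _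
    by_cases hℓ : (ℓ : ℕ) ∣ p
    · rw [heckeFormsGen_of_dvd hℓ, eisensteinSystem_of_dvd hℓ]
      have := lead_good_unique p hTF (lead_mult_spec p (heckeAlgebra.U ℓ.2 hℓ (Set.notMem_empty _)))
        (lead_good_U p ℓ.2 hℓ)
      rw [this]; simp
    · rw [heckeFormsGen_of_not_dvd hℓ, eisensteinSystem_of_not_dvd hℓ]
      have := lead_good_unique p hTF (lead_mult_spec p (heckeAlgebra.T ℓ.2 hℓ (Set.notMem_empty _)))
        (lead_good_T p ℓ.2 hℓ)
      rw [this]; push_cast; rfl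

end Sh

end Fermat.Agent.Lib.S16
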