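import Fermat.Agent.Lib.S16.Defs

/-!
# Project S16, blueprint 1.2: the trace-identity cases (f), (d), (e) of `NoConst` (owner: lead)

Pure power-series algebra over `ℤ`, then the bridge from `TraceId p`.
-/

set_option autoImplicit false

noncomputable section

namespace Fermat.Agent.Lib.S16

open PowerSeries

/-- The abstract trace data: `A` (coefficients of `G`), `A'` (coefficients of `U_p G`). -/
structure LeadTD (p : ℕ) (A A' : PowerSeries ℤ) : Prop where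
  up : ∀ j, coeff j A' = coeff (p * j) A
  up' : ∀ j, coeff j A = coeff (p * j) A'
  id1 : ∀ n, 1 ≤ n → (p : ℤ) * coeff n (A ^ 2) + coeff (p * n) (A' ^ 2)
      = ((p : ℤ) + 1) * (coeff 0 A) ^ 2 * (240 * (sigmaThree n : ℤ))
  id2 : ∀ n, 1 ≤ n → (p : ℤ) * coeff n (A' ^ 2) + coeff (p * n) (A ^ 2)
      = ((p : ℤ) + 1) * (coeff 0 A) ^ 2 * (240 * (sigmaThree n : ℤ))

theorem LeadTD.coeff_zero {p : ℕ} {A A' : PowerSeries ℤ} (h : LeadTD p A A') :
    coeff 0 A' = coeff 0 A := by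
  have := h.up 0
  simpa using this

theorem LeadTD.symm {p : ℕ} {A A' : PowerSeries ℤ} (h : LeadTD p A A') : LeadTD p A' A where
  up := h.up'
  up' := h.up
  id1 := by intro n hn; rw [h.coeff_zero]; exact h.id2 n hn
  id2 := by intro n hn; rw [h.coeff_zero]; exact h.id1 n hn

/-- Decomposition `A = a₀ + L·B` with `B` without constant term. -/
theorem lead_decomp (A : PowerSeries ℤ) (L : ℤ) (hL : ∀ j, 1 ≤ j → L ∣ coeff j A) :
    ∃ B : PowerSeries ℤ, coeff 0 B = 0 ∧ A = C (coeff 0 A) + C L * B ∧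
      ∀ j, 1 ≤ j → coeff j A = L * coeff j B := by
  classical
  choose! b hb using hL
  refine ⟨PowerSeries.mk fun j => if j = 0 then 0 else b j, by simp, ?_, ?_⟩
  · ext j
    rcases Nat.eq_zero_or_pos j with rfl | hj
    · simp
    · have hj0 : j ≠ 0 := by omega
      rw [map_add, coeff_C_mul, coeff_mk, if_neg hj0, coeff_C, if_neg hj0, zero_add]
      exact hb j hj
  · intro j hj
    have hj0 : j ≠ 0 := by omega
    rw [coeff_mk, if_neg hj0]
    exact hb j hj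

theorem lead_sq_decomp (a₀ L : ℤ) (B : PowerSeries ℤ) (n : ℕ) (hn : 1 ≤ n) :
    coeff n ((C a₀ + C L * B) ^ 2) = 2 * a₀ * L * coeff n B + L ^ 2 * coeff n (B ^ 2) := by
  have h : (C a₀ + C L * B) ^ 2 = C (a₀ ^ 2) + C (2 * a₀ * L) * B + C (L ^ 2) * B ^ 2 := by
    simp only [map_mul, map_pow, map_ofNat]
    ring
  have hn0 : n ≠ 0 := by omega
  rw [h, map_add, map_add, coeff_C_mul, coeff_C_mul, coeff_C, if_neg hn0, zero_add]

/-- Frobenius mod 2 on coefficients of a square. -/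
theorem lead_sq_mod_two (B : PowerSeries ℤ) (n : ℕ) :
    ((coeff n (B ^ 2) : ℤ) : ZMod 2) = if 2 ∣ n then ((coeff (n / 2) B : ℤ) : ZMod 2) else 0 := by
  classical
  rw [pow_two, coeff_mul]
  push_cast
  by_cases h2 : 2 ∣ n
  · rw [if_pos h2]
    obtain ⟨m, rfl⟩ := h2
    have hm : 2 * m / 2 = m := by omega
    rw [hm]
    have hmem : (m, m) ∈ Finset.HasAntidiagonal.antidiagonal (2 * m) := by
      rw [Finset.HasAntidiagonal.mem_antidiagonal]; ring
    rw [← Finset.add_sum_erase _ _ hmem]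
    have hrest : ∑ x ∈ (Finset.HasAntidiagonal.antidiagonal (2 * m)).erase (m, m),
        ((coeff x.1 B : ℤ) : ZMod 2) * ((coeff x.2 B : ℤ) : ZMod 2) = 0 := by
      refine Finset.sum_involution (fun x _ => (x.2, x.1)) ?_ ?_ ?_ ?_
      · intro x _
        rw [mul_comm (((coeff x.2 B : ℤ) : ZMod 2))]
        exact CharTwo.add_self_eq_zero _
      · intro x hx _ hfix
        rw [Finset.mem_erase, Finset.HasAntidiagonal.mem_antidiagonal] at hx
        apply hx.1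
        have h1 : x.2 = x.1 := congrArg Prod.fst hfix
        have h2 : x.1 + x.2 = 2 * m := hx.2
        ext <;> simp <;> omega
      · intro x hx
        rw [Finset.mem_erase, Finset.HasAntidiagonal.mem_antidiagonal] at hx ⊢
        refine ⟨?_, by simpa [add_comm] using hx.2⟩
        intro hfix
        apply hx.1
        have h1 : x.2 = m := congrArg Prod.fst hfix
        have h2 : x.1 = m := congrArg Prod.snd hfix
        ext <;> simp [h1, h2]
      · intro x _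
        rfl
    rw [hrest, add_zero]
    have : ∀ y : ZMod 2, y * y = y := by decide
    exact this _
  · rw [if_neg h2]
    refine Finset.sum_involution (fun x _ => (x.2, x.1)) ?_ ?_ ?_ ?_
    · intro x _
      rw [mul_comm (((coeff x.2 B : ℤ) : ZMod 2))]
      exact CharTwo.add_self_eq_zero _
    · intro x hx _ hfix
      rw [Finset.HasAntidiagonal.mem_antidiagonal] at hx
      have h1 : x.2 = x.1 := congrArg Prod.fst hfix
      exact h2 ⟨x.1, by omega⟩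
    · intro x hx
      rw [Finset.HasAntidiagonal.mem_antidiagonal] at hx ⊢
      simpa [add_comm] using hx
    · intro x _
      rfl

theorem lead_sigmaThree_one : sigmaThree 1 = 1 := by
  simp [sigmaThree]

theorem lead_sigmaThree_prime {p : ℕ} (hp : p.Prime) : sigmaThree p = 1 + p ^ 3 := by
  unfold sigmaThree
  rw [Nat.Prime.sum_divisors hp]
  ring

/-- **Case (f)**: `ℓ = p ≥ 7`. -/
theorem lead_case_f {p : ℕ} (hp : p.Prime) (hp7 : 7 ≤ p) {A A' : PowerSeries ℤ}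
    (h : LeadTD p A A') (h0 : ¬ (p : ℤ) ∣ coeff 0 A) (hj : ∀ j, 1 ≤ j → (p : ℤ) ∣ coeff j A) :
    False := by
  have hj' : ∀ j, 1 ≤ j → (p : ℤ) ∣ coeff j A' := by
    intro j hj1
    rw [h.up j]
    exact hj _ (Nat.mul_pos hp.pos hj1)
  obtain ⟨B', hB'0, hA', -⟩ := lead_decomp A' p hj'
  have h1 := h.id1 1 le_rfl
  rw [lead_sigmaThree_one] at h1
  have hc : coeff (p * 1) (A' ^ 2) = 2 * coeff 0 A' * p * coeff (p * 1) B'
      + (p : ℤ) ^ 2 * coeff (p * 1) (B' ^ 2) := by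
    conv_lhs => rw [hA']
    exact lead_sq_decomp _ _ _ _ (by have := hp.pos; omega)
  rw [hc] at h1
  have hdvd : (p : ℤ) ∣ ((p : ℤ) + 1) * (coeff 0 A) ^ 2 * 240 := by
    refine ⟨coeff 1 (A ^ 2) + 2 * coeff 0 A' * coeff (p * 1) B' + p * coeff (p * 1) (B' ^ 2), ?_⟩
    push_cast at h1 ⊢
    linarith
  have hpp : Prime (p : ℤ) := Nat.prime_iff_prime_int.mp hp
  rcases hpp.dvd_mul.mp hdvd with h2 | h2
  · rcases hpp.dvd_mul.mp h2 with h3 | h3
    · have : (p : ℤ) ∣ 1 := by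
        have := dvd_sub h3 (dvd_refl (p : ℤ))
        simpa using this
      have := Int.eq_one_of_dvd_one (by positivity) this
      have : p = 1 := by exact_mod_cast this
      exact hp.one_lt.ne' this
    · exact h0 (hpp.dvd_of_dvd_pow h3)
  · have h240 : p ∣ 240 := by exact_mod_cast h2
    have e : (240 : ℕ) = 2 ^ 4 * 3 * 5 := by norm_num
    rw [e] at h240
    rcases (Nat.Prime.dvd_mul hp).mp h240 with h3 | h3
    · rcases (Nat.Prime.dvd_mul hp).mp h3 with h4 | h4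
      · have := Nat.le_of_dvd (by norm_num) (hp.dvd_of_dvd_pow h4)
        omega
      · have := Nat.le_of_dvd (by norm_num) h4
        omega
    · have := Nat.le_of_dvd (by norm_num) h3
      omega

/-- coefficient of `A'` at `p n` in the decompositions. -/
theorem lead_b_transfer {p : ℕ} {A A' B B' : PowerSeries ℤ} (h : LeadTD p A A') (L : ℤ) (hL : L ≠ 0)
    (hB : ∀ j, 1 ≤ j → coeff j A = L * coeff j B) (hB' : ∀ j, 1 ≤ j → coeff j A' = L * coeff j B')
    (hp : 0 < p) (n : ℕ) (hn : 1 ≤ n) : coeff (p * n) B' = coeff n B := by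
  have h1 := h.up' n
  rw [hB n hn, hB' (p * n) (Nat.mul_pos hp hn)] at h1
  exact (mul_left_cancel₀ hL h1).symm

/-- The basic expansion of `id1` in terms of `B, B'`. -/
theorem lead_id1_expand {p : ℕ} {A A' B B' : PowerSeries ℤ} (h : LeadTD p A A') (L : ℤ) (hL : L ≠ 0)
    (hA : A = C (coeff 0 A) + C L * B) (hA' : A' = C (coeff 0 A') + C L * B')
    (hB : ∀ j, 1 ≤ j → coeff j A = L * coeff j B) (hB' : ∀ j, 1 ≤ j → coeff j A' = L * coeff j B')
    (hp : 0 < p) (n : ℕ) (hn : 1 ≤ n) :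
    2 * coeff 0 A * L * ((p : ℤ) + 1) * coeff n B
      + L ^ 2 * ((p : ℤ) * coeff n (B ^ 2) + coeff (p * n) (B' ^ 2))
      = ((p : ℤ) + 1) * (coeff 0 A) ^ 2 * (240 * (sigmaThree n : ℤ)) := by
  have h1 := h.id1 n hn
  have e1 : coeff n (A ^ 2) = 2 * coeff 0 A * L * coeff n B + L ^ 2 * coeff n (B ^ 2) := by
    conv_lhs => rw [hA]
    exact lead_sq_decomp _ _ _ _ hn
  have e2 : coeff (p * n) (A' ^ 2) = 2 * coeff 0 A' * L * coeff (p * n) B'
      + L ^ 2 * coeff (p * n) (B' ^ 2) := by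
    conv_lhs => rw [hA']
    exact lead_sq_decomp _ _ _ _ (Nat.mul_pos hp hn)
  rw [e1, e2, h.coeff_zero, lead_b_transfer h L hL hB hB' hp n hn] at h1
  linarith

theorem lead_dvd_up {p : ℕ} {A A' : PowerSeries ℤ} (h : LeadTD p A A') (hp : 0 < p) (L : ℤ)
    (hj : ∀ j, 1 ≤ j → L ∣ coeff j A) : ∀ j, 1 ≤ j → L ∣ coeff j A' := by
  intro j hj1
  rw [h.up j]
  exact hj _ (Nat.mul_pos hp hj1)

/-- mod 3 step. -/
theorem lead_mod3 {p : ℕ} (hp : 0 < p) (hp3 : p % 3 = 1) {A A' : PowerSeries ℤ} (h : LeadTD p A A')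
    (h0 : ¬ (3 : ℤ) ∣ coeff 0 A) (hj : ∀ j, 1 ≤ j → (3 : ℤ) ∣ coeff j A) (n : ℕ) (hn : 1 ≤ n) :
    ∃ b : ℤ, coeff n A = 3 * b ∧ (b : ZMod 3) = ((coeff 0 A : ℤ) : ZMod 3) * (sigmaThree n : ZMod 3) := by
  obtain ⟨B, -, hA, hB⟩ := lead_decomp A 3 hj
  obtain ⟨B', -, hA', hB'⟩ := lead_decomp A' 3 (lead_dvd_up h hp 3 hj)
  refine ⟨coeff n B, hB n hn, ?_⟩
  have hx := lead_id1_expand h 3 (by norm_num) hA hA' hB hB' hp n hn
  have hx' : 2 * coeff 0 A * ((p : ℤ) + 1) * coeff n B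
      + 3 * ((p : ℤ) * coeff n (B ^ 2) + coeff (p * n) (B' ^ 2))
      = ((p : ℤ) + 1) * (coeff 0 A) ^ 2 * (80 * (sigmaThree n : ℤ)) := by linarith
  have hc := congrArg (Int.cast : ℤ → ZMod 3) hx'
  push_cast at hc
  have hp1 : (p : ZMod 3) = 1 := by
    have : (p : ZMod 3) = ((p % 3 : ℕ) : ZMod 3) := (ZMod.natCast_mod p 3).symm
    rw [this, hp3]; rfl
  have h3 : (3 : ZMod 3) = 0 := by decide
  rw [hp1, h3, zero_mul, add_zero] at hc
  have h0' : ((coeff 0 A : ℤ) : ZMod 3) ≠ 0 := by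
    intro hz
    exact h0 ((ZMod.intCast_zmod_eq_zero_iff_dvd _ 3).mp hz)
  have key : ∀ x y s : ZMod 3, x ≠ 0 → 2 * x * (1 + 1) * y = (1 + 1) * x ^ 2 * (80 * s) → y = x * s := by
    decide
  exact key _ _ _ h0' hc

/-- **Case (d)**: `ℓ = 3`, `p ≡ 1 mod 3`. -/
theorem lead_case_d {p : ℕ} (hp : p.Prime) (hp3 : p % 3 = 1) {A A' : PowerSeries ℤ}
    (h : LeadTD p A A') (h0 : ¬ (3 : ℤ) ∣ coeff 0 A) (hj : ∀ j, 1 ≤ j → (3 : ℤ) ∣ coeff j A) :
    False := by
  have hj' := lead_dvd_up h hp.pos 3 hj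
  have h0' : ¬ (3 : ℤ) ∣ coeff 0 A' := by rw [h.coeff_zero]; exact h0
  obtain ⟨b, hb, hbm⟩ := lead_mod3 hp.pos hp3 h h0 hj p hp.one_lt.le
  obtain ⟨b', hb', hbm'⟩ := lead_mod3 hp.pos hp3 h.symm h0' hj' 1 le_rfl
  have e : b' = b := by
    have := h.up 1
    rw [mul_one, hb, hb'] at this
    linarith
  rw [e, h.coeff_zero, lead_sigmaThree_one] at hbm'
  rw [lead_sigmaThree_prime hp] at hbm
  have hp1 : (p : ZMod 3) = 1 := by
    have : (p : ZMod 3) = ((p % 3 : ℕ) : ZMod 3) := (ZMod.natCast_mod p 3).symm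
    rw [this, hp3]; rfl
  push_cast at hbm hbm'
  rw [hp1] at hbm
  have h0'' : ((coeff 0 A : ℤ) : ZMod 3) ≠ 0 := by
    intro hz
    exact h0 ((ZMod.intCast_zmod_eq_zero_iff_dvd _ 3).mp hz)
  have key : ∀ x y : ZMod 3, x ≠ 0 → y = x * (1 + 1 ^ 3) → y = x * 1 → False := by decide
  exact key _ _ h0'' hbm hbm'

/-- mod 2, step 1: `4 ∣ a_j ⇒ 8 ∣ a_j`. -/
theorem lead_mod2_step1 {p : ℕ} (hp : 0 < p) (hp4 : p % 4 = 1) {A A' : PowerSeries ℤ}
    (h : LeadTD p A A') (h0 : ¬ (2 : ℤ) ∣ coeff 0 A) (hj : ∀ j, 1 ≤ j → (4 : ℤ) ∣ coeff j A)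
    (n : ℕ) (hn : 1 ≤ n) : (8 : ℤ) ∣ coeff n A := by
  obtain ⟨B, -, hA, hB⟩ := lead_decomp A 4 hj
  obtain ⟨B', -, hA', hB'⟩ := lead_decomp A' 4 (lead_dvd_up h hp 4 hj)
  have hx := lead_id1_expand h 4 (by norm_num) hA hA' hB hB' hp n hn
  obtain ⟨t, ht⟩ : ∃ t : ℕ, p = 4 * t + 1 := ⟨p / 4, by omega⟩
  have hx' : coeff 0 A * (2 * (t : ℤ) + 1) * coeff n B
      + ((p : ℤ) * coeff n (B ^ 2) + coeff (p * n) (B' ^ 2))
      = 30 * (2 * (t : ℤ) + 1) * (coeff 0 A) ^ 2 * (sigmaThree n : ℤ) := by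
    have hpz : (p : ℤ) = 4 * t + 1 := by exact_mod_cast ht
    rw [hpz] at hx ⊢
    linarith
  have hc := congrArg (Int.cast : ℤ → ZMod 2) hx'
  push_cast at hc
  rw [lead_sq_mod_two, lead_sq_mod_two] at hc
  have hp1 : (p : ZMod 2) = 1 := by
    have : (p : ZMod 2) = ((p % 2 : ℕ) : ZMod 2) := (ZMod.natCast_mod p 2).symm
    rw [this, show p % 2 = 1 by omega]; rfl
  have ha1 : ((coeff 0 A : ℤ) : ZMod 2) = 1 := by
    have hne : ((coeff 0 A : ℤ) : ZMod 2) ≠ 0 := by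
      intro hz
      exact h0 ((ZMod.intCast_zmod_eq_zero_iff_dvd _ 2).mp hz)
    have : ∀ x : ZMod 2, x ≠ 0 → x = 1 := by decide
    exact this _ hne
  have h2 : (2 : ZMod 2) = 0 := by decide
  have h30 : (30 : ZMod 2) = 0 := by decide
  rw [hp1, ha1, h2, h30] at hc
  have hbn : ((coeff n B : ℤ) : ZMod 2) = 0 := by
    by_cases hev : 2 ∣ n
    · have hev' : 2 ∣ p * n := Dvd.dvd.mul_left hev p
      rw [if_pos hev, if_pos hev'] at hc
      obtain ⟨m, rfl⟩ := hev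
      have hm : 1 ≤ m := by omega
      have e1 : 2 * m / 2 = m := by omega
      have e2 : p * (2 * m) / 2 = p * m := by
        rw [show p * (2 * m) = 2 * (p * m) by ring]; omega
      rw [e1, e2, lead_b_transfer h 4 (by norm_num) hB hB' hp m hm] at hc
      have hyy : ∀ y : ZMod 2, y + y = 0 := by decide
      simpa [hyy] using hc
    · have hev' : ¬ 2 ∣ p * n := by
        intro hd
        rcases (Nat.Prime.dvd_mul Nat.prime_two).mp hd with h1 | h1
        · omega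
        · exact hev h1
      rw [if_neg hev, if_neg hev'] at hc
      simpa using hc
  have h2b : (2 : ℤ) ∣ coeff n B := (ZMod.intCast_zmod_eq_zero_iff_dvd _ 2).mp hbn
  obtain ⟨c, hc'⟩ := h2b
  rw [hB n hn, hc']
  exact ⟨c, by ring⟩

/-- mod 2, step 2: `8 ∣ a_j ⇒ a_n/8 ≡ σ₃(n)`. -/
theorem lead_mod2_step2 {p : ℕ} (hp : 0 < p) (hp4 : p % 4 = 1) {A A' : PowerSeries ℤ}
    (h : LeadTD p A A') (h0 : ¬ (2 : ℤ) ∣ coeff 0 A) (hj : ∀ j, 1 ≤ j → (8 : ℤ) ∣ coeff j A)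
    (n : ℕ) (hn : 1 ≤ n) :
    ∃ c : ℤ, coeff n A = 8 * c ∧ (c : ZMod 2) = (sigmaThree n : ZMod 2) := by
  obtain ⟨B, -, hA, hB⟩ := lead_decomp A 8 hj
  obtain ⟨B', -, hA', hB'⟩ := lead_decomp A' 8 (lead_dvd_up h hp 8 hj)
  refine ⟨coeff n B, hB n hn, ?_⟩
  have hx := lead_id1_expand h 8 (by norm_num) hA hA' hB hB' hp n hn
  obtain ⟨t, ht⟩ : ∃ t : ℕ, p = 4 * t + 1 := ⟨p / 4, by omega⟩
  have hx' : coeff 0 A * (2 * (t : ℤ) + 1) * coeff n B
      + 2 * ((p : ℤ) * coeff n (B ^ 2) + coeff (p * n) (B' ^ 2))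
      = 15 * (2 * (t : ℤ) + 1) * (coeff 0 A) ^ 2 * (sigmaThree n : ℤ) := by
    have hpz : (p : ℤ) = 4 * t + 1 := by exact_mod_cast ht
    rw [hpz] at hx ⊢
    linarith
  have hc := congrArg (Int.cast : ℤ → ZMod 2) hx'
  push_cast at hc
  have ha1 : ((coeff 0 A : ℤ) : ZMod 2) = 1 := by
    have hne : ((coeff 0 A : ℤ) : ZMod 2) ≠ 0 := by
      intro hz
      exact h0 ((ZMod.intCast_zmod_eq_zero_iff_dvd _ 2).mp hz)
    have : ∀ x : ZMod 2, x ≠ 0 → x = 1 := by decide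
    exact this _ hne
  have h2 : (2 : ZMod 2) = 0 := by decide
  have h15 : (15 : ZMod 2) = 1 := by decide
  rw [ha1, h2, h15] at hc
  simpa using hc

/-- **Case (e)**: `ℓ = 2`, `p ≡ 1 mod 4`. -/
theorem lead_case_e {p : ℕ} (hp : p.Prime) (hp4 : p % 4 = 1) {A A' : PowerSeries ℤ}
    (h : LeadTD p A A') (h0 : ¬ (2 : ℤ) ∣ coeff 0 A) (hj : ∀ j, 1 ≤ j → (4 : ℤ) ∣ coeff j A) :
    False := by
  have hj4' := lead_dvd_up h hp.pos 4 hj
  have h0' : ¬ (2 : ℤ) ∣ coeff 0 A' := by rw [h.coeff_zero]; exact h0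
  have hj8 : ∀ j, 1 ≤ j → (8 : ℤ) ∣ coeff j A := lead_mod2_step1 hp.pos hp4 h h0 hj
  have hj8' : ∀ j, 1 ≤ j → (8 : ℤ) ∣ coeff j A' := lead_mod2_step1 hp.pos hp4 h.symm h0' hj4'
  obtain ⟨c, hc, hcm⟩ := lead_mod2_step2 hp.pos hp4 h h0 hj8 p hp.one_lt.le
  obtain ⟨c', hc', hcm'⟩ := lead_mod2_step2 hp.pos hp4 h.symm h0' hj8' 1 le_rfl
  have e : c' = c := by
    have := h.up 1
    rw [mul_one, hc, hc'] at this
    linarith
  rw [e, lead_sigmaThree_one] at hcm'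
  rw [lead_sigmaThree_prime hp] at hcm
  have hp1 : (p : ZMod 2) = 1 := by
    have : (p : ZMod 2) = ((p % 2 : ℕ) : ZMod 2) := (ZMod.natCast_mod p 2).symm
    rw [this, show p % 2 = 1 by omega]; rfl
  push_cast at hcm hcm'
  rw [hp1] at hcm
  have key : ∀ y : ZMod 2, y = 1 + 1 ^ 3 → y = 1 → False := by decide
  exact key _ hcm hcm'

section Bridge

open ModularCurve CuspForm UpperHalfPlane CongruenceSubgroup ModularFormClass
open scoped MatrixGroups ModularForm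

theorem lead_qExpansion_eq_map {p : ℕ} (G : ModularForm (Gamma0 p) 2) (a : ℕ → ℤ)
    (ha : ∀ j, qCoeff G j = (a j : ℂ)) :
    qExpansion 1 G = (PowerSeries.mk a).map (Int.castRingHom ℂ) := by
  ext j
  rw [PowerSeries.coeff_map, PowerSeries.coeff_mk]
  exact ha j

theorem lead_TD_of_traceId {p : ℕ} (hT : TraceId p) (G : ModularForm (Gamma0 p) 2)
    (a : ℕ → ℤ) (ha : ∀ j, qCoeff G j = (a j : ℂ)) :
    LeadTD p (PowerSeries.mk a) (PowerSeries.mk fun j => a (p * j)) := by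
  obtain ⟨G', h1, h2, h3, -⟩ := hT G
  obtain ⟨G'', h1', -, h3', -⟩ := hT G'
  have ha' : ∀ j, qCoeff G' j = ((a (p * j) : ℤ) : ℂ) := fun j => by rw [h1 j, ha]
  have ha'' : ∀ j, qCoeff G'' j = (a j : ℂ) := fun j => by rw [h1' j, ← h2 j, ha]
  have eG := lead_qExpansion_eq_map G a ha
  have eG' := lead_qExpansion_eq_map G' (fun j => a (p * j)) ha'
  have eG'' := lead_qExpansion_eq_map G'' a ha''
  have hsq : ∀ (P : PowerSeries ℤ) (n : ℕ),
      (PowerSeries.coeff n) ((P.map (Int.castRingHom ℂ)) ^ 2) = ((PowerSeries.coeff n (P ^ 2) : ℤ) : ℂ) := by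
    intro P n
    rw [← map_pow, PowerSeries.coeff_map]
    rfl
  refine ⟨fun j => ?_, fun j => ?_, fun n hn => ?_, fun n hn => ?_⟩
  · rw [PowerSeries.coeff_mk, PowerSeries.coeff_mk]
  · rw [PowerSeries.coeff_mk, PowerSeries.coeff_mk]
    have := h2 j
    rw [ha, h1 (p * j), ha] at this
    exact_mod_cast this
  · have := h3 n
    rw [eG, eG', hsq, hsq, ha 0, if_neg (by omega : n ≠ 0)] at this
    rw [PowerSeries.coeff_mk]
    exact_mod_cast this
  · have := h3' n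
    rw [eG', eG'', hsq, hsq, ha' 0, if_neg (by omega : n ≠ 0), mul_zero] at this
    rw [PowerSeries.coeff_mk]
    exact_mod_cast this

theorem lead_noConst_f {p : ℕ} (hp : p.Prime) (hp7 : 7 ≤ p) (hT : TraceId p) : NoConst p p 1 := by
  rintro ⟨G, a, ha, h0, hj⟩
  have hTD := lead_TD_of_traceId hT G a ha
  refine lead_case_f hp hp7 hTD ?_ ?_
  · simpa using h0
  · intro j hj1
    have := hj j hj1
    simpa using this

theorem lead_noConst_d {p : ℕ} (hp : p.Prime) (hp3 : p % 3 = 1) (hT : TraceId p) :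
    NoConst p 3 1 := by
  rintro ⟨G, a, ha, h0, hj⟩
  have hTD := lead_TD_of_traceId hT G a ha
  refine lead_case_d hp hp3 hTD ?_ ?_
  · simpa using h0
  · intro j hj1
    have := hj j hj1
    simpa using this

theorem lead_noConst_e {p : ℕ} (hp : p.Prime) (hp4 : p % 4 = 1) (hT : TraceId p) :
    NoConst p 2 2 := by
  rintro ⟨G, a, ha, h0, hj⟩
  have hTD := lead_TD_of_traceId hT G a ha
  refine lead_case_e hp hp4 hTD ?_ ?_
  · simpa using h0
  · intro j hj1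
    have := hj j hj1
    simpa using this

end Bridge

end Fermat.Agent.Lib.S16
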