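import Fermat.Agent.Lib.S16.Assembly
import Fermat.Agent.Lib.S16.LeadLB
import Fermat.Agent.Lib.S16.H3TorsionFree
import Fermat.Agent.Lib.S16.H9Duality
import Fermat.Agent.Lib.S16.H9UBCore
import Fermat.Agent.Lib.S16.LeadTraceCases
import Fermat.Agent.Lib.S16.H1TraceContract
import Fermat.Agent.Lib.S16.H5EisLevel
import Fermat.Agent.S20
import Fermat.Agent.S22
import Fermat.Agent.S23

/-!
# Project S16: final wiring, second version (owner: helper3)

`S16` from the norm-mechanism cases (a), (b), (c) alone.
-/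

set_option autoImplicit false
open ModularCurve CuspForm CongruenceSubgroup

namespace Fermat.Agent.Lib.S16

theorem h3_psi_prime {p : ℕ} (hp : p.Prime) : dedekindPsi p = p + 1 := by
  unfold dedekindPsi
  rw [Nat.Prime.divisors hp, Finset.filter_true_of_mem, Finset.sum_pair hp.one_lt.ne,
    Nat.div_one, Nat.div_self hp.pos]
  intro d hd
  rcases Finset.mem_insert.mp hd with rfl | hd
  · exact squarefree_one
  · rw [Finset.mem_singleton.mp hd]; exact hp.squarefree

theorem h3_genus_two : genusFormula 2 = 0 := by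
  have cc : cuspCount 2 = 2 := by decide
  have n2 : nuTwo 2 = 1 := by
    unfold nuTwo; rw [Nat.card_eq_fintype_card, Fintype.card_subtype]; decide
  have n3 : nuThree 2 = 0 := by
    unfold nuThree; rw [Nat.card_eq_fintype_card, Fintype.card_subtype]; decide
  unfold genusFormula; rw [h3_psi_prime Nat.prime_two, cc, n2, n3]; norm_num

theorem h3_genus_three : genusFormula 3 = 0 := by
  have cc : cuspCount 3 = 2 := by decide
  have n2 : nuTwo 3 = 0 := by
    unfold nuTwo; rw [Nat.card_eq_fintype_card, Fintype.card_subtype]; decide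
  have n3 : nuThree 3 = 1 := by
    unfold nuThree; rw [Nat.card_eq_fintype_card, Fintype.card_subtype]; decide
  unfold genusFormula; rw [h3_psi_prime Nat.prime_three, cc, n2, n3]; norm_num

theorem h3_genus_five : genusFormula 5 = 0 := by
  have cc : cuspCount 5 = 2 := by decide
  have n2 : nuTwo 5 = 2 := by
    unfold nuTwo; rw [Nat.card_eq_fintype_card, Fintype.card_subtype]; decide
  have n3 : nuThree 5 = 0 := by
    unfold nuThree; rw [Nat.card_eq_fintype_card, Fintype.card_subtype]; decide
  unfold genusFormula; rw [h3_psi_prime Nat.prime_five, cc, n2, n3]; norm_num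

/-- `S₂(Γ₀(p)) = 0` for `p < 7` prime (from S20). -/
theorem h3_small (p : ℕ) (hp : p.Prime) (h7 : p < 7) (f : CuspForm (Gamma0 p) 2) : f = 0 := by
  have : NeZero p := ⟨hp.ne_zero⟩
  have hfin : FiniteDimensional ℂ (CuspForm (Gamma0 p) 2) :=
    (Fermat.Agent.Lib.S21.h8_dimStatement p).1
  have hdim := Fermat.Agent.S20.result p
  have hg : genusFormula p = 0 := by
    have hp2 : 2 ≤ p := hp.two_le
    interval_cases p
    · exact h3_genus_two
    · exact h3_genus_three
    · exact absurd hp (by norm_num)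
    · exact h3_genus_five
    · exact absurd hp (by norm_num)
  rw [hg] at hdim
  have h0 : Module.finrank ℂ (CuspForm (Gamma0 p) 2) = 0 := by exact_mod_cast hdim
  have := Module.finrank_zero_iff.mp h0
  exact Subsingleton.elim _ _

/-- **S16 from the three norm-mechanism cases.** -/
theorem h3_s16_of_abc (p : ℕ) [Fact p.Prime]
    (ha : 7 ≤ p → ∀ ℓ : ℕ, ℓ.Prime → 5 ≤ ℓ → ℓ ≠ p → NoConst p ℓ 1)
    (hb : 7 ≤ p → p % 3 = 2 → NoConst p 3 2)
    (hc : 7 ≤ p → p % 4 = 3 → NoConst p 2 3) :
    Nat.card (↥(heckeLatticeAlgebra p ∅) ⧸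
        Ideal.map ((latticeRestrictHom p ∅).toRingHom.comp (heckeEvalForms p 2))
          (eisensteinIdeal p)) =
      eisensteinNumerator p := by
  have hp : p.Prime := Fact.out
  have hT : TraceId p := h1t_traceId_contract hp
  have hUB : UBCore p := by
    refine h9u_ubCore p hp (h5e_eisLevel p hp) (fun h7 f => h3_small p hp h7 f) ?_
    intro h7
    refine ⟨?_, fun h => lead_noConst_d hp h hT, hb h7, fun h => lead_noConst_e hp h hT, hc h7⟩
    intro ℓ hℓ h5
    by_cases hℓp : ℓ = p
    · subst hℓp
      exact lead_noConst_f hp h7 hT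
    · exact ha h7 ℓ hℓ h5 hℓp
  exact lead_s16_of_cores p hp.two_le (Fermat.Agent.S23.result p) hUB
    (lead_lbCore p (h3_torsionFree p))
    (h9d6_duality p hp (Fermat.Agent.S22.result p 2 ∅) (Fermat.Agent.S23.result p))

end Fermat.Agent.Lib.S16
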