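import Mathlib
import Fermat.Agent.Lib.S16.Defs

/-!
# Project S16: raising the level `Γ₀(A) ⊇ Γ₀(B)` for `A ∣ B` (helper5)
-/

set_option autoImplicit false

open UpperHalfPlane ModularForm Matrix.SpecialLinearGroup CongruenceSubgroup
open scoped MatrixGroups ModularForm Manifold

noncomputable section

namespace Fermat.Agent.Lib.S16

lemma h5l_Gamma0_le {A B : ℕ} (h : A ∣ B) : Gamma0 B ≤ Gamma0 A := by
  intro g hg
  rw [Gamma0_mem] at hg ⊢
  have h1 : (B : ℤ) ∣ g 1 0 := (ZMod.intCast_zmod_eq_zero_iff_dvd _ _).1 hg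
  exact (ZMod.intCast_zmod_eq_zero_iff_dvd _ _).2 ((Int.natCast_dvd_natCast.2 h).trans h1)

lemma h5l_map_Gamma0_le {A B : ℕ} (h : A ∣ B) :
    ((Gamma0 B : Subgroup SL(2,ℤ)) : Subgroup (GL (Fin 2) ℝ)) ≤
      ((Gamma0 A : Subgroup SL(2,ℤ)) : Subgroup (GL (Fin 2) ℝ)) :=
  Subgroup.map_mono (h5l_Gamma0_le h)

/-- A modular form of level `Γ₀(A)` is a modular form of level `Γ₀(B)` for `A ∣ B`. -/
def h5l_raise {A B : ℕ} (h : A ∣ B) {k : ℤ} (F : ModularForm (Gamma0 A) k) :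
    ModularForm (Gamma0 B) k where
  toFun := F
  slash_action_eq' := fun γ hγ => F.slash_action_eq' γ (h5l_map_Gamma0_le h hγ)
  holo' := F.holo'
  bdd_at_cusps' := fun hc => F.bdd_at_cusps' (hc.mono (h5l_map_Gamma0_le h))

@[simp] lemma h5l_coe_raise {A B : ℕ} (h : A ∣ B) {k : ℤ} (F : ModularForm (Gamma0 A) k) :
    (h5l_raise h F : ℍ → ℂ) = F := rfl

lemma h5l_raise_apply {A B : ℕ} (h : A ∣ B) {k : ℤ} (F : ModularForm (Gamma0 A) k) (z : ℍ) :
    h5l_raise h F z = F z := rfl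

end Fermat.Agent.Lib.S16
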