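import Mathlib
import Fermat.Agent.Lib.S16.Defs
import Fermat.Agent.Lib.S16.H5EisLevel
import Fermat.Agent.Lib.S16.H5Expand
import Fermat.Agent.Lib.S16.H7Ring

/-!
# Project S16, cases (a),(b),(c): the `Y`-side (helper5)

`Y = κ·E_M` (`κ = 24/(M−1)`, `M` prime): for every `γ ∈ SL₂(ℤ)` an explicit `𝕢_{M e}`-expansion of
`Y∣γ` with coefficients in `h7g_R (M*e)`.
-/

set_option autoImplicit false

open UpperHalfPlane ModularForm EisensteinSeries Matrix.SpecialLinearGroup CongruenceSubgroup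
  ModularFormClass
open scoped MatrixGroups ModularForm Manifold

noncomputable section

namespace Fermat.Agent.Lib.S16

/-- The `q`-coefficients of `Y = κ·E_M` when `κ·(M−1) = 24`. -/
def h5y_y (κ M i : ℕ) : ℂ := if i = 0 then 1 else (κ : ℂ) * (sigmaPrime M i : ℂ)

/-- `Y = κ·E_M` as a function. -/
def h5y_fun (κ M : ℕ) : ℍ → ℂ := (κ : ℂ) • h5e_eisFun M

/-- `Y = κ·E_M` as a modular form of level `Γ₀(M)`. -/
def h5y_form (κ M : ℕ) (hM : M.Prime) : ModularForm (Gamma0 M) 2 := (κ : ℂ) • h5e_eis M hM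

lemma h5y_coe_form (κ M : ℕ) (hM : M.Prime) : (h5y_form κ M hM : ℍ → ℂ) = h5y_fun κ M := rfl

lemma h5y_y_eq (κ M : ℕ) (hM : 2 ≤ M) (hκ : κ * (M - 1) = 24) (i : ℕ) :
    h5y_y κ M i = (κ : ℂ) * h5e_coeff M i := by
  have h1 : (κ : ℂ) * ((M : ℂ) - 1) = 24 := by
    have : ((κ * (M - 1) : ℕ) : ℂ) = 24 := by rw [hκ]; norm_num
    rw [Nat.cast_mul, Nat.cast_sub (by omega)] at this
    simpa using this
  unfold h5y_y h5e_coeff
  split_ifs with h
  · rw [← mul_div_assoc, h1]; norm_num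
  · rfl

lemma h5y_hasSum (κ M : ℕ) (hM : 2 ≤ M) (hκ : κ * (M - 1) = 24) (τ : ℍ) :
    HasSum (fun m : ℕ => h5y_y κ M m • Function.Periodic.qParam 1 τ ^ m) (h5y_fun κ M τ) := by
  have h := (h5e_hasSum_eisFun M (by omega) τ).mul_left (κ : ℂ)
  simp only [h5y_fun, Pi.smul_apply, smul_eq_mul]
  have hfun : (fun m : ℕ => h5y_y κ M m * Function.Periodic.qParam 1 τ ^ m)
      = fun i : ℕ => (κ : ℂ) * h5e_coeff M i • Function.Periodic.qParam 1 τ ^ i := by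
    funext m
    rw [h5y_y_eq κ M hM hκ, smul_eq_mul, mul_assoc]
  rw [hfun]
  exact h

lemma h5y_y_mem (κ M h : ℕ) (i : ℕ) : h5y_y κ M i ∈ h7g_R h := by
  unfold h5y_y
  split_ifs
  · exact one_mem _
  · have : ((κ : ℂ) * (sigmaPrime M i : ℂ)) = ((κ * sigmaPrime M i : ℕ) : ℤ) := by push_cast; ring
    rw [this]
    exact h7g_intCast_mem h _

lemma h5y_inv_mem (M e : ℕ) (hM : M ≠ 0) (he : e ≠ 0) : ((M : ℂ))⁻¹ ∈ h7g_R (M * e) := by
  have h1 := h7g_inv_mem (M * e) (Nat.mul_ne_zero hM he)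
  have h2 : ((M : ℂ))⁻¹ = ((e : ℤ) : ℂ) * (((M * e : ℕ) : ℂ))⁻¹ := by
    have hMC : (M : ℂ) ≠ 0 := by exact_mod_cast hM
    have heC : (e : ℂ) ≠ 0 := by exact_mod_cast he
    push_cast
    field_simp
  rw [h2]
  exact (h7g_R (M * e)).mul_mem (h7g_intCast_mem _ _) h1

lemma h5y_zeta_mem (M h : ℕ) (hM : M ≠ 0) (k : ℕ) : h5x_zeta M ^ k ∈ h7g_R h :=
  (h7g_R h).pow_mem (h7g_exp_mem h M hM) k

/-- **The `Y`-side of cases (a),(b),(c)**: the `𝕢_{M e}`-expansion of `Y∣γ` for every `γ`. -/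
theorem h5y_expansion (κ M e : ℕ) (hM : M.Prime) (hκ : κ * (M - 1) = 24) (he : e ≠ 0)
    (γ : SL(2,ℤ)) :
    ∃ c : ℕ → ℂ,
      (∀ τ : ℍ, HasSum (fun m : ℕ => c m • Function.Periodic.qParam ((M * e : ℕ) : ℝ) τ ^ m)
        ((h5y_fun κ M ∣[(2:ℤ)] γ) τ)) ∧
      (∀ m, c m ∈ h7g_R (M * e)) ∧
      ((γ ∈ Gamma0 M ∧ ∀ m, c m = if (M * e) ∣ m then h5y_y κ M (m / (M * e)) else 0) ∨
       (γ ∉ Gamma0 M ∧ ∃ j < M, ∀ m, c m =
          if e ∣ m then -(M : ℂ)⁻¹ * h5y_y κ M (m / e) * h5x_zeta M ^ (j * (m / e)) else 0)) := by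
  have hM0 : M ≠ 0 := hM.ne_zero
  have hM2 : 2 ≤ M := hM.two_le
  by_cases hγ : γ ∈ Gamma0 M
  · refine ⟨fun m => if (M * e) ∣ m then h5y_y κ M (m / (M * e)) else 0, ?_, ?_, Or.inl ⟨hγ, fun _ => rfl⟩⟩
    · intro τ
      have hinv : h5y_fun κ M ∣[(2:ℤ)] γ = h5y_fun κ M := by
        have := (h5y_form κ M hM).slash_action_eq' (mapGL ℝ γ) (Subgroup.mem_map_of_mem _ hγ)
        rw [ModularForm.SL_slash]
        exact this
      rw [hinv]
      exact h5x_hasSum_self_scale (M * e) (Nat.mul_ne_zero hM0 he) _ _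
        (h5y_hasSum κ M hM2 hκ) τ
    · intro m
      dsimp only
      split_ifs
      · exact h5y_y_mem _ _ _ _
      · exact zero_mem _
  · obtain ⟨j, hj, hslash⟩ := h5e_eisFun_slash_not_mem M hM γ hγ
    refine ⟨fun m => if e ∣ m then -(M : ℂ)⁻¹ * h5y_y κ M (m / e) * h5x_zeta M ^ (j * (m / e)) else 0,
      ?_, ?_, Or.inr ⟨hγ, j, hj, fun _ => rfl⟩⟩
    · intro τ
      have h1 : (h5y_fun κ M ∣[(2:ℤ)] γ) τ = -(M : ℂ)⁻¹ * h5y_fun κ M (heckeMatrix M j • τ) := by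
        rw [h5y_fun, ModularForm.SL_smul_slash]
        simp only [Pi.smul_apply, smul_eq_mul, hslash τ]
        ring
      rw [h1]
      have h2 := (h5x_hasSum_heckeMatrix_scale M hM0 e he j _ _ (h5y_hasSum κ M hM2 hκ) τ).mul_left
        (-(M : ℂ)⁻¹)
      have hfun : (fun m : ℕ => (if e ∣ m then
            -(M : ℂ)⁻¹ * h5y_y κ M (m / e) * h5x_zeta M ^ (j * (m / e)) else 0) •
            Function.Periodic.qParam ((M * e : ℕ) : ℝ) τ ^ m)
          = fun i : ℕ => -(M : ℂ)⁻¹ * (if e ∣ i then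
            h5y_y κ M (i / e) * h5x_zeta M ^ (j * (i / e)) else 0) •
            Function.Periodic.qParam ((M * e : ℕ) : ℝ) τ ^ i := by
        funext m
        simp only [smul_eq_mul]
        split_ifs
        · ring
        · simp
      rw [hfun]
      exact h2
    · intro m
      dsimp only
      split_ifs
      · exact (h7g_R (M * e)).mul_mem ((h7g_R (M * e)).mul_mem
          ((h7g_R (M * e)).neg_mem (h5y_inv_mem M e hM0 he)) (h5y_y_mem _ _ _ _))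
          (h5y_zeta_mem M _ hM0 _)
      · exact zero_mem _

end Fermat.Agent.Lib.S16
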