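/-
S16 (S-iii), helper6: the Shimura homomorphism `sh : Γ₀(p) → ZMod n`, `n = (p-1)/gcd(p-1,12)`.
`sh γ` is the image of the lower right entry of `γ` modulo `p` under a fixed surjection
`(ZMod p)ˣ → ZMod n` (the unit group is cyclic of order `p - 1`).  It kills the elements of
trace `±2` (their lower right entry is `±1` mod `p`) and the elements of finite order (their
twelfth power is `1`).
-/
import Mathlib
import Fermat.Prelude.Def_ModularCurve_ModularUnit

set_option autoImplicit false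

namespace Fermat.Agent.Lib.S16

open CongruenceSubgroup Matrix
open scoped MatrixGroups

theorem h6s_one_add_pow {R : Type*} [Ring R] (N : R) (hN : N * N = 0) (k : ℕ) :
    (1 + N) ^ k = 1 + k • N := by
  induction k with
  | zero => simp
  | succ k ih =>
    rw [pow_succ, ih, mul_add, mul_one, add_mul, one_mul, smul_mul_assoc, hN, smul_zero, add_zero,
      succ_nsmul]
    abel

section FiniteOrder

variable (M : Matrix (Fin 2) (Fin 2) ℤ)

/-- Cayley–Hamilton for a `2 × 2` matrix of determinant one. -/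
theorem h6s_CH (hdet : M.det = 1) : M * M = (M.trace : ℤ) • M - 1 := by
  rw [Matrix.det_fin_two] at hdet
  ext i j
  fin_cases i <;> fin_cases j <;>
    simp [Matrix.mul_apply, Fin.sum_univ_two, Matrix.trace_fin_two, -zsmul_eq_mul] <;>
    first | ring1 | linear_combination (-1 : ℤ) * hdet

theorem h6s_pow_rec (hdet : M.det = 1) (m : ℕ) :
    M ^ (m + 2) = (M.trace : ℤ) • M ^ (m + 1) - M ^ m := by
  rw [pow_add, pow_two, h6s_CH M hdet, mul_sub, mul_one, Matrix.mul_smul, ← pow_succ]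

theorem h6s_trace_rec (hdet : M.det = 1) (m : ℕ) :
    (M ^ (m + 2)).trace = M.trace * (M ^ (m + 1)).trace - (M ^ m).trace := by
  rw [h6s_pow_rec M hdet, Matrix.trace_sub, Matrix.trace_smul, smul_eq_mul]

theorem h6s_trace_growth (hdet : M.det = 1) (ht : 3 ≤ |M.trace|) (m : ℕ) :
    |(M ^ m).trace| + 1 ≤ |(M ^ (m + 1)).trace| ∧ 2 ≤ |(M ^ m).trace| := by
  induction m with
  | zero =>
    have h0 : (M ^ 0).trace = 2 := by
      rw [pow_zero, Matrix.trace_one]; rfl
    rw [h0, zero_add, pow_one]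
    norm_num
    linarith
  | succ m ih =>
    obtain ⟨ih1, ih2⟩ := ih
    refine ⟨?_, by linarith⟩
    rw [h6s_trace_rec M hdet m]
    have h1 : |M.trace * (M ^ (m + 1)).trace| = |M.trace| * |(M ^ (m + 1)).trace| := abs_mul _ _
    have h2 := abs_sub_abs_le_abs_sub (M.trace * (M ^ (m + 1)).trace) ((M ^ m).trace)
    have h3 : 0 ≤ |(M ^ (m + 1)).trace| := abs_nonneg _
    nlinarith

theorem h6s_abs_trace_le (hdet : M.det = 1) (m : ℕ) (hm : 0 < m) (hM : M ^ m = 1) :
    |M.trace| ≤ 2 := by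
  by_contra hcon
  have ht : 3 ≤ |M.trace| := by omega
  obtain ⟨k, rfl⟩ : ∃ k, m = k + 1 := ⟨m - 1, by omega⟩
  obtain ⟨h1, h2⟩ := h6s_trace_growth M hdet ht k
  rw [hM, Matrix.trace_one] at h1
  have : ((Fintype.card (Fin 2) : ℕ) : ℤ) = 2 := rfl
  rw [this] at h1
  norm_num at h1
  linarith

theorem h6s_eq_one_of_trace_two (hdet : M.det = 1) (ht : M.trace = 2) (m : ℕ) (hm : 0 < m)
    (hM : M ^ m = 1) : M = 1 := by
  have hCH := h6s_CH M hdet
  rw [ht] at hCH
  have hN : (M - 1) * (M - 1) = 0 := by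
    rw [sub_mul, mul_sub, mul_sub, hCH]
    simp only [mul_one, one_mul]
    rw [two_smul]
    abel
  have hpow : ∀ k : ℕ, M ^ k = 1 + k • (M - 1) := by
    intro k
    have := h6s_one_add_pow (M - 1) hN k
    rwa [add_sub_cancel] at this
  have h1 := hpow m
  rw [hM] at h1
  have h2 : m • (M - 1) = 0 := by
    have := h1
    rw [left_eq_add] at this
    exact this
  have h3 : M - 1 = 0 := by
    ext i j
    have := congrFun (congrFun h2 i) j
    simp only [Matrix.smul_apply, Matrix.zero_apply, nsmul_eq_mul] at this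
    rcases mul_eq_zero.mp this with h | h
    · exfalso
      have : (m : ℤ) ≠ 0 := by exact_mod_cast hm.ne'
      exact this h
    · simpa using h
  exact sub_eq_zero.mp h3

/-- An integral `2 × 2` matrix of determinant one and finite order has order dividing `12`. -/
theorem h6s_matrix_pow_twelve (hdet : M.det = 1) (m : ℕ) (hm : 0 < m) (hM : M ^ m = 1) :
    M ^ 12 = 1 := by
  have habs := h6s_abs_trace_le M hdet m hm hM
  have hCH := h6s_CH M hdet
  have htr2 := h6s_trace_rec M hdet 0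
  obtain ⟨hlo, hhi⟩ := abs_le.mp habs
  have hsq : M.trace = 2 ∨ M.trace = -2 → M ^ 12 = 1 := by
    intro h
    have h2 : (M * M).trace = 2 := by
      have : M ^ (0 + 2) = M * M := by rw [zero_add, pow_two]
      rw [this, zero_add, pow_one, pow_zero, Matrix.trace_one] at htr2
      have h2 : ((Fintype.card (Fin 2) : ℕ) : ℤ) = 2 := rfl
      rw [htr2, h2]
      rcases h with h | h <;> rw [h] <;> norm_num
    have hdet2 : (M * M).det = 1 := by rw [Matrix.det_mul, hdet, one_mul]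
    have hM2 : (M * M) ^ m = 1 := by
      rw [← pow_two, ← pow_mul, mul_comm, pow_mul, hM, one_pow]
    have := h6s_eq_one_of_trace_two (M * M) hdet2 h2 m hm hM2
    have h12 : M ^ 12 = (M * M) ^ 6 := by rw [← pow_two, ← pow_mul]
    rw [h12, this, one_pow]
  generalize htt : M.trace = t at *
  interval_cases t
  · exact hsq (Or.inr rfl)
  · -- t = -1
    have h3 : M ^ 3 = 1 := by
      have : M ^ 3 = M * M * M := by rw [pow_succ, pow_two]
      rw [this, hCH, sub_mul, smul_mul_assoc, hCH, one_mul]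
      module
    have : M ^ 12 = (M ^ 3) ^ 4 := by rw [← pow_mul]
    rw [this, h3, one_pow]
  · -- t = 0
    have h2 : M * M = -1 := by rw [hCH, zero_smul, zero_sub]
    have : M ^ 12 = (M * M) ^ 6 := by rw [← pow_two, ← pow_mul]
    rw [this, h2]
    exact Even.neg_one_pow (by decide)
  · -- t = 1
    have h3 : M ^ 3 = -1 := by
      have : M ^ 3 = M * M * M := by rw [pow_succ, pow_two]
      rw [this, hCH, sub_mul, smul_mul_assoc, hCH, one_mul]
      module
    have : M ^ 12 = (M ^ 3) ^ 4 := by rw [← pow_mul]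
    rw [this, h3]
    exact Even.neg_one_pow (by decide)
  · exact hsq (Or.inl rfl)

end FiniteOrder

/-- A finite order element of `SL(2, ℤ)` has order dividing `12`. -/
theorem h6s_SL_pow_twelve (A : SL(2, ℤ)) (hA : IsOfFinOrder A) : A ^ 12 = 1 := by
  obtain ⟨m, hm, hAm⟩ := isOfFinOrder_iff_pow_eq_one.mp hA
  have hAm' : (A.1) ^ m = 1 := congrArg Subtype.val hAm
  have h := h6s_matrix_pow_twelve A.1 A.2 m hm hAm'
  exact Subtype.ext h

section Sh

open ModularCurve

variable (p : ℕ) [Fact p.Prime]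

/-- the lower right entry modulo `p`, as a unit. -/
noncomputable def h6s_unitMap : Gamma0 p →* (ZMod p)ˣ := (Gamma0Map p).toHomUnits

theorem h6s_unitMap_coe (γ : Gamma0 p) :
    ((h6s_unitMap p γ : (ZMod p)ˣ) : ZMod p) = Gamma0Map p γ := rfl

theorem h6s_unitMap_surjective : Function.Surjective (h6s_unitMap p) := by
  intro u
  have hcop : IsCoprime (((u : ZMod p).val : ℕ) : ℤ) ((p : ℕ) : ℤ) :=
    Nat.isCoprime_iff_coprime.mpr (ZMod.val_coe_unit_coprime u)
  obtain ⟨a, b, hab⟩ := hcop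
  let A : SL(2, ℤ) := ⟨!![a, -b; (p : ℤ), (((u : ZMod p).val : ℕ) : ℤ)], by
    rw [Matrix.det_fin_two_of]; linarith⟩
  have hA : A ∈ Gamma0 p := by
    rw [Gamma0_mem]
    show (((p : ℕ) : ℤ) : ZMod p) = 0
    rw [Int.cast_natCast, ZMod.natCast_self]
  refine ⟨⟨A, hA⟩, ?_⟩
  apply Units.ext
  rw [h6s_unitMap_coe]
  show ((((u : ZMod p).val : ℕ) : ℤ) : ZMod p) = (u : ZMod p)
  rw [Int.cast_natCast, ZMod.natCast_zmod_val]

theorem h6s_card_units : Nat.card (ZMod p)ˣ = p - 1 := by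
  rw [Nat.card_eq_fintype_card, ZMod.card_units]

theorem h6s_dvd : eisensteinNumerator p ∣ Nat.card (ZMod p)ˣ := by
  rw [h6s_card_units]
  exact eisensteinNumerator_dvd p

/-- a surjection from the cyclic group `(ZMod p)ˣ` to `ZMod n`. -/
noncomputable def h6s_chi : (ZMod p)ˣ →* Multiplicative (ZMod (eisensteinNumerator p)) :=
  (AddMonoidHom.toMultiplicative
    (ZMod.castHom (h6s_dvd p) (ZMod (eisensteinNumerator p))).toAddMonoidHom).comp
    (zmodCyclicMulEquiv (inferInstance : IsCyclic (ZMod p)ˣ)).symm.toMonoidHom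

theorem h6s_chi_apply (u : (ZMod p)ˣ) :
    Multiplicative.toAdd (h6s_chi p u) =
      ZMod.castHom (h6s_dvd p) (ZMod (eisensteinNumerator p))
        (Multiplicative.toAdd ((zmodCyclicMulEquiv (inferInstance : IsCyclic (ZMod p)ˣ)).symm u)) :=
  rfl

theorem h6s_chi_surjective : Function.Surjective (h6s_chi p) := by
  intro y
  obtain ⟨w, hw⟩ := ZMod.ringHom_surjective
    (ZMod.castHom (h6s_dvd p) (ZMod (eisensteinNumerator p))) (Multiplicative.toAdd y)
  refine ⟨zmodCyclicMulEquiv (inferInstance : IsCyclic (ZMod p)ˣ) (Multiplicative.ofAdd w), ?_⟩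
  apply Multiplicative.toAdd.injective
  rw [h6s_chi_apply, MulEquiv.symm_apply_apply]
  exact hw

theorem h6s_chi_eq_one (u : (ZMod p)ˣ) (hu : u ^ 12 = 1) : h6s_chi p u = 1 := by
  apply Multiplicative.toAdd.injective
  rw [h6s_chi_apply]
  set e := zmodCyclicMulEquiv (inferInstance : IsCyclic (ZMod p)ˣ) with he
  set w : ZMod (Nat.card (ZMod p)ˣ) := Multiplicative.toAdd (e.symm u) with hw
  have hp1 : 0 < p - 1 := by
    have := (Fact.out : p.Prime).two_le
    omega
  have hcard := h6s_card_units p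
  have : NeZero (Nat.card (ZMod p)ˣ) := ⟨by rw [hcard]; exact hp1.ne'⟩
  have h12 : (12 : ℕ) • w = 0 := by
    have h1 : (e.symm u) ^ 12 = 1 := by rw [← map_pow, hu, map_one]
    have h2 := congrArg Multiplicative.toAdd h1
    rw [toAdd_pow] at h2
    exact h2
  have h3 : ((12 * w.val : ℕ) : ZMod (Nat.card (ZMod p)ˣ)) = 0 := by
    rw [Nat.cast_mul, ZMod.natCast_zmod_val, ← nsmul_eq_mul]
    exact h12
  have h4 : Nat.card (ZMod p)ˣ ∣ 12 * w.val := (ZMod.natCast_eq_zero_iff _ _).mp h3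
  have h5 : eisensteinNumerator p ∣ w.val := by
    obtain ⟨v, hv⟩ : ∃ v : ℕ, v = w.val := ⟨_, rfl⟩
    rw [← hv] at h4 ⊢
    rw [hcard] at h4
    unfold eisensteinNumerator
    have hg : 0 < Nat.gcd (p - 1) 12 := Nat.gcd_pos_of_pos_left _ hp1
    have hcop := Nat.coprime_div_gcd_div_gcd hg
    obtain ⟨c, hc⟩ := Nat.gcd_dvd_right (p - 1) 12
    obtain ⟨n, hn⟩ := Nat.gcd_dvd_left (p - 1) 12
    have hn' : (p - 1) / Nat.gcd (p - 1) 12 = n := Nat.div_eq_of_eq_mul_right hg hn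
    have hc' : 12 / Nat.gcd (p - 1) 12 = c := Nat.div_eq_of_eq_mul_right hg hc
    rw [hn', hc'] at hcop
    rw [hn']
    have h6 : Nat.gcd (p - 1) 12 * n ∣ Nat.gcd (p - 1) 12 * (c * v) := by
      rw [← hn, ← mul_assoc, ← hc]
      exact h4
    have h7 : n ∣ c * v := Nat.dvd_of_mul_dvd_mul_left hg h6
    exact hcop.dvd_of_dvd_mul_left h7
  rw [ZMod.castHom_apply, ← ZMod.natCast_val, (ZMod.natCast_eq_zero_iff _ _).mpr h5]
  rfl

/-- the Shimura homomorphism. -/
noncomputable def h6s_sh : Additive (Gamma0 p) →+ ZMod (eisensteinNumerator p) :=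
  MonoidHom.toAdditiveRight ((h6s_chi p).comp (h6s_unitMap p))

theorem h6s_sh_apply (γ : Gamma0 p) :
    h6s_sh p (Additive.ofMul γ) = Multiplicative.toAdd (h6s_chi p (h6s_unitMap p γ)) := rfl

theorem h6s_sh_surjective : Function.Surjective (h6s_sh p) := by
  intro y
  obtain ⟨u, hu⟩ := h6s_chi_surjective p (Multiplicative.ofAdd y)
  obtain ⟨γ, hγ⟩ := h6s_unitMap_surjective p u
  refine ⟨Additive.ofMul γ, ?_⟩
  rw [h6s_sh_apply, hγ, hu]
  rfl

theorem h6s_sh_eq_zero (γ : Gamma0 p) (h : (h6s_unitMap p γ) ^ 12 = 1) :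
    h6s_sh p (Additive.ofMul γ) = 0 := by
  rw [h6s_sh_apply, h6s_chi_eq_one p _ h]
  rfl

theorem h6s_sh_trace (δ : Gamma0 p)
    (hδ : ((δ : SL(2, ℤ)) : Matrix (Fin 2) (Fin 2) ℤ).trace ^ 2 = 4) :
    h6s_sh p (Additive.ofMul δ) = 0 := by
  apply h6s_sh_eq_zero
  obtain ⟨A, hA⟩ := δ
  have hdet : A.1 0 0 * A.1 1 1 - A.1 0 1 * A.1 1 0 = 1 := by
    have := A.2
    rwa [Matrix.det_fin_two] at this
  have hc : ((A.1 1 0 : ℤ) : ZMod p) = 0 := Gamma0_mem.mp hA
  have htr : (A.1 0 0 + A.1 1 1) ^ 2 = 4 := by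
    have := hδ
    rwa [Matrix.trace_fin_two] at this
  have h1 : ((A.1 0 0 : ℤ) : ZMod p) * ((A.1 1 1 : ℤ) : ZMod p) = 1 := by
    have := congrArg (Int.cast : ℤ → ZMod p) hdet
    push_cast at this
    rw [hc, mul_zero, sub_zero] at this
    exact this
  have h2 : (((A.1 0 0 : ℤ) : ZMod p) + ((A.1 1 1 : ℤ) : ZMod p)) ^ 2 = 4 := by
    have := congrArg (Int.cast : ℤ → ZMod p) htr
    push_cast at this
    exact this
  have h3 : (((A.1 0 0 : ℤ) : ZMod p) - ((A.1 1 1 : ℤ) : ZMod p)) ^ 2 = 0 := by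
    linear_combination h2 - 4 * h1
  have h4 : ((A.1 0 0 : ℤ) : ZMod p) = ((A.1 1 1 : ℤ) : ZMod p) :=
    sub_eq_zero.mp ((pow_eq_zero_iff (two_ne_zero)).mp h3)
  have h5 : ((A.1 1 1 : ℤ) : ZMod p) ^ 2 = 1 := by
    rw [pow_two]
    rw [h4] at h1
    exact h1
  have h6 : (h6s_unitMap p ⟨A, hA⟩) ^ 2 = 1 := by
    apply Units.ext
    rw [Units.val_pow_eq_pow_val, h6s_unitMap_coe]
    exact h5
  have : (h6s_unitMap p ⟨A, hA⟩) ^ 12 = ((h6s_unitMap p ⟨A, hA⟩) ^ 2) ^ 6 := by rw [← pow_mul]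
  rw [this, h6, one_pow]

theorem h6s_sh_finOrder (δ : Gamma0 p) (hδ : IsOfFinOrder δ) :
    h6s_sh p (Additive.ofMul δ) = 0 := by
  apply h6s_sh_eq_zero
  have h1 : IsOfFinOrder (δ : SL(2, ℤ)) := by
    obtain ⟨m, hm, hδm⟩ := isOfFinOrder_iff_pow_eq_one.mp hδ
    refine isOfFinOrder_iff_pow_eq_one.mpr ⟨m, hm, ?_⟩
    rw [← Subgroup.coe_pow, hδm]
    rfl
  have h2 := h6s_SL_pow_twelve _ h1
  have h3 : δ ^ 12 = 1 := by
    apply Subtype.ext
    rw [Subgroup.coe_pow, h2]
    rfl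
  rw [← map_pow, h3, map_one]

theorem h6s_sh_pow (γ γ' : Gamma0 p) (k : ℕ) (h : Gamma0Map p γ' = Gamma0Map p γ ^ k) :
    h6s_sh p (Additive.ofMul γ') = k • h6s_sh p (Additive.ofMul γ) := by
  have h1 : h6s_unitMap p γ' = h6s_unitMap p γ ^ k := by
    apply Units.ext
    rw [Units.val_pow_eq_pow_val, h6s_unitMap_coe, h6s_unitMap_coe]
    exact h
  rw [h6s_sh_apply, h6s_sh_apply, h1, map_pow, toAdd_pow]

end Sh

/-- **(S-iii)**: the Shimura homomorphism and its properties (the shape `h7v_ShFacts p`). -/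
theorem h6s_shFacts (p : ℕ) (hp : p.Prime) :
    ∃ sh : Additive (Gamma0 p) →+ ZMod (ModularCurve.eisensteinNumerator p),
      Function.Surjective sh ∧
      (∀ δ : Gamma0 p, ((δ : SL(2, ℤ)) : Matrix (Fin 2) (Fin 2) ℤ).trace ^ 2 = 4 →
        sh (Additive.ofMul δ) = 0) ∧
      (∀ δ : Gamma0 p, IsOfFinOrder δ → sh (Additive.ofMul δ) = 0) ∧
      (∀ (γ γ' : Gamma0 p) (k : ℕ), Gamma0Map p γ' = Gamma0Map p γ ^ k →
        sh (Additive.ofMul γ') = k • sh (Additive.ofMul γ)) := by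
  have : Fact p.Prime := ⟨hp⟩
  exact ⟨h6s_sh p, h6s_sh_surjective p, h6s_sh_trace p, h6s_sh_finOrder p, h6s_sh_pow p⟩

end Fermat.Agent.Lib.S16
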