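import Mathlib
import Fermat.Agent.Lib.S21.Dim

/-!
# Project S16: `S₂(Γ₀(p)) = 0` for the primes `p < 7`

Owner: helper7.  From project S20 (`dim S₂(Γ₀(N)) = genusFormula N`, with finite-dimensionality,
`h8_dimStatement`) and `genusFormula p = 0` for `p = 2, 3, 5`.
-/

set_option autoImplicit false

namespace Fermat.Agent.Lib.S16

open ModularCurve CongruenceSubgroup

theorem h7m_nuTwo_eq (N : ℕ) [NeZero N] :
    nuTwo N = Fintype.card {x : ZMod N // x ^ 2 + 1 = 0} := by
  unfold nuTwo
  rw [Nat.card_eq_fintype_card]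

theorem h7m_nuThree_eq (N : ℕ) [NeZero N] :
    nuThree N = Fintype.card {x : ZMod N // x ^ 2 + x + 1 = 0} := by
  unfold nuThree
  rw [Nat.card_eq_fintype_card]

theorem h7m_psi_prime {p : ℕ} (hp : p.Prime) : dedekindPsi p = p + 1 := by
  unfold dedekindPsi
  rw [Nat.Prime.divisors hp, Finset.filter_true_of_mem, Finset.sum_pair hp.one_lt.ne,
    Nat.div_one, Nat.div_self hp.pos]
  intro d hd
  rcases Finset.mem_insert.mp hd with rfl | hd
  · exact squarefree_one
  · rw [Finset.mem_singleton] at hd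
    rw [hd]
    exact hp.squarefree

theorem h7m_cusp_prime {p : ℕ} (hp : p.Prime) : cuspCount p = 2 := by
  unfold cuspCount
  rw [Nat.Prime.divisors hp, Finset.sum_pair hp.one_lt.ne, Nat.div_one, Nat.div_self hp.pos]
  simp

theorem h7m_genus_two : genusFormula 2 = 0 := by
  have h1 : dedekindPsi 2 = 3 := h7m_psi_prime Nat.prime_two
  have h2 : nuTwo 2 = 1 := by rw [h7m_nuTwo_eq]; decide
  have h3 : nuThree 2 = 0 := by rw [h7m_nuThree_eq]; decide
  have h4 : cuspCount 2 = 2 := h7m_cusp_prime Nat.prime_two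
  unfold genusFormula
  rw [h1, h2, h3, h4]; norm_num

theorem h7m_genus_three : genusFormula 3 = 0 := by
  have h1 : dedekindPsi 3 = 4 := h7m_psi_prime Nat.prime_three
  have h2 : nuTwo 3 = 0 := by rw [h7m_nuTwo_eq]; decide
  have h3 : nuThree 3 = 1 := by rw [h7m_nuThree_eq]; decide
  have h4 : cuspCount 3 = 2 := h7m_cusp_prime Nat.prime_three
  unfold genusFormula
  rw [h1, h2, h3, h4]; norm_num

theorem h7m_genus_five : genusFormula 5 = 0 := by
  have h1 : dedekindPsi 5 = 6 := h7m_psi_prime Nat.prime_five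
  have h2 : nuTwo 5 = 2 := by rw [h7m_nuTwo_eq]; decide
  have h3 : nuThree 5 = 0 := by rw [h7m_nuThree_eq]; decide
  have h4 : cuspCount 5 = 2 := h7m_cusp_prime Nat.prime_five
  unfold genusFormula
  rw [h1, h2, h3, h4]; norm_num

/-- `genusFormula p = 0` for the primes `p < 7`. -/
theorem h7m_genus_small {p : ℕ} (hp : p.Prime) (h7 : p < 7) : genusFormula p = 0 := by
  have h2 := hp.two_le
  interval_cases p
  · exact h7m_genus_two
  · exact h7m_genus_three
  · exact absurd hp (by decide)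
  · exact h7m_genus_five
  · exact absurd hp (by decide)

/-- **`S₂(Γ₀(p)) = 0` for the primes `p < 7`.** -/
theorem h7m_small (p : ℕ) (hp : p.Prime) (h7 : p < 7) :
    ∀ f : CuspForm (Gamma0 p) 2, f = 0 := by
  have : NeZero p := ⟨hp.ne_zero⟩
  obtain ⟨hfin, hdim⟩ := Fermat.Agent.Lib.S21.h8_dimStatement p
  rw [h7m_genus_small hp h7] at hdim
  have h0 : Module.finrank ℂ (CuspForm (Gamma0 p) 2) = 0 := by exact_mod_cast hdim
  have hsub : Subsingleton (CuspForm (Gamma0 p) 2) := Module.finrank_zero_iff.mp h0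
  intro f
  exact Subsingleton.elim f 0

end Fermat.Agent.Lib.S16
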