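/-
S16 project, helper7: **level-one Sturm bound modulo a ring homomorphism** (`SturmOne` of `Defs`).
Ingredients: the `q`-expansions of `E₄`, `E₆`, `Δ` have integer coefficients (`Δ = (E₄³ - E₆²)/1728`
and `12 ∣ 5 d³ + 7 d⁵`), forms `E₄^a E₆^b` of every even weight `≥ 4` with integral expansion and
constant term `1`, division by `Δ` inside `R⟦X⟧`, and the induction on the weight via Mathlib's
`qExpansion_eq_qExpansion_discriminant_mul`.
-/
import Mathlib
import Fermat.Agent.Lib.S16.Defs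

set_option autoImplicit false

namespace Fermat.Agent.Lib.S16

open UpperHalfPlane ModularForm ModularFormClass MatrixGroups EisensteinSeries

local notation "Δ" => ModularForm.discriminant

/-- `∑ σ_k(n) X^n` (no constant term) -/
noncomputable def h7s_sig (k : ℕ) : PowerSeries ℤ :=
  PowerSeries.mk fun n => if n = 0 then 0 else (ArithmeticFunction.sigma k n : ℤ)

noncomputable def h7s_e4 : PowerSeries ℤ := 1 + 240 * h7s_sig 3
noncomputable def h7s_e6 : PowerSeries ℤ := 1 - 504 * h7s_sig 5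

theorem h7s_E4_coeff (m : ℕ) :
    (qExpansion 1 E₄).coeff m = if m = 0 then 1 else 240 * (ArithmeticFunction.sigma 3 m : ℂ) := by
  have h1 := E₄_qExpansion_coeff_one
  have h := EisensteinSeries.E_qExpansion_coeff (k := 4) (by norm_num) ⟨2, rfl⟩
  have hc : -(2 * (4 : ℕ) / bernoulli 4 : ℂ) = 240 := by
    have := h 1
    rw [h1] at this
    simpa using this.symm
  rw [h m, hc]

theorem h7s_E6_coeff (m : ℕ) :
    (qExpansion 1 E₆).coeff m = if m = 0 then 1 else -504 * (ArithmeticFunction.sigma 5 m : ℂ) := by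
  have h1 := E₆_qExpansion_coeff_one
  have h := EisensteinSeries.E_qExpansion_coeff (k := 6) (by norm_num) ⟨3, rfl⟩
  have hc : -(2 * (6 : ℕ) / bernoulli 6 : ℂ) = -504 := by
    have := h 1
    rw [h1] at this
    simpa using this.symm
  rw [h m, hc]

theorem h7s_coeff_sig (k m : ℕ) :
    (h7s_sig k).coeff m = if m = 0 then 0 else (ArithmeticFunction.sigma k m : ℤ) := by
  rw [h7s_sig, PowerSeries.coeff_mk]

theorem h7s_map_e4 : PowerSeries.map (Int.castRingHom ℂ) h7s_e4 = qExpansion 1 E₄ := by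
  ext m
  rw [h7s_E4_coeff, PowerSeries.coeff_map, h7s_e4, map_add, PowerSeries.coeff_one,
    show (240 : PowerSeries ℤ) = PowerSeries.C (240 : ℤ) from rfl, PowerSeries.coeff_C_mul,
    h7s_coeff_sig]
  by_cases hm : m = 0
  · simp [hm]
  · simp [hm]

theorem h7s_map_e6 : PowerSeries.map (Int.castRingHom ℂ) h7s_e6 = qExpansion 1 E₆ := by
  ext m
  rw [h7s_E6_coeff, PowerSeries.coeff_map, h7s_e6, map_sub, PowerSeries.coeff_one,
    show (504 : PowerSeries ℤ) = PowerSeries.C (504 : ℤ) from rfl, PowerSeries.coeff_C_mul,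
    h7s_coeff_sig]
  by_cases hm : m = 0
  · simp [hm]
  · simp [hm]

theorem h7s_twelve_dvd_pow (d : ℤ) : (12 : ℤ) ∣ 5 * d ^ 3 + 7 * d ^ 5 := by
  have h : ∀ x : ZMod 12, 5 * x ^ 3 + 7 * x ^ 5 = 0 := by decide
  have := h (d : ZMod 12)
  have h2 : ((5 * d ^ 3 + 7 * d ^ 5 : ℤ) : ZMod 12) = 0 := by
    push_cast
    exact this
  exact (ZMod.intCast_zmod_eq_zero_iff_dvd _ 12).mp h2

theorem h7s_twelve_dvd (n : ℕ) :
    (12 : ℤ) ∣ 5 * (ArithmeticFunction.sigma 3 n : ℤ) + 7 * (ArithmeticFunction.sigma 5 n : ℤ) := by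
  rw [ArithmeticFunction.sigma_apply, ArithmeticFunction.sigma_apply]
  push_cast
  rw [Finset.mul_sum, Finset.mul_sum, ← Finset.sum_add_distrib]
  exact Finset.dvd_sum fun d _ => h7s_twelve_dvd_pow d

/-- `(5 ∑σ₃ Xⁿ + 7 ∑σ₅ Xⁿ) / 12` -/
noncomputable def h7s_c : PowerSeries ℤ :=
  PowerSeries.mk fun n => if n = 0 then 0 else
    (5 * (ArithmeticFunction.sigma 3 n : ℤ) + 7 * (ArithmeticFunction.sigma 5 n : ℤ)) / 12

theorem h7s_c_spec : 5 * h7s_sig 3 + 7 * h7s_sig 5 = 12 * h7s_c := by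
  ext m
  rw [map_add, show (5 : PowerSeries ℤ) = PowerSeries.C (5 : ℤ) from rfl,
    show (7 : PowerSeries ℤ) = PowerSeries.C (7 : ℤ) from rfl,
    show (12 : PowerSeries ℤ) = PowerSeries.C (12 : ℤ) from rfl,
    PowerSeries.coeff_C_mul, PowerSeries.coeff_C_mul, PowerSeries.coeff_C_mul, h7s_coeff_sig,
    h7s_coeff_sig, h7s_c, PowerSeries.coeff_mk]
  by_cases hm : m = 0
  · simp [hm]
  · simp only [hm, if_false]
    rw [Int.mul_ediv_cancel' (h7s_twelve_dvd m)]

/-- the integral `q`-expansion of `Δ` -/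
noncomputable def h7s_delta : PowerSeries ℤ :=
  h7s_c + 100 * h7s_sig 3 ^ 2 + 8000 * h7s_sig 3 ^ 3 - 147 * h7s_sig 5 ^ 2

theorem h7s_delta_spec : h7s_e4 ^ 3 - h7s_e6 ^ 2 = 1728 * h7s_delta := by
  rw [h7s_e4, h7s_e6, h7s_delta]
  linear_combination 144 * h7s_c_spec

theorem h7s_qExp_delta_mul : (1728 : PowerSeries ℂ) * qExpansion 1 Δ =
    qExpansion 1 E₄ ^ 3 - qExpansion 1 E₆ ^ 2 := by
  let F : ModularForm 𝒮ℒ 12 :=
    ModularForm.mcast (by decide) (E₄.pow 3) - ModularForm.mcast (by decide) (E₆.pow 2)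
  have hF : qExpansion 1 F = qExpansion 1 E₄ ^ 3 - qExpansion 1 E₆ ^ 2 := by
    simp only [F, FunLike.coe_sub, coe_mcast,
      ModularForm.qExpansion_sub one_pos one_mem_strictPeriods_SL,
      ModularForm.qExpansion_pow one_pos one_mem_strictPeriods_SL]
  have hFΔ : (F : ℍ → ℂ) = ((1728 : ℂ) • CuspForm.discriminant : CuspForm 𝒮ℒ 12) := by
    ext z
    have := discriminant_eq_E₄_cube_sub_E₆_sq z
    simp only [F, coe_mcast, coe_pow, sub_apply, Pi.pow_apply]
    show _ = (1728 : ℂ) * Δ z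
    rw [this]
    ring
  rw [← hF, hFΔ]
  have := ModularForm.qExpansion_smul one_pos one_mem_strictPeriods_SL (1728 : ℂ)
    CuspForm.discriminant
  rw [show ((((1728 : ℂ) • CuspForm.discriminant : CuspForm 𝒮ℒ 12)) : ℍ → ℂ) =
    (1728 : ℂ) • (CuspForm.discriminant : ℍ → ℂ) from rfl, this, CuspForm.coe_discriminant]
  rw [show (1728 : PowerSeries ℂ) = PowerSeries.C (1728 : ℂ) from rfl, ← PowerSeries.smul_eq_C_mul]

theorem h7s_map_delta : PowerSeries.map (Int.castRingHom ℂ) h7s_delta = qExpansion 1 Δ := by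
  have h1 : (1728 : PowerSeries ℂ) * PowerSeries.map (Int.castRingHom ℂ) h7s_delta =
      (1728 : PowerSeries ℂ) * qExpansion 1 Δ := by
    rw [h7s_qExp_delta_mul, ← h7s_map_e4, ← h7s_map_e6, ← map_pow, ← map_pow, ← map_sub,
      h7s_delta_spec, map_mul, map_ofNat]
  have h1728 : (1728 : PowerSeries ℂ) ≠ 0 := by
    intro h
    have := congrArg (PowerSeries.coeff 0) h
    rw [show (1728 : PowerSeries ℂ) = PowerSeries.C (1728 : ℂ) from rfl,
      PowerSeries.coeff_zero_C, map_zero] at this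
    norm_num at this
  exact mul_left_cancel₀ h1728 h1

theorem h7s_e4_coeff_zero : h7s_e4.coeff 0 = 1 := by
  rw [h7s_e4, map_add, PowerSeries.coeff_one, show (240 : PowerSeries ℤ) = PowerSeries.C (240 : ℤ) from rfl,
    PowerSeries.coeff_C_mul, h7s_coeff_sig]
  simp

theorem h7s_e6_coeff_zero : h7s_e6.coeff 0 = 1 := by
  rw [h7s_e6, map_sub, PowerSeries.coeff_one, show (504 : PowerSeries ℤ) = PowerSeries.C (504 : ℤ) from rfl,
    PowerSeries.coeff_C_mul, h7s_coeff_sig]
  simp

/-- a level one form of every even weight `k ≥ 4` with integral `q`-expansion and `a₀ = 1` -/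
theorem h7s_exists_unitForm (k : ℕ) (hk : Even k) (hk4 : 4 ≤ k) :
    ∃ (G : ModularForm 𝒮ℒ (k : ℤ)) (g : PowerSeries ℤ),
      PowerSeries.map (Int.castRingHom ℂ) g = qExpansion 1 G ∧ g.coeff 0 = 1 := by
  induction k using Nat.strong_induction_on with | _ k ih =>
  by_cases h4 : k = 4
  · subst h4
    exact ⟨ModularForm.mcast (by norm_num) E₄, h7s_e4, by
      rw [ModularForm.qExpansion_mcast]; exact h7s_map_e4, h7s_e4_coeff_zero⟩
  by_cases h6 : k = 6
  · subst h6
    exact ⟨ModularForm.mcast (by norm_num) E₆, h7s_e6, by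
      rw [ModularForm.qExpansion_mcast]; exact h7s_map_e6, h7s_e6_coeff_zero⟩
  have hk8 : 8 ≤ k := by
    obtain ⟨r, rfl⟩ := hk
    omega
  obtain ⟨G', g', hg', hg'0⟩ := ih (k - 4) (by omega) (by
    obtain ⟨r, rfl⟩ := hk
    exact ⟨r - 2, by omega⟩) (by omega)
  refine ⟨ModularForm.mcast (by omega) (G'.mul E₄), g' * h7s_e4, ?_, ?_⟩
  · rw [ModularForm.qExpansion_mcast, ModularForm.qExpansion_mul one_pos one_mem_strictPeriods_SL,
      map_mul, hg', h7s_map_e4]
  · rw [PowerSeries.coeff_mul]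
    simp [hg'0, h7s_e4_coeff_zero]

theorem h7s_delta_coeff_zero : h7s_delta.coeff 0 = 0 := by
  have h := congrArg (PowerSeries.coeff 0) h7s_map_delta
  rw [PowerSeries.coeff_map] at h
  have h0 : (qExpansion 1 Δ).coeff 0 = 0 := by
    apply PowerSeries.coeff_of_lt_order
    rw [discriminant_qExpansion_order]
    norm_num
  rw [h0, eq_intCast] at h
  exact_mod_cast h

theorem h7s_delta_coeff_one : h7s_delta.coeff 1 = 1 := by
  have h := congrArg (PowerSeries.coeff 1) h7s_map_delta
  rw [PowerSeries.coeff_map, discriminant_qExpansion_coeff_one, eq_intCast] at h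
  exact_mod_cast h

section Div

variable (R : Subring ℂ)

/-- the `q`-expansion of `Δ` over `R` -/
noncomputable def h7s_deltaR : PowerSeries R := PowerSeries.map (Int.castRingHom R) h7s_delta

theorem h7s_map_deltaR : PowerSeries.map R.subtype (h7s_deltaR R) = qExpansion 1 Δ := by
  rw [h7s_deltaR, ← RingHom.comp_apply, ← PowerSeries.map_comp, ← h7s_map_delta]
  congr 1

theorem h7s_subtype_injective :
    Function.Injective (PowerSeries.map R.subtype : PowerSeries R → PowerSeries ℂ) := by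
  intro A B h
  ext n
  have := congrArg (PowerSeries.coeff n) h
  rw [PowerSeries.coeff_map, PowerSeries.coeff_map] at this
  exact this

theorem h7s_qExp_delta_ne_zero : qExpansion 1 Δ ≠ 0 := by
  intro h
  have := congrArg (PowerSeries.coeff 1) h
  rw [discriminant_qExpansion_coeff_one] at this
  simp at this

/-- division by `Δ` inside `R⟦X⟧` -/
theorem h7s_div (A : PowerSeries R) (hA0 : A.coeff 0 = 0) (B : PowerSeries ℂ)
    (hAB : PowerSeries.map R.subtype A = qExpansion 1 Δ * B) :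
    ∃ B' : PowerSeries R, PowerSeries.map R.subtype B' = B ∧ A = h7s_deltaR R * B' := by
  set U : PowerSeries R := PowerSeries.mk fun n => (h7s_deltaR R).coeff (n + 1) with hU
  have hD : h7s_deltaR R = PowerSeries.X * U := by
    have := PowerSeries.eq_X_mul_shift_add_const (h7s_deltaR R)
    have h0 : PowerSeries.constantCoeff (h7s_deltaR R) = 0 := by
      rw [← PowerSeries.coeff_zero_eq_constantCoeff_apply, h7s_deltaR, PowerSeries.coeff_map,
        h7s_delta_coeff_zero, map_zero]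
    rw [h0, map_zero, add_zero] at this
    exact this
  have hU1 : PowerSeries.constantCoeff U = 1 := by
    rw [← PowerSeries.coeff_zero_eq_constantCoeff_apply, hU, PowerSeries.coeff_mk, h7s_deltaR,
      PowerSeries.coeff_map, h7s_delta_coeff_one, map_one]
  have hUunit : IsUnit U := by
    rw [PowerSeries.isUnit_iff_constantCoeff, hU1]
    exact isUnit_one
  obtain ⟨V, hV⟩ := hUunit.exists_right_inv
  set A₁ : PowerSeries R := PowerSeries.mk fun n => A.coeff (n + 1) with hA₁
  have hA : A = PowerSeries.X * A₁ := by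
    have := PowerSeries.eq_X_mul_shift_add_const A
    have h0 : PowerSeries.constantCoeff A = 0 := by
      rw [← PowerSeries.coeff_zero_eq_constantCoeff_apply, hA0]
    rw [h0, map_zero, add_zero] at this
    exact this
  have hfin : A = h7s_deltaR R * (A₁ * V) := by
    rw [hD]
    calc A = PowerSeries.X * A₁ := hA
      _ = PowerSeries.X * A₁ * (U * V) := by rw [hV, mul_one]
      _ = PowerSeries.X * U * (A₁ * V) := by ring
  refine ⟨A₁ * V, ?_, hfin⟩
  have h1 : qExpansion 1 Δ * PowerSeries.map R.subtype (A₁ * V) = qExpansion 1 Δ * B := by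
    rw [← hAB, ← h7s_map_deltaR R, ← map_mul, ← hfin]
  exact mul_left_cancel₀ h7s_qExp_delta_ne_zero h1

end Div

section Main

variable (R : Subring ℂ) {𝔽 : Type*} [Field 𝔽] (φ : R →+* 𝔽)

theorem h7s_order_map_deltaR : (PowerSeries.map φ (h7s_deltaR R)).order = 1 := by
  rw [show (1 : ℕ∞) = ((1 : ℕ) : ℕ∞) from rfl, PowerSeries.order_eq_nat]
  constructor
  · rw [PowerSeries.coeff_map, h7s_deltaR, PowerSeries.coeff_map, h7s_delta_coeff_one, map_one,
      map_one]
    exact one_ne_zero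
  · intro i hi
    obtain rfl : i = 0 := by omega
    rw [PowerSeries.coeff_map, h7s_deltaR, PowerSeries.coeff_map, h7s_delta_coeff_zero, map_zero,
      map_zero]

/-- level one forms of weight `k` with `Φ = 0` forced -/
theorem h7s_zero_case (k : ℕ) (Φ : ModularForm 𝒮ℒ (k : ℤ)) (hΦ : Φ = 0) (P : PowerSeries R)
    (hP : PowerSeries.map R.subtype P = qExpansion 1 Φ) : PowerSeries.map φ P = 0 := by
  have : P = 0 := by
    apply h7s_subtype_injective R
    rw [hP, hΦ, map_zero]
    exact qExpansion_zero 1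
  rw [this, map_zero]

/-- the inductive step, given a form `G` of weight `k` with integral expansion and `a₀ = 1` -/
theorem h7s_step (k : ℕ)
    (ih : ∀ m < k, ∀ (Φ : ModularForm 𝒮ℒ (m : ℤ)) (P : PowerSeries R),
      PowerSeries.map R.subtype P = qExpansion 1 Φ →
      ((m / 12 : ℕ) : ℕ∞) < (PowerSeries.map φ P).order → PowerSeries.map φ P = 0)
    (G : ModularForm 𝒮ℒ (k : ℤ)) (g : PowerSeries ℤ)
    (hg : PowerSeries.map (Int.castRingHom ℂ) g = qExpansion 1 G) (hg0 : g.coeff 0 = 1)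
    (Φ : ModularForm 𝒮ℒ (k : ℤ)) (P : PowerSeries R)
    (hP : PowerSeries.map R.subtype P = qExpansion 1 Φ)
    (h : ((k / 12 : ℕ) : ℕ∞) < (PowerSeries.map φ P).order) : PowerSeries.map φ P = 0 := by
  set a₀ : R := P.coeff 0 with ha₀
  have hφa₀ : φ a₀ = 0 := by
    have := PowerSeries.coeff_of_lt_order (φ := PowerSeries.map φ P) 0
      (lt_of_le_of_lt (by exact_mod_cast Nat.zero_le _) h)
    rwa [PowerSeries.coeff_map] at this
  set gR : PowerSeries R := PowerSeries.map (Int.castRingHom R) g with hgR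
  have hgR' : PowerSeries.map R.subtype gR = qExpansion 1 G := by
    rw [hgR, ← RingHom.comp_apply, ← PowerSeries.map_comp, ← hg]
    congr 1
  set P' : PowerSeries R := P - PowerSeries.C a₀ * gR with hP'
  set Φ' : ModularForm 𝒮ℒ (k : ℤ) := Φ - (a₀ : ℂ) • G with hΦ'
  have hqΦ' : qExpansion 1 Φ' = PowerSeries.map R.subtype P' := by
    rw [hΦ', hP', map_sub, map_mul, hP, hgR', PowerSeries.map_C]
    have h1 : ((Φ - (a₀ : ℂ) • G : ModularForm 𝒮ℒ (k : ℤ)) : ℍ → ℂ) =
        (Φ : ℍ → ℂ) - ((a₀ : ℂ) • G : ModularForm 𝒮ℒ (k : ℤ)) := rfl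
    rw [h1, ModularForm.qExpansion_sub one_pos one_mem_strictPeriods_SL Φ ((a₀ : ℂ) • G)]
    have h2 : (((a₀ : ℂ) • G : ModularForm 𝒮ℒ (k : ℤ)) : ℍ → ℂ) = (a₀ : ℂ) • (G : ℍ → ℂ) := rfl
    rw [h2, ModularForm.qExpansion_smul one_pos one_mem_strictPeriods_SL (a₀ : ℂ) G,
      PowerSeries.smul_eq_C_mul]
    rfl
  have hP'0 : P'.coeff 0 = 0 := by
    rw [hP', map_sub, PowerSeries.coeff_C_mul, hgR, PowerSeries.coeff_map, hg0, map_one, mul_one,
      ← ha₀, sub_self]
  have h0 : (qExpansion 1 Φ').coeff 0 = 0 := by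
    rw [hqΦ', PowerSeries.coeff_map, hP'0, map_zero]
  have hmul := ModularForm.qExpansion_eq_qExpansion_discriminant_mul Φ' h0
  set Ψ := CuspForm.discriminantEquiv (toCuspForm Φ' h0) with hΨ
  rw [hqΦ'] at hmul
  obtain ⟨P'', hP'', hPP''⟩ := h7s_div R P' hP'0 _ hmul
  -- reduction of `P'` equals that of `P`
  have hρ : PowerSeries.map φ P' = PowerSeries.map φ P := by
    rw [hP', map_sub, map_mul, PowerSeries.map_C, hφa₀, map_zero, zero_mul, sub_zero]
  rw [← hρ, hPP'', map_mul]
  rw [← hρ, hPP'', map_mul, PowerSeries.order_mul, h7s_order_map_deltaR] at h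
  rcases lt_or_ge k 12 with hk12 | hk12
  · -- negative weight
    have hΨ0 : Ψ = 0 :=
      rank_zero_iff_forall_zero.mp (levelOne_neg_weight_rank_zero (by omega)) Ψ
    have : P'' = 0 := by
      apply h7s_subtype_injective R
      rw [hP'', hΨ0, map_zero]
      exact qExpansion_zero 1
    rw [this, map_zero, mul_zero]
  · have hw : ((k : ℤ) - 12) = ((k - 12 : ℕ) : ℤ) := by omega
    have hres := ih (k - 12) (by omega) (ModularForm.mcast hw Ψ) P''
      (by rw [ModularForm.qExpansion_mcast]; exact hP'') (by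
        have hsucc : k / 12 = (k - 12) / 12 + 1 := by omega
        rw [hsucc, Nat.cast_add, Nat.cast_one, add_comm (1 : ℕ∞)] at h
        exact (ENat.add_lt_add_iff_right (ENat.natCast_ne_top 1)).mp (by simpa using h))
    rw [hres, mul_zero]


/-- **Sturm bound for level one modulo `φ`, order form.** -/
theorem h7s_sturm_order (k : ℕ) : ∀ (Φ : ModularForm 𝒮ℒ (k : ℤ)) (P : PowerSeries R),
    PowerSeries.map R.subtype P = qExpansion 1 Φ →
    ((k / 12 : ℕ) : ℕ∞) < (PowerSeries.map φ P).order → PowerSeries.map φ P = 0 := by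
  induction k using Nat.strong_induction_on with | _ k ih =>
  intro Φ P hP h
  by_cases hodd : Odd k
  · exact h7s_zero_case R φ k Φ
      (ModularForm.levelOne_odd_weight_eq_zero (by exact_mod_cast hodd) Φ) P hP
  have hev : Even k := Nat.not_odd_iff_even.mp hodd
  by_cases h2 : k = 2
  · subst h2
    have hΦ : Φ = 0 := by
      have hz : ModularForm.mcast (show ((2 : ℕ) : ℤ) = 2 by norm_num) Φ = 0 :=
        rank_zero_iff_forall_zero.mp levelOne_weight_two_rank_zero _
      ext z
      exact DFunLike.congr_fun hz z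
    exact h7s_zero_case R φ 2 Φ hΦ P hP
  by_cases h0 : k = 0
  · subst h0
    refine h7s_step R φ 0 ih (ModularForm.mcast (by norm_num) (1 : ModularForm 𝒮ℒ 0)) 1 ?_ ?_ Φ P hP h
    · rw [ModularForm.qExpansion_mcast, ModularForm.qExpansion_one, map_one]
    · simp
  · have hk4 : 4 ≤ k := by
      obtain ⟨r, rfl⟩ := hev
      omega
    obtain ⟨G, g, hg, hg0⟩ := h7s_exists_unitForm k hev hk4
    exact h7s_step R φ k ih G g hg hg0 Φ P hP h

end Main

/-- The contract `SturmOne` of `Defs`. -/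
theorem h7s_sturmOne : SturmOne := by
  intro R 𝔽 _ φ k Φ c hc hlow j
  set P : PowerSeries R := PowerSeries.mk c with hPdef
  have hP : PowerSeries.map R.subtype P = qExpansion 1 Φ := by
    ext n
    rw [PowerSeries.coeff_map, hPdef, PowerSeries.coeff_mk]
    exact (hc n).symm
  have hord : ((k / 12 : ℕ) : ℕ∞) < (PowerSeries.map φ P).order := by
    have h1 : ((k / 12 + 1 : ℕ) : ℕ∞) ≤ (PowerSeries.map φ P).order :=
      PowerSeries.nat_le_order _ _ (fun i hi => by
        rw [PowerSeries.coeff_map, hPdef, PowerSeries.coeff_mk]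
        exact hlow i (by omega))
    exact lt_of_lt_of_le (by exact_mod_cast Nat.lt_succ_self _) h1
  have h := congrArg (PowerSeries.coeff j) (h7s_sturm_order R φ k Φ P hP hord)
  rwa [PowerSeries.coeff_map, hPdef, PowerSeries.coeff_mk, map_zero] at h

end Fermat.Agent.Lib.S16
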