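/-
S16 project, helper8: the norm mechanism (blueprint 1.3), generic form.

`Ψ` a modular form of weight `k` for an arithmetic subgroup `𝒢`, `h` a common strict period of all
conjugates of `𝒢`.  `R ⊂ ℂ` a subring, `φ : R →+* 𝔽` a ring hom to a domain.  If for every coset
`q` of `𝒢` in `SL(2,ℤ)` the `𝕢_h`-expansion of the translate `quotientFunc Ψ q` has coefficients in
`R` and nonzero reduction, and `t` cosets have reduction of order `≥ h` (i.e. order `≥ 1` in `q`),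
then, given the level-one Sturm bound mod `φ` as a hypothesis, `12 t ≤ k [SL(2,ℤ) : 𝒢]`.
-/
import Mathlib
import Fermat.Prelude.Thm_UpperHalfPlane_qExpansion_prod
import Fermat.Prelude.Thm_UpperHalfPlane_qExpansion_coeff_nat_mul

set_option autoImplicit false

open UpperHalfPlane ModularForm SlashInvariantForm Matrix.SpecialLinearGroup ConjAct
open scoped MatrixGroups ModularForm Topology Manifold Pointwise

noncomputable section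

namespace Fermat.Agent.Lib.S16

/-- The level-one Sturm bound modulo `φ`, as a hypothesis: a level-one form with coefficients in
`R` whose reduction vanishes up to `k/12` has zero reduction. -/
def h8n_SturmHyp (R : Subring ℂ) {𝔽 : Type*} [CommRing 𝔽] (φ : R →+* 𝔽) : Prop :=
  ∀ (k : ℤ) (Φ : ModularForm 𝒮ℒ k) (hR : ∀ j, (qExpansion 1 Φ).coeff j ∈ R),
    (∀ j : ℕ, (j : ℤ) * 12 ≤ k → φ ⟨(qExpansion 1 Φ).coeff j, hR j⟩ = 0) →
    ∀ j, φ ⟨(qExpansion 1 Φ).coeff j, hR j⟩ = 0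

/-- plain functions `ℍ → ℂ` with a `FunLike` structure (to apply `qExpansion_coeff_unique`). -/
def h8n_Fn : Type := ℍ → ℂ

instance h8n_instFunLikeFn : FunLike h8n_Fn ℍ ℂ where
  coe f := f
  coe_injective _ _ h := h

/-- analyticity of the cusp functions of all translates (copied from the Prelude proof pattern). -/
theorem h8n_analyticAt_quotientFunc {𝒢 : Subgroup (GL (Fin 2) ℝ)}
    {k : ℤ} (f : ModularForm 𝒢 k) {M : ℕ} (hM : 0 < M)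
    (hconj : ∀ γ : SL(2, ℤ), (M : ℝ) ∈ (toConjAct (mapGL ℝ γ) • 𝒢).strictPeriods)
    (q : 𝒮ℒ ⧸ 𝒢.subgroupOf 𝒮ℒ) :
    AnalyticAt ℂ (cuspFunction M (quotientFunc f q)) 0 := by
  induction q using Quotient.inductionOn with
  | h r =>
    obtain ⟨γ, hγ⟩ := r.2
    have hp : (M : ℝ) ∈ (toConjAct (r.1⁻¹)⁻¹ • 𝒢).strictPeriods := by
      rw [inv_inv, ← hγ]
      exact hconj γ
    exact ModularFormClass.analyticAt_cuspFunction_zero (ModularForm.translate f r.1⁻¹)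
      (Nat.cast_pos.mpr hM) hp

/-- level one: the `𝕢_h`-expansion is the `q`-expansion in `X^h`. -/
theorem h8n_levelOne_coeff {k : ℤ} (F : ModularForm 𝒮ℒ k) {h : ℕ} (hh : 0 < h) (n : ℕ) :
    (qExpansion (h : ℝ) F).coeff n = if h ∣ n then (qExpansion 1 F).coeff (n / h) else 0 := by
  have hper := SlashInvariantFormClass.periodic_comp_ofComplex F one_mem_strictPeriods_SL
  have : Fact (IsCusp OnePoint.infty 𝒮ℒ) := ⟨(𝒮ℒ).isCusp_of_mem_strictPeriods one_pos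
    one_mem_strictPeriods_SL⟩
  have := UpperHalfPlane.qExpansion_coeff_nat_mul one_pos hper (ModularFormClass.holo F)
    (ModularFormClass.bdd_at_infty F) hh n
  rwa [mul_one] at this

section main

variable {𝒢 : Subgroup (GL (Fin 2) ℝ)} [𝒢.IsArithmetic] {k : ℤ} (Ψ : ModularForm 𝒢 k)
  {h : ℕ} (R : Subring ℂ) {𝔽 : Type*} [CommRing 𝔽] [IsDomain 𝔽] (φ : R →+* 𝔽)

/-- the `𝕢_h`-expansion of a translate, as a power series over `R`. -/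
def h8n_PS (hR : ∀ (q : 𝒮ℒ ⧸ 𝒢.subgroupOf 𝒮ℒ) (m : ℕ),
    (qExpansion h (quotientFunc Ψ q)).coeff m ∈ R) (q : 𝒮ℒ ⧸ 𝒢.subgroupOf 𝒮ℒ) : PowerSeries R :=
  PowerSeries.mk fun m ↦ ⟨(qExpansion h (quotientFunc Ψ q)).coeff m, hR q m⟩

omit [𝒢.IsArithmetic] in
theorem h8n_map_PS (hR : ∀ (q : 𝒮ℒ ⧸ 𝒢.subgroupOf 𝒮ℒ) (m : ℕ),
    (qExpansion h (quotientFunc Ψ q)).coeff m ∈ R) (q : 𝒮ℒ ⧸ 𝒢.subgroupOf 𝒮ℒ) :
    PowerSeries.map R.subtype (h8n_PS Ψ R hR q) = qExpansion h (quotientFunc Ψ q) := by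
  ext m
  simp [h8n_PS]

/-- **Norm mechanism**, coset form. -/
theorem h8n_normMech (hh : 0 < h)
    (hconj : ∀ γ : SL(2, ℤ), (h : ℝ) ∈ (toConjAct (mapGL ℝ γ) • 𝒢).strictPeriods)
    (hSturm : h8n_SturmHyp R φ)
    (hR : ∀ (q : 𝒮ℒ ⧸ 𝒢.subgroupOf 𝒮ℒ) (m : ℕ), (qExpansion h (quotientFunc Ψ q)).coeff m ∈ R)
    (hne : ∀ q : 𝒮ℒ ⧸ 𝒢.subgroupOf 𝒮ℒ,
      ∃ m, φ ⟨(qExpansion h (quotientFunc Ψ q)).coeff m, hR q m⟩ ≠ 0)
    (s : Finset (𝒮ℒ ⧸ 𝒢.subgroupOf 𝒮ℒ))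
    (hs : ∀ q ∈ s, ∀ m < h, φ ⟨(qExpansion h (quotientFunc Ψ q)).coeff m, hR q m⟩ = 0) :
    (s.card : ℤ) * 12 ≤ k * Nat.card (𝒮ℒ ⧸ 𝒢.subgroupOf 𝒮ℒ) := by
  classical
  by_contra hcon
  rw [not_le] at hcon
  let _ : Fintype (𝒮ℒ ⧸ 𝒢.subgroupOf 𝒮ℒ) := Fintype.ofFinite _
  set F := ModularForm.norm 𝒮ℒ Ψ with hF
  have hanalytic := h8n_analyticAt_quotientFunc Ψ hh hconj
  -- the `𝕢_h`-expansion of the norm is the product
  have hprod : qExpansion h F = ∏ q : 𝒮ℒ ⧸ 𝒢.subgroupOf 𝒮ℒ, qExpansion h (quotientFunc Ψ q) := by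
    rw [hF, ModularForm.coe_norm]
    exact UpperHalfPlane.qExpansion_prod Finset.univ fun q _ ↦ hanalytic q
  set P := h8n_PS Ψ R hR with hP
  set Pn : PowerSeries R := ∏ q : 𝒮ℒ ⧸ 𝒢.subgroupOf 𝒮ℒ, P q with hPn
  have hmapPn : PowerSeries.map R.subtype Pn = qExpansion h F := by
    rw [hprod, hPn, map_prod]
    exact Finset.prod_congr rfl fun q _ ↦ h8n_map_PS Ψ R hR q
  have hcoeffPn : ∀ n, ((Pn.coeff n : R) : ℂ) = (qExpansion h F).coeff n := by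
    intro n
    rw [← hmapPn, PowerSeries.coeff_map]
    rfl
  -- coefficients of the honest `q`-expansion
  have hlev := h8n_levelOne_coeff F hh
  have hR1 : ∀ j, (qExpansion 1 F).coeff j ∈ R := by
    intro j
    have := hlev (h * j)
    rw [if_pos (dvd_mul_right h j), Nat.mul_div_cancel_left _ hh] at this
    rw [← this, ← hcoeffPn]
    exact (Pn.coeff (h * j)).2
  have hsub : ∀ j, (⟨(qExpansion 1 F).coeff j, hR1 j⟩ : R) = Pn.coeff (h * j) := by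
    intro j
    apply Subtype.ext
    have := hlev (h * j)
    rw [if_pos (dvd_mul_right h j), Nat.mul_div_cancel_left _ hh] at this
    rw [hcoeffPn, this]
  -- the reduction
  set Q : PowerSeries 𝔽 := PowerSeries.map φ Pn with hQ
  have hQprod : Q = ∏ q : 𝒮ℒ ⧸ 𝒢.subgroupOf 𝒮ℒ, PowerSeries.map φ (P q) := by
    rw [hQ, hPn, map_prod]
  have hfac_ne : ∀ q, PowerSeries.map φ (P q) ≠ 0 := by
    intro q hq0
    obtain ⟨m, hm⟩ := hne q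
    apply hm
    have := congrArg (PowerSeries.coeff m) hq0
    simpa [hP, h8n_PS] using this
  have hQne : Q ≠ 0 := by
    rw [hQprod]
    exact Finset.prod_ne_zero_iff.mpr fun q _ ↦ hfac_ne q
  -- order of the reduction
  have hord_s : ∀ q ∈ s, (h : ℕ∞) ≤ (PowerSeries.map φ (P q)).order := by
    intro q hq
    refine PowerSeries.nat_le_order _ _ fun i hi ↦ ?_
    have := hs q hq i hi
    simpa [hP, h8n_PS] using this
  have hordQ : ((s.card * h : ℕ) : ℕ∞) ≤ Q.order := by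
    rw [hQprod, PowerSeries.order_prod]
    calc ((s.card * h : ℕ) : ℕ∞) = ∑ _q ∈ s, (h : ℕ∞) := by
            rw [Finset.sum_const, nsmul_eq_mul]; push_cast; rfl
      _ ≤ ∑ q ∈ s, (PowerSeries.map φ (P q)).order := Finset.sum_le_sum hord_s
      _ ≤ ∑ q : 𝒮ℒ ⧸ 𝒢.subgroupOf 𝒮ℒ, (PowerSeries.map φ (P q)).order :=
          Finset.sum_le_sum_of_subset (Finset.subset_univ s)
  -- apply Sturm
  have hlow : ∀ j : ℕ, (j : ℤ) * 12 ≤ k * Nat.card (𝒮ℒ ⧸ 𝒢.subgroupOf 𝒮ℒ) →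
      φ ⟨(qExpansion 1 F).coeff j, hR1 j⟩ = 0 := by
    intro j hj
    have hjs : j < s.card := by
      have : (j : ℤ) * 12 < (s.card : ℤ) * 12 := lt_of_le_of_lt hj hcon
      have : (j : ℤ) < s.card := by linarith
      exact_mod_cast this
    rw [hsub j]
    have hlt : ((h * j : ℕ) : ℕ∞) < Q.order := by
      refine lt_of_lt_of_le ?_ hordQ
      have : h * j < s.card * h := by
        rw [mul_comm]; exact Nat.mul_lt_mul_of_pos_right hjs hh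
      exact_mod_cast this
    have := PowerSeries.coeff_of_lt_order (h * j) hlt
    simpa [hQ] using this
  have hall := hSturm _ F hR1 hlow
  apply hQne
  ext n
  rw [hQ, PowerSeries.coeff_map, map_zero]
  by_cases hn : h ∣ n
  · obtain ⟨j, rfl⟩ := hn
    rw [← hsub j]
    exact hall j
  · have : Pn.coeff n = 0 := by
      apply Subtype.ext
      rw [hcoeffPn, hlev n, if_neg hn]
      rfl
    rw [this, map_zero]

/-- the coset of `SL(2,ℤ)/𝒢` on which `quotientFunc Ψ` is `Ψ ∣[k] γ`. -/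
def h8n_coset (𝒢 : Subgroup (GL (Fin 2) ℝ)) (γ : SL(2, ℤ)) : 𝒮ℒ ⧸ 𝒢.subgroupOf 𝒮ℒ :=
  QuotientGroup.mk (⟨mapGL ℝ γ⁻¹, ⟨γ⁻¹, rfl⟩⟩ : 𝒮ℒ)

omit [𝒢.IsArithmetic] in
theorem h8n_quotientFunc_coset (γ : SL(2, ℤ)) :
    quotientFunc Ψ (h8n_coset 𝒢 γ) = (⇑Ψ : ℍ → ℂ) ∣[k] (mapGL ℝ γ) := by
  show quotientFunc Ψ (⟦(⟨mapGL ℝ γ⁻¹, ⟨γ⁻¹, rfl⟩⟩ : 𝒮ℒ)⟧) = _
  rw [quotientFunc_mk]
  simp

omit [𝒢.IsArithmetic] in
theorem h8n_coset_surjective (q : 𝒮ℒ ⧸ 𝒢.subgroupOf 𝒮ℒ) : ∃ γ : SL(2, ℤ), h8n_coset 𝒢 γ = q := by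
  induction q using Quotient.inductionOn with
  | h r =>
    obtain ⟨γ, hγ⟩ := r.2
    refine ⟨γ⁻¹, ?_⟩
    show (QuotientGroup.mk (⟨mapGL ℝ γ⁻¹⁻¹, ⟨γ⁻¹⁻¹, rfl⟩⟩ : 𝒮ℒ) : 𝒮ℒ ⧸ 𝒢.subgroupOf 𝒮ℒ) = ⟦r⟧
    congr 1
    apply Subtype.ext
    simp [hγ]

omit [𝒢.IsArithmetic] in
theorem h8n_coset_eq_iff (γ γ' : SL(2, ℤ)) :
    h8n_coset 𝒢 γ = h8n_coset 𝒢 γ' ↔ mapGL ℝ γ * (mapGL ℝ γ')⁻¹ ∈ 𝒢 := by
  unfold h8n_coset
  rw [QuotientGroup.eq, Subgroup.mem_subgroupOf]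
  simp

/-- **Norm mechanism**, `SL(2,ℤ)`-indexed form with explicit expansions. -/
theorem h8n_normMech_SL (hh : 0 < h)
    (hconj : ∀ γ : SL(2, ℤ), (h : ℝ) ∈ (toConjAct (mapGL ℝ γ) • 𝒢).strictPeriods)
    (hSturm : h8n_SturmHyp R φ)
    (c : SL(2, ℤ) → ℕ → ℂ)
    (hc : ∀ (γ : SL(2, ℤ)) (τ : ℍ),
      HasSum (fun m ↦ c γ m • Function.Periodic.qParam h τ ^ m) (((⇑Ψ : ℍ → ℂ) ∣[k] (mapGL ℝ γ)) τ))
    (hcR : ∀ γ m, c γ m ∈ R)
    (hcne : ∀ γ, ∃ m, φ ⟨c γ m, hcR γ m⟩ ≠ 0)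
    {ι : Type*} (t : Finset ι) (g : ι → SL(2, ℤ))
    (hinj : ∀ i ∈ t, ∀ j ∈ t, mapGL ℝ (g i) * (mapGL ℝ (g j))⁻¹ ∈ 𝒢 → i = j)
    (hvan : ∀ i ∈ t, ∀ m < h, φ ⟨c (g i) m, hcR (g i) m⟩ = 0) :
    (t.card : ℤ) * 12 ≤ k * Nat.card (𝒮ℒ ⧸ 𝒢.subgroupOf 𝒮ℒ) := by
  classical
  have hanalytic := h8n_analyticAt_quotientFunc Ψ hh hconj
  -- identify the coefficients
  have hcoeff : ∀ (γ : SL(2, ℤ)) (m : ℕ),
      (qExpansion h (quotientFunc Ψ (h8n_coset 𝒢 γ))).coeff m = c γ m := by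
    intro γ m
    have han := hanalytic (h8n_coset 𝒢 γ)
    have hsum : ∀ τ : ℍ, HasSum (fun m ↦ c γ m • Function.Periodic.qParam h τ ^ m)
        (quotientFunc Ψ (h8n_coset 𝒢 γ) τ) := by
      intro τ
      rw [h8n_quotientFunc_coset]
      exact hc γ τ
    have key := UpperHalfPlane.qExpansion_coeff_unique (F := h8n_Fn)
      (show h8n_Fn from quotientFunc Ψ (h8n_coset 𝒢 γ)) (Nat.cast_pos.mpr hh) han hsum m
    exact key.symm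
  have hR : ∀ (q : 𝒮ℒ ⧸ 𝒢.subgroupOf 𝒮ℒ) (m : ℕ),
      (qExpansion h (quotientFunc Ψ q)).coeff m ∈ R := by
    intro q m
    obtain ⟨γ, rfl⟩ := h8n_coset_surjective (𝒢 := 𝒢) q
    rw [hcoeff]
    exact hcR γ m
  have hφ : ∀ (γ : SL(2, ℤ)) (m : ℕ),
      φ ⟨(qExpansion h (quotientFunc Ψ (h8n_coset 𝒢 γ))).coeff m, hR _ m⟩ = φ ⟨c γ m, hcR γ m⟩ := by
    intro γ m
    congr 1
    exact Subtype.ext (hcoeff γ m)
  have hne : ∀ q : 𝒮ℒ ⧸ 𝒢.subgroupOf 𝒮ℒ,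
      ∃ m, φ ⟨(qExpansion h (quotientFunc Ψ q)).coeff m, hR q m⟩ ≠ 0 := by
    intro q
    obtain ⟨γ, rfl⟩ := h8n_coset_surjective (𝒢 := 𝒢) q
    obtain ⟨m, hm⟩ := hcne γ
    exact ⟨m, by rwa [hφ]⟩
  have hinj' : Set.InjOn (fun i ↦ h8n_coset 𝒢 (g i)) (t : Set ι) := by
    intro i hi j hj hij
    exact hinj i hi j hj ((h8n_coset_eq_iff _ _).mp hij)
  have hcard : (t.image fun i ↦ h8n_coset 𝒢 (g i)).card = t.card := Finset.card_image_of_injOn hinj'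
  rw [← hcard]
  refine h8n_normMech Ψ R φ hh hconj hSturm hR hne _ ?_
  intro q hq m hm
  obtain ⟨i, hi, rfl⟩ := Finset.mem_image.mp hq
  rw [hφ]
  exact hvan i hi m hm

end main

section gamma0

open CongruenceSubgroup

/-- `N` is a strict period of every `SL(2,ℤ)`-conjugate of `Γ₀(N)`. -/
theorem h8n_hconj_Gamma0 (N : ℕ) (γ : SL(2, ℤ)) :
    (N : ℝ) ∈ (toConjAct (mapGL ℝ γ) • (Gamma0 N : Subgroup (GL (Fin 2) ℝ))).strictPeriods := by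
  have hle : (Gamma N : Subgroup (GL (Fin 2) ℝ)) ≤
      toConjAct (mapGL ℝ γ) • (Gamma0 N : Subgroup (GL (Fin 2) ℝ)) := by
    rintro x ⟨y, hy, rfl⟩
    rw [Subgroup.mem_pointwise_smul_iff_inv_smul_mem]
    refine ⟨γ⁻¹ * y * γ, ?_, ?_⟩
    · have hn : γ⁻¹ * y * γ ∈ Gamma N := by
        have := (Gamma_normal N).conj_mem y hy γ⁻¹
        simpa using this
      rw [Gamma_mem] at hn
      show γ⁻¹ * y * γ ∈ Gamma0 N
      rw [Gamma0_mem]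
      exact hn.2.2.1
    · rw [← toConjAct_inv, toConjAct_smul]
      simp [map_mul, map_inv]
  have hmem : (N : ℝ) ∈ (Gamma N : Subgroup (GL (Fin 2) ℝ)).strictPeriods := by
    rw [strictPeriods_Gamma]
    exact AddSubgroup.mem_zmultiples _
  rw [Subgroup.mem_strictPeriods_iff] at hmem ⊢
  exact hle hmem

theorem h8n_relIndex_Gamma0 (N : ℕ) :
    Nat.card (𝒮ℒ ⧸ (Gamma0 N : Subgroup (GL (Fin 2) ℝ)).subgroupOf 𝒮ℒ) = (Gamma0 N).index := by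
  show (Gamma0 N : Subgroup (GL (Fin 2) ℝ)).relIndex 𝒮ℒ = _
  rw [← Subgroup.index_comap, Subgroup.comap_map_eq_self_of_injective mapGL_injective]

/-- **Norm mechanism** for `Γ₀(N)`, `h = N`. -/
theorem h8n_normMech_Gamma0 (N : ℕ) [NeZero N] {k : ℤ} (Ψ : ModularForm (Gamma0 N) k)
    (R : Subring ℂ) {𝔽 : Type*} [CommRing 𝔽] [IsDomain 𝔽] (φ : R →+* 𝔽)
    (hSturm : h8n_SturmHyp R φ)
    (c : SL(2, ℤ) → ℕ → ℂ)
    (hc : ∀ (γ : SL(2, ℤ)) (τ : ℍ),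
      HasSum (fun m ↦ c γ m • Function.Periodic.qParam N τ ^ m) (((⇑Ψ : ℍ → ℂ) ∣[k] (mapGL ℝ γ)) τ))
    (hcR : ∀ γ m, c γ m ∈ R)
    (hcne : ∀ γ, ∃ m, φ ⟨c γ m, hcR γ m⟩ ≠ 0)
    {ι : Type*} (t : Finset ι) (g : ι → SL(2, ℤ))
    (hinj : ∀ i ∈ t, ∀ j ∈ t, g i * (g j)⁻¹ ∈ Gamma0 N → i = j)
    (hvan : ∀ i ∈ t, ∀ m < N, φ ⟨c (g i) m, hcR (g i) m⟩ = 0) :
    (t.card : ℤ) * 12 ≤ k * (Gamma0 N).index := by
  rw [← h8n_relIndex_Gamma0 N]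
  refine h8n_normMech_SL Ψ R φ (NeZero.pos N) (h8n_hconj_Gamma0 N) hSturm c hc hcR hcne t g ?_ hvan
  intro i hi j hj hmem
  refine hinj i hi j hj ?_
  rw [← map_inv, ← map_mul] at hmem
  obtain ⟨y, hy, hyeq⟩ := hmem
  rwa [← mapGL_injective hyeq]

end gamma0

end Fermat.Agent.Lib.S16
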