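/-
S16 project, helper8: the norm mechanism cases (a), (b), (c) of the `NoConst` table
(blueprint 1.3), from the contracts `EisLevel M`, `TraceId p`, `SturmOne`, `CoeffRing`.
-/
import Mathlib
import Fermat.Agent.Lib.S16.Defs
import Fermat.Agent.Lib.S16.H8NormMech
import Fermat.Agent.Lib.X0.P1Count

set_option autoImplicit false

open UpperHalfPlane ModularForm CongruenceSubgroup ModularFormClass Matrix.SpecialLinearGroup
open scoped MatrixGroups ModularForm Real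

noncomputable section

namespace Fermat.Agent.Lib.S16

/-- restriction of a modular form to a smaller group. -/
def h8c_restrict {Γ Γ' : Subgroup (GL (Fin 2) ℝ)} (hle : Γ' ≤ Γ) {k : ℤ} (f : ModularForm Γ k) :
    ModularForm Γ' k where
  toFun := f
  slash_action_eq' γ hγ := f.slash_action_eq' γ (hle hγ)
  holo' := f.holo'
  bdd_at_cusps' hc := f.bdd_at_cusps' (hc.mono hle)

@[simp] theorem h8c_restrict_apply {Γ Γ' : Subgroup (GL (Fin 2) ℝ)} (hle : Γ' ≤ Γ) {k : ℤ}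
    (f : ModularForm Γ k) (z : ℍ) : h8c_restrict hle f z = f z := rfl

theorem h8c_Gamma0_le {P N : ℕ} (h : P ∣ N) :
    (Gamma0 N : Subgroup (GL (Fin 2) ℝ)) ≤ (Gamma0 P : Subgroup (GL (Fin 2) ℝ)) := by
  apply Subgroup.map_mono
  intro A hA
  rw [Gamma0_mem] at hA ⊢
  rw [ZMod.intCast_zmod_eq_zero_iff_dvd] at hA ⊢
  exact (Int.natCast_dvd_natCast.mpr h).trans hA

/-- reindexing a power series in `x = ζ y ^ d` as a power series in `y`. -/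
theorem h8c_hasSum_reindex {f : ℕ → ℂ} {x y ζ : ℂ} {d : ℕ} (hd : 0 < d) (hx : x = ζ * y ^ d)
    {S : ℂ} (h : HasSum (fun i ↦ f i * x ^ i) S) :
    HasSum (fun m ↦ (if d ∣ m then f (m / d) * ζ ^ (m / d) else 0) • y ^ m) S := by
  have hinj : Function.Injective (fun i : ℕ ↦ d * i) := mul_right_injective₀ hd.ne'
  rw [← hinj.hasSum_iff]
  · convert h using 1
    ext i
    simp only [Function.comp_apply, dvd_mul_right, if_true, Nat.mul_div_cancel_left _ hd,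
      smul_eq_mul, hx, mul_pow, pow_mul]
    ring
  · intro m hm
    have : ¬ d ∣ m := fun ⟨i, hi⟩ ↦ hm ⟨i, hi.symm⟩
    simp [this]

/-- the `q`-parameter at level one as a power of the `q`-parameter at level `N`. -/
theorem h8c_qParam_one (N : ℕ) (hN : 0 < N) (z : ℂ) :
    Function.Periodic.qParam 1 z = Function.Periodic.qParam N z ^ N := by
  unfold Function.Periodic.qParam
  rw [← Complex.exp_nat_mul]
  congr 1
  have : (N : ℂ) ≠ 0 := Nat.cast_ne_zero.mpr hN.ne'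
  push_cast
  field_simp

/-- expansion of a level `P` form in `𝕢_N`, `P ∣ N`. -/
theorem h8c_hasSum_self {P : ℕ} (F : ModularForm (Gamma0 P) 2) (N : ℕ) (hN : 0 < N) (τ : ℍ) :
    HasSum (fun m ↦ (if N ∣ m then qCoeff F (m / N) else 0) • Function.Periodic.qParam N τ ^ m)
      (F τ) := by
  have : Fact (IsCusp OnePoint.infty (Gamma0 P : Subgroup (GL (Fin 2) ℝ))) :=
    ⟨Subgroup.isCusp_of_mem_strictPeriods one_pos (by simp)⟩
  have h1 := ModularForm.hasSum_qExpansion (f := F) one_pos (by simp) τ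
  have h2 := h8c_hasSum_reindex (ζ := 1) hN (by rw [one_mul]; exact h8c_qParam_one N hN τ) h1
  simpa [qCoeff] using h2

theorem h8c_qParam_hecke {P Q N : ℕ} (hP : 0 < P) (hQ : 0 < Q) (hN : N = P * Q) (j : ℕ) (τ : ℍ) :
    Function.Periodic.qParam 1 ((ModularForm.heckeMatrix P j • τ : ℍ) : ℂ) =
      Complex.exp (2 * π * Complex.I / N) ^ (Q * j) * Function.Periodic.qParam N τ ^ Q := by
  rw [ModularForm.coe_heckeMatrix_smul hP.ne']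
  unfold Function.Periodic.qParam
  rw [← Complex.exp_nat_mul, ← Complex.exp_nat_mul, ← Complex.exp_add]
  congr 1
  have h1 : (P : ℂ) ≠ 0 := Nat.cast_ne_zero.mpr hP.ne'
  have h2 : (Q : ℂ) ≠ 0 := Nat.cast_ne_zero.mpr hQ.ne'
  subst hN
  push_cast
  generalize (2 * (π : ℂ) * Complex.I) = c
  field_simp
  ring

theorem h8c_hasSum_conj {P : ℕ} (hP : 0 < P) (F' : ModularForm (Gamma0 P) 2) (Q N : ℕ)
    (hQ : 0 < Q) (hN : N = P * Q) (j : ℕ) (τ : ℍ) :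
    HasSum (fun m ↦ (if Q ∣ m then -(P : ℂ)⁻¹ * qCoeff F' (m / Q) *
        (Complex.exp (2 * π * Complex.I / N) ^ (Q * j)) ^ (m / Q) else 0) •
        Function.Periodic.qParam N τ ^ m)
      (-(P : ℂ)⁻¹ * F' (ModularForm.heckeMatrix P j • τ)) := by
  have : Fact (IsCusp OnePoint.infty (Gamma0 P : Subgroup (GL (Fin 2) ℝ))) :=
    ⟨Subgroup.isCusp_of_mem_strictPeriods one_pos (by simp)⟩
  have h0 := ModularForm.hasSum_qExpansion (f := F') one_pos (by simp)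
    (ModularForm.heckeMatrix P j • τ)
  have h1 := h0.mul_left (-(P : ℂ)⁻¹)
  have h1' : HasSum (fun m ↦ (-(P : ℂ)⁻¹ * qCoeff F' m) *
      Function.Periodic.qParam 1 ((ModularForm.heckeMatrix P j • τ : ℍ) : ℂ) ^ m)
      (-(P : ℂ)⁻¹ * F' (ModularForm.heckeMatrix P j • τ)) := by
    have hfun : (fun m ↦ (-(P : ℂ)⁻¹ * qCoeff F' m) *
      Function.Periodic.qParam 1 ((ModularForm.heckeMatrix P j • τ : ℍ) : ℂ) ^ m) =
      fun m ↦ -(P : ℂ)⁻¹ * ((qExpansion 1 F').coeff m *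
        Function.Periodic.qParam 1 ((ModularForm.heckeMatrix P j • τ : ℍ) : ℂ) ^ m) := by
      ext m
      rw [mul_assoc]
      rfl
    rw [hfun]
    exact h1
  have h2 := h8c_hasSum_reindex (f := fun m ↦ -(P : ℂ)⁻¹ * qCoeff F' m) hQ
    (h8c_qParam_hecke hP hQ hN j τ) h1'
  exact h2

/-- the contract `SturmOne` gives the Sturm hypothesis of the norm mechanism. -/
theorem h8c_sturmHyp (hS : SturmOne) (R : Subring ℂ) (𝔽 : Type) [Field 𝔽] (φ : R →+* 𝔽) :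
    h8n_SturmHyp R φ := by
  intro k Φ hR hlow j
  rcases lt_or_ge k 0 with hk | hk
  · have h0 : (⇑Φ : ℍ → ℂ) = 0 := ModularFormClass.levelOne_neg_weight_eq_zero hk Φ
    have h1 : (⟨(qExpansion 1 Φ).coeff j, hR j⟩ : R) = 0 := by
      apply Subtype.ext
      show (qExpansion 1 (⇑Φ : ℍ → ℂ)).coeff j = 0
      rw [h0, qExpansion_zero]
      simp
    rw [h1, map_zero]
  · obtain ⟨n, rfl⟩ := Int.eq_ofNat_of_zero_le hk
    refine hS R 𝔽 φ n Φ (fun j ↦ ⟨(qExpansion 1 Φ).coeff j, hR j⟩) (fun j ↦ rfl) ?_ j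
    intro i hi
    exact hlow i (by exact_mod_cast (by omega : i * 12 ≤ n))

theorem h8c_index {M p : ℕ} (hM : M.Prime) (hp : p.Prime) (hMp : M ≠ p) :
    (Gamma0 (M * p)).index = (M + 1) * (p + 1) := by
  have : NeZero (M * p) := ⟨Nat.mul_ne_zero hM.ne_zero hp.ne_zero⟩
  have h1 : (Gamma0 (M * p)).index = Nat.card (SL(2, ℤ) ⧸ Gamma0 (M * p)) := rfl
  rw [h1, Fermat.Agent.Lib.X0.h6_card_QN,
    Fermat.Agent.Lib.X0.h6_psi_mul ((Nat.coprime_primes hM hp).mpr hMp)]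
  have hM1 := Fermat.Agent.Lib.X0.h6_psi_prime_pow hM one_pos
  have hp1 := Fermat.Agent.Lib.X0.h6_psi_prime_pow hp one_pos
  simp only [pow_one, Nat.sub_self, pow_zero] at hM1 hp1
  rw [hM1, hp1]

/-- the coset representatives `γ_j = [[1, j], [M, M j + 1]]`. -/
def h8c_g (M j : ℕ) : SL(2, ℤ) :=
  ⟨!![1, (j : ℤ); (M : ℤ), (M : ℤ) * j + 1], by rw [Matrix.det_fin_two_of]; ring⟩

theorem h8c_g_mem (M j : ℕ) : h8c_g M j ∈ Gamma0 M := by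
  rw [Gamma0_mem]
  simp [h8c_g]

theorem h8c_g_not_mem {M p : ℕ} (hM : M.Prime) (hp : p.Prime) (hMp : M ≠ p) (j : ℕ) :
    h8c_g M j ∉ Gamma0 p := by
  rw [Gamma0_mem]
  intro h
  have h1 : ((M : ℤ) : ZMod p) = 0 := by simpa [h8c_g] using h
  rw [ZMod.intCast_zmod_eq_zero_iff_dvd, Int.natCast_dvd_natCast] at h1
  exact hMp ((Nat.prime_dvd_prime_iff_eq hp hM).mp h1).symm

theorem h8c_g_inj {M p : ℕ} (hM : M.Prime) (hp : p.Prime) (hMp : M ≠ p) {i j : ℕ} (hi : i < p)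
    (hj : j < p) (h : h8c_g M i * (h8c_g M j)⁻¹ ∈ Gamma0 (M * p)) : i = j := by
  rw [Gamma0_mem, ZMod.intCast_zmod_eq_zero_iff_dvd] at h
  have hentry : (h8c_g M i * (h8c_g M j)⁻¹ : SL(2, ℤ)) 1 0 = (M : ℤ) * M * ((j : ℤ) - i) := by
    rw [Matrix.SpecialLinearGroup.coe_mul, Matrix.SpecialLinearGroup.coe_inv,
      Matrix.adjugate_fin_two, Matrix.mul_apply, Fin.sum_univ_two]
    simp [h8c_g]
    ring
  rw [hentry] at h
  have hpd : (p : ℤ) ∣ (M : ℤ) * M * ((j : ℤ) - i) := by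
    refine Dvd.dvd.trans ?_ h
    push_cast
    exact Dvd.intro_left _ rfl
  have hpM : ¬ (p : ℤ) ∣ (M : ℤ) := by
    rw [Int.natCast_dvd_natCast]
    exact fun h1 ↦ hMp ((Nat.prime_dvd_prime_iff_eq hp hM).mp h1).symm
  have hpp : Prime (p : ℤ) := Nat.prime_iff_prime_int.mp hp
  have h3 : (p : ℤ) ∣ (j : ℤ) - i := by
    rcases hpp.dvd_or_dvd hpd with h1 | h1
    · rcases hpp.dvd_or_dvd h1 with h2 | h2 <;> exact absurd h2 hpM
    · exact h1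
  obtain ⟨t, ht⟩ := h3
  have : t = 0 := by
    by_contra hne
    rcases lt_or_gt_of_ne hne with h1 | h1
    · have : (p : ℤ) * t ≤ -p := by nlinarith
      omega
    · have : (p : ℤ) * t ≥ p := by nlinarith
      omega
  subst this
  omega

/-- `𝕢_N`-expansions of all `SL(2,ℤ)`-translates of a level `P` form whose translates are given
by the conjugate formula (`N = P Q`). -/
theorem h8c_conj_expansion {P : ℕ} (hP : 0 < P) (F F' : ModularForm (Gamma0 P) 2)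
    (hconj : ∀ γ : SL(2, ℤ), γ ∉ Gamma0 P → ∃ j : ℕ, j < P ∧ ∀ z : ℍ,
      ((F : ℍ → ℂ) ∣[(2 : ℤ)] γ) z = -(P : ℂ)⁻¹ * F' (ModularForm.heckeMatrix P j • z))
    (Q N : ℕ) (hQ : 0 < Q) (hN : N = P * Q) (γ : SL(2, ℤ)) :
    ∃ c : ℕ → ℂ,
      (∀ τ : ℍ, HasSum (fun m ↦ c m • Function.Periodic.qParam N τ ^ m)
        (((F : ℍ → ℂ) ∣[(2 : ℤ)] γ) τ)) ∧
      ((γ ∈ Gamma0 P ∧ ∀ m, c m = if N ∣ m then qCoeff F (m / N) else 0) ∨
       (γ ∉ Gamma0 P ∧ ∃ j : ℕ, ∀ m, c m = if Q ∣ m then -(P : ℂ)⁻¹ * qCoeff F' (m / Q) *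
          (Complex.exp (2 * π * Complex.I / N) ^ (Q * j)) ^ (m / Q) else 0)) := by
  have hNpos : 0 < N := by rw [hN]; exact Nat.mul_pos hP hQ
  by_cases hγ : γ ∈ Gamma0 P
  · refine ⟨fun m ↦ if N ∣ m then qCoeff F (m / N) else 0, fun τ ↦ ?_, Or.inl ⟨hγ, fun m ↦ rfl⟩⟩
    have hinv : (F : ℍ → ℂ) ∣[(2 : ℤ)] γ = F :=
      F.slash_action_eq' (mapGL ℝ γ) (Subgroup.mem_map_of_mem _ hγ)
    rw [hinv]
    exact h8c_hasSum_self F N hNpos τ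
  · obtain ⟨j, -, hj⟩ := hconj γ hγ
    refine ⟨fun m ↦ if Q ∣ m then -(P : ℂ)⁻¹ * qCoeff F' (m / Q) *
          (Complex.exp (2 * π * Complex.I / N) ^ (Q * j)) ^ (m / Q) else 0, fun τ ↦ ?_,
          Or.inr ⟨hγ, j, fun m ↦ rfl⟩⟩
    rw [hj τ]
    exact h8c_hasSum_conj hP F' Q N hQ hN j τ

/-! ### ring facts -/

section ring

variable {R : Subring ℂ} {𝔽 : Type} [Field 𝔽] (φ : R →+* 𝔽)

theorem h8c_phi_eq {x : ℂ} (hx : x ∈ R) (r : R) (h : (r : ℂ) = x) : φ ⟨x, hx⟩ = φ r := by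
  subst h
  rfl

theorem h8c_phi_ne_zero_of_mul {x y : R} (h : x * y = 1) : φ x ≠ 0 := by
  intro h0
  have := congrArg φ h
  rw [map_mul, h0, zero_mul, map_one] at this
  exact zero_ne_one this

theorem h8c_phi_int_ne_zero {ℓ : ℕ} (hℓ : ℓ.Prime) (hφℓ : φ (ℓ : R) = 0) {n : ℤ}
    (hn : ¬ (ℓ : ℤ) ∣ n) : φ (n : R) ≠ 0 := by
  have hcop : IsCoprime (ℓ : ℤ) n :=
    (Prime.coprime_iff_not_dvd (Nat.prime_iff_prime_int.mp hℓ)).mpr hn
  obtain ⟨u, v, huv⟩ := hcop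
  intro h0
  have := congrArg (fun t : ℤ ↦ φ (t : R)) huv
  simp only [Int.cast_add, Int.cast_mul, Int.cast_natCast, Int.cast_one, map_add, map_mul, hφℓ, h0,
    mul_zero, add_zero, map_one] at this
  exact zero_ne_one this

theorem h8c_phi_nat_ne_zero {ℓ : ℕ} (hℓ : ℓ.Prime) (hφℓ : φ (ℓ : R) = 0) {n : ℕ}
    (hn : ¬ ℓ ∣ n) : φ (n : R) ≠ 0 := by
  have := h8c_phi_int_ne_zero φ hℓ hφℓ (n := (n : ℤ)) (by rwa [Int.natCast_dvd_natCast])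
  simpa using this

theorem h8c_phi_pow_ne_zero {x : R} {n : ℕ} (hn : 0 < n) (hx : x ^ n = 1) (k : ℕ) :
    φ (x ^ k) ≠ 0 := by
  apply h8c_phi_ne_zero_of_mul φ (y := x ^ (k * (n - 1)))
  rw [← pow_add]
  have : k + k * (n - 1) = n * k := by
    obtain ⟨n', rfl⟩ : ∃ n', n = n' + 1 := ⟨n - 1, by omega⟩
    simp
    ring
  rw [this, pow_mul, hx, one_pow]

end ring

/-- the `G`-part of the coefficients: integral and divisible by `ℓ` away from the constant term. -/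
theorem h8c_Gpart {R : Subring ℂ} {𝔽 : Type} [Field 𝔽] (φ : R →+* 𝔽) {ℓ p M N D : ℕ}
    (hφℓ : φ (ℓ : R) = 0) (hp : 0 < p) (hM : 0 < M) (hN : 0 < N) (hD : 0 < D)
    (hω : Complex.exp (2 * π * Complex.I / N) ∈ R)
    (a b : ℕ → ℤ) (hab : ∀ i, 1 ≤ i → a i = D * ℓ * b i)
    (fG fG' : ℕ → ℂ) (hfG : ∀ i, fG i = a i) (hfG' : ∀ i, fG' i = fG (p * i))
    (cG : ℕ → ℂ) (inP : Prop)
    (hform : (inP ∧ ∀ m, cG m = if N ∣ m then fG (m / N) else 0) ∨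
       (¬ inP ∧ ∃ j : ℕ, ∀ m, cG m = if M ∣ m then -(p : ℂ)⁻¹ * fG' (m / M) *
          (Complex.exp (2 * π * Complex.I / N) ^ (M * j)) ^ (m / M) else 0)) :
    (∀ m, 1 ≤ m → ∃ r : R, (r : ℂ) = (D : ℂ)⁻¹ * ((p : ℂ) * cG m) ∧ φ r = 0) ∧
    (inP → cG 0 = a 0) ∧ (¬ inP → cG 0 = -(p : ℂ)⁻¹ * a 0) := by
  have hDC : (D : ℂ) ≠ 0 := Nat.cast_ne_zero.mpr hD.ne'
  have hpC : (p : ℂ) ≠ 0 := Nat.cast_ne_zero.mpr hp.ne'
  rcases hform with ⟨hin, hc⟩ | ⟨hout, j, hc⟩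
  · refine ⟨fun m hm ↦ ?_, fun _ ↦ ?_, fun h ↦ absurd hin h⟩
    · by_cases hd : N ∣ m
      · have h1 : 1 ≤ m / N := Nat.div_pos (Nat.le_of_dvd hm hd) hN
        refine ⟨(p : R) * (ℓ : R) * ((b (m / N) : ℤ) : R), ?_, ?_⟩
        · rw [hc, if_pos hd, hfG, hab _ h1]
          push_cast
          field_simp
        · rw [map_mul, map_mul, hφℓ]
          simp
      · refine ⟨0, ?_, map_zero _⟩
        rw [hc, if_neg hd]
        simp
    · rw [hc, if_pos (dvd_zero _), Nat.zero_div, hfG]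
  · refine ⟨fun m hm ↦ ?_, fun h ↦ absurd h hout, fun _ ↦ ?_⟩
    · by_cases hd : M ∣ m
      · have h1 : 1 ≤ m / M := Nat.div_pos (Nat.le_of_dvd hm hd) hM
        have h2 : 1 ≤ p * (m / M) := Nat.mul_pos hp h1
        refine ⟨-((ℓ : R) * ((b (p * (m / M)) : ℤ) : R) *
          ((⟨_, hω⟩ : R) ^ (M * j)) ^ (m / M)), ?_, ?_⟩
        · rw [hc, if_pos hd, hfG', hfG, hab _ h2]
          push_cast
          field_simp
        · rw [map_neg, map_mul, map_mul, hφℓ]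
          simp
      · refine ⟨0, ?_, map_zero _⟩
        rw [hc, if_neg hd]
        simp
    · rw [hc, if_pos (dvd_zero _), Nat.zero_div, pow_zero, mul_one, hfG', mul_zero, hfG]

theorem h8c_sigmaPrime_one {M : ℕ} (hM : 1 < M) : sigmaPrime M 1 = 1 := by
  have : ¬ M ∣ 1 := by
    rw [Nat.dvd_one]
    omega
  rw [sigmaPrime, Nat.divisors_one, Finset.filter_singleton, if_pos this, Finset.sum_singleton]

theorem h8c_exp_pow_eq_one {N : ℕ} (hN : 0 < N) :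
    Complex.exp (2 * π * Complex.I / N) ^ N = 1 := by
  rw [← Complex.exp_nat_mul, mul_div_cancel₀ _ (Nat.cast_ne_zero.mpr hN.ne')]
  exact Complex.exp_two_pi_mul_I

/-- the Eisenstein part of the coefficients. -/
theorem h8c_Epart {R : Subring ℂ} {𝔽 : Type} [Field 𝔽] (φ : R →+* 𝔽) {ℓ p M N D κ κ' : ℕ}
    (hℓ : ℓ.Prime) (hφℓ : φ (ℓ : R) = 0) (hp : 0 < p) (hM : 1 < M) (hN : N = M * p) (hD : 0 < D)
    (hκ : κ = D * κ') (hκ' : ¬ ℓ ∣ κ') (a0 : ℤ) (ha0 : ¬ (ℓ : ℤ) ∣ a0)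
    (hMinv : (M : ℂ)⁻¹ ∈ R)
    (hω : Complex.exp (2 * π * Complex.I / N) ∈ R)
    (fE : ℕ → ℂ) (hfE : ∀ i, 1 ≤ i → fE i = sigmaPrime M i)
    (cE : ℕ → ℂ) (inM : Prop)
    (hform : (inM ∧ ∀ m, cE m = if N ∣ m then fE (m / N) else 0) ∨
       (¬ inM ∧ ∃ j : ℕ, ∀ m, cE m = if p ∣ m then -(M : ℂ)⁻¹ * fE (m / p) *
          (Complex.exp (2 * π * Complex.I / N) ^ (p * j)) ^ (m / p) else 0)) :
    (∀ m, 1 ≤ m → ∃ r : R, (r : ℂ) = (D : ℂ)⁻¹ * (((a0 : ℂ) * κ) * cE m)) ∧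
    (inM → cE 0 = fE 0 ∧ (∀ m, 1 ≤ m → m < N → cE m = 0) ∧
      ∃ r : R, (r : ℂ) = (D : ℂ)⁻¹ * (((a0 : ℂ) * κ) * cE N) ∧ φ r ≠ 0) ∧
    (¬ inM → cE 0 = -(M : ℂ)⁻¹ * fE 0 ∧
      ∃ r : R, (r : ℂ) = (D : ℂ)⁻¹ * (((a0 : ℂ) * κ) * cE p) ∧ φ r ≠ 0) := by
  have hDC : (D : ℂ) ≠ 0 := Nat.cast_ne_zero.mpr hD.ne'
  have hMC : (M : ℂ) ≠ 0 := Nat.cast_ne_zero.mpr (by omega)
  have hNpos : 0 < N := by rw [hN]; exact Nat.mul_pos (by omega) hp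
  have hφa : φ ((a0 : ℤ) : R) ≠ 0 := h8c_phi_int_ne_zero φ hℓ hφℓ ha0
  have hφκ : φ ((κ' : ℕ) : R) ≠ 0 := h8c_phi_nat_ne_zero φ hℓ hφℓ hκ'
  have hκC : (κ : ℂ) = D * κ' := by rw [hκ]; push_cast; ring
  rcases hform with ⟨hin, hc⟩ | ⟨hout, j, hc⟩
  · refine ⟨fun m hm ↦ ?_, fun _ ↦ ⟨?_, fun m hm hmN ↦ ?_, ?_⟩, fun h ↦ absurd hin h⟩
    · by_cases hd : N ∣ m
      · have h1 : 1 ≤ m / N := Nat.div_pos (Nat.le_of_dvd hm hd) hNpos
        refine ⟨((a0 : ℤ) : R) * (κ' : R) * ((sigmaPrime M (m / N) : ℕ) : R), ?_⟩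
        rw [hc, if_pos hd, hfE _ h1, hκC]
        push_cast
        field_simp
      · refine ⟨0, ?_⟩
        rw [hc, if_neg hd]
        simp
    · rw [hc, if_pos (dvd_zero _), Nat.zero_div]
    · rw [hc, if_neg (Nat.not_dvd_of_pos_of_lt hm hmN)]
    · refine ⟨((a0 : ℤ) : R) * (κ' : R), ?_, ?_⟩
      · rw [hc, if_pos dvd_rfl, Nat.div_self hNpos, hfE _ le_rfl, h8c_sigmaPrime_one hM, hκC]
        push_cast
        field_simp
      · rw [map_mul]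
        exact mul_ne_zero hφa hφκ
  · refine ⟨fun m hm ↦ ?_, fun h ↦ absurd h hout, fun _ ↦ ⟨?_, ?_⟩⟩
    · by_cases hd : p ∣ m
      · have h1 : 1 ≤ m / p := Nat.div_pos (Nat.le_of_dvd hm hd) hp
        refine ⟨-(((a0 : ℤ) : R) * (κ' : R) * (⟨_, hMinv⟩ : R) *
          ((sigmaPrime M (m / p) : ℕ) : R) * ((⟨_, hω⟩ : R) ^ (p * j)) ^ (m / p)), ?_⟩
        rw [hc, if_pos hd, hfE _ h1, hκC]
        push_cast
        field_simp
      · refine ⟨0, ?_⟩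
        rw [hc, if_neg hd]
        simp
    · rw [hc, if_pos (dvd_zero _), Nat.zero_div, pow_zero, mul_one]
    · refine ⟨-(((a0 : ℤ) : R) * (κ' : R) * (⟨_, hMinv⟩ : R) * (⟨_, hω⟩ : R) ^ (p * j)), ?_, ?_⟩
      · rw [hc, if_pos dvd_rfl, Nat.div_self hp, hfE _ le_rfl, h8c_sigmaPrime_one hM, hκC]
        push_cast
        field_simp
      · rw [map_neg, neg_ne_zero, map_mul, map_mul, map_mul]
        refine mul_ne_zero (mul_ne_zero (mul_ne_zero hφa hφκ) ?_) ?_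
        · apply h8c_phi_ne_zero_of_mul φ (y := (M : R))
          apply Subtype.ext
          push_cast
          exact inv_mul_cancel₀ hMC
        · apply h8c_phi_pow_ne_zero φ hNpos
          apply Subtype.ext
          push_cast
          exact h8c_exp_pow_eq_one hNpos

/-- the four constant terms. -/
theorem h8c_const {p M D κ u v : ℕ} (hp : 0 < p) (hM : 1 < M) (hD : 0 < D)
    (hκ : κ * (M - 1) = 24) (hu : p + 1 = D * u) (hv : M + 1 = D * v) (a0 : ℂ) :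
    (D : ℂ)⁻¹ * ((p : ℂ) * a0 + (a0 * κ) * (((M : ℂ) - 1) / 24)) = a0 * u ∧
    (D : ℂ)⁻¹ * ((p : ℂ) * (-(p : ℂ)⁻¹ * a0) + (a0 * κ) * (((M : ℂ) - 1) / 24)) = 0 ∧
    (D : ℂ)⁻¹ * ((p : ℂ) * a0 + (a0 * κ) * (-(M : ℂ)⁻¹ * (((M : ℂ) - 1) / 24))) =
      a0 * (M : ℂ)⁻¹ * ((u : ℂ) * M - v) ∧
    (D : ℂ)⁻¹ * ((p : ℂ) * (-(p : ℂ)⁻¹ * a0) + (a0 * κ) * (-(M : ℂ)⁻¹ * (((M : ℂ) - 1) / 24))) =
      -(a0 * (M : ℂ)⁻¹ * v) := by
  have hDC : (D : ℂ) ≠ 0 := Nat.cast_ne_zero.mpr hD.ne'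
  have hpC : (p : ℂ) ≠ 0 := Nat.cast_ne_zero.mpr hp.ne'
  have hMC : (M : ℂ) ≠ 0 := Nat.cast_ne_zero.mpr (by omega)
  have hM1 : (M : ℂ) - 1 ≠ 0 := by
    have : ((M - 1 : ℕ) : ℂ) ≠ 0 := Nat.cast_ne_zero.mpr (by omega)
    rwa [Nat.cast_sub (by omega), Nat.cast_one] at this
  have hκC : (κ : ℂ) = 24 / ((M : ℂ) - 1) := by
    have : ((κ * (M - 1) : ℕ) : ℂ) = 24 := by rw [hκ]; norm_num
    rw [Nat.cast_mul, Nat.cast_sub (by omega), Nat.cast_one] at this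
    rw [eq_div_iff hM1]
    exact this
  have huC : (u : ℂ) = ((p : ℂ) + 1) / D := by
    rw [eq_div_iff hDC]
    have : ((p + 1 : ℕ) : ℂ) = ((D * u : ℕ) : ℂ) := by rw [hu]
    push_cast at this
    rw [this]; ring
  have hvC : (v : ℂ) = ((M : ℂ) + 1) / D := by
    rw [eq_div_iff hDC]
    have : ((M + 1 : ℕ) : ℂ) = ((D * v : ℕ) : ℂ) := by rw [hv]
    push_cast at this
    rw [this]; ring
  rw [hκC, huC, hvC]
  refine ⟨?_, ?_, ?_, ?_⟩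
  · field_simp
  · field_simp
    ring
  · field_simp
    ring
  · field_simp
    ring

/-- **Norm mechanism cases, generic form** (blueprint 1.3). -/
theorem h8c_noConst_generic {p M ℓ c κ : ℕ} (hp : p.Prime) (hM : M.Prime) (hℓ : ℓ.Prime)
    (hMp : M ≠ p) (hℓM : ℓ ≠ M) (hℓp : ℓ ≠ p)
    (hκ : κ * (M - 1) = 24) (hcκ : ℓ ^ c ∣ κ) (hcκ' : ¬ ℓ ∣ κ / ℓ ^ c)
    (hcp : ℓ ^ c ∣ p + 1) (hcM : ℓ ^ c ∣ M + 1) (hineq : (M + 1) * (p + 1) < 6 * p)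
    (hE : EisLevel M) (hT : TraceId p) (hS : SturmOne) (hRing : CoeffRing) :
    NoConst p ℓ (c + 1) := by
  rintro ⟨G, a, haG, ha0, haj⟩
  obtain ⟨E, hE0, hEj, hEconj⟩ := hE
  obtain ⟨G', hG'1, -, -, hGconj⟩ := hT G
  have hNpos : 0 < M * p := Nat.mul_pos hM.pos hp.pos
  have hℓN : ¬ ℓ ∣ M * p := by
    intro h
    rcases (Nat.Prime.dvd_mul hℓ).mp h with h | h
    · exact hℓM ((Nat.prime_dvd_prime_iff_eq hℓ hM).mp h)
    · exact hℓp ((Nat.prime_dvd_prime_iff_eq hℓ hp).mp h)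
  obtain ⟨R, 𝔽, _, φ, hinvN, hω, hφℓ⟩ := hRing ℓ (M * p) hℓ hNpos hℓN
  have : NeZero (M * p) := ⟨hNpos.ne'⟩
  obtain ⟨D, hD⟩ : ∃ D, D = ℓ ^ c := ⟨_, rfl⟩
  rw [← hD] at hcκ hcκ' hcp hcM
  have hDpos : 0 < D := by rw [hD]; exact pos_of_ne_zero (pow_ne_zero _ hℓ.ne_zero)
  obtain ⟨κ', hκ'⟩ := hcκ
  have hκ'nd : ¬ ℓ ∣ κ' := by rwa [hκ', Nat.mul_div_cancel_left _ hDpos] at hcκ'
  obtain ⟨u, hu⟩ := hcp
  obtain ⟨v, hv⟩ := hcM
  have hb : ∀ i, ∃ bi : ℤ, 1 ≤ i → a i = D * ℓ * bi := by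
    intro i
    by_cases hi : 1 ≤ i
    · obtain ⟨bi, hbi⟩ := haj i hi
      refine ⟨bi, fun _ ↦ ?_⟩
      rw [hbi, pow_succ, hD]
      push_cast
      ring
    · exact ⟨0, fun h ↦ absurd h hi⟩
  choose b hab using hb
  have hMinv : (M : ℂ)⁻¹ ∈ R := by
    have h1 : (M : ℂ)⁻¹ = (p : ℂ) * ((M * p : ℕ) : ℂ)⁻¹ := by
      have h2 : (M : ℂ) ≠ 0 := Nat.cast_ne_zero.mpr hM.ne_zero
      have h3 : (p : ℂ) ≠ 0 := Nat.cast_ne_zero.mpr hp.ne_zero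
      push_cast
      field_simp
    rw [h1]
    exact R.mul_mem (natCast_mem R p) hinvN
  -- the expansions of the translates
  choose cG hcGsum hcGform using fun γ ↦
    h8c_conj_expansion hp.pos G G' hGconj M (M * p) hM.pos (mul_comm M p) γ
  choose cE hcEsum hcEform using fun γ ↦
    h8c_conj_expansion hM.pos E E hEconj p (M * p) hp.pos rfl γ
  have hGp := fun γ ↦ h8c_Gpart φ hφℓ hp.pos hM.pos hNpos hDpos hω a b hab (qCoeff G) (qCoeff G')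
    haG (fun i ↦ hG'1 i) (cG γ) (γ ∈ Gamma0 p) (hcGform γ)
  have hEp := fun γ ↦ h8c_Epart φ hℓ hφℓ hp.pos hM.one_lt rfl hDpos hκ' hκ'nd (a 0) ha0 hMinv hω
    (qCoeff E) hEj (cE γ) (γ ∈ Gamma0 M) (hcEform γ)
  obtain ⟨hc1, hc2, hc3, hc4⟩ := h8c_const hp.pos hM.one_lt hDpos hκ hu hv (a 0 : ℂ)
  -- the coefficients
  obtain ⟨cc, hcc⟩ : ∃ cc : SL(2, ℤ) → ℕ → ℂ, ∀ γ m, cc γ m =
      (D : ℂ)⁻¹ * ((p : ℂ) * cG γ m + ((a 0 : ℂ) * κ) * cE γ m) := ⟨_, fun _ _ ↦ rfl⟩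
  have hsplit : ∀ γ m, cc γ m =
      (D : ℂ)⁻¹ * ((p : ℂ) * cG γ m) + (D : ℂ)⁻¹ * (((a 0 : ℂ) * κ) * cE γ m) := by
    intro γ m
    rw [hcc]
    ring
  have hcR : ∀ γ m, cc γ m ∈ R := by
    intro γ m
    rcases Nat.eq_zero_or_pos m with rfl | hm
    · rw [hcc]
      by_cases hγp : γ ∈ Gamma0 p <;> by_cases hγM : γ ∈ Gamma0 M
      · rw [(hGp γ).2.1 hγp, ((hEp γ).2.1 hγM).1, hE0, hc1]
        exact R.mul_mem (intCast_mem R _) (natCast_mem R _)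
      · rw [(hGp γ).2.1 hγp, ((hEp γ).2.2 hγM).1, hE0, hc3]
        exact R.mul_mem (R.mul_mem (intCast_mem R _) hMinv)
          (R.sub_mem (R.mul_mem (natCast_mem R _) (natCast_mem R _)) (natCast_mem R _))
      · rw [(hGp γ).2.2 hγp, ((hEp γ).2.1 hγM).1, hE0, hc2]
        exact R.zero_mem
      · rw [(hGp γ).2.2 hγp, ((hEp γ).2.2 hγM).1, hE0, hc4]
        exact R.neg_mem (R.mul_mem (R.mul_mem (intCast_mem R _) hMinv) (natCast_mem R _))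
    · obtain ⟨r1, hr1, -⟩ := (hGp γ).1 m hm
      obtain ⟨r2, hr2⟩ := (hEp γ).1 m hm
      rw [hsplit, ← hr1, ← hr2]
      exact R.add_mem r1.2 r2.2
  have hcne : ∀ γ, ∃ m, φ ⟨cc γ m, hcR γ m⟩ ≠ 0 := by
    intro γ
    by_cases hγM : γ ∈ Gamma0 M
    · obtain ⟨r1, hr1, hφ1⟩ := (hGp γ).1 (M * p) hNpos
      obtain ⟨-, -, r2, hr2, hφ2⟩ := (hEp γ).2.1 hγM
      refine ⟨M * p, ?_⟩
      rw [h8c_phi_eq φ _ (r1 + r2) (by push_cast; rw [hr1, hr2, hsplit]), map_add, hφ1, zero_add]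
      exact hφ2
    · obtain ⟨r1, hr1, hφ1⟩ := (hGp γ).1 p hp.pos
      obtain ⟨-, r2, hr2, hφ2⟩ := (hEp γ).2.2 hγM
      refine ⟨p, ?_⟩
      rw [h8c_phi_eq φ _ (r1 + r2) (by push_cast; rw [hr1, hr2, hsplit]), map_add, hφ1, zero_add]
      exact hφ2
  have hvan : ∀ i ∈ Finset.range p, ∀ m < M * p,
      φ ⟨cc (h8c_g M i) m, hcR (h8c_g M i) m⟩ = 0 := by
    intro i _ m hm
    have hγM := h8c_g_mem M i
    have hγp := h8c_g_not_mem hM hp hMp i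
    rcases Nat.eq_zero_or_pos m with rfl | hm0
    · have h0 : cc (h8c_g M i) 0 = 0 := by
        rw [hcc, (hGp _).2.2 hγp, ((hEp _).2.1 hγM).1, hE0, hc2]
      rw [h8c_phi_eq φ _ 0 (by rw [h0]; rfl), map_zero]
    · obtain ⟨r1, hr1, hφ1⟩ := (hGp (h8c_g M i)).1 m hm0
      have hz := ((hEp (h8c_g M i)).2.1 hγM).2.1 m hm0 hm
      rw [h8c_phi_eq φ _ r1 (by rw [hr1, hsplit, hz]; ring)]
      exact hφ1
  have hinj : ∀ i ∈ Finset.range p, ∀ j ∈ Finset.range p,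
      h8c_g M i * (h8c_g M j)⁻¹ ∈ Gamma0 (M * p) → i = j := by
    intro i hi j hj h
    exact h8c_g_inj hM hp hMp (Finset.mem_range.mp hi) (Finset.mem_range.mp hj) h
  -- the form
  obtain ⟨Ψ, hΨ⟩ : ∃ Ψ : ModularForm (Gamma0 (M * p)) 2, ∀ z, Ψ z =
      (D : ℂ)⁻¹ * ((p : ℂ) * G z + ((a 0 : ℂ) * κ) * E z) :=
    ⟨(D : ℂ)⁻¹ • ((p : ℂ) • h8c_restrict (h8c_Gamma0_le (Dvd.intro_left M rfl)) G +
      ((a 0 : ℂ) * κ) • h8c_restrict (h8c_Gamma0_le (Dvd.intro p rfl)) E), fun z ↦ rfl⟩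
  have hc : ∀ (γ : SL(2, ℤ)) (τ : ℍ),
      HasSum (fun m ↦ cc γ m • Function.Periodic.qParam (M * p : ℕ) τ ^ m)
        (((⇑Ψ : ℍ → ℂ) ∣[(2 : ℤ)] (mapGL ℝ γ)) τ) := by
    intro γ τ
    have hval : ((⇑Ψ : ℍ → ℂ) ∣[(2 : ℤ)] (mapGL ℝ γ)) τ =
        (D : ℂ)⁻¹ * ((p : ℂ) * ((⇑G : ℍ → ℂ) ∣[(2 : ℤ)] γ) τ +
          ((a 0 : ℂ) * κ) * ((⇑E : ℍ → ℂ) ∣[(2 : ℤ)] γ) τ) := by
      show ((⇑Ψ : ℍ → ℂ) ∣[(2 : ℤ)] γ) τ = _
      rw [SL_slash_apply, SL_slash_apply, SL_slash_apply, hΨ]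
      ring
    rw [hval]
    have hfun : (fun m ↦ cc γ m • Function.Periodic.qParam (M * p : ℕ) τ ^ m) =
        fun m ↦ (D : ℂ)⁻¹ * ((p : ℂ) * (cG γ m • Function.Periodic.qParam (M * p : ℕ) τ ^ m) +
          ((a 0 : ℂ) * κ) * (cE γ m • Function.Periodic.qParam (M * p : ℕ) τ ^ m)) := by
      ext m
      rw [hcc]
      simp only [smul_eq_mul]
      ring
    rw [hfun]
    exact (((hcGsum γ τ).mul_left _).add ((hcEsum γ τ).mul_left _)).mul_left _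
  have key := h8n_normMech_Gamma0 (M * p) Ψ R φ (h8c_sturmHyp hS R 𝔽 φ) cc hc hcR hcne
    (Finset.range p) (h8c_g M) hinj hvan
  rw [Finset.card_range, h8c_index hM hp hMp] at key
  have key' : p * 12 ≤ 2 * ((M + 1) * (p + 1)) := by exact_mod_cast key
  omega

/-- **Case (a)**: `ℓ ≥ 5` prime, `ℓ ≠ p`. -/
theorem h8c_caseA {p : ℕ} (hp : p.Prime) (hp2 : p ≠ 2) (hE : EisLevel 2) (hT : TraceId p)
    (hS : SturmOne) (hRing : CoeffRing) {ℓ : ℕ} (hℓ : ℓ.Prime) (hℓ5 : 5 ≤ ℓ) (hℓp : ℓ ≠ p) :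
    NoConst p ℓ 1 := by
  have hp3 : 3 ≤ p := by
    have := hp.two_le
    omega
  have h24 : ¬ ℓ ∣ 24 := by
    intro h
    have h1 : ℓ ∣ 2 ^ 3 * 3 := by simpa using h
    rcases (Nat.Prime.dvd_mul hℓ).mp h1 with h2 | h2
    · have := (Nat.prime_dvd_prime_iff_eq hℓ Nat.prime_two).mp (hℓ.dvd_of_dvd_pow h2)
      omega
    · have := (Nat.prime_dvd_prime_iff_eq hℓ Nat.prime_three).mp h2
      omega
  exact h8c_noConst_generic (M := 2) (c := 0) (κ := 24) hp Nat.prime_two hℓ (Ne.symm hp2)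
    (by omega) hℓp (by norm_num) (by simp) (by simpa using h24) (by simp) (by simp) (by omega)
    hE hT hS hRing

/-- **Case (b)**: `ℓ = 3`, `p ≡ 2 mod 3`. -/
theorem h8c_caseB {p : ℕ} (hp : p.Prime) (hp2 : p ≠ 2) (hE : EisLevel 2) (hT : TraceId p)
    (hS : SturmOne) (hRing : CoeffRing) (hp3 : p % 3 = 2) : NoConst p 3 2 := by
  have hp3' : 3 ≤ p := by
    have := hp.two_le
    omega
  exact h8c_noConst_generic (M := 2) (c := 1) (κ := 24) hp Nat.prime_two Nat.prime_three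
    (Ne.symm hp2) (by omega) (by omega) (by norm_num) (by norm_num) (by norm_num)
    (by rw [pow_one]; omega) (by norm_num) (by omega) hE hT hS hRing

/-- **Case (c)**: `ℓ = 2`, `p ≡ 3 mod 4`. -/
theorem h8c_caseC {p : ℕ} (hp : p.Prime) (hp3 : p ≠ 3) (hE : EisLevel 3) (hT : TraceId p)
    (hS : SturmOne) (hRing : CoeffRing) (hp4 : p % 4 = 3) : NoConst p 2 3 := by
  have hp5 : 5 ≤ p := by
    have := hp.two_le
    omega
  exact h8c_noConst_generic (M := 3) (c := 2) (κ := 12) hp Nat.prime_three Nat.prime_two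
    (Ne.symm hp3) (by omega) (by omega) (by norm_num) (by norm_num) (by norm_num)
    (by norm_num; omega) (by norm_num) (by omega) hE hT hS hRing

end Fermat.Agent.Lib.S16
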